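/-
Programme MZ (S15, Mazur), chapter MOD-E (helper4): **the formal Tate curve equation**
`tW = 0`, i.e. `Y² + XY = X³ + a₄ X + a₆` in `ℤ[u, u⁻¹, (1-u)⁻¹]⟦q⟧`,
by transfer from `ℂ` (`TateC4.ev_tW_eq_zero`) through the identity theorems
`PSEval4.eq_zero_of_ev_eq_zero` (in `q`) and `TateFormal4.eq_zero_of_evA_eq_zero` (in `u`),
and its evaluation in an arbitrary complete normed field of characteristic zero.
-/
import Mathlib
import Fermat.Agent.MZ.MOD.TateC4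

set_option autoImplicit false
set_option linter.unusedSectionVars false
set_option linter.unusedVariables false

open Complex Real
open UpperHalfPlane hiding I

namespace Fermat.Agent.MZ.MOD.TateW4

open WPqExp4 TateEval4 TateFormal4 PSEval4 Regroup4

/-- every nonzero complex number is of the form `e(z)`. -/
theorem exists_ee_eq (w : ℂ) (hw : w ≠ 0) : ∃ z : ℂ, ee z = w := by
  refine ⟨Complex.log w / (2 * π * I), ?_⟩
  rw [ee, mul_div_cancel₀ _ Complex.two_pi_I_ne_zero, Complex.exp_log hw]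

theorem im_pos_of_norm_ee_lt_one {z : ℂ} (h : ‖ee z‖ < 1) : 0 < z.im := by
  rw [norm_ee, Real.exp_lt_one_iff] at h
  have := Real.pi_pos
  by_contra hneg
  push Not at hneg
  nlinarith

theorem im_lt_of_norm_ee_lt {z t : ℂ} (h : ‖ee t‖ < ‖ee z‖) : z.im < t.im := by
  rw [norm_ee, norm_ee, Real.exp_lt_exp] at h
  have := Real.pi_pos
  by_contra hneg
  push Not at hneg
  nlinarith

/-- for `0 < ‖q‖ < ‖u‖ < 1` the evaluated defect vanishes. -/
theorem ev_tW_eq_zero_of_lt (u q : ℂ) (h0 : u ≠ 0) (h1 : u ≠ 1) (hu : ‖u‖ < 1) (hq0 : q ≠ 0)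
    (hq : ‖q‖ < ‖u‖) : ev (mapA u h0 h1 tW) q = 0 := by
  obtain ⟨z, rfl⟩ := exists_ee_eq u h0
  obtain ⟨t, rfl⟩ := exists_ee_eq q hq0
  have hz0 := im_pos_of_norm_ee_lt_one hu
  have hz1 := im_lt_of_norm_ee_lt hq
  have ht : 0 < t.im := hz0.trans hz1
  exact TateC4.ev_tW_eq_zero ⟨t, ht⟩ z hz0 hz1

theorem mapA_tW_eq_zero (u : ℂ) (h0 : u ≠ 0) (h1 : u ≠ 1) (hu : ‖u‖ < 1) :
    mapA u h0 h1 tW = 0 := by
  have hu0 : 0 < ‖u‖ := norm_pos_iff.2 h0
  have hq₀ : u ^ 2 ≠ 0 := pow_ne_zero 2 h0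
  have hn : ‖u ^ 2‖ < ‖u‖ := by
    rw [norm_pow]
    nlinarith
  have hr : rho u = ‖u‖⁻¹ := by
    unfold rho
    exact max_eq_right (hu.le.trans (one_le_inv₀ hu0 |>.2 hu.le))
  have hρ : rho u * ‖u ^ 2‖ < 1 := by
    rw [hr, norm_pow, pow_two, ← mul_assoc, inv_mul_cancel₀ hu0.ne', one_mul]
    exact hu
  refine eq_zero_of_ev_eq_zero _ (u ^ 2) hq₀ (conv_tW u h0 h1 (u ^ 2) hρ) fun q hq0 hq => ?_
  exact ev_tW_eq_zero_of_lt u q h0 h1 hu hq0 (hq.trans_lt hn)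

/-- **the Tate curve equation, formally**: `Y² + XY = X³ + a₄ X + a₆` in `A⟦q⟧`. -/
theorem tW_eq_zero : tW = 0 := by
  ext N
  rw [map_zero]
  have hinf : ({a : ℂ | a ≠ 0 ∧ ‖a‖ < 1} : Set ℂ).Infinite := by
    have h1 : (Set.Ioo (0 : ℝ) 1).Infinite := Set.Ioo_infinite zero_lt_one
    have h2 := h1.image (Complex.ofReal_injective.injOn)
    refine h2.mono ?_
    rintro _ ⟨x, ⟨hx0, hx1⟩, rfl⟩
    refine ⟨by exact_mod_cast hx0.ne', ?_⟩
    rw [Complex.norm_real, Real.norm_eq_abs, abs_of_pos hx0]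
    exact hx1
  have hne1 : ∀ a ∈ ({a : ℂ | a ≠ 0 ∧ ‖a‖ < 1} : Set ℂ), a ≠ 1 := by
    rintro a ⟨-, ha⟩ rfl
    rw [norm_one] at ha
    exact lt_irrefl _ ha
  refine eq_zero_of_evA_eq_zero (K := ℂ) (PowerSeries.coeff N tW) _ hinf (fun a ha => ha.1) hne1
    fun a ha => ?_
  have h := mapA_tW_eq_zero a ha.1 (hne1 a ha) ha.2
  have h2 := congrArg (PowerSeries.coeff N) h
  rwa [coeff_mapA, map_zero] at h2

/-- the formal Tate curve equation, as an identity. -/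
theorem tate_equation :
    tY ^ 2 + tX * tY = tX ^ 3 + a4A * tX + a6A := by
  have h := tW_eq_zero
  rw [tW] at h
  linear_combination h

/-- **the Tate curve equation in any complete normed field of characteristic zero.** -/
theorem ev_tate_equation {K : Type*} [NormedField K] [CompleteSpace K] [CharZero K]
    (u : K) (h0 : u ≠ 0) (h1 : u ≠ 1) (q : K) (hρq : rho u * ‖q‖ < 1) :
    ev (mapA u h0 h1 tY) q ^ 2 + ev (mapA u h0 h1 tX) q * ev (mapA u h0 h1 tY) q =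
      ev (mapA u h0 h1 tX) q ^ 3 + ev (mapZ a4) q * ev (mapA u h0 h1 tX) q + ev (mapZ a6) q := by
  have h := ev_tW u h0 h1 q hρq
  rw [tW_eq_zero] at h
  have hz : mapA u h0 h1 (0 : PowerSeries A) = 0 := map_zero _
  rw [hz, ev_zero] at h
  linear_combination -h

end Fermat.Agent.MZ.MOD.TateW4
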