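/-
Programme MZ (S15, Mazur), chapter MOD-E (helper4): **the derivation `D = u ∂/∂u`** on
`A = ℤ[u, u⁻¹, (1-u)⁻¹]` (through dual numbers) and coefficientwise on `A⟦q⟧`, and the
differential equations of the Tate series:

  `D X = X + 2Y`,  `D Y = 3X² + a₄ - Y`,  `D² X = 6X² + X + 2a₄`,
  `D⁴ X = 12 (10X³ + 2X² + 6a₄X + 4a₆) + D² X`.
-/
import Mathlib
import Fermat.Agent.MZ.MOD.TateW4

set_option autoImplicit false
set_option linter.unusedSectionVars false

open Polynomial

namespace Fermat.Agent.MZ.MOD.TateD4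

open TateFormal4

local notation "σ" => ArithmeticFunction.sigma

/-! ### the derivation on `A` -/

/-- the polynomial-level map `X ↦ u + ε u`. -/
noncomputable def psi : ℤ[X] →+* DualNumber A :=
  Polynomial.eval₂RingHom (Int.castRingHom (DualNumber A))
    (TrivSqZeroExt.inl u + TrivSqZeroExt.inr u)

/-- first component, as a ring hom. -/
noncomputable def fstRingHom : DualNumber A →+* A :=
  (TrivSqZeroExt.fstHom A A A : DualNumber A →ₐ[A] A).toRingHom

@[simp] theorem fstRingHom_apply (x : DualNumber A) : fstRingHom x = x.fst := rfl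

theorem fst_comp_psi : fstRingHom.comp psi = algebraMap ℤ[X] A := by
  refine Polynomial.ringHom_ext (fun a => ?_) ?_
  · simp [psi]
  · simp [psi, u]

theorem fst_psi (P : ℤ[X]) : (psi P).fst = algebraMap ℤ[X] A P := by
  have h := congrArg (fun f : ℤ[X] →+* A => f P) fst_comp_psi
  simpa using h

theorem isUnit_psi_den : IsUnit (psi den) := by
  rw [TrivSqZeroExt.isUnit_iff_isUnit_fst, fst_psi]
  exact IsLocalization.Away.algebraMap_isUnit (S := A) den

/-- the dual-number hom `a ↦ a + ε D a`. -/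
noncomputable def phi : A →+* DualNumber A :=
  IsLocalization.Away.lift den (g := psi) isUnit_psi_den

theorem phi_algebraMap (P : ℤ[X]) : phi (algebraMap ℤ[X] A P) = psi P := by
  rw [phi, IsLocalization.Away.lift_eq]

theorem fst_phi (a : A) : (phi a).fst = a := by
  have h : fstRingHom.comp phi = RingHom.id A := by
    refine IsLocalization.ringHom_ext (Submonoid.powers den) ?_
    ext P
    · simp
    · simp [phi_algebraMap, fst_psi]
  have h2 := congrArg (fun f : A →+* A => f a) h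
  simpa using h2

/-- **the derivation `D = u ∂/∂u`.** -/
noncomputable def D (a : A) : A := (phi a).snd

theorem D_add (a b : A) : D (a + b) = D a + D b := by
  rw [D, map_add, TrivSqZeroExt.snd_add]
  rfl

theorem D_mul (a b : A) : D (a * b) = a * D b + b * D a := by
  rw [D, map_mul, TrivSqZeroExt.snd_mul, fst_phi, fst_phi, smul_eq_mul,
    MulOpposite.smul_eq_mul_unop, MulOpposite.unop_op, D, D]
  ring

theorem D_zero : D 0 = 0 := by
  rw [D, map_zero]
  rfl

theorem D_one : D 1 = 0 := by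
  rw [D, map_one]
  rfl

theorem D_neg (a : A) : D (-a) = -D a := by
  rw [D, map_neg, TrivSqZeroExt.snd_neg]
  rfl

theorem D_sub (a b : A) : D (a - b) = D a - D b := by
  rw [sub_eq_add_neg, D_add, D_neg, ← sub_eq_add_neg]

theorem D_natCast (n : ℕ) : D (n : A) = 0 := by
  rw [D, map_natCast, TrivSqZeroExt.snd_natCast]

theorem D_intCast (n : ℤ) : D (n : A) = 0 := by
  rw [D, map_intCast, TrivSqZeroExt.snd_intCast]

theorem D_ofNat (n : ℕ) [n.AtLeastTwo] : D (OfNat.ofNat n : A) = 0 := D_natCast n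

theorem D_sum {ι : Type*} (s : Finset ι) (f : ι → A) : D (∑ i ∈ s, f i) = ∑ i ∈ s, D (f i) := by
  classical
  induction s using Finset.induction_on with
  | empty => simp [D_zero]
  | insert i s hi ih => rw [Finset.sum_insert hi, Finset.sum_insert hi, D_add, ih]

theorem D_pow (a : A) (n : ℕ) : D (a ^ (n + 1)) = ((n : A) + 1) * a ^ n * D a := by
  induction n with
  | zero => simp
  | succ n ih =>
    rw [pow_succ, D_mul, ih]
    push_cast
    ring

theorem D_u : D u = u := by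
  show (phi (algebraMap ℤ[X] A X)).snd = u
  rw [phi_algebraMap, psi]
  simp

theorem D_ui : D ui = -ui := by
  have h := congrArg D u_mul_ui
  rw [D_mul, D_u, D_one] at h
  -- u * D ui + ui * u = 0
  have h2 : ui * (u * D ui + ui * u) = 0 := by rw [h, mul_zero]
  have h3 : ui * (u * D ui + ui * u) = (u * ui) * D ui + ui * (u * ui) := by ring
  rw [h3, u_mul_ui, one_mul, mul_one] at h2
  linear_combination h2

theorem D_zi : D zi = u * zi ^ 2 := by
  have h := congrArg D z_mul_zi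
  rw [D_mul, D_sub, D_one, D_u] at h
  -- (1 - u) * D zi + zi * (0 - u) = 0
  have h2 : zi * ((1 - u) * D zi + zi * (0 - u)) = 0 := by rw [h, mul_zero]
  have h3 : zi * ((1 - u) * D zi + zi * (0 - u)) = ((1 - u) * zi) * D zi - u * zi ^ 2 := by ring
  rw [h3, z_mul_zi, one_mul] at h2
  linear_combination h2

theorem D_u_pow (d : ℕ) : D (u ^ d) = (d : A) * u ^ d := by
  rcases d with _ | d
  · simp [D_one]
  · rw [D_pow, D_u]
    push_cast
    ring

theorem D_ui_pow (d : ℕ) : D (ui ^ d) = -(d : A) * ui ^ d := by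
  rcases d with _ | d
  · simp [D_one]
  · rw [D_pow, D_ui]
    push_cast
    ring

/-! ### the derivation on `A⟦q⟧` -/

/-- coefficientwise derivation. -/
noncomputable def dPS (F : PowerSeries A) : PowerSeries A :=
  PowerSeries.mk fun N => D (PowerSeries.coeff N F)

@[simp] theorem coeff_dPS (F : PowerSeries A) (N : ℕ) :
    PowerSeries.coeff N (dPS F) = D (PowerSeries.coeff N F) := by
  rw [dPS, PowerSeries.coeff_mk]

theorem dPS_add (F G : PowerSeries A) : dPS (F + G) = dPS F + dPS G := by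
  ext N
  simp [D_add]

theorem dPS_sub (F G : PowerSeries A) : dPS (F - G) = dPS F - dPS G := by
  ext N
  simp [D_sub]

theorem dPS_neg (F : PowerSeries A) : dPS (-F) = -dPS F := by
  ext N
  simp [D_neg]

theorem dPS_zero : dPS 0 = 0 := by
  ext N
  simp [D_zero]

theorem dPS_mul (F G : PowerSeries A) : dPS (F * G) = F * dPS G + G * dPS F := by
  ext N
  rw [mul_comm G (dPS F), coeff_dPS, PowerSeries.coeff_mul, D_sum, map_add, PowerSeries.coeff_mul,
    PowerSeries.coeff_mul, ← Finset.sum_add_distrib]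
  refine Finset.sum_congr rfl fun x _ => ?_
  rw [D_mul, coeff_dPS, coeff_dPS]
  ring

theorem dPS_pow (F : PowerSeries A) (n : ℕ) :
    dPS (F ^ (n + 1)) = ((n : PowerSeries A) + 1) * F ^ n * dPS F := by
  induction n with
  | zero => simp
  | succ n ih =>
    rw [pow_succ, dPS_mul, ih]
    push_cast
    ring

theorem dPS_mapInt (G : PowerSeries ℤ) : dPS (G.map (Int.castRingHom A)) = 0 := by
  ext N
  rw [coeff_dPS, PowerSeries.coeff_map, map_zero]
  exact D_intCast _

theorem dPS_ofNat_mul (n : ℕ) (F : PowerSeries A) :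
    dPS ((n : PowerSeries A) * F) = (n : PowerSeries A) * dPS F := by
  ext N
  rw [coeff_dPS, ← map_natCast (PowerSeries.C (R := A)), PowerSeries.coeff_C_mul,
    PowerSeries.coeff_C_mul, D_mul, D_natCast, mul_zero, add_zero, coeff_dPS]

/-! ### `D X = X + 2Y` -/

theorem two_mul_choose_two (d : ℕ) : (2 : A) * (d.choose 2 : A) = (d : A) * ((d : A) - 1) := by
  induction d with
  | zero => simp
  | succ n ih =>
    rw [Nat.choose_succ_succ' n 1, Nat.choose_one_right]
    push_cast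
    rw [mul_add, ih]
    ring

/-- **`D X = X + 2Y`.** -/
theorem dPS_tX : dPS tX = tX + 2 * tY := by
  ext N
  have h2 : (2 : PowerSeries A) = PowerSeries.C (2 : A) := by
    rw [map_ofNat]
  rw [coeff_dPS, map_add, h2, PowerSeries.coeff_C_mul, tX, tY, PowerSeries.coeff_mk,
    PowerSeries.coeff_mk]
  rcases eq_or_ne N 0 with rfl | hN
  · rw [cX, cY, if_pos rfl, if_pos rfl, D_mul, show zi ^ 2 = zi ^ (1 + 1) from rfl, D_pow, D_zi, D_u]
    push_cast
    ring
  · rw [cX, cY, if_neg hN, if_neg hN]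
    have hL : D (∑ d ∈ N.divisors, (d : A) * (u ^ d + ui ^ d) - 2 * ((σ 1 N : ℕ) : A)) =
        ∑ d ∈ N.divisors, (d : A) * ((d : A) * u ^ d - (d : A) * ui ^ d) := by
      rw [D_sub, D_mul, D_ofNat, D_natCast, mul_zero, mul_zero, add_zero, sub_zero, D_sum]
      refine Finset.sum_congr rfl fun d _ => ?_
      rw [D_mul, D_natCast, mul_zero, add_zero, D_add, D_u_pow, D_ui_pow]
      ring
    have hR : ∑ d ∈ N.divisors, (d : A) * (u ^ d + ui ^ d) - 2 * ((σ 1 N : ℕ) : A) +
        2 * (∑ d ∈ N.divisors, ((d.choose 2 : A) * u ^ d - ((d + 1).choose 2 : A) * ui ^ d) +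
          ((σ 1 N : ℕ) : A)) =
        ∑ d ∈ N.divisors, ((d : A) * (u ^ d + ui ^ d) +
          2 * ((d.choose 2 : A) * u ^ d - ((d + 1).choose 2 : A) * ui ^ d)) := by
      rw [Finset.sum_add_distrib, ← Finset.mul_sum]
      ring
    rw [hL, hR]
    refine Finset.sum_congr rfl fun d _ => ?_
    have e1 := two_mul_choose_two d
    have e2 := two_mul_choose_two (d + 1)
    push_cast at e2
    linear_combination (-(u ^ d)) * e1 + (ui ^ d) * e2

/-! ### `D Y`, `D² X`, `D⁴ X` -/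

instance : IsDomain A :=
  IsLocalization.isDomain_of_le_nonZeroDivisors (M := Submonoid.powers den) A (by
    refine powers_le_nonZeroDivisors_of_noZeroDivisors ?_
    intro h
    have h1 := congrArg (Polynomial.eval 2) h
    simp [den] at h1)

theorem tD_ne_zero : tX + 2 * tY ≠ 0 := by
  intro h
  have h0 := congrArg (PowerSeries.coeff 0) h
  have h2 : (2 : PowerSeries A) = PowerSeries.C (2 : A) := by
    rw [map_ofNat]
  rw [map_add, h2, PowerSeries.coeff_C_mul, tX, tY, PowerSeries.coeff_mk, PowerSeries.coeff_mk, cX,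
    cY, if_pos rfl, if_pos rfl, map_zero] at h0
  -- evaluate at `u = 2` in `ℚ`
  have h3 := congrArg (evA (2 : ℚ) (by norm_num) (by norm_num)) h0
  simp only [map_add, map_mul, map_pow, evA_u, evA_zi, map_ofNat, map_zero] at h3
  norm_num at h3

/-- **`D Y = 3X² + a₄ - Y`.** -/
theorem dPS_tY : dPS tY = 3 * tX ^ 2 + a4A - tY := by
  have hW := congrArg dPS TateW4.tate_equation
  rw [dPS_add, dPS_add, dPS_add, dPS_mul, dPS_mul, show tY ^ 2 = tY ^ (1 + 1) from rfl,
    show tX ^ 3 = tX ^ (2 + 1) from rfl, dPS_pow, dPS_pow, dPS_tX, a4A, a6A, dPS_mapInt,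
    dPS_mapInt] at hW
  push_cast at hW
  have key : (tX + 2 * tY) * (dPS tY - (3 * tX ^ 2 + a4.map (Int.castRingHom A) - tY)) = 0 := by
    linear_combination hW
  rcases mul_eq_zero.1 key with h | h
  · exact absurd h tD_ne_zero
  · rw [a4A]
    linear_combination h

/-- **`D² X = 6X² + X + 2a₄`.** -/
theorem dPS_dPS_tX : dPS (dPS tX) = 6 * tX ^ 2 + tX + 2 * a4A := by
  have h2 : (2 : PowerSeries A) = ((2 : ℕ) : PowerSeries A) := by norm_num
  rw [dPS_tX, dPS_add, h2, dPS_ofNat_mul, dPS_tX, dPS_tY]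
  push_cast
  ring

/-- `D³ X = (12X + 1)(X + 2Y)`. -/
theorem dPS3_tX : dPS (dPS (dPS tX)) = (12 * tX + 1) * (tX + 2 * tY) := by
  have h6 : (6 : PowerSeries A) = ((6 : ℕ) : PowerSeries A) := by norm_num
  have h2 : (2 : PowerSeries A) = ((2 : ℕ) : PowerSeries A) := by norm_num
  rw [dPS_dPS_tX, dPS_add, dPS_add, h6, h2, dPS_ofNat_mul, dPS_ofNat_mul,
    show tX ^ 2 = tX ^ (1 + 1) from rfl, dPS_pow, a4A, dPS_mapInt, dPS_tX]
  push_cast
  ring

/-- **`D⁴ X = 12 (10X³ + 2X² + 6a₄X + 4a₆) + D² X`.** -/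
theorem dPS4_tX : dPS (dPS (dPS (dPS tX))) =
    12 * (10 * tX ^ 3 + 2 * tX ^ 2 + 6 * a4A * tX + 4 * a6A) + (6 * tX ^ 2 + tX + 2 * a4A) := by
  have h12 : (12 : PowerSeries A) = ((12 : ℕ) : PowerSeries A) := by norm_num
  have h2 : (2 : PowerSeries A) = ((2 : ℕ) : PowerSeries A) := by norm_num
  have h1 : dPS (1 : PowerSeries A) = 0 := by
    ext N
    rw [coeff_dPS, map_zero, PowerSeries.coeff_one]
    split_ifs
    · exact D_one
    · exact D_zero
  rw [dPS3_tX, dPS_mul, dPS_add, dPS_add, h12, h2, dPS_ofNat_mul, dPS_ofNat_mul, h1, dPS_tX, dPS_tY]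
  push_cast
  linear_combination (48 : PowerSeries A) * TateW4.tate_equation

/-! ### explicit coefficients of `D² X`, `D⁴ X` -/

theorem u_mul_zi : u * zi = zi - 1 := by
  linear_combination -z_mul_zi

theorem cX_zero_eq : cX 0 = zi ^ 2 - zi := by
  rw [cX, if_pos rfl]
  linear_combination zi * u_mul_zi

theorem D_zi' : D zi = zi ^ 2 - zi := by
  rw [D_zi]
  linear_combination zi * u_mul_zi

theorem D_zi_pow (n : ℕ) : D (zi ^ (n + 1)) = ((n : A) + 1) * zi ^ n * (zi ^ 2 - zi) := by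
  rw [D_pow, D_zi']

theorem D1_cX_zero : D (cX 0) = 2 * zi ^ 3 - 3 * zi ^ 2 + zi := by
  rw [cX_zero_eq, D_sub, show zi ^ 2 = zi ^ (1 + 1) from rfl, D_zi_pow, D_zi']
  push_cast
  ring

theorem D2_cX_zero : D (D (cX 0)) = 6 * zi ^ 4 - 12 * zi ^ 3 + 7 * zi ^ 2 - zi := by
  rw [D1_cX_zero, D_add, D_sub, D_mul, D_mul, D_ofNat, D_ofNat, show zi ^ 3 = zi ^ (2 + 1) from rfl,
    show zi ^ 2 = zi ^ (1 + 1) from rfl, D_zi_pow, D_zi_pow, D_zi']
  push_cast
  ring

theorem D3_cX_zero :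
    D (D (D (cX 0))) = 24 * zi ^ 5 - 60 * zi ^ 4 + 50 * zi ^ 3 - 15 * zi ^ 2 + zi := by
  rw [D2_cX_zero, D_sub, D_add, D_sub, D_mul, D_mul, D_mul, D_ofNat, D_ofNat, D_ofNat,
    show zi ^ 4 = zi ^ (3 + 1) from rfl, show zi ^ 3 = zi ^ (2 + 1) from rfl,
    show zi ^ 2 = zi ^ (1 + 1) from rfl, D_zi_pow, D_zi_pow, D_zi_pow, D_zi']
  push_cast
  ring

theorem D4_cX_zero : D (D (D (D (cX 0)))) =
    120 * zi ^ 6 - 360 * zi ^ 5 + 390 * zi ^ 4 - 180 * zi ^ 3 + 31 * zi ^ 2 - zi := by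
  rw [D3_cX_zero, D_add, D_sub, D_add, D_sub, D_mul, D_mul, D_mul, D_mul, D_ofNat, D_ofNat,
    D_ofNat, D_ofNat, show zi ^ 5 = zi ^ (4 + 1) from rfl, show zi ^ 4 = zi ^ (3 + 1) from rfl,
    show zi ^ 3 = zi ^ (2 + 1) from rfl, show zi ^ 2 = zi ^ (1 + 1) from rfl, D_zi_pow, D_zi_pow,
    D_zi_pow, D_zi_pow, D_zi']
  push_cast
  ring

theorem D1_cX (N : ℕ) (hN : N ≠ 0) :
    D (cX N) = ∑ d ∈ N.divisors, (d : A) ^ 2 * (u ^ d - ui ^ d) := by
  rw [cX, if_neg hN, D_sub, D_mul, D_ofNat, D_natCast, mul_zero, mul_zero, add_zero, sub_zero, D_sum]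
  refine Finset.sum_congr rfl fun d _ => ?_
  rw [D_mul, D_natCast, mul_zero, add_zero, D_add, D_u_pow, D_ui_pow]
  ring

theorem D2_cX (N : ℕ) (hN : N ≠ 0) :
    D (D (cX N)) = ∑ d ∈ N.divisors, (d : A) ^ 3 * (u ^ d + ui ^ d) := by
  rw [D1_cX N hN, D_sum]
  refine Finset.sum_congr rfl fun d _ => ?_
  rw [D_mul, ← Nat.cast_pow, D_natCast, mul_zero, add_zero, D_sub, D_u_pow, D_ui_pow]
  push_cast
  ring

theorem D3_cX (N : ℕ) (hN : N ≠ 0) :
    D (D (D (cX N))) = ∑ d ∈ N.divisors, (d : A) ^ 4 * (u ^ d - ui ^ d) := by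
  rw [D2_cX N hN, D_sum]
  refine Finset.sum_congr rfl fun d _ => ?_
  rw [D_mul, ← Nat.cast_pow, D_natCast, mul_zero, add_zero, D_add, D_u_pow, D_ui_pow]
  push_cast
  ring

theorem D4_cX (N : ℕ) (hN : N ≠ 0) :
    D (D (D (D (cX N)))) = ∑ d ∈ N.divisors, (d : A) ^ 5 * (u ^ d + ui ^ d) := by
  rw [D3_cX N hN, D_sum]
  refine Finset.sum_congr rfl fun d _ => ?_
  rw [D_mul, ← Nat.cast_pow, D_natCast, mul_zero, add_zero, D_sub, D_u_pow, D_ui_pow]
  push_cast
  ring

theorem coeff_dPS2_tX (N : ℕ) :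
    PowerSeries.coeff N (dPS (dPS tX)) = D (D (cX N)) := by
  rw [coeff_dPS, coeff_dPS, tX, PowerSeries.coeff_mk]

theorem coeff_dPS4_tX (N : ℕ) :
    PowerSeries.coeff N (dPS (dPS (dPS (dPS tX)))) = D (D (D (D (cX N)))) := by
  rw [coeff_dPS, coeff_dPS, coeff_dPS, coeff_dPS, tX, PowerSeries.coeff_mk]

end Fermat.Agent.MZ.MOD.TateD4
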