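/-
Programme MZ (S15, Mazur), chapter MOD-E (helper4): **Lambert-series forms** of the evaluated
Tate series `D²X`, `D⁴X`:

* `lambert_single` : `∑_c ∑_d a_d q^{cd} = ∑_d a_d q^d/(1-q^d)`;
* `tsum_pow3`, `tsum_pow5` : `∑_d d³ x^d`, `∑_d d⁵ x^d` as polynomials in `s = (1-x)⁻¹`;
* `ev_D2X`, `ev_D4X` : the evaluated `D²X`, `D⁴X` as Lambert series;
* `ev_D2X_eq`, `ev_D4X_eq` : `D²X = 6X²+X+2a₄`, `D⁴X = 12(10X³+2X²+6a₄X+4a₆)+D²X` evaluated.
-/
import Mathlib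
import Fermat.Agent.MZ.MOD.TateD4

set_option autoImplicit false
set_option linter.unusedSectionVars false
set_option linter.unusedVariables false

open PowerSeries

namespace Fermat.Agent.MZ.MOD.TateLambert4

open TateFormal4 PSEval4 Regroup4 TateEval4 TateD4

variable {K : Type*} [NormedField K] [CompleteSpace K]

/-! ### Lambert series in single-sum form -/

theorem summable_pnat_geometric {y : K} (hy : ‖y‖ < 1) : Summable fun c : ℕ+ => y ^ (c : ℕ) :=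
  (summable_geometric_of_norm_lt_one hy).comp_injective PNat.coe_injective

theorem tsum_pnat_geometric {y : K} (hy : ‖y‖ < 1) : ∑' c : ℕ+, y ^ (c : ℕ) = y / (1 - y) := by
  rw [tsum_pnat_eq_tsum_succ (f := fun c : ℕ => y ^ c)]
  simp_rw [pow_succ]
  rw [tsum_mul_right, tsum_geometric_of_norm_lt_one hy, div_eq_mul_inv, mul_comm]

theorem norm_pow_pnat_lt_one {q : K} (hq1 : ‖q‖ < 1) (d : ℕ+) : ‖q ^ (d : ℕ)‖ < 1 := by
  rw [norm_pow]
  exact pow_lt_one₀ (norm_nonneg q) hq1 d.ne_zero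

/-- **Lambert series, single-sum form.** -/
theorem lambert_single (a : ℕ → K) (q : K) (C ρ : ℝ) (k : ℕ) (hC : 0 ≤ C) (hρ : 0 ≤ ρ)
    (hq1 : ‖q‖ < 1) (hρq : ρ * ‖q‖ < 1) (ha : ∀ d : ℕ, ‖a d‖ ≤ C * (d : ℝ) ^ k * ρ ^ d) :
    (Summable fun d : ℕ+ => a d * (q ^ (d : ℕ) / (1 - q ^ (d : ℕ)))) ∧
      ∑' c : ℕ+, ∑' d : ℕ+, a d * q ^ ((c : ℕ) * (d : ℕ)) =
        ∑' d : ℕ+, a d * (q ^ (d : ℕ) / (1 - q ^ (d : ℕ))) := by
  have hs : Summable (dbl a q) := (summable_dbl a q C ρ k hC hρ hq1 hρq ha).of_norm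
  have hinner : ∀ d : ℕ+, ∑' c : ℕ+, a d * q ^ ((c : ℕ) * (d : ℕ)) =
      a d * (q ^ (d : ℕ) / (1 - q ^ (d : ℕ))) := by
    intro d
    rw [tsum_mul_left, ← tsum_pnat_geometric (norm_pow_pnat_lt_one hq1 d)]
    congr 1
    refine tsum_congr fun c => ?_
    rw [← pow_mul, mul_comm]
  constructor
  · have h2 := (hs.prod_symm).prod
    refine h2.congr fun d => ?_
    exact hinner d
  · have hu : Function.uncurry (fun (c d : ℕ+) => a d * q ^ ((c : ℕ) * (d : ℕ))) = dbl a q := by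
      ext ⟨c, d⟩
      rfl
    have hcomm := Summable.tsum_comm (f := fun (c d : ℕ+) => a d * q ^ ((c : ℕ) * (d : ℕ)))
      (by rw [hu]; exact hs)
    rw [← hcomm]
    exact tsum_congr hinner

/-! ### power sums `∑ d^j x^d` -/

theorem six_mul_choose_three (d : ℕ) :
    (6 : K) * ((d + 3).choose 3 : K) = ((d : K) + 3) * ((d : K) + 2) * ((d : K) + 1) := by
  have h := Nat.descFactorial_eq_factorial_mul_choose (d + 3) 3
  have e : (d + 3).descFactorial 3 = (d + 1) * ((d + 2) * (d + 3)) := by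
    simp only [Nat.descFactorial_succ, Nat.descFactorial_zero]
    have e1 : d + 3 - 2 = d + 1 := by omega
    have e2 : d + 3 - 1 = d + 2 := by omega
    rw [e1, e2]
    simp
  rw [e, show Nat.factorial 3 = 6 from rfl] at h
  have h3 : (((d + 1) * ((d + 2) * (d + 3)) : ℕ) : K) = ((6 * (d + 3).choose 3 : ℕ) : K) := by
    rw [h]
  push_cast at h3
  linear_combination -h3

theorem choose_four (d : ℕ) :
    (24 : K) * ((d + 4).choose 4 : K) =
      ((d : K) + 4) * ((d : K) + 3) * ((d : K) + 2) * ((d : K) + 1) := by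
  have h := Nat.descFactorial_eq_factorial_mul_choose (d + 4) 4
  have e : (d + 4).descFactorial 4 = (d + 1) * ((d + 2) * ((d + 3) * (d + 4))) := by
    simp only [Nat.descFactorial_succ, Nat.descFactorial_zero]
    have e1 : d + 4 - 3 = d + 1 := by omega
    have e2 : d + 4 - 2 = d + 2 := by omega
    have e3 : d + 4 - 1 = d + 3 := by omega
    rw [e1, e2, e3]
    simp
  rw [e, show Nat.factorial 4 = 24 from rfl] at h
  have h3 : (((d + 1) * ((d + 2) * ((d + 3) * (d + 4))) : ℕ) : K) =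
      ((24 * (d + 4).choose 4 : ℕ) : K) := by
    rw [h]
  push_cast at h3
  linear_combination -h3

theorem choose_five (d : ℕ) :
    (120 : K) * ((d + 5).choose 5 : K) =
      ((d : K) + 5) * ((d : K) + 4) * ((d : K) + 3) * ((d : K) + 2) * ((d : K) + 1) := by
  have h := Nat.descFactorial_eq_factorial_mul_choose (d + 5) 5
  have e : (d + 5).descFactorial 5 = (d + 1) * ((d + 2) * ((d + 3) * ((d + 4) * (d + 5)))) := by
    simp only [Nat.descFactorial_succ, Nat.descFactorial_zero]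
    have e1 : d + 5 - 4 = d + 1 := by omega
    have e2 : d + 5 - 3 = d + 2 := by omega
    have e3 : d + 5 - 2 = d + 3 := by omega
    have e4 : d + 5 - 1 = d + 4 := by omega
    rw [e1, e2, e3, e4]
    simp
  rw [e, show Nat.factorial 5 = 120 from rfl] at h
  have h3 : (((d + 1) * ((d + 2) * ((d + 3) * ((d + 4) * (d + 5)))) : ℕ) : K) =
      ((120 * (d + 5).choose 5 : ℕ) : K) := by
    rw [h]
  push_cast at h3
  linear_combination -h3

section PowerSums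

variable {x : K} (hx : ‖x‖ < 1)

include hx in
theorem one_sub_ne_zero : (1 - x) ≠ 0 := by
  intro h
  have : x = 1 := by linear_combination -h
  rw [this, norm_one] at hx
  exact lt_irrefl _ hx

include hx in
/-- `∑ d³ x^d = 6s⁴ - 12s³ + 7s² - s`, `s = (1-x)⁻¹`. -/
theorem tsum_pow3 : ∑' d : ℕ, (d : K) ^ 3 * x ^ d =
    6 * ((1 - x)⁻¹) ^ 4 - 12 * ((1 - x)⁻¹) ^ 3 + 7 * ((1 - x)⁻¹) ^ 2 - (1 - x)⁻¹ := by
  have h0 := tsum_geometric_of_norm_lt_one hx
  have h1 := tsum_choose_mul_geometric_of_norm_lt_one 1 hx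
  have h2 := tsum_choose_mul_geometric_of_norm_lt_one 2 hx
  have h3 := tsum_choose_mul_geometric_of_norm_lt_one 3 hx
  have s0 := summable_geometric_of_norm_lt_one hx
  have s1 := summable_choose_mul_geometric_of_norm_lt_one 1 hx
  have s2 := summable_choose_mul_geometric_of_norm_lt_one 2 hx
  have s3 := summable_choose_mul_geometric_of_norm_lt_one 3 hx
  have hterm : ∀ d : ℕ, (d : K) ^ 3 * x ^ d =
      6 * (((d + 3).choose 3 : ℕ) * x ^ d) - 12 * (((d + 2).choose 2 : ℕ) * x ^ d) +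
        7 * (((d + 1).choose 1 : ℕ) * x ^ d) - x ^ d := by
    intro d
    have e2 := TateEval4.two_mul_choose_two (K := K) (d + 2)
    have e3 := six_mul_choose_three (K := K) d
    rw [Nat.choose_one_right]
    push_cast at e2 ⊢
    linear_combination (6 * x ^ d) * e2 - (x ^ d) * e3
  simp_rw [hterm]
  rw [(((s3.mul_left 6).sub (s2.mul_left 12)).add (s1.mul_left 7)).tsum_sub s0,
    ((s3.mul_left 6).sub (s2.mul_left 12)).tsum_add (s1.mul_left 7),
    (s3.mul_left 6).tsum_sub (s2.mul_left 12), tsum_mul_left, tsum_mul_left, tsum_mul_left,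
    h0, h1, h2, h3]
  simp only [one_div, ← inv_pow]

include hx in
/-- `∑ d⁵ x^d = 120s⁶ - 360s⁵ + 390s⁴ - 180s³ + 31s² - s`, `s = (1-x)⁻¹`. -/
theorem tsum_pow5 : ∑' d : ℕ, (d : K) ^ 5 * x ^ d =
    120 * ((1 - x)⁻¹) ^ 6 - 360 * ((1 - x)⁻¹) ^ 5 + 390 * ((1 - x)⁻¹) ^ 4 -
      180 * ((1 - x)⁻¹) ^ 3 + 31 * ((1 - x)⁻¹) ^ 2 - (1 - x)⁻¹ := by
  have h0 := tsum_geometric_of_norm_lt_one hx
  have h1 := tsum_choose_mul_geometric_of_norm_lt_one 1 hx
  have h2 := tsum_choose_mul_geometric_of_norm_lt_one 2 hx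
  have h3 := tsum_choose_mul_geometric_of_norm_lt_one 3 hx
  have h4 := tsum_choose_mul_geometric_of_norm_lt_one 4 hx
  have h5 := tsum_choose_mul_geometric_of_norm_lt_one 5 hx
  have s0 := summable_geometric_of_norm_lt_one hx
  have s1 := summable_choose_mul_geometric_of_norm_lt_one 1 hx
  have s2 := summable_choose_mul_geometric_of_norm_lt_one 2 hx
  have s3 := summable_choose_mul_geometric_of_norm_lt_one 3 hx
  have s4 := summable_choose_mul_geometric_of_norm_lt_one 4 hx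
  have s5 := summable_choose_mul_geometric_of_norm_lt_one 5 hx
  have hterm : ∀ d : ℕ, (d : K) ^ 5 * x ^ d =
      120 * (((d + 5).choose 5 : ℕ) * x ^ d) - 360 * (((d + 4).choose 4 : ℕ) * x ^ d) +
        390 * (((d + 3).choose 3 : ℕ) * x ^ d) - 180 * (((d + 2).choose 2 : ℕ) * x ^ d) +
          31 * (((d + 1).choose 1 : ℕ) * x ^ d) - x ^ d := by
    intro d
    have e2 := TateEval4.two_mul_choose_two (K := K) (d + 2)
    have e3 := six_mul_choose_three (K := K) d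
    have e4 := choose_four (K := K) d
    have e5 := choose_five (K := K) d
    rw [Nat.choose_one_right]
    push_cast at e2 ⊢
    linear_combination (90 * x ^ d) * e2 - (65 * x ^ d) * e3 + (15 * x ^ d) * e4 - (x ^ d) * e5
  simp_rw [hterm]
  rw [(((((s5.mul_left 120).sub (s4.mul_left 360)).add (s3.mul_left 390)).sub
      (s2.mul_left 180)).add (s1.mul_left 31)).tsum_sub s0,
    ((((s5.mul_left 120).sub (s4.mul_left 360)).add (s3.mul_left 390)).sub
      (s2.mul_left 180)).tsum_add (s1.mul_left 31),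
    (((s5.mul_left 120).sub (s4.mul_left 360)).add (s3.mul_left 390)).tsum_sub (s2.mul_left 180),
    ((s5.mul_left 120).sub (s4.mul_left 360)).tsum_add (s3.mul_left 390),
    (s5.mul_left 120).tsum_sub (s4.mul_left 360), tsum_mul_left, tsum_mul_left, tsum_mul_left,
    tsum_mul_left, tsum_mul_left, h0, h1, h2, h3, h4, h5]
  simp only [one_div, ← inv_pow]

include hx in
theorem summable_pow_mul (j : ℕ) : Summable fun d : ℕ => (d : K) ^ j * x ^ d :=
  summable_pow_mul_geometric_of_norm_lt_one j hx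

end PowerSums

/-! ### numerals -/

theorem ofNat_eq_C (n : ℕ) [n.AtLeastTwo] :
    (OfNat.ofNat n : PowerSeries K) = C (OfNat.ofNat n : K) :=
  (map_ofNat (C (R := K)) n).symm

theorem conv_ofNat_mul (n : ℕ) [n.AtLeastTwo] {F : PowerSeries K} {q : K} (hF : Conv F q) :
    Conv ((OfNat.ofNat n : PowerSeries K) * F) q := by
  rw [ofNat_eq_C]
  exact (conv_C _ _).mul hF

theorem ev_ofNat_mul (n : ℕ) [n.AtLeastTwo] {F : PowerSeries K} {q : K} (hF : Conv F q) :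
    ev ((OfNat.ofNat n : PowerSeries K) * F) q = (OfNat.ofNat n : K) * ev F q := by
  rw [ofNat_eq_C, ev_mul (conv_C _ _) hF, ev_C]

theorem mapA_ofNat_mul (u : K) (h0 : u ≠ 0) (h1 : u ≠ 1) (n : ℕ) [n.AtLeastTwo]
    (F : PowerSeries A) :
    mapA u h0 h1 ((OfNat.ofNat n : PowerSeries A) * F) =
      (OfNat.ofNat n : PowerSeries K) * mapA u h0 h1 F := by
  show PowerSeries.map (evA u h0 h1) _ = _
  rw [map_mul, map_ofNat]
  rfl

/-! ### the evaluated `D²X`, `D⁴X` -/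

section Eval

variable (u : K) (h0 : u ≠ 0) (h1 : u ≠ 1) (q : K)

/-- the Lambert coefficients `d^j (u^d + u^{-d})`. -/
noncomputable def bE (j : ℕ) (d : ℕ) : K := (d : K) ^ j * (u ^ d + u⁻¹ ^ d)

include h0 in
theorem norm_bE_le (j d : ℕ) : ‖bE u j d‖ ≤ 2 * (d : ℝ) ^ j * rho u ^ d := by
  have e1 := norm_pow_le_rho u d d le_rfl h0
  have e2 := norm_inv_pow_le_rho u d d le_rfl h0
  have e3 : ‖u ^ d + u⁻¹ ^ d‖ ≤ 2 * rho u ^ d := by
    calc ‖u ^ d + u⁻¹ ^ d‖ ≤ ‖u ^ d‖ + ‖u⁻¹ ^ d‖ := norm_add_le _ _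
      _ ≤ 2 * rho u ^ d := by linarith
  rw [bE, norm_mul, norm_pow]
  calc ‖(d : K)‖ ^ j * ‖u ^ d + u⁻¹ ^ d‖ ≤ (d : ℝ) ^ j * (2 * rho u ^ d) := by
        gcongr
        exact norm_natCast_le d
    _ = 2 * (d : ℝ) ^ j * rho u ^ d := by ring

theorem evA_D2_cX (N : ℕ) (hN : N ≠ 0) :
    evA u h0 h1 (D (D (cX N))) = divSum (bE u 3) N := by
  rw [D2_cX N hN, map_sum, divSum]
  refine Finset.sum_congr rfl fun d _ => ?_
  rw [map_mul, map_pow, map_natCast, map_add, map_pow, map_pow, evA_u, evA_ui, bE]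

theorem evA_D4_cX (N : ℕ) (hN : N ≠ 0) :
    evA u h0 h1 (D (D (D (D (cX N))))) = divSum (bE u 5) N := by
  rw [D4_cX N hN, map_sum, divSum]
  refine Finset.sum_congr rfl fun d _ => ?_
  rw [map_mul, map_pow, map_natCast, map_add, map_pow, map_pow, evA_u, evA_ui, bE]

/-- the constant term of `D²X`, as a polynomial in `s = (1-u)⁻¹`. -/
noncomputable def P2 (s : K) : K := 6 * s ^ 4 - 12 * s ^ 3 + 7 * s ^ 2 - s

/-- the constant term of `D⁴X`, as a polynomial in `s = (1-u)⁻¹`. -/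
noncomputable def P4 (s : K) : K :=
  120 * s ^ 6 - 360 * s ^ 5 + 390 * s ^ 4 - 180 * s ^ 3 + 31 * s ^ 2 - s

theorem evA_D2_cX_zero : evA u h0 h1 (D (D (cX 0))) = P2 ((1 - u)⁻¹) := by
  rw [D2_cX_zero, P2]
  simp only [map_sub, map_add, map_mul, map_pow, map_ofNat, evA_zi]

theorem evA_D4_cX_zero : evA u h0 h1 (D (D (D (D (cX 0))))) = P4 ((1 - u)⁻¹) := by
  rw [D4_cX_zero, P4]
  simp only [map_sub, map_add, map_mul, map_pow, map_ofNat, evA_zi]

theorem coeff_mapA_D2X (N : ℕ) :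
    coeff N (mapA u h0 h1 (dPS (dPS tX))) = evA u h0 h1 (D (D (cX N))) := by
  rw [coeff_mapA, coeff_dPS2_tX]

theorem coeff_mapA_D4X (N : ℕ) :
    coeff N (mapA u h0 h1 (dPS (dPS (dPS (dPS tX))))) = evA u h0 h1 (D (D (D (D (cX N))))) := by
  rw [coeff_mapA, coeff_dPS4_tX]

theorem conv_D2X (hρq : rho u * ‖q‖ < 1) : Conv (mapA u h0 h1 (dPS (dPS tX))) q :=
  conv_of_divSum _ (bE u 3) q 2 (rho u) 3 (by norm_num) (one_le_rho u h0) hρq (norm_bE_le u h0 3)
    fun N hN => by rw [coeff_mapA_D2X, evA_D2_cX u h0 h1 N hN]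

theorem conv_D4X (hρq : rho u * ‖q‖ < 1) : Conv (mapA u h0 h1 (dPS (dPS (dPS (dPS tX))))) q :=
  conv_of_divSum _ (bE u 5) q 2 (rho u) 5 (by norm_num) (one_le_rho u h0) hρq (norm_bE_le u h0 5)
    fun N hN => by rw [coeff_mapA_D4X, evA_D4_cX u h0 h1 N hN]

/-- **`D²X(u, q)` as a Lambert series.** -/
theorem ev_D2X (hρq : rho u * ‖q‖ < 1) :
    ev (mapA u h0 h1 (dPS (dPS tX))) q =
      P2 ((1 - u)⁻¹) + ∑' d : ℕ+, bE u 3 d * (q ^ (d : ℕ) / (1 - q ^ (d : ℕ))) := by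
  have hq1 := norm_lt_one_of_rho u h0 q hρq
  rw [ev_of_divSum _ (bE u 3) q 2 (rho u) 3 (by norm_num) (one_le_rho u h0) hq1 hρq
    (norm_bE_le u h0 3) fun N hN => by rw [coeff_mapA_D2X, evA_D2_cX u h0 h1 N hN],
    coeff_mapA_D2X, evA_D2_cX_zero,
    (lambert_single (bE u 3) q 2 (rho u) 3 (by norm_num) (zero_le_one.trans (one_le_rho u h0)) hq1
      hρq (norm_bE_le u h0 3)).2]

/-- **`D⁴X(u, q)` as a Lambert series.** -/
theorem ev_D4X (hρq : rho u * ‖q‖ < 1) :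
    ev (mapA u h0 h1 (dPS (dPS (dPS (dPS tX))))) q =
      P4 ((1 - u)⁻¹) + ∑' d : ℕ+, bE u 5 d * (q ^ (d : ℕ) / (1 - q ^ (d : ℕ))) := by
  have hq1 := norm_lt_one_of_rho u h0 q hρq
  rw [ev_of_divSum _ (bE u 5) q 2 (rho u) 5 (by norm_num) (one_le_rho u h0) hq1 hρq
    (norm_bE_le u h0 5) fun N hN => by rw [coeff_mapA_D4X, evA_D4_cX u h0 h1 N hN],
    coeff_mapA_D4X, evA_D4_cX_zero,
    (lambert_single (bE u 5) q 2 (rho u) 5 (by norm_num) (zero_le_one.trans (one_le_rho u h0)) hq1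
      hρq (norm_bE_le u h0 5)).2]

include h0 in
theorem summable_bE (j : ℕ) (hρq : rho u * ‖q‖ < 1) :
    Summable fun d : ℕ+ => bE u j d * (q ^ (d : ℕ) / (1 - q ^ (d : ℕ))) :=
  (lambert_single (bE u j) q 2 (rho u) j (by norm_num) (zero_le_one.trans (one_le_rho u h0))
    (norm_lt_one_of_rho u h0 q hρq) hρq (norm_bE_le u h0 j)).1

variable [CharZero K]

/-- **`D²X = 6X² + X + 2a₄`, evaluated.** -/
theorem ev_D2X_eq (hρq : rho u * ‖q‖ < 1) :
    ev (mapA u h0 h1 (dPS (dPS tX))) q =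
      6 * ev (mapA u h0 h1 tX) q ^ 2 + ev (mapA u h0 h1 tX) q + 2 * ev (mapZ a4) q := by
  have hq1 := norm_lt_one_of_rho u h0 q hρq
  have cX := conv_tX u h0 h1 q hρq
  have c4 := conv_a4 (K := K) q hq1
  rw [dPS_dPS_tX, mapA_add, mapA_add, mapA_ofNat_mul, mapA_ofNat_mul, mapA_pow, a4A, mapA_mapInt,
    ev_add ((conv_ofNat_mul 6 (cX.pow 2)).add cX) (conv_ofNat_mul 2 c4),
    ev_add (conv_ofNat_mul 6 (cX.pow 2)) cX, ev_ofNat_mul 6 (cX.pow 2), ev_ofNat_mul 2 c4,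
    ev_pow cX]

/-- **`D⁴X = 12 (10X³ + 2X² + 6a₄X + 4a₆) + D²X`, evaluated.** -/
theorem ev_D4X_eq (hρq : rho u * ‖q‖ < 1) :
    ev (mapA u h0 h1 (dPS (dPS (dPS (dPS tX))))) q =
      12 * (10 * ev (mapA u h0 h1 tX) q ^ 3 + 2 * ev (mapA u h0 h1 tX) q ^ 2 +
        6 * ev (mapZ a4) q * ev (mapA u h0 h1 tX) q + 4 * ev (mapZ a6) q) +
      (6 * ev (mapA u h0 h1 tX) q ^ 2 + ev (mapA u h0 h1 tX) q + 2 * ev (mapZ a4) q) := by
  have hq1 := norm_lt_one_of_rho u h0 q hρq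
  have cX := conv_tX u h0 h1 q hρq
  have c4 := conv_a4 (K := K) q hq1
  have c6 := conv_a6 (K := K) q hq1
  have e1 : mapA u h0 h1 (12 * (10 * tX ^ 3 + 2 * tX ^ 2 + 6 * a4A * tX + 4 * a6A) +
      (6 * tX ^ 2 + tX + 2 * a4A)) =
      12 * (10 * mapA u h0 h1 tX ^ 3 + 2 * mapA u h0 h1 tX ^ 2 +
        6 * (mapZ a4 * mapA u h0 h1 tX) + 4 * mapZ a6) +
      (6 * mapA u h0 h1 tX ^ 2 + mapA u h0 h1 tX + 2 * mapZ a4) := by
    rw [mul_assoc 6 a4A tX, mapA_add, mapA_ofNat_mul, mapA_add, mapA_add, mapA_add, mapA_add,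
      mapA_add, mapA_ofNat_mul, mapA_ofNat_mul, mapA_ofNat_mul, mapA_ofNat_mul, mapA_ofNat_mul,
      mapA_ofNat_mul, mapA_mul, mapA_pow, mapA_pow, a4A, a6A, mapA_mapInt, mapA_mapInt]
  rw [dPS4_tX, e1]
  have k3 := conv_ofNat_mul 10 (cX.pow 3)
  have k2 := conv_ofNat_mul 2 (cX.pow 2)
  have k4 := conv_ofNat_mul 6 (c4.mul cX)
  have k6 := conv_ofNat_mul 4 c6
  have kA := ((k3.add k2).add k4).add k6
  have kB := ((conv_ofNat_mul 6 (cX.pow 2)).add cX).add (conv_ofNat_mul 2 c4)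
  rw [ev_add (conv_ofNat_mul 12 kA) kB, ev_ofNat_mul 12 kA, ev_add ((k3.add k2).add k4) k6,
    ev_add (k3.add k2) k4, ev_add k3 k2, ev_ofNat_mul 10 (cX.pow 3), ev_ofNat_mul 2 (cX.pow 2),
    ev_ofNat_mul 6 (c4.mul cX), ev_ofNat_mul 4 c6, ev_mul c4 cX, ev_pow cX, ev_pow cX,
    ev_add ((conv_ofNat_mul 6 (cX.pow 2)).add cX) (conv_ofNat_mul 2 c4),
    ev_add (conv_ofNat_mul 6 (cX.pow 2)) cX, ev_ofNat_mul 6 (cX.pow 2), ev_ofNat_mul 2 c4,
    ev_pow cX]
  ring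

end Eval

end Fermat.Agent.MZ.MOD.TateLambert4
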