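/-
Programme MZ (S15, Mazur), chapter MOD-E (helper4): **the Tate curve over a complete normed field**
`K` of characteristic zero: total functions `XK u q`, `YK u q`, `X2K`, `X4K` (the evaluated Tate
series `X`, `Y`, `D²X`, `D⁴X`; junk value `0` when `u = 0` or `u = 1`), the curve
`tateCurve q = ⟨1, 0, 0, a₄(q), a₆(q)⟩`, the Eisenstein values `sK k q`, `E4K q`, `E6K q`, `jK q`,
and the basic identities (`Equation`, `c₄ = E₄`, `c₆ = -E₆`, `D²X = 6X²+X+2a₄`, ...).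
-/
import Mathlib
import Fermat.Agent.MZ.MOD.TateLambert4

set_option autoImplicit false
set_option linter.unusedSectionVars false
set_option linter.unusedVariables false

open PowerSeries

namespace Fermat.Agent.MZ.MOD.TateCurve4

open TateFormal4 PSEval4 Regroup4 TateEval4 TateD4 TateLambert4

variable {K : Type*} [NormedField K] [CompleteSpace K]

/-! ### total evaluation functions -/

open Classical in
/-- `X(u, q)`. -/
noncomputable def XK (u q : K) : K :=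
  if h : u ≠ 0 ∧ u ≠ 1 then ev (mapA u h.1 h.2 tX) q else 0

open Classical in
/-- `Y(u, q)`. -/
noncomputable def YK (u q : K) : K :=
  if h : u ≠ 0 ∧ u ≠ 1 then ev (mapA u h.1 h.2 tY) q else 0

open Classical in
/-- `D²X(u, q)`. -/
noncomputable def X2K (u q : K) : K :=
  if h : u ≠ 0 ∧ u ≠ 1 then ev (mapA u h.1 h.2 (dPS (dPS tX))) q else 0

open Classical in
/-- `D⁴X(u, q)`. -/
noncomputable def X4K (u q : K) : K :=
  if h : u ≠ 0 ∧ u ≠ 1 then ev (mapA u h.1 h.2 (dPS (dPS (dPS (dPS tX))))) q else 0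

theorem XK_eq (u q : K) (h0 : u ≠ 0) (h1 : u ≠ 1) : XK u q = ev (mapA u h0 h1 tX) q :=
  dif_pos ⟨h0, h1⟩

theorem YK_eq (u q : K) (h0 : u ≠ 0) (h1 : u ≠ 1) : YK u q = ev (mapA u h0 h1 tY) q :=
  dif_pos ⟨h0, h1⟩

theorem X2K_eq (u q : K) (h0 : u ≠ 0) (h1 : u ≠ 1) :
    X2K u q = ev (mapA u h0 h1 (dPS (dPS tX))) q :=
  dif_pos ⟨h0, h1⟩

theorem X4K_eq (u q : K) (h0 : u ≠ 0) (h1 : u ≠ 1) :
    X4K u q = ev (mapA u h0 h1 (dPS (dPS (dPS (dPS tX))))) q :=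
  dif_pos ⟨h0, h1⟩

/-- `a₄(q)`. -/
noncomputable def a4K (q : K) : K := ev (mapZ (K := K) a4) q

/-- `a₆(q)`. -/
noncomputable def a6K (q : K) : K := ev (mapZ (K := K) a6) q

/-- `s_k(q) = ∑ σ_k(n) qⁿ`. -/
noncomputable def sK (k : ℕ) (q : K) : K := ev (mapZ (K := K) (sk k)) q

/-- `E₄(q) = 1 + 240 s₃(q)`. -/
noncomputable def E4K (q : K) : K := 1 + 240 * sK 3 q

/-- `E₆(q) = 1 - 504 s₅(q)`. -/
noncomputable def E6K (q : K) : K := 1 - 504 * sK 5 q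

/-- `j(q) = 1728 E₄³ / (E₄³ - E₆²)`. -/
noncomputable def jK (q : K) : K := 1728 * E4K q ^ 3 / (E4K q ^ 3 - E6K q ^ 2)

/-- **the Tate curve** `y² + xy = x³ + a₄(q) x + a₆(q)`. -/
noncomputable def tateCurve (q : K) : WeierstrassCurve K := ⟨1, 0, 0, a4K q, a6K q⟩

@[simp] theorem tateCurve_a₁ (q : K) : (tateCurve q).a₁ = 1 := rfl
@[simp] theorem tateCurve_a₂ (q : K) : (tateCurve q).a₂ = 0 := rfl
@[simp] theorem tateCurve_a₃ (q : K) : (tateCurve q).a₃ = 0 := rfl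
@[simp] theorem tateCurve_a₄ (q : K) : (tateCurve q).a₄ = a4K q := rfl
@[simp] theorem tateCurve_a₆ (q : K) : (tateCurve q).a₆ = a6K q := rfl

theorem tateCurve_b₂ (q : K) : (tateCurve q).b₂ = 1 := by
  simp [WeierstrassCurve.b₂]

theorem tateCurve_b₄ (q : K) : (tateCurve q).b₄ = 2 * a4K q := by
  simp [WeierstrassCurve.b₄]

theorem tateCurve_b₆ (q : K) : (tateCurve q).b₆ = 4 * a6K q := by
  simp [WeierstrassCurve.b₆]

theorem a4K_eq (q : K) (hq : ‖q‖ < 1) : a4K q = -5 * sK 3 q := ev_a4 q hq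

/-- `s_k(q)` as a Lambert series. -/
theorem sK_eq (k : ℕ) (q : K) (hq : ‖q‖ < 1) :
    sK k q = ∑' d : ℕ+, ((d : ℕ) : K) ^ k * (q ^ (d : ℕ) / (1 - q ^ (d : ℕ))) := by
  rw [sK, ev_sk q k hq]
  refine (lambert_single (fun d : ℕ => (d : K) ^ k) q 1 1 k zero_le_one zero_le_one hq
    (by rwa [one_mul]) fun d => ?_).2
  rw [norm_pow, one_mul, one_pow, mul_one]
  gcongr
  exact norm_natCast_le d

theorem summable_sK (k : ℕ) (q : K) (hq : ‖q‖ < 1) :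
    Summable fun d : ℕ+ => ((d : ℕ) : K) ^ k * (q ^ (d : ℕ) / (1 - q ^ (d : ℕ))) := by
  refine (lambert_single (fun d : ℕ => (d : K) ^ k) q 1 1 k zero_le_one zero_le_one hq
    (by rwa [one_mul]) fun d => ?_).1
  rw [norm_pow, one_mul, one_pow, mul_one]
  gcongr
  exact norm_natCast_le d

section CharZero

variable [CharZero K]

theorem a6K_eq (q : K) (hq : ‖q‖ < 1) : a6K q = -(5 * sK 3 q + 7 * sK 5 q) / 12 := ev_a6 q hq

theorem tateCurve_c₄ (q : K) (hq : ‖q‖ < 1) : (tateCurve q).c₄ = E4K q := by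
  rw [WeierstrassCurve.c₄, tateCurve_b₂, tateCurve_b₄, a4K_eq q hq, E4K]
  ring

theorem tateCurve_c₆ (q : K) (hq : ‖q‖ < 1) : (tateCurve q).c₆ = -E6K q := by
  rw [WeierstrassCurve.c₆, tateCurve_b₂, tateCurve_b₄, tateCurve_b₆, a4K_eq q hq, a6K_eq q hq, E6K]
  ring

/-- `1728 Δ = E₄³ - E₆²`. -/
theorem tateCurve_Δ (q : K) (hq : ‖q‖ < 1) :
    1728 * (tateCurve q).Δ = E4K q ^ 3 - E6K q ^ 2 := by
  rw [(tateCurve q).c_relation, tateCurve_c₄ q hq, tateCurve_c₆ q hq]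
  ring

/-- **the Tate parametrisation satisfies the Weierstrass equation.** -/
theorem tateCurve_equation (u q : K) (h0 : u ≠ 0) (h1 : u ≠ 1) (hρq : rho u * ‖q‖ < 1) :
    (tateCurve q).toAffine.Equation (XK u q) (YK u q) := by
  rw [WeierstrassCurve.Affine.equation_iff, XK_eq u q h0 h1, YK_eq u q h0 h1]
  have h := TateW4.ev_tate_equation u h0 h1 q hρq
  simp only [WeierstrassCurve.toAffine, tateCurve_a₁, tateCurve_a₂, tateCurve_a₃, tateCurve_a₄,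
    tateCurve_a₆, a4K, a6K]
  linear_combination h

theorem X2K_eq_poly (u q : K) (h0 : u ≠ 0) (h1 : u ≠ 1) (hρq : rho u * ‖q‖ < 1) :
    X2K u q = 6 * XK u q ^ 2 + XK u q + 2 * a4K q := by
  rw [X2K_eq u q h0 h1, XK_eq u q h0 h1, ev_D2X_eq u h0 h1 q hρq, a4K]

theorem X4K_eq_poly (u q : K) (h0 : u ≠ 0) (h1 : u ≠ 1) (hρq : rho u * ‖q‖ < 1) :
    X4K u q = 12 * (10 * XK u q ^ 3 + 2 * XK u q ^ 2 + 6 * a4K q * XK u q + 4 * a6K q) +
      X2K u q := by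
  rw [X4K_eq u q h0 h1, X2K_eq_poly u q h0 h1 hρq, XK_eq u q h0 h1, ev_D4X_eq u h0 h1 q hρq, a4K,
    a6K]

end CharZero

/-- `D²X` as a Lambert series. -/
theorem X2K_lambert (u q : K) (h0 : u ≠ 0) (h1 : u ≠ 1) (hρq : rho u * ‖q‖ < 1) :
    X2K u q = P2 ((1 - u)⁻¹) + ∑' d : ℕ+, bE u 3 d * (q ^ (d : ℕ) / (1 - q ^ (d : ℕ))) := by
  rw [X2K_eq u q h0 h1, ev_D2X u h0 h1 q hρq]

/-- `D⁴X` as a Lambert series. -/
theorem X4K_lambert (u q : K) (h0 : u ≠ 0) (h1 : u ≠ 1) (hρq : rho u * ‖q‖ < 1) :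
    X4K u q = P4 ((1 - u)⁻¹) + ∑' d : ℕ+, bE u 5 d * (q ^ (d : ℕ) / (1 - q ^ (d : ℕ))) := by
  rw [X4K_eq u q h0 h1, ev_D4X u h0 h1 q hρq]

end Fermat.Agent.MZ.MOD.TateCurve4
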