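/-
Programme MZ (S15, Mazur), chapter MOD-E (helper4): **symmetries of the Tate parametrisation**
over a complete normed field `K` of characteristic zero, in terms of `XK u q` and
`DXK u q = XK u q + 2 YK u q`:

* inversion: `XK u⁻¹ q = XK u q`, `DXK u⁻¹ q = - DXK u q`, `YK u⁻¹ q = - YK u q - XK u q`;
* periodicity: for `‖q‖ < ‖u‖ < 1`: `XK (u / q) q = XK u q`, `YK (u / q) q = YK u q`;
* single-sum Lambert forms of `XK`, `DXK` for `‖q‖ < ‖u‖ < 1`.
-/
import Mathlib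
import Fermat.Agent.MZ.MOD.TateCurve4

set_option autoImplicit false
set_option linter.unusedSectionVars false
set_option linter.unusedVariables false

open PowerSeries

namespace Fermat.Agent.MZ.MOD.TateSym4

open TateFormal4 PSEval4 Regroup4 TateEval4 TateD4 TateLambert4 TateCurve4

variable {K : Type*} [NormedField K] [CompleteSpace K]

/-- `DX = X + 2Y`. -/
noncomputable def DXK (u q : K) : K := XK u q + 2 * YK u q

theorem rho_inv (u : K) : rho u⁻¹ = rho u := by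
  unfold rho
  rw [norm_inv, inv_inv, max_comm]

/-! ### inversion -/

section Inv

variable (u q : K) (h0 : u ≠ 0) (h1 : u ≠ 1) (hρq : rho u * ‖q‖ < 1)

include h0 h1 in
theorem inv_ne : u⁻¹ ≠ 0 ∧ u⁻¹ ≠ 1 :=
  ⟨inv_ne_zero h0, fun h => h1 (by rw [← inv_inv u, h, inv_one])⟩

theorem aX_inv (d : ℕ) : aX u⁻¹ d = aX u d := by
  rw [aX, aX, inv_inv]
  ring

theorem aD_inv (d : ℕ) : aD u⁻¹ d = -aD u d := by
  rw [aD, aD, inv_inv]
  ring

include h0 h1 hρq in
theorem XK_inv : XK u⁻¹ q = XK u q := by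
  obtain ⟨i0, i1⟩ := inv_ne u h0 h1
  have hz : (1 - u) ≠ 0 := sub_ne_zero.2 (Ne.symm h1)
  have hz' : (1 - u⁻¹) ≠ 0 := sub_ne_zero.2 (Ne.symm i1)
  rw [XK_eq u⁻¹ q i0 i1, XK_eq u q h0 h1, ev_tX u⁻¹ i0 i1 q (by rwa [rho_inv]),
    ev_tX u h0 h1 q hρq]
  simp_rw [aX_inv]
  congr 1
  have e : (1 - u⁻¹) = -(u⁻¹ * (1 - u)) := by
    field_simp
    ring
  rw [e]
  field_simp

include h0 h1 hρq in
theorem DXK_inv : DXK u⁻¹ q = -DXK u q := by
  obtain ⟨i0, i1⟩ := inv_ne u h0 h1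
  have hz : (1 - u) ≠ 0 := sub_ne_zero.2 (Ne.symm h1)
  rw [DXK, DXK, XK_eq u⁻¹ q i0 i1, YK_eq u⁻¹ q i0 i1, XK_eq u q h0 h1, YK_eq u q h0 h1,
    ev_tD u⁻¹ i0 i1 q (by rwa [rho_inv]), ev_tD u h0 h1 q hρq]
  simp_rw [aD_inv, neg_mul, tsum_neg]
  rw [neg_add]
  congr 1
  have e : (1 - u⁻¹) = -(u⁻¹ * (1 - u)) := by
    field_simp
    ring
  rw [e]
  field_simp
  ring

include h0 h1 hρq in
theorem YK_inv [CharZero K] : YK u⁻¹ q = -YK u q - XK u q := by
  have hX := XK_inv u q h0 h1 hρq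
  have hD := DXK_inv u q h0 h1 hρq
  rw [DXK, DXK, hX] at hD
  have h2 : (2 : K) ≠ 0 := two_ne_zero
  have : 2 * YK u⁻¹ q = 2 * (-YK u q - XK u q) := by linear_combination hD
  exact mul_left_cancel₀ h2 this

end Inv

/-! ### the geometric-type sums `∑ d x^d`, `∑ d² x^d` over `ℕ+` -/

section Geom

variable {x : K} (hx : ‖x‖ < 1)

include hx in
theorem summable_pnat_pow_mul (j : ℕ) : Summable fun d : ℕ+ => ((d : ℕ) : K) ^ j * x ^ (d : ℕ) :=
  (summable_pow_mul hx j).comp_injective PNat.coe_injective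

include hx in
theorem tsum_pnat_pow1 : ∑' d : ℕ+, ((d : ℕ) : K) ^ 1 * x ^ (d : ℕ) = x * ((1 - x)⁻¹) ^ 2 := by
  have h := tsum_zero_pnat_eq_tsum_nat (summable_pow_mul hx 1)
  simp only [Nat.cast_zero, pow_one, zero_mul, zero_add] at h
  simp only [pow_one]
  rw [h, tsum_coe_mul_geometric_of_norm_lt_one hx, div_eq_mul_inv, inv_pow]

include hx in
/-- `∑ d² x^d = 2s³ - 3s² + s`, `s = (1-x)⁻¹`. -/
theorem tsum_pow2 : ∑' d : ℕ, (d : K) ^ 2 * x ^ d =
    2 * ((1 - x)⁻¹) ^ 3 - 3 * ((1 - x)⁻¹) ^ 2 + (1 - x)⁻¹ := by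
  have h0 := tsum_geometric_of_norm_lt_one hx
  have h1 := tsum_choose_mul_geometric_of_norm_lt_one 1 hx
  have h2 := tsum_choose_mul_geometric_of_norm_lt_one 2 hx
  have s0 := summable_geometric_of_norm_lt_one hx
  have s1 := summable_choose_mul_geometric_of_norm_lt_one 1 hx
  have s2 := summable_choose_mul_geometric_of_norm_lt_one 2 hx
  have hterm : ∀ d : ℕ, (d : K) ^ 2 * x ^ d =
      2 * (((d + 2).choose 2 : ℕ) * x ^ d) - 3 * (((d + 1).choose 1 : ℕ) * x ^ d) + x ^ d := by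
    intro d
    have e2 := TateEval4.two_mul_choose_two (K := K) (d + 2)
    rw [Nat.choose_one_right]
    push_cast at e2 ⊢
    linear_combination (-(x ^ d)) * e2
  simp_rw [hterm]
  rw [((s2.mul_left 2).sub (s1.mul_left 3)).tsum_add s0, (s2.mul_left 2).tsum_sub (s1.mul_left 3),
    tsum_mul_left, tsum_mul_left, h0, h1, h2]
  simp only [one_div, ← inv_pow]

include hx in
theorem tsum_pnat_pow2 : ∑' d : ℕ+, ((d : ℕ) : K) ^ 2 * x ^ (d : ℕ) =
    x * (1 + x) * ((1 - x)⁻¹) ^ 3 := by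
  have h := tsum_zero_pnat_eq_tsum_nat (summable_pow_mul hx 2)
  simp only [Nat.cast_zero, ne_eq, OfNat.ofNat_ne_zero, not_false_eq_true, zero_pow, zero_mul,
    zero_add] at h
  rw [h, tsum_pow2 hx]
  have hz : (1 - x) ≠ 0 := one_sub_ne_zero hx
  field_simp
  ring

end Geom

/-! ### single-sum forms in the annulus `‖q‖ < ‖u‖ < 1` -/

section Single

variable (u q : K) (h0 : u ≠ 0) (hu : ‖u‖ < 1) (hqu : ‖q‖ < ‖u‖)

include hu in
theorem ne_one_of_norm_lt : u ≠ 1 := by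
  intro h
  rw [h, norm_one] at hu
  exact lt_irrefl _ hu

include h0 hu in
theorem rho_of_lt_one : rho u = ‖u‖⁻¹ := by
  have hu0 : 0 < ‖u‖ := norm_pos_iff.2 h0
  unfold rho
  exact max_eq_right (hu.le.trans (one_le_inv₀ hu0 |>.2 hu.le))

include h0 hu hqu in
theorem rho_mul_lt : rho u * ‖q‖ < 1 := by
  have hu0 : 0 < ‖u‖ := norm_pos_iff.2 h0
  rw [rho_of_lt_one u h0 hu, inv_mul_lt_iff₀ hu0, mul_one]
  exact hqu

/-- the general term of the single-sum form of `X`. -/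
noncomputable def termX (u q : K) (d : ℕ) : K :=
  (d : K) ^ 1 * u ^ d + aX u d * (q ^ d / (1 - q ^ d))

/-- the general term of the single-sum form of `DX`. -/
noncomputable def termD (u q : K) (d : ℕ) : K :=
  (d : K) ^ 2 * u ^ d + aD u d * (q ^ d / (1 - q ^ d))

include h0 hu hqu in
theorem XK_single :
    (Summable fun d : ℕ+ => termX u q d) ∧ XK u q = ∑' d : ℕ+, termX u q d := by
  have h1 := ne_one_of_norm_lt u hu
  have hρq := rho_mul_lt u q h0 hu hqu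
  have hq1 := norm_lt_one_of_rho u h0 q hρq
  have hρ0 : (0 : ℝ) ≤ rho u := zero_le_one.trans (one_le_rho u h0)
  have L := lambert_single (aX u) q 4 (rho u) 1 (by norm_num) hρ0 hq1 hρq (norm_aX_le u h0)
  have s1 := summable_pnat_pow_mul hu 1
  refine ⟨s1.add L.1, ?_⟩
  rw [XK_eq u q h0 h1, ev_tX u h0 h1 q hρq, L.2, ← tsum_pnat_pow1 hu, ← s1.tsum_add L.1]
  rfl

include h0 hu hqu in
theorem DXK_single :
    (Summable fun d : ℕ+ => termD u q d) ∧ DXK u q = ∑' d : ℕ+, termD u q d := by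
  have h1 := ne_one_of_norm_lt u hu
  have hρq := rho_mul_lt u q h0 hu hqu
  have hq1 := norm_lt_one_of_rho u h0 q hρq
  have hρ0 : (0 : ℝ) ≤ rho u := zero_le_one.trans (one_le_rho u h0)
  have L := lambert_single (aD u) q 2 (rho u) 2 (by norm_num) hρ0 hq1 hρq (norm_aD_le u h0)
  have s1 := summable_pnat_pow_mul hu 2
  refine ⟨s1.add L.1, ?_⟩
  rw [DXK, XK_eq u q h0 h1, YK_eq u q h0 h1, ev_tD u h0 h1 q hρq, L.2, ← tsum_pnat_pow2 hu,
    ← s1.tsum_add L.1]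
  rfl

end Single

/-! ### periodicity -/

section Period

variable (u q : K) (h0 : u ≠ 0) (hq0 : q ≠ 0) (hu : ‖u‖ < 1) (hqu : ‖q‖ < ‖u‖)

include h0 hq0 hu hqu in
theorem div_q_facts : u / q ≠ 0 ∧ u / q ≠ 1 ∧ rho (u / q) * ‖q‖ < 1 ∧ ‖q / u‖ < 1 := by
  have hu0 : 0 < ‖u‖ := norm_pos_iff.2 h0
  have hqn : 0 < ‖q‖ := norm_pos_iff.2 hq0
  have hw : 1 < ‖u / q‖ := by
    rw [norm_div, one_lt_div hqn]
    exact hqu
  have hw0 : 0 < ‖u / q‖ := zero_lt_one.trans hw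
  refine ⟨div_ne_zero h0 hq0, ?_, ?_, ?_⟩
  · intro h
    rw [h, norm_one] at hw
    exact lt_irrefl _ hw
  · have hr : rho (u / q) = ‖u / q‖ := by
      unfold rho
      refine max_eq_left ?_
      exact (inv_le_one_of_one_le₀ hw.le).trans hw.le
    rw [hr, norm_div, div_mul_cancel₀ _ hqn.ne']
    exact hu
  · rw [norm_div, div_lt_one hu0]
    exact hqu

include h0 hq0 hu hqu in
/-- **periodicity of `X`.** -/
theorem XK_div_q : XK (u / q) q = XK u q := by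
  obtain ⟨w0, w1, wρ, wn⟩ := div_q_facts u q h0 hq0 hu hqu
  have hq1 := norm_lt_one_of_rho (u / q) w0 q wρ
  have hρ0 : (0 : ℝ) ≤ rho (u / q) := zero_le_one.trans (one_le_rho (u / q) w0)
  have L := lambert_single (aX (u / q)) q 4 (rho (u / q)) 1 (by norm_num) hρ0 hq1 wρ
    (norm_aX_le (u / q) w0)
  have s1 := summable_pnat_pow_mul wn 1
  obtain ⟨sS, hS⟩ := XK_single u q h0 hu hqu
  rw [hS, XK_eq (u / q) q w0 w1, ev_tX (u / q) w0 w1 q wρ, L.2]
  have hc : u / q * ((1 - u / q)⁻¹) ^ 2 = q / u * ((1 - q / u)⁻¹) ^ 2 := by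
    have e1 : (1 - u / q) ≠ 0 := sub_ne_zero.2 (Ne.symm w1)
    have e2 : (1 - q / u) ≠ 0 := one_sub_ne_zero wn
    have e3 : (q - u) ≠ 0 := by
      intro h
      apply e1
      field_simp
      linear_combination h
    have e4 : (u - q) ≠ 0 := fun h => e3 (by linear_combination -h)
    field_simp
    ring
  rw [hc, ← tsum_pnat_pow1 wn, ← s1.tsum_add L.1]
  refine tsum_congr fun d => ?_
  have hne : (1 - q ^ (d : ℕ)) ≠ 0 := one_sub_ne_zero (norm_pow_pnat_lt_one hq1 d)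
  have hqd : q ^ (d : ℕ) ≠ 0 := pow_ne_zero _ hq0
  have hud : u ^ (d : ℕ) ≠ 0 := pow_ne_zero _ h0
  rw [termX, aX, aX, div_pow, div_pow, inv_pow, inv_pow, div_pow]
  field_simp
  ring

include h0 hq0 hu hqu in
/-- **periodicity of `DX`.** -/
theorem DXK_div_q : DXK (u / q) q = DXK u q := by
  obtain ⟨w0, w1, wρ, wn⟩ := div_q_facts u q h0 hq0 hu hqu
  have hq1 := norm_lt_one_of_rho (u / q) w0 q wρ
  have hρ0 : (0 : ℝ) ≤ rho (u / q) := zero_le_one.trans (one_le_rho (u / q) w0)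
  have L := lambert_single (aD (u / q)) q 2 (rho (u / q)) 2 (by norm_num) hρ0 hq1 wρ
    (norm_aD_le (u / q) w0)
  have s1 := summable_pnat_pow_mul wn 2
  obtain ⟨sS, hS⟩ := DXK_single u q h0 hu hqu
  rw [hS, DXK, XK_eq (u / q) q w0 w1, YK_eq (u / q) q w0 w1, ev_tD (u / q) w0 w1 q wρ, L.2]
  have hc : u / q * (1 + u / q) * ((1 - u / q)⁻¹) ^ 3 =
      -(q / u * (1 + q / u) * ((1 - q / u)⁻¹) ^ 3) := by
    have e1 : (1 - u / q) ≠ 0 := sub_ne_zero.2 (Ne.symm w1)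
    have e2 : (1 - q / u) ≠ 0 := one_sub_ne_zero wn
    have e3 : (q - u) ≠ 0 := by
      intro h
      apply e1
      field_simp
      linear_combination h
    have e4 : (u - q) ≠ 0 := fun h => e3 (by linear_combination -h)
    field_simp
    ring
  rw [hc, ← tsum_pnat_pow2 wn, ← tsum_neg, ← s1.neg.tsum_add L.1]
  refine tsum_congr fun d => ?_
  have hne : (1 - q ^ (d : ℕ)) ≠ 0 := one_sub_ne_zero (norm_pow_pnat_lt_one hq1 d)
  have hqd : q ^ (d : ℕ) ≠ 0 := pow_ne_zero _ hq0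
  have hud : u ^ (d : ℕ) ≠ 0 := pow_ne_zero _ h0
  rw [termD, aD, aD, div_pow, div_pow, inv_pow, inv_pow, div_pow]
  field_simp
  ring

include h0 hq0 hu hqu in
/-- **periodicity of `Y`.** -/
theorem YK_div_q [CharZero K] : YK (u / q) q = YK u q := by
  have hX := XK_div_q u q h0 hq0 hu hqu
  have hD := DXK_div_q u q h0 hq0 hu hqu
  rw [DXK, DXK, hX] at hD
  have h2 : (2 : K) ≠ 0 := two_ne_zero
  have : 2 * YK (u / q) q = 2 * YK u q := by linear_combination hD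
  exact mul_left_cancel₀ h2 this

end Period

end Fermat.Agent.MZ.MOD.TateSym4
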