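/-
Programme MZ (S15, Mazur), chapter MOD-E (helper4): **ultrametric estimates** for the Tate
parametrisation over a complete ultrametric normed field `K`:

* `‖q‖ < ‖u‖ < 1` : `‖XK u q‖, ‖YK u q‖ ≤ max ‖u‖ ‖q/u‖ < 1` (reduction to the node) and
  `‖XK u q - u - q/u‖ ≤ (max ‖u‖ ‖q/u‖)²`;
* `‖u‖ = 1`, `u ≠ 1` : `‖XK u q - u/(1-u)²‖ ≤ ‖q‖`, `‖YK u q - u²/(1-u)³‖ ≤ ‖q‖`;
* `‖1 - ζ^k‖ = 1` for a primitive `p`-th root of unity with `‖p‖ = 1`.
-/
import Mathlib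
import Fermat.Agent.MZ.MOD.TateSym4

set_option autoImplicit false
set_option linter.unusedSectionVars false
set_option linter.unusedVariables false

open PowerSeries

namespace Fermat.Agent.MZ.MOD.TateNorm4

open TateFormal4 PSEval4 Regroup4 TateEval4 TateD4 TateLambert4 TateCurve4 TateSym4

variable {K : Type*} [NormedField K] [IsUltrametricDist K] [CompleteSpace K]

/-! ### generalities -/

theorem norm_add_eq_left {a b : K} (h : ‖b‖ < ‖a‖) : ‖a + b‖ = ‖a‖ := by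
  rw [IsUltrametricDist.norm_add_eq_max_of_norm_ne_norm h.ne', max_eq_left h.le]

theorem norm_sub_le_max (a b : K) : ‖a - b‖ ≤ max ‖a‖ ‖b‖ := by
  rw [sub_eq_add_neg]
  refine (IsUltrametricDist.norm_add_le_max a (-b)).trans ?_
  rw [norm_neg]

theorem norm_natCast_le_one (n : ℕ) : ‖(n : K)‖ ≤ 1 := IsUltrametricDist.norm_natCast_le_one K n

theorem norm_one_sub_of_lt {x : K} (hx : ‖x‖ < 1) : ‖1 - x‖ = 1 := by
  have h : ‖-x‖ < ‖(1 : K)‖ := by rwa [norm_neg, norm_one]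
  rw [sub_eq_add_neg, norm_add_eq_left h, norm_one]

theorem norm_Q {q : K} (hq : ‖q‖ < 1) (d : ℕ) (hd : d ≠ 0) :
    ‖q ^ d / (1 - q ^ d)‖ = ‖q‖ ^ d := by
  have h : ‖q ^ d‖ < 1 := by
    rw [norm_pow]
    exact pow_lt_one₀ (norm_nonneg q) hq hd
  rw [norm_div, norm_one_sub_of_lt h, div_one, norm_pow]

theorem norm_Q_le {q : K} (hq : ‖q‖ < 1) (d : ℕ) (hd : d ≠ 0) :
    ‖q ^ d / (1 - q ^ d)‖ ≤ ‖q‖ := by
  rw [norm_Q hq d hd]
  calc ‖q‖ ^ d ≤ ‖q‖ ^ 1 := pow_le_pow_of_le_one (norm_nonneg q) hq.le (by omega)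
    _ = ‖q‖ := pow_one _

/-! ### roots of unity -/

theorem norm_one_sub_root (ζ : K) (p : ℕ) (hp : 2 ≤ p) (hζ : IsPrimitiveRoot ζ p)
    (hpK : ‖(p : K)‖ = 1) (k : ℕ) (hk : ¬ p ∣ k) : ‖1 - ζ ^ k‖ = 1 := by
  have hn : ‖ζ‖ = 1 := by
    have h := congrArg norm hζ.pow_eq_one
    rw [norm_pow, norm_one] at h
    exact (pow_eq_one_iff_of_nonneg (norm_nonneg ζ) (by omega)).1 h
  have hle : ∀ m : ℕ, ‖1 - ζ ^ m‖ ≤ 1 := by
    intro m
    refine (norm_sub_le_max 1 (ζ ^ m)).trans ?_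
    rw [norm_one, norm_pow, hn, one_pow, max_self]
  -- reduce `k` modulo `p`
  have hk' : ζ ^ k = ζ ^ (k % p) := by
    conv_lhs => rw [← Nat.div_add_mod k p, pow_add, pow_mul, hζ.pow_eq_one, one_pow, one_mul]
  have hkp : k % p ≠ 0 := fun h => hk (Nat.dvd_of_mod_eq_zero h)
  have hlt : k % p < p := Nat.mod_lt k (by omega)
  obtain ⟨n, rfl⟩ : ∃ n, p = n + 1 := ⟨p - 1, by omega⟩
  have hprod := hζ.prod_one_sub_pow_eq_order
  have hnorm := congrArg norm hprod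
  rw [norm_prod] at hnorm
  have hcast : ‖((n : K) + 1)‖ = 1 := by
    have : ((n + 1 : ℕ) : K) = (n : K) + 1 := by push_cast; ring
    rw [← this]
    exact hpK
  rw [hcast] at hnorm
  -- the factor with index `k % p - 1`
  have hmem : (k % (n + 1) - 1) ∈ Finset.range n := by
    rw [Finset.mem_range]
    omega
  have hsplit := Finset.mul_prod_erase (Finset.range n) (fun j => ‖1 - ζ ^ (j + 1)‖) hmem
  have hothers : ∏ j ∈ (Finset.range n).erase (k % (n + 1) - 1), ‖1 - ζ ^ (j + 1)‖ ≤ 1 :=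
    Finset.prod_le_one (fun j _ => norm_nonneg _) fun j _ => hle (j + 1)
  have hidx : k % (n + 1) - 1 + 1 = k % (n + 1) := by omega
  simp only [hidx] at hsplit
  have h1 : 1 ≤ ‖1 - ζ ^ (k % (n + 1))‖ := by
    have hnn : 0 ≤ ‖1 - ζ ^ (k % (n + 1))‖ := norm_nonneg _
    calc (1 : ℝ) = ‖1 - ζ ^ (k % (n + 1))‖ *
          ∏ j ∈ (Finset.range n).erase (k % (n + 1) - 1), ‖1 - ζ ^ (j + 1)‖ := by
            rw [hsplit, hnorm]
      _ ≤ ‖1 - ζ ^ (k % (n + 1))‖ * 1 := by gcongr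
      _ = ‖1 - ζ ^ (k % (n + 1))‖ := mul_one _
  rw [hk']
  exact le_antisymm (hle _) h1

theorem norm_root_sub_root (ζ : K) (p : ℕ) (hp : 2 ≤ p) (hζ : IsPrimitiveRoot ζ p)
    (hpK : ‖(p : K)‖ = 1) (a b : ℕ) (hab : ¬ (a : ZMod p) = (b : ZMod p)) :
    ‖ζ ^ a - ζ ^ b‖ = 1 := by
  have hn : ‖ζ‖ = 1 := by
    have h := congrArg norm hζ.pow_eq_one
    rw [norm_pow, norm_one] at h
    exact (pow_eq_one_iff_of_nonneg (norm_nonneg ζ) (by omega)).1 h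
  wlog hle : a ≤ b generalizing a b
  · rw [← norm_neg, neg_sub]
    exact this b a (fun h => hab h.symm) (by omega)
  obtain ⟨c, rfl⟩ := Nat.exists_eq_add_of_le hle
  have hc : ¬ p ∣ c := by
    intro h
    apply hab
    rw [Nat.cast_add, (ZMod.natCast_eq_zero_iff c p).2 h, add_zero]
  have e : ζ ^ a - ζ ^ (a + c) = ζ ^ a * (1 - ζ ^ c) := by ring
  rw [e, norm_mul, norm_pow, hn, one_pow, one_mul, norm_one_sub_root ζ p hp hζ hpK c hc]

/-! ### Lambert forms (general `u` in the range of convergence) -/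

section General

variable (u q : K) (h0 : u ≠ 0) (h1 : u ≠ 1) (hρq : rho u * ‖q‖ < 1)

include h0 h1 hρq in
theorem XK_lambert :
    (Summable fun d : ℕ+ => aX u d * (q ^ (d : ℕ) / (1 - q ^ (d : ℕ)))) ∧
      XK u q = u * ((1 - u)⁻¹) ^ 2 + ∑' d : ℕ+, aX u d * (q ^ (d : ℕ) / (1 - q ^ (d : ℕ))) := by
  have hq1 := norm_lt_one_of_rho u h0 q hρq
  have hρ0 : (0 : ℝ) ≤ rho u := zero_le_one.trans (one_le_rho u h0)
  have L := lambert_single (aX u) q 4 (rho u) 1 (by norm_num) hρ0 hq1 hρq (norm_aX_le u h0)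
  refine ⟨L.1, ?_⟩
  rw [XK_eq u q h0 h1, ev_tX u h0 h1 q hρq, L.2]

include h0 h1 hρq in
theorem YK_lambert :
    (Summable fun d : ℕ+ => aY u d * (q ^ (d : ℕ) / (1 - q ^ (d : ℕ)))) ∧
      YK u q = u ^ 2 * ((1 - u)⁻¹) ^ 3 + ∑' d : ℕ+, aY u d * (q ^ (d : ℕ) / (1 - q ^ (d : ℕ))) := by
  have hq1 := norm_lt_one_of_rho u h0 q hρq
  have hρ0 : (0 : ℝ) ≤ rho u := zero_le_one.trans (one_le_rho u h0)
  have L := lambert_single (aY u) q 6 (rho u) 2 (by norm_num) hρ0 hq1 hρq (norm_aY_le u h0)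
  refine ⟨L.1, ?_⟩
  rw [YK_eq u q h0 h1, ev_tY u h0 h1 q hρq, L.2]

end General

/-! ### the unit circle `‖u‖ = 1` -/

section Unit

variable (u q : K) (hu : ‖u‖ = 1) (h1 : u ≠ 1) (hq : ‖q‖ < 1)

include hu in
theorem ne_zero_of_norm_one : u ≠ 0 := by
  intro h
  rw [h, norm_zero] at hu
  exact zero_ne_one hu

include hu in
theorem rho_of_norm_one : rho u = 1 := by
  unfold rho
  rw [hu, inv_one, max_self]

include hu in
theorem norm_aX_le_one (d : ℕ) : ‖aX u d‖ ≤ 1 := by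
  rw [aX, norm_mul]
  have e1 : ‖u ^ d + u⁻¹ ^ d - 2‖ ≤ 1 := by
    refine (norm_sub_le_max _ _).trans (max_le ?_ ?_)
    · refine (IsUltrametricDist.norm_add_le_max _ _).trans (max_le ?_ ?_)
      · rw [norm_pow, hu, one_pow]
      · rw [norm_pow, norm_inv, hu, inv_one, one_pow]
    · have := norm_natCast_le_one (K := K) 2
      simpa using this
  calc ‖(d : K)‖ * ‖u ^ d + u⁻¹ ^ d - 2‖ ≤ 1 * 1 := by
        gcongr
        exact norm_natCast_le_one d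
    _ = 1 := one_mul 1

include hu in
theorem norm_aY_le_one (d : ℕ) : ‖aY u d‖ ≤ 1 := by
  rw [aY]
  refine (IsUltrametricDist.norm_add_le_max _ _).trans (max_le ?_ (norm_natCast_le_one d))
  refine (norm_sub_le_max _ _).trans (max_le ?_ ?_)
  · rw [norm_mul, norm_pow, hu, one_pow, mul_one]
    exact norm_natCast_le_one _
  · rw [norm_mul, norm_pow, norm_inv, hu, inv_one, one_pow, mul_one]
    exact norm_natCast_le_one _

include hu h1 hq in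
/-- `X(u, q) ≡ u/(1-u)²` modulo `q` on the unit circle. -/
theorem XK_approx_unit : ‖XK u q - u * ((1 - u)⁻¹) ^ 2‖ ≤ ‖q‖ := by
  have h0 := ne_zero_of_norm_one u hu
  have hρq : rho u * ‖q‖ < 1 := by rw [rho_of_norm_one u hu, one_mul]; exact hq
  rw [(XK_lambert u q h0 h1 hρq).2, add_sub_cancel_left]
  refine IsUltrametricDist.norm_tsum_le_of_forall_le_of_nonneg (norm_nonneg q) fun d => ?_
  rw [norm_mul]
  calc ‖aX u d‖ * ‖q ^ (d : ℕ) / (1 - q ^ (d : ℕ))‖ ≤ 1 * ‖q‖ := by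
        gcongr
        · exact norm_aX_le_one u hu d
        · exact norm_Q_le hq d d.ne_zero
    _ = ‖q‖ := one_mul _

include hu h1 hq in
/-- `Y(u, q) ≡ u²/(1-u)³` modulo `q` on the unit circle. -/
theorem YK_approx_unit : ‖YK u q - u ^ 2 * ((1 - u)⁻¹) ^ 3‖ ≤ ‖q‖ := by
  have h0 := ne_zero_of_norm_one u hu
  have hρq : rho u * ‖q‖ < 1 := by rw [rho_of_norm_one u hu, one_mul]; exact hq
  rw [(YK_lambert u q h0 h1 hρq).2, add_sub_cancel_left]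
  refine IsUltrametricDist.norm_tsum_le_of_forall_le_of_nonneg (norm_nonneg q) fun d => ?_
  rw [norm_mul]
  calc ‖aY u d‖ * ‖q ^ (d : ℕ) / (1 - q ^ (d : ℕ))‖ ≤ 1 * ‖q‖ := by
        gcongr
        · exact norm_aY_le_one u hu d
        · exact norm_Q_le hq d d.ne_zero
    _ = ‖q‖ := one_mul _

end Unit

/-! ### the open annulus `‖q‖ < ‖u‖ < 1` -/

section Mid

variable (u q : K) (h0 : u ≠ 0) (hu : ‖u‖ < 1) (hqu : ‖q‖ < ‖u‖)

/-- `max ‖u‖ ‖q/u‖`. -/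
noncomputable def Mid (u q : K) : ℝ := max ‖u‖ (‖q‖ / ‖u‖)

include h0 hu hqu in
theorem Mid_lt_one : Mid u q < 1 := by
  have hu0 : 0 < ‖u‖ := norm_pos_iff.2 h0
  unfold Mid
  exact max_lt hu ((div_lt_one hu0).2 hqu)

theorem Mid_nonneg : 0 ≤ Mid u q := (norm_nonneg u).trans (le_max_left _ _)

include h0 hu in
theorem norm_aX_le_mid (d : ℕ) : ‖aX u d‖ ≤ (‖u‖⁻¹) ^ d := by
  have hu0 : 0 < ‖u‖ := norm_pos_iff.2 h0
  have hinv : 1 ≤ (‖u‖⁻¹) ^ d := one_le_pow₀ (one_le_inv₀ hu0 |>.2 hu.le)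
  rw [aX, norm_mul]
  have e1 : ‖u ^ d + u⁻¹ ^ d - 2‖ ≤ (‖u‖⁻¹) ^ d := by
    refine (norm_sub_le_max _ _).trans (max_le ?_ ?_)
    · refine (IsUltrametricDist.norm_add_le_max _ _).trans (max_le ?_ ?_)
      · rw [norm_pow]
        exact (pow_le_one₀ (norm_nonneg u) hu.le).trans hinv
      · rw [norm_pow, norm_inv]
    · have := norm_natCast_le_one (K := K) 2
      have h2 : ‖(2 : K)‖ ≤ 1 := by simpa using this
      exact h2.trans hinv
  calc ‖(d : K)‖ * ‖u ^ d + u⁻¹ ^ d - 2‖ ≤ 1 * (‖u‖⁻¹) ^ d := by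
        gcongr
        exact norm_natCast_le_one d
    _ = (‖u‖⁻¹) ^ d := one_mul _

include h0 hu in
theorem norm_aY_le_mid (d : ℕ) : ‖aY u d‖ ≤ (‖u‖⁻¹) ^ d := by
  have hu0 : 0 < ‖u‖ := norm_pos_iff.2 h0
  have hinv : 1 ≤ (‖u‖⁻¹) ^ d := one_le_pow₀ (one_le_inv₀ hu0 |>.2 hu.le)
  rw [aY]
  refine (IsUltrametricDist.norm_add_le_max _ _).trans
    (max_le ?_ ((norm_natCast_le_one d).trans hinv))
  refine (norm_sub_le_max _ _).trans (max_le ?_ ?_)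
  · rw [norm_mul, norm_pow]
    calc ‖((d.choose 2 : ℕ) : K)‖ * ‖u‖ ^ d ≤ 1 * 1 := by
          gcongr
          · exact norm_natCast_le_one _
          · exact pow_le_one₀ (norm_nonneg u) hu.le
      _ ≤ (‖u‖⁻¹) ^ d := by rw [one_mul]; exact hinv
  · rw [norm_mul, norm_pow, norm_inv]
    calc ‖(((d + 1).choose 2 : ℕ) : K)‖ * (‖u‖⁻¹) ^ d ≤ 1 * (‖u‖⁻¹) ^ d := by
          gcongr
          exact norm_natCast_le_one _
      _ = (‖u‖⁻¹) ^ d := one_mul _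

include h0 hu hqu in
theorem norm_term_le_mid (a : ℕ → K) (ha : ∀ d, ‖a d‖ ≤ (‖u‖⁻¹) ^ d) (d : ℕ+) :
    ‖a d * (q ^ (d : ℕ) / (1 - q ^ (d : ℕ)))‖ ≤ (‖q‖ / ‖u‖) ^ (d : ℕ) := by
  have hq1 : ‖q‖ < 1 := hqu.trans hu
  rw [norm_mul, norm_Q hq1 d d.ne_zero, div_pow, div_eq_mul_inv, mul_comm, ← inv_pow]
  gcongr
  exact ha d

include h0 hu hqu in
theorem pow_div_le (d : ℕ) (hd : 1 ≤ d) : (‖q‖ / ‖u‖) ^ d ≤ ‖q‖ / ‖u‖ := by
  have hu0 : 0 < ‖u‖ := norm_pos_iff.2 h0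
  have h1 : ‖q‖ / ‖u‖ < 1 := (div_lt_one hu0).2 hqu
  have h0' : 0 ≤ ‖q‖ / ‖u‖ := div_nonneg (norm_nonneg q) hu0.le
  calc (‖q‖ / ‖u‖) ^ d ≤ (‖q‖ / ‖u‖) ^ 1 := pow_le_pow_of_le_one h0' h1.le hd
    _ = ‖q‖ / ‖u‖ := pow_one _

include h0 hu hqu in
/-- **`‖X(u, q)‖ ≤ max ‖u‖ ‖q/u‖ < 1`** in the open annulus. -/
theorem norm_XK_le_mid : ‖XK u q‖ ≤ Mid u q := by
  have h1 := ne_one_of_norm_lt u hu
  have hρq := rho_mul_lt u q h0 hu hqu
  rw [(XK_lambert u q h0 h1 hρq).2]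
  refine (IsUltrametricDist.norm_add_le_max _ _).trans (max_le ?_ ?_)
  · rw [norm_mul, norm_pow, norm_inv, norm_one_sub_of_lt hu, inv_one, one_pow, mul_one]
    exact le_max_left _ _
  · refine (IsUltrametricDist.norm_tsum_le_of_forall_le_of_nonneg
      (div_nonneg (norm_nonneg q) (norm_nonneg u)) fun d => ?_).trans (le_max_right _ _)
    exact (norm_term_le_mid u q h0 hu hqu (aX u) (norm_aX_le_mid u h0 hu) d).trans
      (pow_div_le u q h0 hu hqu d d.2)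

include h0 hu hqu in
/-- **`‖Y(u, q)‖ ≤ max ‖u‖ ‖q/u‖ < 1`** in the open annulus. -/
theorem norm_YK_le_mid : ‖YK u q‖ ≤ Mid u q := by
  have h1 := ne_one_of_norm_lt u hu
  have hρq := rho_mul_lt u q h0 hu hqu
  rw [(YK_lambert u q h0 h1 hρq).2]
  refine (IsUltrametricDist.norm_add_le_max _ _).trans (max_le ?_ ?_)
  · rw [norm_mul, norm_pow, norm_pow, norm_inv, norm_one_sub_of_lt hu, inv_one, one_pow, mul_one]
    calc ‖u‖ ^ 2 ≤ ‖u‖ ^ 1 := pow_le_pow_of_le_one (norm_nonneg u) hu.le (by norm_num)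
      _ = ‖u‖ := pow_one _
      _ ≤ Mid u q := le_max_left _ _
  · refine (IsUltrametricDist.norm_tsum_le_of_forall_le_of_nonneg
      (div_nonneg (norm_nonneg q) (norm_nonneg u)) fun d => ?_).trans (le_max_right _ _)
    exact (norm_term_le_mid u q h0 hu hqu (aY u) (norm_aY_le_mid u h0 hu) d).trans
      (pow_div_le u q h0 hu hqu d d.2)

include h0 hu hqu in
/-- **`X(u, q) = u + q/u + O(max(‖u‖, ‖q/u‖)²)`** in the open annulus. -/
theorem XK_approx_mid : ‖XK u q - u - q / u‖ ≤ Mid u q ^ 2 := by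
  have h1 := ne_one_of_norm_lt u hu
  have hρq := rho_mul_lt u q h0 hu hqu
  have hq1 : ‖q‖ < 1 := hqu.trans hu
  have hu0 : 0 < ‖u‖ := norm_pos_iff.2 h0
  have hM1 : ‖u‖ ≤ Mid u q := le_max_left _ _
  have hM2 : ‖q‖ / ‖u‖ ≤ Mid u q := le_max_right _ _
  have hMnn := Mid_nonneg u q
  have hqM : ‖q‖ ≤ Mid u q ^ 2 := by
    calc ‖q‖ = ‖u‖ * (‖q‖ / ‖u‖) := by field_simp
      _ ≤ Mid u q * Mid u q := by gcongr
      _ = Mid u q ^ 2 := by ring
  obtain ⟨sL, hL⟩ := XK_lambert u q h0 h1 hρq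
  -- split
  have hz : (1 - u) ≠ 0 := one_sub_ne_zero hu
  have e : XK u q - u - q / u = (u * ((1 - u)⁻¹) ^ 2 - u) +
      ((∑' d : ℕ+, aX u d * (q ^ (d : ℕ) / (1 - q ^ (d : ℕ)))) - q / u) := by
    rw [hL]
    ring
  rw [e]
  refine (IsUltrametricDist.norm_add_le_max _ _).trans (max_le ?_ ?_)
  · -- `u/(1-u)² - u = u² (2 - u)/(1-u)²`
    have e2 : u * ((1 - u)⁻¹) ^ 2 - u = u ^ 2 * (2 - u) * ((1 - u)⁻¹) ^ 2 := by
      field_simp
      ring
    rw [e2, norm_mul, norm_mul, norm_pow, norm_pow, norm_inv, norm_one_sub_of_lt hu, inv_one,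
      one_pow, mul_one]
    have h2 : ‖(2 : K) - u‖ ≤ 1 := by
      refine (norm_sub_le_max _ _).trans (max_le ?_ hu.le)
      have := norm_natCast_le_one (K := K) 2
      simpa using this
    calc ‖u‖ ^ 2 * ‖(2 : K) - u‖ ≤ Mid u q ^ 2 * 1 := by gcongr
      _ = Mid u q ^ 2 := mul_one _
  · -- the Lambert part minus `q/u`
    have hsingle : HasSum (fun d : ℕ+ => if d = 1 then q / u else 0) (q / u) := by
      have := hasSum_ite_eq (1 : ℕ+) (q / u)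
      exact this
    have e3 : (∑' d : ℕ+, aX u d * (q ^ (d : ℕ) / (1 - q ^ (d : ℕ)))) - q / u =
        ∑' d : ℕ+, (aX u d * (q ^ (d : ℕ) / (1 - q ^ (d : ℕ))) -
          (if d = 1 then q / u else 0)) := by
      rw [sL.tsum_sub hsingle.summable, hsingle.tsum_eq]
    rw [e3]
    refine IsUltrametricDist.norm_tsum_le_of_forall_le_of_nonneg (sq_nonneg _) fun d => ?_
    by_cases hd : d = 1
    · subst hd
      rw [if_pos rfl]
      have hq1' : (1 - q) ≠ 0 := one_sub_ne_zero hq1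
      have e4 : aX u ((1 : ℕ+) : ℕ) * (q ^ ((1 : ℕ+) : ℕ) / (1 - q ^ ((1 : ℕ+) : ℕ))) - q / u =
          q * (u - 2) * (1 - q)⁻¹ + q * (q / u) * (1 - q)⁻¹ := by
        rw [aX]
        simp only [PNat.one_coe, Nat.cast_one, pow_one, one_mul]
        field_simp
        ring
      rw [e4]
      refine (IsUltrametricDist.norm_add_le_max _ _).trans (max_le ?_ ?_)
      · rw [norm_mul, norm_mul, norm_inv, norm_one_sub_of_lt hq1, inv_one, mul_one]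
        have h2 : ‖u - 2‖ ≤ 1 := by
          refine (norm_sub_le_max _ _).trans (max_le hu.le ?_)
          have := norm_natCast_le_one (K := K) 2
          simpa using this
        calc ‖q‖ * ‖u - 2‖ ≤ ‖q‖ * 1 := by gcongr
          _ = ‖q‖ := mul_one _
          _ ≤ Mid u q ^ 2 := hqM
      · rw [norm_mul, norm_mul, norm_inv, norm_one_sub_of_lt hq1, inv_one, mul_one, norm_div]
        have h3 : ‖q‖ / ‖u‖ ≤ 1 := ((div_lt_one hu0).2 hqu).le
        calc ‖q‖ * (‖q‖ / ‖u‖) ≤ ‖q‖ * 1 := by gcongr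
          _ = ‖q‖ := mul_one _
          _ ≤ Mid u q ^ 2 := hqM
    · rw [if_neg hd, sub_zero]
      have hd2 : 2 ≤ (d : ℕ) := by
        have h1 : 1 ≤ (d : ℕ) := d.2
        have hne : (d : ℕ) ≠ 1 := fun h => hd (PNat.coe_injective h)
        omega
      have hlt : ‖q‖ / ‖u‖ < 1 := (div_lt_one hu0).2 hqu
      have hnn : 0 ≤ ‖q‖ / ‖u‖ := div_nonneg (norm_nonneg q) hu0.le
      calc ‖aX u d * (q ^ (d : ℕ) / (1 - q ^ (d : ℕ)))‖ ≤ (‖q‖ / ‖u‖) ^ (d : ℕ) :=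
            norm_term_le_mid u q h0 hu hqu (aX u) (norm_aX_le_mid u h0 hu) d
        _ ≤ (‖q‖ / ‖u‖) ^ 2 := pow_le_pow_of_le_one hnn hlt.le hd2
        _ ≤ Mid u q ^ 2 := by gcongr

end Mid

end Fermat.Agent.MZ.MOD.TateNorm4
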