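/-
Programme MZ (S15, Mazur), chapter MOD-E (helper4): **the `p`-torsion parameters of the Tate curve.**
`K` complete ultrametric of characteristic zero, `p` an odd prime with `‖p‖ = 1`,
`D : TorsData K p` = a parameter `q` (`0 < ‖q‖ < 1`), a `p`-th root `q'` of `q`, a primitive `p`-th
root of unity `ζ`, and `Δ(E_q) ≠ 0`.  For `s = (a, b) ∈ (ZMod p)²` the torsion parameter is
`uT D s = ζ^a q'^b` (representatives `0 ≤ a, b < p`), lying in the half-open annulus
`‖q‖ < ‖u‖ ≤ 1`, and `tP D s` is the corresponding point of `E_q` (`0` for `s = 0`).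
-/
import Mathlib
import Fermat.Agent.MZ.MOD.TateNorm4

set_option autoImplicit false
set_option linter.unusedSectionVars false
set_option linter.unusedVariables false

open PowerSeries

namespace Fermat.Agent.MZ.MOD.TateTors4

open TateFormal4 PSEval4 Regroup4 TateEval4 TateD4 TateLambert4 TateCurve4 TateSym4 TateNorm4

variable {K : Type*} [NormedField K] [IsUltrametricDist K] [CompleteSpace K] [CharZero K]

/-- the data for the `p`-torsion of the Tate curve. -/
structure TorsData (K : Type*) [NormedField K] [IsUltrametricDist K] [CompleteSpace K] [CharZero K]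
    (p : ℕ) where
  /-- the Tate parameter -/
  q : K
  /-- a `p`-th root of `q` -/
  q' : K
  /-- a primitive `p`-th root of unity -/
  ζ : K
  hq0 : q ≠ 0
  hq1 : ‖q‖ < 1
  hq' : q' ^ p = q
  hζ : IsPrimitiveRoot ζ p
  hpK : ‖(p : K)‖ = 1
  hΔ : (tateCurve q).Δ ≠ 0

variable {p : ℕ} [hp : Fact p.Prime] (D : TorsData K p)

theorem p_pos : 0 < p := hp.out.pos

theorem two_le_p : 2 ≤ p := hp.out.two_le

theorem q'_ne_zero : D.q' ≠ 0 := by
  intro h
  have := D.hq'
  rw [h, zero_pow (p_pos (p := p)).ne'] at this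
  exact D.hq0 this.symm

theorem norm_q'_pos : 0 < ‖D.q'‖ := norm_pos_iff.2 (q'_ne_zero D)

theorem norm_q'_pow : ‖D.q'‖ ^ p = ‖D.q‖ := by
  rw [← norm_pow, D.hq']

theorem norm_q'_lt_one : ‖D.q'‖ < 1 := by
  by_contra h
  push Not at h
  have h1 : 1 ≤ ‖D.q'‖ ^ p := one_le_pow₀ h
  rw [norm_q'_pow] at h1
  exact absurd D.hq1 (not_lt.2 h1)

theorem norm_ζ : ‖D.ζ‖ = 1 := by
  have h := congrArg norm D.hζ.pow_eq_one
  rw [norm_pow, norm_one] at h
  exact (pow_eq_one_iff_of_nonneg (norm_nonneg D.ζ) (p_pos (p := p)).ne').1 h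

/-- **the torsion parameter** `ζ^a q'^b`. -/
noncomputable def uT (s : ZMod p × ZMod p) : K := D.ζ ^ s.1.val * D.q' ^ s.2.val

theorem norm_uT (s : ZMod p × ZMod p) : ‖uT D s‖ = ‖D.q'‖ ^ s.2.val := by
  rw [uT, norm_mul, norm_pow, norm_ζ, one_pow, one_mul, norm_pow]

theorem uT_ne_zero (s : ZMod p × ZMod p) : uT D s ≠ 0 := by
  rw [← norm_pos_iff, norm_uT]
  exact pow_pos (norm_q'_pos D) _

theorem val_lt (a : ZMod p) : a.val < p := by
  have : NeZero p := ⟨(p_pos (p := p)).ne'⟩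
  exact ZMod.val_lt a

theorem norm_uT_le_one (s : ZMod p × ZMod p) : ‖uT D s‖ ≤ 1 := by
  rw [norm_uT]
  exact pow_le_one₀ (norm_q'_pos D).le (norm_q'_lt_one D).le

theorem norm_q_lt_norm_uT (s : ZMod p × ZMod p) : ‖D.q‖ < ‖uT D s‖ := by
  rw [norm_uT, ← norm_q'_pow]
  exact pow_lt_pow_right_of_lt_one₀ (norm_q'_pos D) (norm_q'_lt_one D) (val_lt s.2)

theorem norm_uT_lt_one (s : ZMod p × ZMod p) (hs : s.2 ≠ 0) : ‖uT D s‖ < 1 := by
  rw [norm_uT]
  refine pow_lt_one₀ (norm_q'_pos D).le (norm_q'_lt_one D) ?_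
  intro h
  exact hs ((ZMod.val_eq_zero s.2).1 h)

theorem norm_uT_eq_one (s : ZMod p × ZMod p) (hs : s.2 = 0) : ‖uT D s‖ = 1 := by
  rw [norm_uT, hs, ZMod.val_zero, pow_zero]

theorem uT_zero : uT D 0 = 1 := by
  rw [uT]
  simp

theorem uT_ne_one (s : ZMod p × ZMod p) (hs : s ≠ 0) : uT D s ≠ 1 := by
  intro h
  by_cases h2 : s.2 = 0
  · have h1 : s.1 ≠ 0 := fun h1 => hs (Prod.ext h1 h2)
    rw [uT, h2, ZMod.val_zero, pow_zero, mul_one] at h
    have hdvd := (D.hζ.pow_eq_one_iff_dvd _).1 h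
    have hlt := val_lt s.1
    have hpos : 0 < s.1.val := Nat.pos_of_ne_zero fun h0 => h1 ((ZMod.val_eq_zero s.1).1 h0)
    exact absurd (Nat.le_of_dvd hpos hdvd) (not_le.2 hlt)
  · have := norm_uT_lt_one D s h2
    rw [h, norm_one] at this
    exact lt_irrefl _ this

theorem rho_uT_mul_lt (s : ZMod p × ZMod p) : rho (uT D s) * ‖D.q‖ < 1 := by
  have h0 := norm_pos_iff.2 (uT_ne_zero D s)
  have hr : rho (uT D s) = ‖uT D s‖⁻¹ := by
    unfold rho
    exact max_eq_right ((norm_uT_le_one D s).trans (one_le_inv₀ h0 |>.2 (norm_uT_le_one D s)))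
  rw [hr, inv_mul_lt_iff₀ h0, mul_one]
  exact norm_q_lt_norm_uT D s

/-- on an elliptic Tate curve the parametrised points are nonsingular. -/
theorem nonsingular_uT (s : ZMod p × ZMod p) (hs : s ≠ 0) :
    (tateCurve D.q).toAffine.Nonsingular (XK (uT D s) D.q) (YK (uT D s) D.q) :=
  (WeierstrassCurve.Affine.equation_iff_nonsingular_of_Δ_ne_zero D.hΔ).1
    (tateCurve_equation (uT D s) D.q (uT_ne_zero D s) (uT_ne_one D s hs) (rho_uT_mul_lt D s))

open Classical in
/-- **the torsion point** `P_{u_s}` (`0` for `s = 0`). -/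
noncomputable def tP (s : ZMod p × ZMod p) : (tateCurve D.q).toAffine.Point :=
  if hs : s = 0 then 0 else .some _ _ (nonsingular_uT D s hs)

theorem tP_zero : tP D 0 = 0 := dif_pos rfl

theorem tP_of_ne (s : ZMod p × ZMod p) (hs : s ≠ 0) :
    tP D s = .some _ _ (nonsingular_uT D s hs) := dif_neg hs

end Fermat.Agent.MZ.MOD.TateTors4
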