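/-
Programme MZ (S15, Mazur), chapter MOD-E (helper4): **`X` is injective modulo `±` on the
`p`-torsion parameters** `uT D s = ζ^a q'^b` of the Tate curve: for `s, t ≠ 0`,
`XK (uT D s) q = XK (uT D t) q → t = s ∨ t = -s`.  Proof by ultrametric leading terms
(`TateNorm4`): `X(u) = u + q/u + O(max(‖u‖,‖q/u‖)²)` in the open annulus, `X(u) ≡ u/(1-u)²` on the
unit circle.
-/
import Mathlib
import Fermat.Agent.MZ.MOD.TateTors4

set_option autoImplicit false
set_option linter.unusedSectionVars false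
set_option linter.unusedVariables false

open PowerSeries

namespace Fermat.Agent.MZ.MOD.TateInj4

open TateFormal4 PSEval4 Regroup4 TateEval4 TateD4 TateLambert4 TateCurve4 TateSym4 TateNorm4
  TateTors4

variable {K : Type*} [NormedField K] [IsUltrametricDist K] [CompleteSpace K]

/-! ### the `K`-level separation lemmas -/

section Sep

variable (u v q : K)

/-- in the open annulus, with `‖u‖ ≠ ‖q/u‖`: `‖X(u)‖ = max ‖u‖ ‖q/u‖`. -/
theorem norm_XK_mid (h0 : u ≠ 0) (hu : ‖u‖ < 1) (hqu : ‖q‖ < ‖u‖) (hne : ‖u‖ ≠ ‖q‖ / ‖u‖) :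
    ‖XK u q‖ = Mid u q := by
  have hu0 : 0 < ‖u‖ := norm_pos_iff.2 h0
  have hM1 := Mid_lt_one u q h0 hu hqu
  have hMpos : 0 < Mid u q := hu0.trans_le (le_max_left _ _)
  have hlead : ‖u + q / u‖ = Mid u q := by
    have hne' : ‖u‖ ≠ ‖q / u‖ := by rwa [norm_div]
    rw [IsUltrametricDist.norm_add_eq_max_of_norm_ne_norm hne', norm_div]
    rfl
  have hR := XK_approx_mid u q h0 hu hqu
  have hlt : ‖XK u q - u - q / u‖ < ‖u + q / u‖ := by
    rw [hlead]
    calc ‖XK u q - u - q / u‖ ≤ Mid u q ^ 2 := hR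
      _ = Mid u q * Mid u q := by ring
      _ < Mid u q * 1 := by gcongr
      _ = Mid u q := mul_one _
  have e : XK u q = (u + q / u) + (XK u q - u - q / u) := by ring
  rw [e, norm_add_eq_left hlt, hlead]

/-- separation in the open annulus from the leading terms. -/
theorem XK_ne_of_mid (hu0 : u ≠ 0) (hv0 : v ≠ 0) (hu : ‖u‖ < 1) (hv : ‖v‖ < 1)
    (hqu : ‖q‖ < ‖u‖) (hqv : ‖q‖ < ‖v‖) (hM : Mid u q = Mid v q)
    (hlead : ‖(u - v) * (1 - q / (u * v))‖ = Mid u q) : XK u q ≠ XK v q := by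
  intro hX
  have hun : 0 < ‖u‖ := norm_pos_iff.2 hu0
  have hM1 := Mid_lt_one u q hu0 hu hqu
  have hMpos : 0 < Mid u q := hun.trans_le (le_max_left _ _)
  have hRu := XK_approx_mid u q hu0 hu hqu
  have hRv := XK_approx_mid v q hv0 hv hqv
  rw [← hM] at hRv
  have e : (u - v) * (1 - q / (u * v)) =
      (XK v q - v - q / v) - (XK u q - u - q / u) := by
    rw [hX]
    field_simp
    ring
  have hle : ‖(u - v) * (1 - q / (u * v))‖ ≤ Mid u q ^ 2 := by
    rw [e]
    exact (norm_sub_le_max _ _).trans (max_le hRv hRu)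
  rw [hlead] at hle
  have : Mid u q ^ 2 < Mid u q := by
    calc Mid u q ^ 2 = Mid u q * Mid u q := by ring
      _ < Mid u q * 1 := by gcongr
      _ = Mid u q := mul_one _
  linarith

/-- on the unit circle away from `1`: `‖X(u)‖ = 1`. -/
theorem norm_XK_unit (hu : ‖u‖ = 1) (hu1 : ‖1 - u‖ = 1) (hq : ‖q‖ < 1) : ‖XK u q‖ = 1 := by
  have h1 : u ≠ 1 := by
    intro h
    rw [h, sub_self, norm_zero] at hu1
    exact zero_ne_one hu1
  have hf : ‖u * ((1 - u)⁻¹) ^ 2‖ = 1 := by
    rw [norm_mul, norm_pow, norm_inv, hu, hu1, inv_one, one_pow, mul_one]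
  have hE := XK_approx_unit u q hu h1 hq
  have hlt : ‖XK u q - u * ((1 - u)⁻¹) ^ 2‖ < ‖u * ((1 - u)⁻¹) ^ 2‖ := by
    rw [hf]
    exact hE.trans_lt hq
  have e : XK u q = u * ((1 - u)⁻¹) ^ 2 + (XK u q - u * ((1 - u)⁻¹) ^ 2) := by ring
  rw [e, norm_add_eq_left hlt, hf]

/-- separation on the unit circle. -/
theorem XK_ne_of_unit (hu : ‖u‖ = 1) (hv : ‖v‖ = 1) (hu1 : ‖1 - u‖ = 1) (hv1 : ‖1 - v‖ = 1)
    (huv : ‖u - v‖ = 1) (huv' : ‖1 - u * v‖ = 1) (hq : ‖q‖ < 1) : XK u q ≠ XK v q := by
  intro hX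
  have h1 : u ≠ 1 := by
    intro h
    rw [h, sub_self, norm_zero] at hu1
    exact zero_ne_one hu1
  have h1' : v ≠ 1 := by
    intro h
    rw [h, sub_self, norm_zero] at hv1
    exact zero_ne_one hv1
  have hz : (1 - u) ≠ 0 := sub_ne_zero.2 (Ne.symm h1)
  have hz' : (1 - v) ≠ 0 := sub_ne_zero.2 (Ne.symm h1')
  have hEu := XK_approx_unit u q hu h1 hq
  have hEv := XK_approx_unit v q hv h1' hq
  have e : (u - v) * (1 - u * v) * ((1 - u)⁻¹) ^ 2 * ((1 - v)⁻¹) ^ 2 =
      (XK v q - v * ((1 - v)⁻¹) ^ 2) - (XK u q - u * ((1 - u)⁻¹) ^ 2) := by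
    rw [hX]
    field_simp
    ring
  have hle : ‖(u - v) * (1 - u * v) * ((1 - u)⁻¹) ^ 2 * ((1 - v)⁻¹) ^ 2‖ ≤ ‖q‖ := by
    rw [e]
    exact (norm_sub_le_max _ _).trans (max_le hEv hEu)
  rw [norm_mul, norm_mul, norm_mul, norm_pow, norm_pow, norm_inv, norm_inv, huv, huv', hu1, hv1,
    inv_one, one_pow, mul_one, mul_one, mul_one] at hle
  linarith

end Sep

/-! ### the torsion parameters -/

section Main

variable [CharZero K] {p : ℕ} [hp : Fact p.Prime] (D : TorsData K p)

theorem pow_max (x : ℝ) (hx0 : 0 < x) (hx1 : x < 1) (m n : ℕ) :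
    max (x ^ m) (x ^ n) = x ^ (min m n) := by
  rcases le_total m n with h | h
  · rw [min_eq_left h, max_eq_left (pow_le_pow_of_le_one hx0.le hx1.le h)]
  · rw [min_eq_right h, max_eq_right (pow_le_pow_of_le_one hx0.le hx1.le h)]

theorem norm_q_div_uT (s : ZMod p × ZMod p) :
    ‖D.q‖ / ‖uT D s‖ = ‖D.q'‖ ^ (p - s.2.val) := by
  have hpos := norm_q'_pos D
  rw [norm_uT, ← norm_q'_pow, div_eq_iff (pow_ne_zero _ hpos.ne'), ← pow_add,
    Nat.sub_add_cancel (val_lt s.2).le]

theorem Mid_uT (s : ZMod p × ZMod p) :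
    Mid (uT D s) D.q = ‖D.q'‖ ^ (min s.2.val (p - s.2.val)) := by
  unfold Mid
  rw [norm_q_div_uT, norm_uT, pow_max _ (norm_q'_pos D) (norm_q'_lt_one D)]

theorem pow_q'_inj {m n : ℕ} (h : ‖D.q'‖ ^ m = ‖D.q'‖ ^ n) : m = n :=
  pow_right_injective₀ (norm_q'_pos D) (norm_q'_lt_one D).ne h

theorem val_pos_of_ne {a : ZMod p} (ha : a ≠ 0) : 0 < a.val :=
  Nat.pos_of_ne_zero fun h0 => ha ((ZMod.val_eq_zero a).1 h0)

theorem not_dvd_val {a : ZMod p} (ha : a ≠ 0) : ¬ p ∣ a.val := fun h =>
  absurd (Nat.le_of_dvd (val_pos_of_ne ha) h) (not_le.2 (val_lt a))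

theorem natCast_val (a : ZMod p) : ((a.val : ℕ) : ZMod p) = a := by
  have : NeZero p := ⟨(p_pos (p := p)).ne'⟩
  exact ZMod.natCast_zmod_val a

theorem not_dvd_add {a a' : ZMod p} (h : a + a' ≠ 0) : ¬ p ∣ a.val + a'.val := by
  intro hd
  apply h
  have := (ZMod.natCast_eq_zero_iff (a.val + a'.val) p).2 hd
  rwa [Nat.cast_add, natCast_val, natCast_val] at this

theorem norm_one_sub_inv_root (n : ℕ) (hn : ¬ p ∣ n) : ‖1 - (D.ζ ^ n)⁻¹‖ = 1 := by
  have hz : D.ζ ^ n ≠ 0 := pow_ne_zero _ (D.hζ.ne_zero (p_pos (p := p)).ne')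
  have e : 1 - (D.ζ ^ n)⁻¹ = -((D.ζ ^ n)⁻¹ * (1 - D.ζ ^ n)) := by
    field_simp
    ring
  rw [e, norm_neg, norm_mul, norm_inv, norm_pow, norm_ζ, one_pow, inv_one, one_mul,
    norm_one_sub_root D.ζ p two_le_p D.hζ D.hpK n hn]

include hp in
/-- **`X` is injective modulo `±` on the torsion parameters.** -/
theorem XK_inj (hodd : p ≠ 2) (s t : ZMod p × ZMod p) (hs : s ≠ 0) (ht : t ≠ 0)
    (h : XK (uT D s) D.q = XK (uT D t) D.q) : t = s ∨ t = -s := by
  have hp2 : 2 ≤ p := two_le_p
  have hoddp : Odd p := hp.out.odd_of_ne_two hodd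
  have hπ0 := norm_q'_pos D
  have hπ1 := norm_q'_lt_one D
  obtain ⟨a, b⟩ := s
  obtain ⟨a', b'⟩ := t
  by_cases hb : b = 0
  · subst hb
    have ha : a ≠ 0 := fun h0 => hs (by rw [h0]; rfl)
    have hu : ‖uT D (a, 0)‖ = 1 := norm_uT_eq_one D (a, 0) rfl
    have hu_eq : uT D (a, 0) = D.ζ ^ a.val := by
      rw [uT]
      simp
    have hu1 : ‖1 - uT D (a, 0)‖ = 1 := by
      rw [hu_eq]
      exact norm_one_sub_root D.ζ p hp2 D.hζ D.hpK _ (not_dvd_val ha)
    by_cases hb' : b' = 0
    · subst hb'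
      have ha' : a' ≠ 0 := fun h0 => ht (by rw [h0]; rfl)
      have hv : ‖uT D (a', 0)‖ = 1 := norm_uT_eq_one D (a', 0) rfl
      have hv_eq : uT D (a', 0) = D.ζ ^ a'.val := by
        rw [uT]
        simp
      have hv1 : ‖1 - uT D (a', 0)‖ = 1 := by
        rw [hv_eq]
        exact norm_one_sub_root D.ζ p hp2 D.hζ D.hpK _ (not_dvd_val ha')
      by_contra hcon
      push Not at hcon
      have hne1 : a' ≠ a := fun h0 => hcon.1 (by rw [h0])
      have hne2 : a + a' ≠ 0 := by
        intro h0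
        apply hcon.2
        rw [Prod.neg_mk, neg_zero, Prod.mk.injEq]
        exact ⟨by linear_combination h0, rfl⟩
      have huv : ‖uT D (a, 0) - uT D (a', 0)‖ = 1 := by
        rw [hu_eq, hv_eq]
        refine norm_root_sub_root D.ζ p hp2 D.hζ D.hpK _ _ ?_
        rw [natCast_val, natCast_val]
        exact fun h0 => hne1 h0.symm
      have huv' : ‖1 - uT D (a, 0) * uT D (a', 0)‖ = 1 := by
        rw [hu_eq, hv_eq, ← pow_add]
        exact norm_one_sub_root D.ζ p hp2 D.hζ D.hpK _ (not_dvd_add hne2)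
      exact XK_ne_of_unit _ _ D.q hu hv hu1 hv1 huv huv' D.hq1 h
    · exfalso
      have h1 := norm_XK_unit (uT D (a, 0)) D.q hu hu1 D.hq1
      have h2 := norm_XK_le_mid (uT D (a', b')) D.q (uT_ne_zero D _)
        (norm_uT_lt_one D (a', b') hb') (norm_q_lt_norm_uT D _)
      have h3 := Mid_lt_one (uT D (a', b')) D.q (uT_ne_zero D _)
        (norm_uT_lt_one D (a', b') hb') (norm_q_lt_norm_uT D _)
      rw [← h, h1] at h2
      linarith
  · by_cases hb' : b' = 0
    · exfalso
      subst hb'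
      have ha' : a' ≠ 0 := fun h0 => ht (by rw [h0]; rfl)
      have hv : ‖uT D (a', 0)‖ = 1 := norm_uT_eq_one D (a', 0) rfl
      have hv_eq : uT D (a', 0) = D.ζ ^ a'.val := by
        rw [uT]
        simp
      have hv1 : ‖1 - uT D (a', 0)‖ = 1 := by
        rw [hv_eq]
        exact norm_one_sub_root D.ζ p hp2 D.hζ D.hpK _ (not_dvd_val ha')
      have h1 := norm_XK_unit (uT D (a', 0)) D.q hv hv1 D.hq1
      have h2 := norm_XK_le_mid (uT D (a, b)) D.q (uT_ne_zero D _)
        (norm_uT_lt_one D (a, b) hb) (norm_q_lt_norm_uT D _)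
      have h3 := Mid_lt_one (uT D (a, b)) D.q (uT_ne_zero D _)
        (norm_uT_lt_one D (a, b) hb) (norm_q_lt_norm_uT D _)
      rw [h, h1] at h2
      linarith
    · -- both in the open annulus
      have hbv : 0 < b.val := val_pos_of_ne hb
      have hbv' : 0 < b'.val := val_pos_of_ne hb'
      have hbl : b.val < p := val_lt b
      have hbl' : b'.val < p := val_lt b'
      have hne2b : b.val ≠ p - b.val := by
        obtain ⟨m, hm⟩ := hoddp
        omega
      have hne2b' : b'.val ≠ p - b'.val := by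
        obtain ⟨m, hm⟩ := hoddp
        omega
      have hu0 := uT_ne_zero D (a, b)
      have hv0 := uT_ne_zero D (a', b')
      have hu := norm_uT_lt_one D (a, b) hb
      have hv := norm_uT_lt_one D (a', b') hb'
      have hqu := norm_q_lt_norm_uT D (a, b)
      have hqv := norm_q_lt_norm_uT D (a', b')
      have hnu : ‖uT D (a, b)‖ ≠ ‖D.q‖ / ‖uT D (a, b)‖ := by
        rw [norm_q_div_uT, norm_uT]
        exact fun h0 => hne2b (pow_q'_inj D h0)
      have hnv : ‖uT D (a', b')‖ ≠ ‖D.q‖ / ‖uT D (a', b')‖ := by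
        rw [norm_q_div_uT, norm_uT]
        exact fun h0 => hne2b' (pow_q'_inj D h0)
      have hXu := norm_XK_mid (uT D (a, b)) D.q hu0 hu hqu hnu
      have hXv := norm_XK_mid (uT D (a', b')) D.q hv0 hv hqv hnv
      have hM : Mid (uT D (a, b)) D.q = Mid (uT D (a', b')) D.q := by
        rw [← hXu, ← hXv, h]
      have hmin : min b.val (p - b.val) = min b'.val (p - b'.val) := by
        rw [Mid_uT, Mid_uT] at hM
        exact pow_q'_inj D hM
      have hcases : b'.val = b.val ∨ b'.val = p - b.val := by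
        rcases le_total b.val (p - b.val) with h1 | h1 <;>
          rcases le_total b'.val (p - b'.val) with h2 | h2
        · rw [min_eq_left h1, min_eq_left h2] at hmin
          exact Or.inl hmin.symm
        · rw [min_eq_left h1, min_eq_right h2] at hmin
          right
          omega
        · rw [min_eq_right h1, min_eq_left h2] at hmin
          right
          omega
        · rw [min_eq_right h1, min_eq_right h2] at hmin
          left
          omega
      by_contra hcon
      push Not at hcon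
      rcases hcases with hc | hc
      · -- same `b`
        have hbb : b' = b := ZMod.val_injective p hc
        subst hbb
        have hne1 : a' ≠ a := fun h0 => hcon.1 (by rw [h0])
        have hdiff : uT D (a, b') - uT D (a', b') =
            (D.ζ ^ a.val - D.ζ ^ a'.val) * D.q' ^ b'.val := by
          rw [uT, uT]
          ring
        have hnd : ‖uT D (a, b') - uT D (a', b')‖ = ‖D.q'‖ ^ b'.val := by
          rw [hdiff, norm_mul, norm_pow, norm_root_sub_root D.ζ p hp2 D.hζ D.hpK _ _ (by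
            rw [natCast_val, natCast_val]
            exact fun h0 => hne1 h0.symm), one_mul]
        have hnq : ‖D.q / (uT D (a, b') * uT D (a', b'))‖ =
            ‖D.q'‖ ^ p / (‖D.q'‖ ^ b'.val * ‖D.q'‖ ^ b'.val) := by
          rw [norm_div, norm_mul, norm_uT, norm_uT, norm_q'_pow]
        refine XK_ne_of_mid _ _ D.q hu0 hv0 hu hv hqu hqv hM ?_ h
        rw [norm_mul, hnd, Mid_uT]
        rcases lt_or_gt_of_ne hne2b' with hlt | hgt
        · -- `2b < p`
          have hsmall : ‖D.q / (uT D (a, b') * uT D (a', b'))‖ < 1 := by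
            rw [hnq, ← pow_add, div_lt_one (pow_pos hπ0 _)]
            exact pow_lt_pow_right_of_lt_one₀ hπ0 hπ1 (by omega)
          rw [norm_one_sub_of_lt hsmall, mul_one, min_eq_left hlt.le]
        · -- `2b > p`
          have hbig : 1 < ‖D.q / (uT D (a, b') * uT D (a', b'))‖ := by
            rw [hnq, ← pow_add, one_lt_div (pow_pos hπ0 _)]
            exact pow_lt_pow_right_of_lt_one₀ hπ0 hπ1 (by omega)
          have e : (1 : K) - D.q / (uT D (a, b') * uT D (a', b')) =
              -(D.q / (uT D (a, b') * uT D (a', b'))) + 1 := by ring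
          have hlt1 : ‖(1 : K)‖ < ‖-(D.q / (uT D (a, b') * uT D (a', b')))‖ := by
            rw [norm_neg, norm_one]
            exact hbig
          rw [e, norm_add_eq_left hlt1, norm_neg, hnq, min_eq_right hgt.le]
          have hπb : ‖D.q'‖ ^ b'.val ≠ 0 := (pow_pos hπ0 _).ne'
          have hsplit : ‖D.q'‖ ^ p = ‖D.q'‖ ^ (p - b'.val) * ‖D.q'‖ ^ b'.val := by
            rw [← pow_add, Nat.sub_add_cancel hbl'.le]
          rw [hsplit]
          field_simp
      · -- `b' = p - b`
        have hne_norm : ‖uT D (a, b)‖ ≠ ‖uT D (a', b')‖ := by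
          rw [norm_uT, norm_uT]
          intro h0
          have := pow_q'_inj D h0
          simp only at this
          omega
        have hprod : uT D (a, b) * uT D (a', b') = D.ζ ^ (a.val + a'.val) * D.q := by
          have hsum : b.val + b'.val = p := by omega
          have e : D.q' ^ b.val * D.q' ^ b'.val = D.q := by
            rw [← pow_add, hsum, D.hq']
          rw [uT, uT]
          simp only
          rw [pow_add]
          linear_combination (D.ζ ^ a.val * D.ζ ^ a'.val) * e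
        by_cases hsum0 : a + a' = 0
        · apply hcon.2
          rw [Prod.neg_mk, Prod.mk.injEq]
          refine ⟨by linear_combination hsum0, ?_⟩
          have hb'val : ((b'.val : ℕ) : ZMod p) = -b := by
            rw [hc, Nat.cast_sub hbl.le, CharP.cast_eq_zero, zero_sub, natCast_val]
          rw [natCast_val] at hb'val
          exact hb'val
        · have hζn : D.ζ ^ (a.val + a'.val) ≠ 0 :=
            pow_ne_zero _ (D.hζ.ne_zero (p_pos (p := p)).ne')
          have hquv : D.q / (uT D (a, b) * uT D (a', b')) = (D.ζ ^ (a.val + a'.val))⁻¹ := by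
            rw [hprod]
            field_simp [D.hq0]
          refine XK_ne_of_mid _ _ D.q hu0 hv0 hu hv hqu hqv hM ?_ h
          rw [norm_mul, hquv, norm_one_sub_inv_root D _ (not_dvd_add hsum0), mul_one,
            sub_eq_add_neg, IsUltrametricDist.norm_add_eq_max_of_norm_ne_norm (by
              rwa [norm_neg]), norm_neg]
          unfold Mid
          rw [norm_q_div_uT, norm_uT, norm_uT]
          simp only
          rw [hc]

end Main

end Fermat.Agent.MZ.MOD.TateInj4
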