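/-
Programme MZ (S15, Mazur), chapter MOD-E, file TateChord3 (helper3): **abstract chord formulas** on
`y² + x y = x³ + a₄ x + a₆` over an arbitrary commutative ring (the inverse of `x₁ - x₂` is a given
element `i`): the chord sum lies on the curve, the invariant differential is translation invariant
(in the form `D ξ = ξ + 2 η` for a derivation `D`), the nodal group law, and a coefficient
extraction lemma for power series.
-/
import Mathlib
import Fermat.Agent.MZ.MOD.Der3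

set_option autoImplicit false
set_option linter.unusedSectionVars false
set_option linter.unusedVariables false
set_option linter.style.longLine false

noncomputable section

namespace Fermat.Agent.MZ.MOD.TateChord3

open Fermat.Agent.MZ.MOD.Der3

variable {R : Type*} [CommRing R]

/-- the `x`-coordinate of the chord sum (`i = (x₁ - x₂)⁻¹`). -/
def chX (x1 y1 x2 y2 i : R) : R := ((y1 - y2) * i) ^ 2 + (y1 - y2) * i - x1 - x2

/-- the `y`-coordinate of the chord sum. -/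
def chY (x1 y1 x2 y2 i : R) : R :=
  -((y1 - y2) * i * (chX x1 y1 x2 y2 i - x1) + y1) - chX x1 y1 x2 y2 i

variable {x1 y1 x2 y2 i b4 b6 : R}

/-- the chord sum lies on the curve. -/
theorem chord_curve (hi : i * (x1 - x2) = 1)
    (h1 : y1 ^ 2 + x1 * y1 = x1 ^ 3 + b4 * x1 + b6)
    (h2 : y2 ^ 2 + x2 * y2 = x2 ^ 3 + b4 * x2 + b6) :
    chY x1 y1 x2 y2 i ^ 2 + chX x1 y1 x2 y2 i * chY x1 y1 x2 y2 i =
      chX x1 y1 x2 y2 i ^ 3 + b4 * chX x1 y1 x2 y2 i + b6 := by
  unfold chY chX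
  grind

/-- translation invariance of the invariant differential, first variable. -/
theorem D_chX (D : Der R) (hi : i * (x1 - x2) = 1)
    (h1 : y1 ^ 2 + x1 * y1 = x1 ^ 3 + b4 * x1 + b6)
    (h2 : y2 ^ 2 + x2 * y2 = x2 ^ 3 + b4 * x2 + b6)
    (hx1 : D x1 = x1 + 2 * y1) (hy1 : D y1 = 3 * x1 ^ 2 + b4 - y1) (hx2 : D x2 = 0) (hy2 : D y2 = 0) :
    D (chX x1 y1 x2 y2 i) = chX x1 y1 x2 y2 i + 2 * chY x1 y1 x2 y2 i := by
  have hDi : D i = -(i ^ 2) * (x1 + 2 * y1) := by
    have := D.map_of_mul_eq_one (a := x1 - x2) (b := i) (by rw [mul_comm]; exact hi)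
    rw [this, D.map_sub, hx1, hx2, sub_zero]
  have hlam : D ((y1 - y2) * i) =
      (3 * x1 ^ 2 + b4 - y1) * i + (y1 - y2) * (-(i ^ 2) * (x1 + 2 * y1)) := by
    rw [D.leibniz, D.map_sub, hy1, hy2, sub_zero, hDi]
  unfold chY chX
  rw [D.map_sub, D.map_sub, D.map_add, D.map_sq, hlam, hx1, hx2]
  grind

/-- translation invariance of the invariant differential, second variable. -/
theorem D_chX' (D : Der R) (hi : i * (x1 - x2) = 1)
    (h1 : y1 ^ 2 + x1 * y1 = x1 ^ 3 + b4 * x1 + b6)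
    (h2 : y2 ^ 2 + x2 * y2 = x2 ^ 3 + b4 * x2 + b6)
    (hx1 : D x1 = 0) (hy1 : D y1 = 0) (hx2 : D x2 = x2 + 2 * y2) (hy2 : D y2 = 3 * x2 ^ 2 + b4 - y2) :
    D (chX x1 y1 x2 y2 i) = chX x1 y1 x2 y2 i + 2 * chY x1 y1 x2 y2 i := by
  have hDi : D i = (i ^ 2) * (x2 + 2 * y2) := by
    have := D.map_of_mul_eq_one (a := x1 - x2) (b := i) (by rw [mul_comm]; exact hi)
    rw [this, D.map_sub, hx1, hx2, zero_sub]
    ring
  have hlam : D ((y1 - y2) * i) =
      (-(3 * x2 ^ 2 + b4 - y2)) * i + (y1 - y2) * ((i ^ 2) * (x2 + 2 * y2)) := by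
    rw [D.leibniz, D.map_sub, hy1, hy2, zero_sub, hDi]
  unfold chY chX
  rw [D.map_sub, D.map_sub, D.map_add, D.map_sq, hlam, hx1, hx2]
  grind

/-- the defect of the addition formula (A-x) in terms of the chord sum. -/
theorem addX_defect (hi : i * (x1 - x2) = 1) (x3 : R) :
    (x3 + x1 + x2) * (x1 - x2) ^ 2 - (y1 - y2) ^ 2 - (y1 - y2) * (x1 - x2) =
      -((chX x1 y1 x2 y2 i - x3) * (x1 - x2) ^ 2) := by
  unfold chX
  grind

/-- the addition formula (A-y) from the chord sum. -/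
theorem addY_of_chord (hi : i * (x1 - x2) = 1) {x3 y3 : R} (hx : chX x1 y1 x2 y2 i = x3)
    (hy : chY x1 y1 x2 y2 i = y3) :
    (y3 + x3 + y1) * (x1 - x2) + (y1 - y2) * (x3 - x1) = 0 := by
  subst hy
  unfold chY
  rw [hx]
  grind

/-- the chord sum from the polynomial form of the addition formulas. -/
theorem chord_of_add (hi : i * (x1 - x2) = 1) {x3 y3 : R}
    (hx : (x3 + x1 + x2) * (x1 - x2) ^ 2 = (y1 - y2) ^ 2 + (y1 - y2) * (x1 - x2))
    (hy : (y3 + x3 + y1) * (x1 - x2) + (y1 - y2) * (x3 - x1) = 0) :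
    chX x1 y1 x2 y2 i = x3 ∧ chY x1 y1 x2 y2 i = y3 := by
  have h1 : chX x1 y1 x2 y2 i = x3 := by
    unfold chX
    linear_combination (-(i ^ 2)) * hx +
      (-(y1 - y2) * i + (x1 + x2 + x3) * (i * (x1 - x2) + 1)) * hi
  refine ⟨h1, ?_⟩
  unfold chY
  rw [h1]
  linear_combination (-i) * hy + (y3 + x3 + y1) * hi

/-- **the nodal group law** (`x = t/(1-t)²`, `y = t²/(1-t)³`), polynomial form, `x`-coordinate. -/
theorem nodal_x {t t' z z' z'' : R} (hz : z * (1 - t) = 1) (hz' : z' * (1 - t') = 1)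
    (hz'' : z'' * (1 - t * t') = 1) :
    (t * t' * z'' ^ 2 + t * z ^ 2 + t' * z' ^ 2) * (t * z ^ 2 - t' * z' ^ 2) ^ 2 =
      (t ^ 2 * z ^ 3 - t' ^ 2 * z' ^ 3) ^ 2 +
        (t ^ 2 * z ^ 3 - t' ^ 2 * z' ^ 3) * (t * z ^ 2 - t' * z' ^ 2) := by
  grind

/-- the nodal group law, polynomial form, `y`-coordinate. -/
theorem nodal_y {t t' z z' z'' : R} (hz : z * (1 - t) = 1) (hz' : z' * (1 - t') = 1)
    (hz'' : z'' * (1 - t * t') = 1) :
    ((t * t') ^ 2 * z'' ^ 3 + t * t' * z'' ^ 2 + t ^ 2 * z ^ 3) * (t * z ^ 2 - t' * z' ^ 2) +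
      (t ^ 2 * z ^ 3 - t' ^ 2 * z' ^ 3) * (t * t' * z'' ^ 2 - t * z ^ 2) = 0 := by
  grind

/-- difference of two points of the curve. -/
theorem curve_sub {x y x' y' : R}
    (h : y ^ 2 + x * y = x ^ 3 + b4 * x + b6) (h' : y' ^ 2 + x' * y' = x' ^ 3 + b4 * x' + b6) :
    (y - y') * (2 * y' + x' + (y - y') + (x - x')) =
      (x - x') * (3 * x' ^ 2 + 3 * x' * (x - x') + (x - x') ^ 2 + b4 - y') := by
  linear_combination h - h'

/-- coefficient extraction: if `F ≡ 0 mod q^k` then `[q^k] (F G) = [q^k] F · [q^0] G`. -/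
theorem coeff_mul_of_low {F G : PowerSeries R} {k : ℕ}
    (hF : ∀ j < k, PowerSeries.coeff j F = 0) :
    PowerSeries.coeff k (F * G) = PowerSeries.coeff k F * PowerSeries.coeff 0 G := by
  rw [PowerSeries.coeff_mul]
  rw [Finset.sum_eq_single (k, 0)]
  · intro b hb hne
    have hb' : b.1 + b.2 = k := Finset.HasAntidiagonal.mem_antidiagonal.1 hb
    have hlt : b.1 < k := by
      rcases Nat.lt_or_ge b.1 k with h | h
      · exact h
      · exfalso
        apply hne
        have h1 : b.1 = k := by omega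
        have h2 : b.2 = 0 := by omega
        exact Prod.ext h1 h2
    rw [hF _ hlt, zero_mul]
  · intro h
    exact absurd (Finset.HasAntidiagonal.mem_antidiagonal.2 (add_zero k)) h

end Fermat.Agent.MZ.MOD.TateChord3
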