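/-
Programme MZ (S15, Mazur), chapter MOD-E, file Der3 (helper3): **light-weight derivations** of a
commutative ring (an additive map with the Leibniz rule; no base ring, no type class diamonds), their
coefficientwise lift to power series, and the derivation attached to a Mathlib `Derivation`.
-/
import Mathlib

set_option autoImplicit false
set_option linter.unusedSectionVars false
set_option linter.style.longLine false

noncomputable section

namespace Fermat.Agent.MZ.MOD.Der3

/-- a derivation of a commutative ring: additive + Leibniz. -/
structure Der (R : Type*) [CommRing R] where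
  /-- the map -/
  toFun : R → R
  map_add' : ∀ a b, toFun (a + b) = toFun a + toFun b
  leibniz' : ∀ a b, toFun (a * b) = toFun a * b + a * toFun b

namespace Der

variable {R : Type*} [CommRing R]

instance : CoeFun (Der R) (fun _ => R → R) := ⟨Der.toFun⟩

variable (D : Der R)

theorem map_add (a b : R) : D (a + b) = D a + D b := D.map_add' a b

theorem leibniz (a b : R) : D (a * b) = D a * b + a * D b := D.leibniz' a b

@[simp] theorem map_zero : D 0 = 0 := by
  have h := D.map_add 0 0
  rw [add_zero] at h
  exact left_eq_add.mp h

@[simp] theorem map_one : D 1 = 0 := by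
  have h := D.leibniz 1 1
  rw [mul_one, one_mul, mul_one] at h
  exact left_eq_add.mp h

theorem map_neg (a : R) : D (-a) = -D a := by
  have h := D.map_add a (-a)
  rw [add_neg_cancel, map_zero] at h
  exact eq_neg_of_add_eq_zero_right h.symm

theorem map_sub (a b : R) : D (a - b) = D a - D b := by
  rw [sub_eq_add_neg, map_add, map_neg, ← sub_eq_add_neg]

@[simp] theorem map_natCast (n : ℕ) : D (n : R) = 0 := by
  induction n with
  | zero => rw [Nat.cast_zero, map_zero]
  | succ n ih => rw [Nat.cast_succ, map_add, ih, map_one, add_zero]

@[simp] theorem map_intCast (n : ℤ) : D (n : R) = 0 := by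
  cases n with
  | ofNat n => simp
  | negSucc n => rw [Int.cast_negSucc, map_neg, map_natCast, neg_zero]

@[simp] theorem map_ofNat (n : ℕ) [n.AtLeastTwo] : D (OfNat.ofNat n : R) = 0 :=
  D.map_natCast n

theorem map_pow (a : R) (n : ℕ) : D (a ^ n) = n * a ^ (n - 1) * D a := by
  induction n with
  | zero => simp
  | succ n ih =>
    rw [pow_succ, leibniz, ih]
    rcases n with _ | n
    · simp
    · simp only [Nat.add_sub_cancel]
      push_cast
      ring

theorem map_sq (a : R) : D (a ^ 2) = 2 * a * D a := by
  rw [map_pow]; simp

theorem map_sum {ι : Type*} (s : Finset ι) (f : ι → R) : D (∑ i ∈ s, f i) = ∑ i ∈ s, D (f i) := by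
  classical
  induction s using Finset.induction_on with
  | empty => simp
  | insert a s ha ih => rw [Finset.sum_insert ha, Finset.sum_insert ha, map_add, ih]

theorem map_natCast_mul (n : ℕ) (a : R) : D (n * a) = n * D a := by
  rw [leibniz, map_natCast, zero_mul, zero_add]

theorem map_intCast_mul (n : ℤ) (a : R) : D (n * a) = n * D a := by
  rw [leibniz, map_intCast, zero_mul, zero_add]

/-- the derivative of an inverse. -/
theorem map_of_mul_eq_one {a b : R} (h : a * b = 1) : D b = -(b ^ 2) * D a := by
  have h1 := D.leibniz a b
  rw [h, map_one] at h1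
  -- 0 = D a * b + a * D b ; multiply by b
  have h2 : b * (D a * b + a * D b) = 0 := by rw [← h1, mul_zero]
  have h3 : b * (a * D b) = D b := by rw [← mul_assoc, mul_comm b a, h, one_mul]
  linear_combination h2 - h3

/-- multiplication of a derivation by an element. -/
def smul (c : R) : Der R where
  toFun a := c * D a
  map_add' a b := by rw [map_add, mul_add]
  leibniz' a b := by rw [leibniz]; ring

@[simp] theorem smul_apply (c a : R) : D.smul c a = c * D a := rfl

/-- the coefficientwise lift of a derivation to power series. -/
def lift : Der (PowerSeries R) where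
  toFun F := PowerSeries.mk fun n => D (PowerSeries.coeff n F)
  map_add' F G := by
    ext n
    simp [map_add]
  leibniz' F G := by
    ext n
    simp only [PowerSeries.coeff_mk, PowerSeries.coeff_mul, _root_.map_add, D.map_sum, leibniz,
      Finset.sum_add_distrib]

@[simp] theorem coeff_lift (F : PowerSeries R) (n : ℕ) :
    PowerSeries.coeff n (D.lift F) = D (PowerSeries.coeff n F) := by
  show PowerSeries.coeff n (PowerSeries.mk fun n => D (PowerSeries.coeff n F)) = _
  rw [PowerSeries.coeff_mk]

theorem lift_eq_zero_of_forall (F : PowerSeries R) (h : ∀ n, D (PowerSeries.coeff n F) = 0) :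
    D.lift F = 0 := by
  ext n
  rw [coeff_lift, h, _root_.map_zero]

theorem lift_C (a : R) : D.lift (PowerSeries.C a) = PowerSeries.C (D a) := by
  ext n
  rw [coeff_lift, PowerSeries.coeff_C, PowerSeries.coeff_C]
  split_ifs
  · rfl
  · exact D.map_zero

/-- a power series with integer coefficients is killed by a lifted derivation. -/
theorem lift_map_intCast (F : PowerSeries ℤ) : D.lift (F.map (Int.castRingHom R)) = 0 := by
  apply lift_eq_zero_of_forall
  intro n
  rw [PowerSeries.coeff_map]
  exact D.map_intCast _

/-- the derivation attached to a Mathlib `Derivation`. -/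
def ofDerivation {S : Type*} [CommSemiring S] [Algebra S R] (D' : Derivation S R R) : Der R where
  toFun := D'
  map_add' := D'.map_add
  leibniz' a b := by
    rw [D'.leibniz, smul_eq_mul, smul_eq_mul]
    ring

@[simp] theorem ofDerivation_apply {S : Type*} [CommSemiring S] [Algebra S R] (D' : Derivation S R R)
    (a : R) : ofDerivation D' a = D' a := rfl

end Der

end Fermat.Agent.MZ.MOD.Der3
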