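/-
Programme MZ (S15, Mazur), chapter MOD-E, file TateD3 (helper3): **the derivation `θ = u d/du`**
on the coefficient ring `A = ℤ[u, u⁻¹, (1-u)⁻¹]` of the formal Tate curve and on `A⟦q⟧`.
-/
import Mathlib
import Fermat.Agent.MZ.MOD.TateW4
import Fermat.Agent.MZ.MOD.Der3

set_option autoImplicit false
set_option linter.unusedSectionVars false
set_option linter.style.longLine false

open Polynomial

noncomputable section

namespace Fermat.Agent.MZ.MOD.TateD3

open Fermat.Agent.MZ.MOD.TateFormal4 Fermat.Agent.MZ.MOD.Der3 TrivSqZeroExt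

/-! ### `θ = u d/du` on `A`, through the dual numbers -/

/-- `ℤ[X] → A[ε]`, `X ↦ u + u ε`. -/
def phi0 : ℤ[X] →+* DualNumber A :=
  Polynomial.eval₂RingHom (Int.castRingHom (DualNumber A)) (inl u + inr u)

theorem phi0_X : phi0 X = inl u + inr u := by
  simp [phi0]

theorem fst_phi0 (p : ℤ[X]) : (phi0 p).fst = algebraMap ℤ[X] A p := by
  have h : ((fstHom A A A : DualNumber A →ₐ[A] A) : DualNumber A →+* A).comp phi0 =
      algebraMap ℤ[X] A := by
    apply Polynomial.ringHom_ext
    · intro a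
      simp [phi0]
    · show ((fstHom A A A : DualNumber A →ₐ[A] A) : DualNumber A →+* A) (phi0 X) = algebraMap ℤ[X] A X
      rw [phi0_X]
      simp [u]
  exact RingHom.congr_fun h p

/-- `A → A[ε]`, `a ↦ a + θ(a) ε`. -/
def phi : A →+* DualNumber A :=
  IsLocalization.Away.lift den (g := phi0) (by
    rw [isUnit_iff_isUnit_fst, fst_phi0]
    exact IsLocalization.Away.algebraMap_isUnit den)

theorem phi_algebraMap (p : ℤ[X]) : phi (algebraMap ℤ[X] A p) = phi0 p := by
  rw [phi, IsLocalization.Away.lift_eq]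

theorem fst_phi (a : A) : (phi a).fst = a := by
  have h : ((fstHom A A A : DualNumber A →ₐ[A] A) : DualNumber A →+* A).comp phi = RingHom.id A := by
    apply IsLocalization.ringHom_ext (Submonoid.powers den)
    apply Polynomial.ringHom_ext
    · intro a
      simp
    · show (phi (algebraMap ℤ[X] A X)).fst = algebraMap ℤ[X] A X
      rw [phi_algebraMap, fst_phi0]
  exact RingHom.congr_fun h a

/-- **the derivation `θ = u d/du` of `A`.** -/
def theta : Der A where
  toFun a := (phi a).snd
  map_add' a b := by rw [map_add, snd_add]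
  leibniz' a b := by
    rw [map_mul, snd_mul, fst_phi, fst_phi]
    simp [mul_comm, add_comm]

theorem theta_u : theta u = u := by
  have h : phi u = inl u + inr u := by
    show phi (algebraMap ℤ[X] A X) = _
    rw [phi_algebraMap, phi0_X]
  show (phi u).snd = u
  rw [h]
  simp

theorem theta_ui : theta ui = -ui := by
  have h := theta.map_of_mul_eq_one u_mul_ui
  rw [h, theta_u]
  have := u_mul_ui
  linear_combination (-ui) * this

theorem theta_zi : theta zi = u * zi ^ 2 := by
  have h := theta.map_of_mul_eq_one z_mul_zi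
  rw [h, Der.map_sub, theta_u, Der.map_one]
  ring


theorem theta_u_pow (d : ℕ) : theta (u ^ d) = d * u ^ d := by
  induction d with
  | zero => simp
  | succ d ih =>
    rw [pow_succ, Der.leibniz, ih, theta_u]
    push_cast
    ring

theorem theta_ui_pow (d : ℕ) : theta (ui ^ d) = -(d * ui ^ d) := by
  induction d with
  | zero => simp
  | succ d ih =>
    rw [pow_succ, Der.leibniz, ih, theta_ui]
    push_cast
    ring

theorem two_mul_choose_two_add (d : ℕ) : 2 * d.choose 2 + d = d ^ 2 := by
  induction d with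
  | zero => rfl
  | succ d ih =>
    have h : (d + 1).choose 2 = d + d.choose 2 := by
      rw [Nat.choose_succ_succ, Nat.choose_one_right]
    rw [h]
    nlinarith

theorem two_mul_choose_two_succ (d : ℕ) : 2 * (d + 1).choose 2 = d ^ 2 + d := by
  have h : (d + 1).choose 2 = d + d.choose 2 := by
    rw [Nat.choose_succ_succ, Nat.choose_one_right]
  have := two_mul_choose_two_add d
  rw [h]
  nlinarith

local notation "σ" => ArithmeticFunction.sigma

/-- **`θ` on the coefficients of `tX`.** -/
theorem theta_cX (N : ℕ) : theta (cX N) = cX N + 2 * cY N := by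
  by_cases hN : N = 0
  · subst hN
    rw [cX, cY, if_pos rfl, if_pos rfl, Der.leibniz, theta_u, Der.map_sq, theta_zi]
    ring
  · rw [cX, cY, if_neg hN, if_neg hN, Der.map_sub, Der.leibniz, Der.map_ofNat, Der.map_natCast,
      Der.map_sum]
    have h : ∀ d ∈ N.divisors, theta ((d : A) * (u ^ d + ui ^ d)) =
        (d : A) * (u ^ d + ui ^ d) +
          2 * ((d.choose 2 : A) * u ^ d - ((d + 1).choose 2 : A) * ui ^ d) := by
      intro d _
      rw [Der.map_natCast_mul, Der.map_add, theta_u_pow, theta_ui_pow]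
      have h1 : (2 * (d.choose 2 : A) + d) = (d : A) ^ 2 := by exact_mod_cast congrArg (Nat.cast (R := A)) (two_mul_choose_two_add d)
      have h2 : (2 * ((d + 1).choose 2 : A)) = (d : A) ^ 2 + d := by exact_mod_cast congrArg (Nat.cast (R := A)) (two_mul_choose_two_succ d)
      linear_combination (-(u ^ d)) * h1 + (ui ^ d) * h2
    rw [Finset.sum_congr rfl h, Finset.sum_add_distrib, ← Finset.mul_sum]
    ring

/-! ### the derivation on `A⟦q⟧` -/

/-- the coefficientwise lift of `θ` to `A⟦q⟧`. -/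
def DA : Der (PowerSeries A) := theta.lift

theorem coeff_DA (F : PowerSeries A) (n : ℕ) :
    PowerSeries.coeff n (DA F) = theta (PowerSeries.coeff n F) := Der.coeff_lift theta F n

/-- **`D X = X + 2 Y`.** -/
theorem DA_tX : DA tX = tX + 2 * tY := by
  ext n
  rw [coeff_DA, map_add, tX, tY, PowerSeries.coeff_mk]
  have h2 : PowerSeries.coeff n ((2 : PowerSeries A) * PowerSeries.mk cY) = 2 * cY n := by
    have : (2 : PowerSeries A) = PowerSeries.C (2 : A) := (map_ofNat (PowerSeries.C (R := A)) 2).symm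
    rw [this, PowerSeries.coeff_C_mul, PowerSeries.coeff_mk]
  rw [h2]
  exact theta_cX n

theorem DA_a4A : DA a4A = 0 := Der.lift_map_intCast theta a4

theorem DA_a6A : DA a6A = 0 := Der.lift_map_intCast theta a6


/-! ### `A` is a domain, and `D Y` -/

theorem den_ne_zero : den ≠ 0 := by
  intro h
  have h1 := congrArg (Polynomial.eval (2 : ℤ)) h
  simp [den] at h1

instance isDomain_A : IsDomain A :=
  IsLocalization.isDomain_of_le_nonZeroDivisors (M := Submonoid.powers den) A
    (powers_le_nonZeroDivisors_of_noZeroDivisors den_ne_zero)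

/-- `2 Y + X ≠ 0`. -/
theorem two_tY_add_tX_ne_zero : 2 * tY + tX ≠ 0 := by
  intro h
  have h0 := congrArg (PowerSeries.coeff 0) h
  have h2 : PowerSeries.coeff 0 ((2 : PowerSeries A) * tY) = 2 * cY 0 := by
    have : (2 : PowerSeries A) = PowerSeries.C (2 : A) := (map_ofNat (PowerSeries.C (R := A)) 2).symm
    rw [this, PowerSeries.coeff_C_mul, tY, PowerSeries.coeff_mk]
  rw [map_add, h2, tX, PowerSeries.coeff_mk, map_zero, cX, cY, if_pos rfl, if_pos rfl] at h0
  have h3 := congrArg (evA (2 : ℚ) (by norm_num) (by norm_num)) h0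
  simp only [map_add, map_mul, map_pow, evA_u, evA_zi, map_ofNat, map_zero] at h3
  norm_num at h3

/-- **`D Y = 3 X² + a₄ - Y`** (differentiate the Tate equation and cancel `2 Y + X`). -/
theorem DA_tY : DA tY = 3 * tX ^ 2 + a4A - tY := by
  have hW : DA tW = 0 := by rw [Fermat.Agent.MZ.MOD.TateW4.tW_eq_zero, Der.map_zero]
  have h1 : DA tW = (2 * tY + tX) * (DA tY - (3 * tX ^ 2 + a4A - tY)) := by
    rw [tW, Der.map_sub, Der.map_sub, Der.map_sub, Der.map_add, Der.map_sq, Der.leibniz, Der.map_pow,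
      Der.leibniz, DA_a4A, DA_a6A, DA_tX]
    push_cast
    ring
  rw [h1] at hW
  rcases mul_eq_zero.1 hW with h | h
  · exact absurd h two_tY_add_tX_ne_zero
  · exact sub_eq_zero.1 h

/-- `D² X = 6 X² + X + 2 a₄`. -/
theorem DA_DA_tX : DA (DA tX) = 6 * tX ^ 2 + tX + 2 * a4A := by
  rw [DA_tX, Der.map_add, Der.leibniz, Der.map_ofNat, DA_tX, DA_tY]
  ring

/-- `D³ X = (12 X + 1) (X + 2 Y)`. -/
theorem DA_DA_DA_tX : DA (DA (DA tX)) = (12 * tX + 1) * (tX + 2 * tY) := by
  rw [DA_DA_tX, Der.map_add, Der.map_add, Der.leibniz, Der.leibniz, Der.map_ofNat, Der.map_ofNat,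
    Der.map_sq, DA_a4A, DA_tX]
  ring

/-- `D⁴ X = 12 (10 X³ + 2 X² + 6 a₄ X + 4 a₆) + D² X`. -/
theorem DA_DA_DA_DA_tX : DA (DA (DA (DA tX))) =
    12 * (10 * tX ^ 3 + 2 * tX ^ 2 + 6 * a4A * tX + 4 * a6A) + DA (DA tX) := by
  have hW : tY ^ 2 + tX * tY - tX ^ 3 - a4A * tX - a6A = 0 := Fermat.Agent.MZ.MOD.TateW4.tW_eq_zero
  rw [DA_DA_DA_tX, DA_DA_tX, Der.leibniz, Der.map_add, Der.map_add, Der.leibniz, Der.leibniz,
    Der.map_ofNat, Der.map_ofNat, Der.map_one, DA_tX, DA_tY]
  linear_combination 48 * hW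


/-! ### the chain rule: `θ` is the universal derivation with `θ u = u` -/

section Chain

variable {T : Type*} [CommRing T] (D₀ : Der T) (τ : A →+* T) (ε : T)

/-- the chain-rule predicate. -/
def Chain (a : A) : Prop := D₀ (τ a) = ε * τ (theta a)

theorem chain_add {a b : A} (ha : Chain D₀ τ ε a) (hb : Chain D₀ τ ε b) : Chain D₀ τ ε (a + b) := by
  unfold Chain at *
  rw [map_add, Der.map_add, ha, hb, Der.map_add, map_add]
  ring

theorem chain_mul {a b : A} (ha : Chain D₀ τ ε a) (hb : Chain D₀ τ ε b) : Chain D₀ τ ε (a * b) := by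
  unfold Chain at *
  rw [map_mul, Der.leibniz, ha, hb, Der.leibniz, map_add, map_mul, map_mul]
  ring

theorem chain_intCast (n : ℤ) : Chain D₀ τ ε (n : A) := by
  unfold Chain
  rw [map_intCast, Der.map_intCast, Der.map_intCast, map_zero, mul_zero]

theorem chain_pow {a : A} (ha : Chain D₀ τ ε a) (n : ℕ) : Chain D₀ τ ε (a ^ n) := by
  induction n with
  | zero =>
    rw [pow_zero]
    have := chain_intCast D₀ τ ε 1
    rwa [Int.cast_one] at this
  | succ n ih => rw [pow_succ]; exact chain_mul D₀ τ ε ih ha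

theorem chain_algebraMap (h : D₀ (τ u) = ε * τ u) (p : ℤ[X]) :
    Chain D₀ τ ε (algebraMap ℤ[X] A p) := by
  have hu : Chain D₀ τ ε u := by
    unfold Chain
    rw [theta_u, h]
  induction p using Polynomial.induction_on' with
  | add p q hp hq => rw [map_add]; exact chain_add D₀ τ ε hp hq
  | monomial n a =>
    have : algebraMap ℤ[X] A (Polynomial.monomial n a) = (a : A) * u ^ n := by
      rw [← Polynomial.C_mul_X_pow_eq_monomial, map_mul, map_pow]
      congr 1
      rw [← Polynomial.algebraMap_eq, ← IsScalarTower.algebraMap_apply]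
      simp
    rw [this]
    exact chain_mul D₀ τ ε (chain_intCast D₀ τ ε a) (chain_pow D₀ τ ε hu n)

/-- **the chain rule**: if `D₀ (τ u) = ε τ(u)` then `D₀ ∘ τ = ε · τ ∘ θ`. -/
theorem chain_rule (h : D₀ (τ u) = ε * τ u) (a : A) : D₀ (τ a) = ε * τ (theta a) := by
  obtain ⟨⟨p, ⟨_, ⟨n, rfl⟩⟩⟩, hp⟩ := IsLocalization.surj (Submonoid.powers den) a
  have hp' : a * algebraMap ℤ[X] A (den ^ n) = algebraMap ℤ[X] A p := hp
  set s : A := algebraMap ℤ[X] A (den ^ n) with hs
  have hsu : IsUnit s := IsLocalization.map_units A (⟨den ^ n, ⟨n, rfl⟩⟩ : Submonoid.powers den)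
  have hcs : Chain D₀ τ ε s := chain_algebraMap D₀ τ ε h _
  have hcp : Chain D₀ τ ε (a * s) := by rw [hp']; exact chain_algebraMap D₀ τ ε h _
  unfold Chain at hcs hcp
  rw [map_mul, Der.leibniz, hcs, Der.leibniz, map_add, map_mul, map_mul] at hcp
  have hτs : IsUnit (τ s) := hsu.map τ
  apply hτs.mul_left_injective
  show D₀ (τ a) * τ s = ε * τ (theta a) * τ s
  linear_combination hcp

/-- transport of `D` along a ring homomorphism, for power series. -/
theorem lift_map (h : D₀ (τ u) = ε * τ u) (F : PowerSeries A) :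
    D₀.lift (F.map τ) = PowerSeries.C ε * (DA F).map τ := by
  ext n
  rw [Der.coeff_lift, PowerSeries.coeff_map, PowerSeries.coeff_C_mul, PowerSeries.coeff_map, coeff_DA]
  exact chain_rule D₀ τ ε h _

end Chain

end Fermat.Agent.MZ.MOD.TateD3
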