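/-
Programme MZ (S15, Mazur), chapter MOD-E (helper4): **evaluation of absolutely convergent power
series in a complete normed field** (`ℂ` or a `p`-adic field), as a ring homomorphism on the series
converging at the point, and the identity theorem (a series vanishing at all small nonzero points has
zero coefficients).

* `Conv F q` : `∑ ‖coeff N F * q ^ N‖ < ∞`;  `ev F q := ∑' N, coeff N F * q ^ N`;
* `Conv.add/.mul/.neg/.sub/.pow`, `conv_C`, `conv_X`, `conv_of_le`;
* `ev_add`, `ev_mul`, `ev_neg`, `ev_sub`, `ev_pow`, `ev_C`, `ev_X`, `ev_zero_point`;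
* `eq_zero_of_ev_eq_zero` : the identity theorem.
-/
import Mathlib

set_option autoImplicit false
set_option linter.unusedSectionVars false

open PowerSeries

namespace Fermat.Agent.MZ.MOD.PSEval4

variable {K : Type*} [NormedField K]

/-- the power series `F` converges absolutely at `q`. -/
def Conv (F : PowerSeries K) (q : K) : Prop := Summable fun N : ℕ => ‖coeff N F * q ^ N‖

/-- the value of `F` at `q`. -/
noncomputable def ev (F : PowerSeries K) (q : K) : K := ∑' N : ℕ, coeff N F * q ^ N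

theorem Conv.summable [CompleteSpace K] {F : PowerSeries K} {q : K} (h : Conv F q) :
    Summable fun N : ℕ => coeff N F * q ^ N := h.of_norm

theorem Conv.hasSum [CompleteSpace K] {F : PowerSeries K} {q : K} (h : Conv F q) :
    HasSum (fun N : ℕ => coeff N F * q ^ N) (ev F q) := h.summable.hasSum

theorem conv_zero (q : K) : Conv (0 : PowerSeries K) q := by
  simp only [Conv, map_zero, zero_mul, norm_zero]
  exact summable_zero

theorem Conv.add {F G : PowerSeries K} {q : K} (hF : Conv F q) (hG : Conv G q) :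
    Conv (F + G) q := by
  refine Summable.of_nonneg_of_le (fun _ => norm_nonneg _) (fun N => ?_) (Summable.add hF hG)
  rw [map_add, add_mul]
  exact norm_add_le _ _

theorem Conv.neg {F : PowerSeries K} {q : K} (hF : Conv F q) : Conv (-F) q := by
  simpa [Conv] using hF

theorem Conv.sub {F G : PowerSeries K} {q : K} (hF : Conv F q) (hG : Conv G q) :
    Conv (F - G) q := by
  rw [sub_eq_add_neg]
  exact hF.add hG.neg

theorem Conv.mul {F G : PowerSeries K} {q : K} (hF : Conv F q) (hG : Conv G q) :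
    Conv (F * G) q := by
  have h := summable_norm_sum_mul_antidiagonal_of_summable_norm hF hG
  refine h.congr fun N => ?_
  congr 1
  rw [coeff_mul, Finset.sum_mul]
  refine Finset.sum_congr rfl fun kl hkl => ?_
  rw [← Finset.HasAntidiagonal.mem_antidiagonal.1 hkl, pow_add]
  ring

theorem conv_C (c q : K) : Conv (C c : PowerSeries K) q := by
  refine summable_of_ne_finset_zero (s := {0}) fun N hN => ?_
  rw [Finset.mem_singleton] at hN
  rw [coeff_C, if_neg hN, zero_mul, norm_zero]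

theorem conv_one (q : K) : Conv (1 : PowerSeries K) q := by
  have := conv_C (1 : K) q
  rwa [map_one] at this

theorem conv_X (q : K) : Conv (X : PowerSeries K) q := by
  refine summable_of_ne_finset_zero (s := {1}) fun N hN => ?_
  rw [Finset.mem_singleton] at hN
  rw [coeff_X, if_neg hN, zero_mul, norm_zero]

theorem Conv.pow {F : PowerSeries K} {q : K} (hF : Conv F q) (n : ℕ) : Conv (F ^ n) q := by
  induction n with
  | zero => rw [pow_zero]; exact conv_one q
  | succ n ih => rw [pow_succ]; exact ih.mul hF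

/-- comparison test. -/
theorem conv_of_le {F : PowerSeries K} {q : K} {b : ℕ → ℝ} (hb : Summable b)
    (h : ∀ N, ‖coeff N F‖ * ‖q‖ ^ N ≤ b N) : Conv F q := by
  refine Summable.of_nonneg_of_le (fun _ => norm_nonneg _) (fun N => ?_) hb
  rw [norm_mul, norm_pow]
  exact h N

variable [CompleteSpace K]

theorem ev_zero (q : K) : ev (0 : PowerSeries K) q = 0 := by
  simp [ev]

theorem ev_add {F G : PowerSeries K} {q : K} (hF : Conv F q) (hG : Conv G q) :
    ev (F + G) q = ev F q + ev G q := by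
  unfold ev
  rw [← hF.summable.tsum_add hG.summable]
  refine tsum_congr fun N => ?_
  rw [map_add, add_mul]

theorem ev_neg (F : PowerSeries K) (q : K) : ev (-F) q = -ev F q := by
  unfold ev
  rw [← tsum_neg]
  refine tsum_congr fun N => ?_
  rw [map_neg, neg_mul]

theorem ev_sub {F G : PowerSeries K} {q : K} (hF : Conv F q) (hG : Conv G q) :
    ev (F - G) q = ev F q - ev G q := by
  rw [sub_eq_add_neg, ev_add hF hG.neg, ev_neg, sub_eq_add_neg]

theorem ev_mul {F G : PowerSeries K} {q : K} (hF : Conv F q) (hG : Conv G q) :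
    ev (F * G) q = ev F q * ev G q := by
  unfold ev
  rw [tsum_mul_tsum_eq_tsum_sum_antidiagonal_of_summable_norm hF hG]
  refine tsum_congr fun N => ?_
  rw [coeff_mul, Finset.sum_mul]
  refine Finset.sum_congr rfl fun kl hkl => ?_
  rw [← Finset.HasAntidiagonal.mem_antidiagonal.1 hkl, pow_add]
  ring

theorem ev_C (c q : K) : ev (C c : PowerSeries K) q = c := by
  unfold ev
  rw [tsum_eq_single 0]
  · simp
  · intro N hN
    rw [coeff_C, if_neg hN, zero_mul]

theorem ev_one (q : K) : ev (1 : PowerSeries K) q = 1 := by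
  have := ev_C (1 : K) q
  rwa [map_one] at this

theorem ev_X (q : K) : ev (X : PowerSeries K) q = q := by
  unfold ev
  rw [tsum_eq_single 1]
  · simp
  · intro N hN
    rw [coeff_X, if_neg hN, zero_mul]

theorem ev_pow {F : PowerSeries K} {q : K} (hF : Conv F q) (n : ℕ) :
    ev (F ^ n) q = ev F q ^ n := by
  induction n with
  | zero => rw [pow_zero, pow_zero]; exact ev_one q
  | succ n ih => rw [pow_succ, pow_succ, ev_mul (hF.pow n) hF, ih]

theorem ev_zero_point (F : PowerSeries K) : ev F 0 = constantCoeff F := by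
  unfold ev
  rw [tsum_eq_single 0]
  · simp
  · intro N hN
    rw [zero_pow hN, mul_zero]

/-! ### the identity theorem -/

/-- the shifted series `∑ c_{N+n} q^N`. -/
noncomputable def shift (F : PowerSeries K) (n : ℕ) : PowerSeries K :=
  PowerSeries.mk fun N => coeff (N + n) F

omit [CompleteSpace K] in
theorem coeff_shift (F : PowerSeries K) (n N : ℕ) : coeff N (shift F n) = coeff (N + n) F := by
  rw [shift, coeff_mk]

omit [CompleteSpace K] in
theorem conv_shift {F : PowerSeries K} {q₀ : K} (hq₀ : q₀ ≠ 0) (h : Conv F q₀) (n : ℕ) :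
    Conv (shift F n) q₀ := by
  have h1 : Summable fun N : ℕ => ‖coeff (N + n) F * q₀ ^ (N + n)‖ :=
    (summable_nat_add_iff (f := fun N : ℕ => ‖coeff N F * q₀ ^ N‖) n).2 h
  have h2 := h1.mul_left ((‖q₀‖ ^ n)⁻¹)
  refine h2.congr fun N => ?_
  have hne : ‖q₀‖ ^ n ≠ 0 := pow_ne_zero _ (norm_ne_zero_iff.2 hq₀)
  rw [coeff_shift, norm_mul, norm_mul, norm_pow, norm_pow, pow_add, ← mul_assoc, mul_comm,
    ← mul_assoc, mul_inv_cancel_right₀ hne, mul_comm]

omit [CompleteSpace K] in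
theorem conv_of_norm_le {F : PowerSeries K} {q₀ q : K} (h : Conv F q₀) (hq : ‖q‖ ≤ ‖q₀‖) :
    Conv F q := by
  refine Summable.of_nonneg_of_le (fun _ => norm_nonneg _) (fun N => ?_) h
  rw [norm_mul, norm_mul, norm_pow, norm_pow]
  gcongr

theorem ev_eq_pow_mul_ev_shift {F : PowerSeries K} {q : K} (h : Conv F q) (n : ℕ)
    (hlt : ∀ i < n, coeff i F = 0) : ev F q = q ^ n * ev (shift F n) q := by
  unfold ev
  rw [← h.summable.sum_add_tsum_nat_add n, Finset.sum_eq_zero, zero_add, ← tsum_mul_left]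
  · refine tsum_congr fun N => ?_
    rw [coeff_shift, pow_add]
    ring
  · intro i hi
    rw [hlt i (Finset.mem_range.1 hi), zero_mul]

/-- `‖ev F q - F(0)‖ ≤ (‖q‖ / ‖q₀‖) * ∑ ‖c_N q₀^N‖`. -/
theorem norm_ev_sub_le {F : PowerSeries K} {q₀ q : K} (hq₀ : q₀ ≠ 0) (h : Conv F q₀)
    (hq : ‖q‖ ≤ ‖q₀‖) :
    ‖ev F q - constantCoeff F‖ ≤ ‖q‖ / ‖q₀‖ * ∑' N : ℕ, ‖coeff N F * q₀ ^ N‖ := by
  have hq₀pos : 0 < ‖q₀‖ := norm_pos_iff.2 hq₀
  have hcq : Conv F q := conv_of_norm_le h hq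
  have h1 : ev F q - constantCoeff F = ∑' N : ℕ, coeff (N + 1) F * q ^ (N + 1) := by
    unfold ev
    rw [hcq.summable.tsum_eq_zero_add, pow_zero, mul_one, coeff_zero_eq_constantCoeff_apply,
      add_sub_cancel_left]
  rw [h1]
  have hs1 : Summable fun N : ℕ => ‖coeff (N + 1) F * q ^ (N + 1)‖ :=
    (summable_nat_add_iff (f := fun N : ℕ => ‖coeff N F * q ^ N‖) 1).2 hcq
  have hs2 : Summable fun N : ℕ => ‖q‖ / ‖q₀‖ * ‖coeff (N + 1) F * q₀ ^ (N + 1)‖ :=
    ((summable_nat_add_iff (f := fun N : ℕ => ‖coeff N F * q₀ ^ N‖) 1).2 h).mul_left _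
  calc ‖∑' N : ℕ, coeff (N + 1) F * q ^ (N + 1)‖
      ≤ ∑' N : ℕ, ‖coeff (N + 1) F * q ^ (N + 1)‖ := norm_tsum_le_tsum_norm hs1
    _ ≤ ∑' N : ℕ, ‖q‖ / ‖q₀‖ * ‖coeff (N + 1) F * q₀ ^ (N + 1)‖ := by
        refine hs1.tsum_le_tsum (fun N => ?_) hs2
        rw [norm_mul, norm_mul, norm_pow, norm_pow]
        have hr : ‖q‖ / ‖q₀‖ ≤ 1 := (div_le_one hq₀pos).2 hq
        have hr0 : 0 ≤ ‖q‖ / ‖q₀‖ := by positivity
        have : ‖q‖ ^ (N + 1) = (‖q‖ / ‖q₀‖) ^ (N + 1) * ‖q₀‖ ^ (N + 1) := by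
          rw [div_pow]; field_simp
        rw [this]
        have hpow : (‖q‖ / ‖q₀‖) ^ (N + 1) ≤ ‖q‖ / ‖q₀‖ := by
          calc (‖q‖ / ‖q₀‖) ^ (N + 1) = (‖q‖ / ‖q₀‖) ^ N * (‖q‖ / ‖q₀‖) := pow_succ _ _
            _ ≤ 1 * (‖q‖ / ‖q₀‖) := by
                gcongr
                exact pow_le_one₀ hr0 hr
            _ = ‖q‖ / ‖q₀‖ := one_mul _
        calc ‖coeff (N + 1) F‖ * ((‖q‖ / ‖q₀‖) ^ (N + 1) * ‖q₀‖ ^ (N + 1))
            = (‖q‖ / ‖q₀‖) ^ (N + 1) * (‖coeff (N + 1) F‖ * ‖q₀‖ ^ (N + 1)) := by ring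
          _ ≤ ‖q‖ / ‖q₀‖ * (‖coeff (N + 1) F‖ * ‖q₀‖ ^ (N + 1)) := by gcongr
    _ = ‖q‖ / ‖q₀‖ * ∑' N : ℕ, ‖coeff (N + 1) F * q₀ ^ (N + 1)‖ := tsum_mul_left
    _ ≤ ‖q‖ / ‖q₀‖ * ∑' N : ℕ, ‖coeff N F * q₀ ^ N‖ := by
        have hr0 : 0 ≤ ‖q‖ / ‖q₀‖ := by positivity
        have h0 : Summable fun N : ℕ => ‖coeff N F * q₀ ^ N‖ := h
        have h3 : ∑' N : ℕ, ‖coeff (N + 1) F * q₀ ^ (N + 1)‖ ≤
            ∑' N : ℕ, ‖coeff N F * q₀ ^ N‖ := by
          rw [h0.tsum_eq_zero_add]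
          have : 0 ≤ ‖coeff 0 F * q₀ ^ 0‖ := norm_nonneg _
          linarith
        exact mul_le_mul_of_nonneg_left h3 hr0

end Fermat.Agent.MZ.MOD.PSEval4

namespace Fermat.Agent.MZ.MOD.PSEval4

open PowerSeries

/-- **Identity theorem**: if `F` converges absolutely at some `q₀ ≠ 0` and vanishes at all nonzero
`q` with `‖q‖ ≤ ‖q₀‖`, then `F = 0`. -/
theorem eq_zero_of_ev_eq_zero {K : Type*} [NontriviallyNormedField K] [CompleteSpace K]
    (F : PowerSeries K) (q₀ : K) (hq₀ : q₀ ≠ 0) (hconv : Conv F q₀)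
    (hzero : ∀ q : K, q ≠ 0 → ‖q‖ ≤ ‖q₀‖ → ev F q = 0) : F = 0 := by
  by_contra hF
  have hex : ∃ n, coeff n F ≠ 0 := by
    by_contra hcon
    push Not at hcon
    exact hF (PowerSeries.ext fun n => by rw [hcon n, map_zero])
  classical
  have hn : coeff (Nat.find hex) F ≠ 0 := Nat.find_spec hex
  have hlt : ∀ i < Nat.find hex, coeff i F = 0 := fun i hi => by
    by_contra h
    exact Nat.find_min hex hi h
  generalize Nat.find hex = n at hn hlt
  have hq₀pos : 0 < ‖q₀‖ := norm_pos_iff.2 hq₀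
  have hG : Conv (shift F n) q₀ := conv_shift hq₀ hconv n
  have hcn : 0 < ‖coeff n F‖ := norm_pos_iff.2 hn
  have hSnn : 0 ≤ ∑' N : ℕ, ‖coeff N (shift F n) * q₀ ^ N‖ := tsum_nonneg fun N => norm_nonneg _
  generalize hS : (∑' N : ℕ, ‖coeff N (shift F n) * q₀ ^ N‖) = S at hSnn
  -- choose a small nonzero `q`
  obtain ⟨q, hq0, hqlt⟩ : ∃ q : K, 0 < ‖q‖ ∧ ‖q‖ < min ‖q₀‖ (‖q₀‖ * ‖coeff n F‖ / (S + 1)) := by
    have hpos : 0 < min ‖q₀‖ (‖q₀‖ * ‖coeff n F‖ / (S + 1)) := by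
      apply lt_min hq₀pos
      positivity
    exact NormedField.exists_norm_lt K hpos
  have hqne : q ≠ 0 := norm_pos_iff.1 hq0
  have hqle : ‖q‖ ≤ ‖q₀‖ := (hqlt.trans_le (min_le_left _ _)).le
  have hqlt2 : ‖q‖ < ‖q₀‖ * ‖coeff n F‖ / (S + 1) := hqlt.trans_le (min_le_right _ _)
  have hev := ev_eq_pow_mul_ev_shift (conv_of_norm_le hconv hqle) n hlt
  rw [hzero q hqne hqle] at hev
  have hG0 : ev (shift F n) q = 0 := by
    rcases mul_eq_zero.1 hev.symm with h | h
    · exact absurd h (pow_ne_zero n hqne)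
    · exact h
  have hb := norm_ev_sub_le hq₀ hG hqle
  rw [hS, hG0, zero_sub, norm_neg] at hb
  have hcc : constantCoeff (shift F n) = coeff n F := by
    rw [← coeff_zero_eq_constantCoeff_apply, coeff_shift, zero_add]
  rw [hcc] at hb
  -- `‖c_n‖ ≤ ‖q‖/‖q₀‖ * S < ‖c_n‖`
  have h1 : ‖q‖ / ‖q₀‖ * S < ‖coeff n F‖ := by
    have hS1 : 0 < S + 1 := by linarith
    have h2 : ‖q‖ * (S + 1) < ‖q₀‖ * ‖coeff n F‖ := (lt_div_iff₀ hS1).1 hqlt2
    have h3 : ‖q‖ * S ≤ ‖q‖ * (S + 1) := by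
      have := hq0.le
      nlinarith
    rw [div_mul_eq_mul_div, div_lt_iff₀ hq₀pos]
    linarith [mul_comm ‖q₀‖ ‖coeff n F‖]
  linarith

end Fermat.Agent.MZ.MOD.PSEval4
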