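/-
Programme MZ (S15, Mazur), chapter MOD-E (helper4): **the formal Tate curve**.

Coefficient ring `A = ℤ[u, u⁻¹, (1-u)⁻¹]` (`Localization.Away (X (1 - X))`), evaluation `evA a : A →+* K`
at a point `a` of a field with `a ≠ 0, 1`, and the Tate series in `A⟦q⟧`:

  `tX = u/(1-u)² + ∑_{N ≥ 1} q^N (∑_{d ∣ N} d (u^d + u^{-d}) - 2 σ₁(N))`,
  `tY = u²/(1-u)³ + ∑_{N ≥ 1} q^N (∑_{d ∣ N} (C(d,2) u^d - C(d+1,2) u^{-d}) + σ₁(N))`,
  `a4 = -5 ∑ σ₃(N) q^N`,  `a6 = -∑ ((5 σ₃(N) + 7 σ₅(N)) / 12) q^N`   (in `ℤ⟦q⟧`),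

i.e. `tX = ∑_{n ∈ ℤ} f(qⁿ u) - 2 s₁(q)`, `tY = ∑_{n ∈ ℤ} g(qⁿ u) + s₁(q)` with `f(x) = x/(1-x)²`,
`g(x) = x²/(1-x)³`.  The Tate–Weierstrass equation is the formal identity
`tY ^ 2 + tX * tY = tX ^ 3 + a4A * tX + a6A` in `A⟦q⟧` (proved in `TateW4`).
-/
import Mathlib
import Fermat.Agent.MZ.MOD.PSEval4

set_option autoImplicit false

open Polynomial

namespace Fermat.Agent.MZ.MOD.TateFormal4

/-! ### the coefficient ring -/

/-- the polynomial `X (1 - X)`. -/
noncomputable def den : ℤ[X] := X * (1 - X)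

/-- `ℤ[u, u⁻¹, (1-u)⁻¹]`. -/
abbrev A : Type := Localization.Away den

/-- the variable `u`. -/
noncomputable def u : A := algebraMap ℤ[X] A X

/-- `1 / (u (1 - u))`. -/
noncomputable def e : A := IsLocalization.Away.invSelf den

/-- `u⁻¹`. -/
noncomputable def ui : A := (1 - u) * e

/-- `(1 - u)⁻¹`. -/
noncomputable def zi : A := u * e

theorem den_mul_e : u * (1 - u) * e = 1 := by
  have h := IsLocalization.Away.mul_invSelf (S := A) den
  have h2 : algebraMap ℤ[X] A den = u * (1 - u) := by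
    show algebraMap ℤ[X] A (X * (1 - X)) = _
    rw [map_mul, map_sub, map_one]
    rfl
  rw [h2] at h
  exact h

theorem u_mul_ui : u * ui = 1 := by
  rw [ui, ← mul_assoc]
  exact den_mul_e

theorem z_mul_zi : (1 - u) * zi = 1 := by
  rw [zi, ← mul_assoc, mul_comm (1 - u) u]
  exact den_mul_e

/-! ### evaluation at a point -/

section Eval

variable {K : Type*} [Field K]

/-- evaluation `A → K` at a point `a ≠ 0, 1`. -/
noncomputable def evA (a : K) (h0 : a ≠ 0) (h1 : a ≠ 1) : A →+* K :=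
  IsLocalization.Away.lift den (g := Polynomial.eval₂RingHom (Int.castRingHom K) a) (by
    show IsUnit ((X * (1 - X) : ℤ[X]).eval₂ (Int.castRingHom K) a)
    rw [eval₂_mul, eval₂_X, eval₂_sub, eval₂_one, eval₂_X]
    exact (mul_ne_zero h0 (sub_ne_zero.2 (Ne.symm h1))).isUnit)

variable (a : K) (h0 : a ≠ 0) (h1 : a ≠ 1)

theorem evA_algebraMap (P : ℤ[X]) :
    evA a h0 h1 (algebraMap ℤ[X] A P) = P.eval₂ (Int.castRingHom K) a := by
  rw [evA, IsLocalization.Away.lift_eq]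
  rfl

@[simp] theorem evA_u : evA a h0 h1 u = a := by
  rw [u, evA_algebraMap, eval₂_X]

@[simp] theorem evA_ui : evA a h0 h1 ui = a⁻¹ := by
  have h := congrArg (evA a h0 h1) u_mul_ui
  rw [map_mul, map_one, evA_u] at h
  exact eq_inv_of_mul_eq_one_right h

@[simp] theorem evA_zi : evA a h0 h1 zi = (1 - a)⁻¹ := by
  have h := congrArg (evA a h0 h1) z_mul_zi
  rw [map_mul, map_one, map_sub, map_one, evA_u] at h
  exact eq_inv_of_mul_eq_one_right h

end Eval

/-! ### vanishing criterion -/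

/-- an element of `A` vanishing at infinitely many points of a field of characteristic zero
is zero. -/
theorem eq_zero_of_evA_eq_zero {K : Type*} [Field K] [CharZero K] (x : A) (S : Set K)
    (hS : S.Infinite) (hS0 : ∀ a ∈ S, a ≠ 0) (hS1 : ∀ a ∈ S, a ≠ 1)
    (h : ∀ a (ha : a ∈ S), evA a (hS0 a ha) (hS1 a ha) x = 0) : x = 0 := by
  obtain ⟨⟨P, ⟨_, ⟨n, rfl⟩⟩⟩, hP⟩ := IsLocalization.surj (Submonoid.powers den) x
  -- `x * den^n = P`
  have hP' : x * algebraMap ℤ[X] A (den ^ n) = algebraMap ℤ[X] A P := hP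
  have hPz : P = 0 := by
    have hPQ : (P.map (Int.castRingHom K)) = 0 := by
      refine Polynomial.eq_zero_of_infinite_isRoot _ (hS.mono fun a ha => ?_)
      have h2 := congrArg (evA a (hS0 a ha) (hS1 a ha)) hP'
      rw [map_mul, h a ha, zero_mul, evA_algebraMap] at h2
      show (P.map (Int.castRingHom K)).IsRoot a
      rw [Polynomial.IsRoot.def, Polynomial.eval_map]
      exact h2.symm
    exact Polynomial.map_injective _ (RingHom.injective_int (Int.castRingHom K)) (by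
      rw [hPQ, Polynomial.map_zero])
  rw [hPz, map_zero] at hP'
  have hu : IsUnit (algebraMap ℤ[X] A (den ^ n)) :=
    IsLocalization.map_units A (⟨den ^ n, ⟨n, rfl⟩⟩ : Submonoid.powers den)
  exact (hu.mul_left_eq_zero).1 hP'

/-! ### the Tate series -/

local notation "σ" => ArithmeticFunction.sigma

/-- the coefficients of `tX`. -/
noncomputable def cX (N : ℕ) : A :=
  if N = 0 then u * zi ^ 2
  else ∑ d ∈ N.divisors, (d : A) * (u ^ d + ui ^ d) - 2 * (σ 1 N : A)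

/-- the coefficients of `tY`. -/
noncomputable def cY (N : ℕ) : A :=
  if N = 0 then u ^ 2 * zi ^ 3
  else ∑ d ∈ N.divisors, ((d.choose 2 : A) * u ^ d - ((d + 1).choose 2 : A) * ui ^ d) + (σ 1 N : A)

/-- the Tate series `X(u, q)`. -/
noncomputable def tX : PowerSeries A := PowerSeries.mk cX

/-- the Tate series `Y(u, q)`. -/
noncomputable def tY : PowerSeries A := PowerSeries.mk cY

/-- `s_k(q) = ∑_{N ≥ 1} σ_k(N) q^N`. -/
noncomputable def sk (k : ℕ) : PowerSeries ℤ :=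
  PowerSeries.mk fun N => if N = 0 then 0 else (σ k N : ℤ)

/-- `a₄(q) = -5 s₃(q)`. -/
noncomputable def a4 : PowerSeries ℤ :=
  PowerSeries.mk fun N => if N = 0 then 0 else -5 * (σ 3 N : ℤ)

/-- `a₆(q) = -(5 s₃(q) + 7 s₅(q)) / 12`. -/
noncomputable def a6 : PowerSeries ℤ :=
  PowerSeries.mk fun N => if N = 0 then 0 else -((5 * (σ 3 N : ℤ) + 7 * (σ 5 N : ℤ)) / 12)

/-- `a₄`, in `A⟦q⟧`. -/
noncomputable def a4A : PowerSeries A := a4.map (Int.castRingHom A)

/-- `a₆`, in `A⟦q⟧`. -/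
noncomputable def a6A : PowerSeries A := a6.map (Int.castRingHom A)

/-- **the Tate–Weierstrass defect** `Y² + XY - X³ - a₄X - a₆`. -/
noncomputable def tW : PowerSeries A := tY ^ 2 + tX * tY - tX ^ 3 - a4A * tX - a6A

/-- `12 ∣ 5 d³ + 7 d⁵`. -/
theorem twelve_dvd (d : ℤ) : (12 : ℤ) ∣ 5 * d ^ 3 + 7 * d ^ 5 := by
  have h : ∀ r : ZMod 12, 5 * r ^ 3 + 7 * r ^ 5 = 0 := by decide
  have := h (d : ZMod 12)
  have h2 : ((5 * d ^ 3 + 7 * d ^ 5 : ℤ) : ZMod 12) = 0 := by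
    push_cast
    exact this
  exact (ZMod.intCast_zmod_eq_zero_iff_dvd _ 12).1 h2

theorem twelve_dvd_sigma (N : ℕ) : (12 : ℤ) ∣ 5 * (σ 3 N : ℤ) + 7 * (σ 5 N : ℤ) := by
  rw [ArithmeticFunction.sigma_apply, ArithmeticFunction.sigma_apply]
  push_cast
  rw [Finset.mul_sum, Finset.mul_sum, ← Finset.sum_add_distrib]
  exact Finset.dvd_sum fun d _ => twelve_dvd d

theorem twelve_mul_coeff_a6 (N : ℕ) (hN : N ≠ 0) :
    12 * PowerSeries.coeff N a6 = -(5 * (σ 3 N : ℤ) + 7 * (σ 5 N : ℤ)) := by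
  rw [a6, PowerSeries.coeff_mk, if_neg hN, mul_neg, Int.mul_ediv_cancel' (twelve_dvd_sigma N)]

end Fermat.Agent.MZ.MOD.TateFormal4
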