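/-
Programme MZ (S15, Mazur), chapter MOD-E, file TateA2_3 (helper3): **the two-variable coefficient
ring** `A2 = ℤ[u, v, 1/(u v (1-u)(1-v)(1-uv))]` for the group law of the formal Tate curve.

* `liftA a … : A →+* T` (`u ↦ a`, any commutative ring `T`), `ringHom_ext_A`;
* `A2`, `u2 v2 : A2`, `liftA2 a b … : A2 →+* T`, `ringHom_ext_A2`;
* `iu iv iuv : A →+* A2` (`u ↦ u2, v2, u2 * v2`);
* `evA2 a b … : A2 →+* K` (`K` a field) with `evA2_comp_iu/iv/iuv`;
* the inversion `invA : A →+* A` (`u ↦ u⁻¹`), `invA_cX`, `invA_cY`, `map_invA_tX`, `map_invA_tY`,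
  and `inv2 : A2 →+* A2` with `inv2_comp_iu/iv/iuv`.
-/
import Mathlib
import Fermat.Agent.MZ.MOD.TateFormal4

set_option autoImplicit false
set_option linter.unusedSectionVars false
set_option linter.style.longLine false

open Polynomial

noncomputable section

namespace Fermat.Agent.MZ.MOD.TateA2_3

open Fermat.Agent.MZ.MOD.TateFormal4

/-! ### maps out of `A` -/

section LiftA

variable {T : Type*} [CommRing T]

/-- the ring homomorphism `A → T`, `u ↦ a`, for `a` and `1 - a` units. -/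
def liftA (a : T) (ha : IsUnit a) (h1 : IsUnit (1 - a)) : A →+* T :=
  IsLocalization.Away.lift den (g := Polynomial.eval₂RingHom (Int.castRingHom T) a) (by
    show IsUnit ((X * (1 - X) : ℤ[X]).eval₂ (Int.castRingHom T) a)
    rw [eval₂_mul, eval₂_X, eval₂_sub, eval₂_one, eval₂_X]
    exact ha.mul h1)

@[simp] theorem liftA_u (a : T) (ha : IsUnit a) (h1 : IsUnit (1 - a)) : liftA a ha h1 u = a := by
  rw [u, liftA, IsLocalization.Away.lift_eq]
  simp

/-- two ring homomorphisms out of `A` agreeing on `u` are equal. -/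
theorem ringHom_ext_A {f g : A →+* T} (h : f u = g u) : f = g := by
  apply IsLocalization.ringHom_ext (Submonoid.powers den)
  apply Polynomial.ringHom_ext
  · intro n
    simp
  · exact h

theorem map_ui (f : A →+* T) : f ui * f u = 1 := by
  rw [← map_mul, mul_comm, u_mul_ui, map_one]

theorem map_zi (f : A →+* T) : f zi * (1 - f u) = 1 := by
  have := congrArg f z_mul_zi
  rw [map_mul, map_sub, map_one] at this
  rw [mul_comm]; exact this

theorem isUnit_map_u (f : A →+* T) : IsUnit (f u) := .of_mul_eq_one _ (by rw [mul_comm]; exact map_ui f)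

theorem isUnit_one_sub_map_u (f : A →+* T) : IsUnit (1 - f u) := .of_mul_eq_one _ (by rw [mul_comm]; exact map_zi f)

end LiftA

/-! ### the ring `A2` -/

/-- `ℤ[U, V]`. -/
abbrev P2 : Type := MvPolynomial (Fin 2) ℤ

/-- the polynomial `U V (1 - U) (1 - V) (1 - U V)`. -/
def d2 : P2 := MvPolynomial.X 0 * MvPolynomial.X 1 * (1 - MvPolynomial.X 0) * (1 - MvPolynomial.X 1) *
  (1 - MvPolynomial.X 0 * MvPolynomial.X 1)

/-- `ℤ[u, v, 1/(u v (1-u)(1-v)(1-uv))]`. -/
abbrev A2 : Type := Localization.Away d2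

/-- the variable `u`. -/
def u2 : A2 := algebraMap P2 A2 (MvPolynomial.X 0)

/-- the variable `v`. -/
def v2 : A2 := algebraMap P2 A2 (MvPolynomial.X 1)

theorem isUnit_d2 : IsUnit (u2 * v2 * (1 - u2) * (1 - v2) * (1 - u2 * v2)) := by
  have h := IsLocalization.Away.algebraMap_isUnit (S := A2) d2
  have h2 : algebraMap P2 A2 d2 = u2 * v2 * (1 - u2) * (1 - v2) * (1 - u2 * v2) := by
    simp only [d2, map_mul, map_sub, map_one]
    rfl
  rwa [h2] at h

theorem isUnit_u2 : IsUnit u2 := by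
  have h := isUnit_d2
  have : u2 * v2 * (1 - u2) * (1 - v2) * (1 - u2 * v2) = u2 * (v2 * (1 - u2) * (1 - v2) * (1 - u2 * v2)) := by ring
  rw [this] at h
  exact isUnit_of_mul_isUnit_left h

theorem isUnit_v2 : IsUnit v2 := by
  have h := isUnit_d2
  have : u2 * v2 * (1 - u2) * (1 - v2) * (1 - u2 * v2) = v2 * (u2 * (1 - u2) * (1 - v2) * (1 - u2 * v2)) := by ring
  rw [this] at h
  exact isUnit_of_mul_isUnit_left h

theorem isUnit_one_sub_u2 : IsUnit (1 - u2) := by
  have h := isUnit_d2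
  have : u2 * v2 * (1 - u2) * (1 - v2) * (1 - u2 * v2) = (1 - u2) * (u2 * v2 * (1 - v2) * (1 - u2 * v2)) := by ring
  rw [this] at h
  exact isUnit_of_mul_isUnit_left h

theorem isUnit_one_sub_v2 : IsUnit (1 - v2) := by
  have h := isUnit_d2
  have : u2 * v2 * (1 - u2) * (1 - v2) * (1 - u2 * v2) = (1 - v2) * (u2 * v2 * (1 - u2) * (1 - u2 * v2)) := by ring
  rw [this] at h
  exact isUnit_of_mul_isUnit_left h

theorem isUnit_one_sub_uv2 : IsUnit (1 - u2 * v2) := by
  have h := isUnit_d2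
  exact isUnit_of_mul_isUnit_right h

section LiftA2

variable {T : Type*} [CommRing T]

/-- the ring homomorphism `A2 → T`, `u ↦ a`, `v ↦ b`. -/
def liftA2 (a b : T) (ha : IsUnit a) (hb : IsUnit b) (ha1 : IsUnit (1 - a)) (hb1 : IsUnit (1 - b))
    (hab : IsUnit (1 - a * b)) : A2 →+* T :=
  IsLocalization.Away.lift d2 (g := (MvPolynomial.eval₂Hom (Int.castRingHom T) ![a, b])) (by
    have : (MvPolynomial.eval₂Hom (Int.castRingHom T) ![a, b]) d2 = a * b * (1 - a) * (1 - b) * (1 - a * b) := by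
      simp [d2]
    rw [this]
    exact (((ha.mul hb).mul ha1).mul hb1).mul hab)

variable (a b : T) (ha : IsUnit a) (hb : IsUnit b) (ha1 : IsUnit (1 - a)) (hb1 : IsUnit (1 - b))
  (hab : IsUnit (1 - a * b))

@[simp] theorem liftA2_u2 : liftA2 a b ha hb ha1 hb1 hab u2 = a := by
  rw [u2, liftA2, IsLocalization.Away.lift_eq]
  simp

@[simp] theorem liftA2_v2 : liftA2 a b ha hb ha1 hb1 hab v2 = b := by
  rw [v2, liftA2, IsLocalization.Away.lift_eq]
  simp

/-- two ring homomorphisms out of `A2` agreeing on `u2`, `v2` are equal. -/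
theorem ringHom_ext_A2 {f g : A2 →+* T} (hu : f u2 = g u2) (hv : f v2 = g v2) : f = g := by
  apply IsLocalization.ringHom_ext (Submonoid.powers d2)
  apply MvPolynomial.ringHom_ext
  · intro n
    simp
  · intro i
    fin_cases i
    · exact hu
    · exact hv

end LiftA2

/-! ### the three maps `A → A2` -/

/-- `u ↦ u`. -/
def iu : A →+* A2 := liftA u2 isUnit_u2 isUnit_one_sub_u2

/-- `u ↦ v`. -/
def iv : A →+* A2 := liftA v2 isUnit_v2 isUnit_one_sub_v2

/-- `u ↦ u v`. -/
def iuv : A →+* A2 := liftA (u2 * v2) (isUnit_u2.mul isUnit_v2) isUnit_one_sub_uv2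

@[simp] theorem iu_u : iu u = u2 := liftA_u _ _ _
@[simp] theorem iv_u : iv u = v2 := liftA_u _ _ _
@[simp] theorem iuv_u : iuv u = u2 * v2 := liftA_u _ _ _

theorem iuv_ui : iuv ui = iu ui * iv ui := by
  have h1 := map_ui iuv
  have h2 := map_ui iu
  have h3 := map_ui iv
  rw [iuv_u] at h1
  rw [iu_u] at h2
  rw [iv_u] at h3
  calc iuv ui = iuv ui * ((iu ui * u2) * (iv ui * v2)) := by rw [h2, h3, mul_one, mul_one]
    _ = (iuv ui * (u2 * v2)) * (iu ui * iv ui) := by ring
    _ = iu ui * iv ui := by rw [h1, one_mul]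

/-! ### evaluation at a point of a field -/

section Eval

variable {K : Type*} [Field K] (a b : K) (ha0 : a ≠ 0) (ha1 : a ≠ 1) (hb0 : b ≠ 0) (hb1 : b ≠ 1)
  (hab : a * b ≠ 1)

/-- evaluation `A2 → K` at `(a, b)`, `a, b, ab ∉ {0, 1}`. -/
def evA2 : A2 →+* K :=
  liftA2 a b ha0.isUnit hb0.isUnit (sub_ne_zero.2 (Ne.symm ha1)).isUnit
    (sub_ne_zero.2 (Ne.symm hb1)).isUnit (sub_ne_zero.2 (Ne.symm hab)).isUnit

@[simp] theorem evA2_u2 : evA2 a b ha0 ha1 hb0 hb1 hab u2 = a := liftA2_u2 _ _ _ _ _ _ _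

@[simp] theorem evA2_v2 : evA2 a b ha0 ha1 hb0 hb1 hab v2 = b := liftA2_v2 _ _ _ _ _ _ _

theorem evA2_comp_iu : (evA2 a b ha0 ha1 hb0 hb1 hab).comp iu = evA a ha0 ha1 :=
  ringHom_ext_A (by simp)

theorem evA2_comp_iv : (evA2 a b ha0 ha1 hb0 hb1 hab).comp iv = evA b hb0 hb1 :=
  ringHom_ext_A (by simp)

theorem evA2_comp_iuv : (evA2 a b ha0 ha1 hb0 hb1 hab).comp iuv =
    evA (a * b) (mul_ne_zero ha0 hb0) hab :=
  ringHom_ext_A (by simp)

end Eval

/-! ### the inversion `u ↦ u⁻¹` -/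

theorem isUnit_ui : IsUnit ui := .of_mul_eq_one u (by rw [mul_comm]; exact u_mul_ui)

theorem isUnit_one_sub_ui : IsUnit (1 - ui) := by
  refine .of_mul_eq_one (-(u * zi)) ?_
  have h1 := u_mul_ui
  have h2 := z_mul_zi
  linear_combination zi * h1 + h2

/-- the inversion `u ↦ u⁻¹` of `A`. -/
def invA : A →+* A := liftA ui isUnit_ui isUnit_one_sub_ui

@[simp] theorem invA_u : invA u = ui := liftA_u _ _ _

@[simp] theorem invA_ui : invA ui = u := by
  have h := map_ui invA
  rw [invA_u] at h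
  have h1 := u_mul_ui
  calc invA ui = invA ui * (u * ui) := by rw [h1, mul_one]
    _ = (invA ui * ui) * u := by ring
    _ = u := by rw [h, one_mul]

@[simp] theorem invA_zi : invA zi = -(u * zi) := by
  have h := map_zi invA
  rw [invA_u] at h
  have h1 := u_mul_ui
  have h2 := z_mul_zi
  have h3 : (1 - ui) * (-(u * zi)) = 1 := by linear_combination zi * h1 + h2
  calc invA zi = invA zi * ((1 - ui) * (-(u * zi))) := by rw [h3, mul_one]
    _ = (invA zi * (1 - ui)) * (-(u * zi)) := by ring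
    _ = -(u * zi) := by rw [h, one_mul]

local notation "σ" => ArithmeticFunction.sigma

theorem invA_cX (N : ℕ) : invA (cX N) = cX N := by
  by_cases hN : N = 0
  · subst hN
    rw [cX, if_pos rfl, map_mul, map_pow, invA_u, invA_zi]
    have h1 := u_mul_ui
    linear_combination (u * zi ^ 2) * h1
  · rw [cX, if_neg hN, map_sub, map_mul, map_ofNat, map_natCast, map_sum]
    congr 1
    refine Finset.sum_congr rfl fun d _ => ?_
    rw [map_mul, map_natCast, map_add, map_pow, map_pow, invA_u, invA_ui]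
    ring

theorem invA_cY (N : ℕ) : invA (cY N) = -cY N - cX N := by
  by_cases hN : N = 0
  · subst hN
    rw [cX, cY, if_pos rfl, if_pos rfl, map_mul, map_pow, map_pow, invA_u, invA_zi]
    have h1 := u_mul_ui
    have h2 := z_mul_zi
    linear_combination (-(u * zi ^ 3 * (ui * u + 1))) * h1 + (-(u * zi ^ 2)) * h2
  · rw [cX, cY, if_neg hN, if_neg hN, map_add, map_natCast, map_sum]
    have h : ∀ d ∈ N.divisors, invA ((d.choose 2 : A) * u ^ d - ((d + 1).choose 2 : A) * ui ^ d) =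
        -((d.choose 2 : A) * u ^ d - ((d + 1).choose 2 : A) * ui ^ d) - (d : A) * (u ^ d + ui ^ d) := by
      intro d _
      rw [map_sub, map_mul, map_mul, map_natCast, map_natCast, map_pow, map_pow, invA_u, invA_ui]
      have hc : ((d + 1).choose 2 : A) = (d : A) + (d.choose 2 : A) := by
        rw [Nat.choose_succ_succ, Nat.choose_one_right]
        push_cast
        ring
      rw [hc]
      ring
    rw [Finset.sum_congr rfl h, Finset.sum_sub_distrib, Finset.sum_neg_distrib]
    ring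

theorem map_invA_tX : tX.map invA = tX := by
  ext n
  rw [PowerSeries.coeff_map, tX, PowerSeries.coeff_mk]
  exact invA_cX n

theorem map_invA_tY : tY.map invA = -tY - tX := by
  ext n
  rw [PowerSeries.coeff_map, map_sub, map_neg, tX, tY, PowerSeries.coeff_mk, PowerSeries.coeff_mk]
  exact invA_cY n

/-- the inversion `(u, v) ↦ (u⁻¹, v⁻¹)` of `A2`. -/
def inv2 : A2 →+* A2 :=
  liftA2 (iu ui) (iv ui) (isUnit_ui.map iu) (isUnit_ui.map iv)
    (by rw [← map_one iu, ← map_sub]; exact isUnit_one_sub_ui.map iu)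
    (by rw [← map_one iv, ← map_sub]; exact isUnit_one_sub_ui.map iv)
    (by rw [← iuv_ui, ← map_one iuv, ← map_sub]; exact isUnit_one_sub_ui.map iuv)

@[simp] theorem inv2_u2 : inv2 u2 = iu ui := liftA2_u2 _ _ _ _ _ _ _

@[simp] theorem inv2_v2 : inv2 v2 = iv ui := liftA2_v2 _ _ _ _ _ _ _

theorem inv2_comp_iu : inv2.comp iu = iu.comp invA := ringHom_ext_A (by simp)

theorem inv2_comp_iv : inv2.comp iv = iv.comp invA := ringHom_ext_A (by simp)

theorem inv2_comp_iuv : inv2.comp iuv = iuv.comp invA :=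
  ringHom_ext_A (by simp [iuv_ui])

end Fermat.Agent.MZ.MOD.TateA2_3
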