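/-
Programme MZ (S15, Mazur), chapter MOD-E, file TateRho3 (helper3): **the expansion of `A2` at the
point `(u, v) = (2, 3)`**: `rho : A2 →+* ℚ⟦α, β⟧`, `u ↦ 2 + α`, `v ↦ 3 + β`, injective; the derivations
`Du = u ∂/∂u`, `Dv = v ∂/∂v` of `ℚ⟦α, β⟧`; the elements killed by both are the constants.
-/
import Mathlib
import Fermat.Agent.MZ.MOD.TateA2_3
import Fermat.Agent.MZ.MOD.Der3

set_option autoImplicit false
set_option linter.unusedSectionVars false
set_option linter.style.longLine false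

noncomputable section

namespace Fermat.Agent.MZ.MOD.TateRho3

open Fermat.Agent.MZ.MOD.TateFormal4 Fermat.Agent.MZ.MOD.TateA2_3 Fermat.Agent.MZ.MOD.Der3

/-- `ℚ⟦α, β⟧`. -/
abbrev PP : Type := MvPowerSeries (Fin 2) ℚ

/-- `u = 2 + α`. -/
def Ur : PP := MvPowerSeries.X 0 + MvPowerSeries.C 2

/-- `v = 3 + β`. -/
def Vr : PP := MvPowerSeries.X 1 + MvPowerSeries.C 3

theorem constantCoeff_Ur : MvPowerSeries.constantCoeff Ur = 2 := by
  simp [Ur]

theorem constantCoeff_Vr : MvPowerSeries.constantCoeff Vr = 3 := by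
  simp [Vr]

theorem isUnit_of_constantCoeff_ne_zero {f : PP} (h : MvPowerSeries.constantCoeff f ≠ 0) : IsUnit f :=
  MvPowerSeries.isUnit_iff_constantCoeff.2 h.isUnit

theorem isUnit_Ur : IsUnit Ur := isUnit_of_constantCoeff_ne_zero (by rw [constantCoeff_Ur]; norm_num)

theorem isUnit_Vr : IsUnit Vr := isUnit_of_constantCoeff_ne_zero (by rw [constantCoeff_Vr]; norm_num)

/-- **the expansion at `(2, 3)`.** -/
def rho : A2 →+* PP :=
  liftA2 Ur Vr isUnit_Ur isUnit_Vr
    (isUnit_of_constantCoeff_ne_zero (by rw [map_sub, map_one, constantCoeff_Ur]; norm_num))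
    (isUnit_of_constantCoeff_ne_zero (by rw [map_sub, map_one, constantCoeff_Vr]; norm_num))
    (isUnit_of_constantCoeff_ne_zero (by
      rw [map_sub, map_one, map_mul, constantCoeff_Ur, constantCoeff_Vr]; norm_num))

@[simp] theorem rho_u2 : rho u2 = Ur := liftA2_u2 _ _ _ _ _ _ _

@[simp] theorem rho_v2 : rho v2 = Vr := liftA2_v2 _ _ _ _ _ _ _

theorem h20 : (2 : ℚ) ≠ 0 := by norm_num
theorem h21 : (2 : ℚ) ≠ 1 := by norm_num
theorem h30 : (3 : ℚ) ≠ 0 := by norm_num
theorem h31 : (3 : ℚ) ≠ 1 := by norm_num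
theorem h61 : (2 : ℚ) * 3 ≠ 1 := by norm_num

/-- evaluation of `A2` at the rational point `(2, 3)`. -/
def ev23 : A2 →+* ℚ := evA2 (2 : ℚ) 3 h20 h21 h30 h31 h61

theorem constantCoeff_comp_rho :
    (MvPowerSeries.constantCoeff (σ := Fin 2) (R := ℚ)).comp rho = ev23 :=
  ringHom_ext_A2 (by simp [ev23, constantCoeff_Ur]) (by simp [ev23, constantCoeff_Vr])

theorem constantCoeff_rho (x : A2) : MvPowerSeries.constantCoeff (rho x) = ev23 x :=
  RingHom.congr_fun constantCoeff_comp_rho x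

theorem isUnit_rho {x : A2} (h : ev23 x ≠ 0) : IsUnit (rho x) :=
  isUnit_of_constantCoeff_ne_zero (by rw [constantCoeff_rho]; exact h)

theorem ev23_iu (a : A) : ev23 (iu a) = evA (2 : ℚ) h20 h21 a :=
  RingHom.congr_fun (evA2_comp_iu (2 : ℚ) 3 h20 h21 h30 h31 h61) a

theorem ev23_iv (a : A) : ev23 (iv a) = evA (3 : ℚ) h30 h31 a :=
  RingHom.congr_fun (evA2_comp_iv (2 : ℚ) 3 h20 h21 h30 h31 h61) a

theorem ev23_iuv (a : A) : ev23 (iuv a) = evA ((2 : ℚ) * 3) (mul_ne_zero h20 h30) h61 a :=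
  RingHom.congr_fun (evA2_comp_iuv (2 : ℚ) 3 h20 h21 h30 h31 h61) a

/-! ### injectivity -/

/-- the shift `X i ↦ X i + c i` of `ℚ[X₀, X₁]`. -/
def shift (c : Fin 2 → ℚ) : MvPolynomial (Fin 2) ℚ →ₐ[ℚ] MvPolynomial (Fin 2) ℚ :=
  MvPolynomial.aeval fun i => MvPolynomial.X i + MvPolynomial.C (c i)

theorem shift_comp_shift (c : Fin 2 → ℚ) : (shift (-c)).comp (shift c) = AlgHom.id ℚ _ := by
  apply MvPolynomial.algHom_ext
  intro i
  simp [shift]

theorem shift_injective (c : Fin 2 → ℚ) : Function.Injective (shift c) := by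
  intro x y h
  have := congrArg (shift (-c)) h
  have e : ∀ z, shift (-c) (shift c z) = z := fun z => by
    have := AlgHom.congr_fun (shift_comp_shift c) z
    exact this
  rwa [e, e] at this

/-- the polynomial part of `rho`. -/
def rho0 : P2 →+* PP := MvPolynomial.eval₂Hom (Int.castRingHom PP) ![Ur, Vr]

theorem rho0_eq : rho0 = (MvPolynomial.coeToMvPowerSeries.ringHom (σ := Fin 2) (R := ℚ)).comp
    (((shift ![2, 3] : MvPolynomial (Fin 2) ℚ →ₐ[ℚ] MvPolynomial (Fin 2) ℚ) : MvPolynomial (Fin 2) ℚ →+* MvPolynomial (Fin 2) ℚ).comp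
      (MvPolynomial.map (Int.castRingHom ℚ))) := by
  apply MvPolynomial.ringHom_ext
  · intro n
    simp [rho0]
  · intro i
    fin_cases i
    · simp [rho0, shift, Ur]
    · simp [rho0, shift, Vr]

theorem rho0_injective : Function.Injective rho0 := by
  rw [rho0_eq]
  intro x y h
  have h1 := MvPolynomial.coe_injective (σ := Fin 2) (R := ℚ) h
  have h2 := shift_injective _ h1
  exact MvPolynomial.map_injective _ (RingHom.injective_int (Int.castRingHom ℚ)) h2

theorem rho_algebraMap (p : P2) : rho (algebraMap P2 A2 p) = rho0 p := by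
  rw [rho, liftA2, IsLocalization.Away.lift_eq]
  rfl

/-- **`rho` is injective.** -/
theorem rho_injective : Function.Injective rho := by
  rw [injective_iff_map_eq_zero]
  intro x hx
  obtain ⟨⟨p, ⟨_, ⟨n, rfl⟩⟩⟩, hp⟩ := IsLocalization.surj (Submonoid.powers d2) x
  have hp' : x * algebraMap P2 A2 (d2 ^ n) = algebraMap P2 A2 p := hp
  have h0 : rho0 p = 0 := by
    rw [← rho_algebraMap, ← hp', map_mul, hx, zero_mul]
  have hp0 : p = 0 := rho0_injective (by rw [h0, map_zero])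
  rw [hp0, map_zero] at hp'
  have hu : IsUnit (algebraMap P2 A2 (d2 ^ n)) :=
    IsLocalization.map_units A2 (⟨d2 ^ n, ⟨n, rfl⟩⟩ : Submonoid.powers d2)
  exact (hu.mul_left_eq_zero).1 hp'

/-! ### the derivations -/

/-- `u ∂/∂u`. -/
def Du : Der PP := (Der.ofDerivation (MvPowerSeries.pderiv ℚ (0 : Fin 2))).smul Ur

/-- `v ∂/∂v`. -/
def Dv : Der PP := (Der.ofDerivation (MvPowerSeries.pderiv ℚ (1 : Fin 2))).smul Vr

theorem Du_apply (f : PP) : Du f = Ur * MvPowerSeries.pderiv ℚ (0 : Fin 2) f := rfl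

theorem Dv_apply (f : PP) : Dv f = Vr * MvPowerSeries.pderiv ℚ (1 : Fin 2) f := rfl

theorem Du_Ur : Du Ur = Ur := by
  rw [Du_apply, Ur, map_add, MvPowerSeries.pderiv_X_self, MvPowerSeries.pderiv_C, add_zero, mul_one]

theorem Du_Vr : Du Vr = 0 := by
  rw [Du_apply, Vr, map_add, MvPowerSeries.pderiv_X_of_ne (by decide), MvPowerSeries.pderiv_C,
    add_zero, mul_zero]

theorem Dv_Vr : Dv Vr = Vr := by
  rw [Dv_apply, Vr, map_add, MvPowerSeries.pderiv_X_self, MvPowerSeries.pderiv_C, add_zero, mul_one]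

theorem Dv_Ur : Dv Ur = 0 := by
  rw [Dv_apply, Ur, map_add, MvPowerSeries.pderiv_X_of_ne (by decide), MvPowerSeries.pderiv_C,
    add_zero, mul_zero]

/-- **the common kernel of `Du` and `Dv` consists of the constants.** -/
theorem eq_C_of_Du_Dv_eq_zero {f : PP} (hu : Du f = 0) (hv : Dv f = 0) :
    f = MvPowerSeries.C (MvPowerSeries.constantCoeff f) := by
  have h0 : MvPowerSeries.pderiv ℚ (0 : Fin 2) f = 0 := by
    rw [Du_apply] at hu
    exact (isUnit_Ur.mul_right_eq_zero).1 hu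
  have h1 : MvPowerSeries.pderiv ℚ (1 : Fin 2) f = 0 := by
    rw [Dv_apply] at hv
    exact (isUnit_Vr.mul_right_eq_zero).1 hv
  apply MvPowerSeries.pderiv.ext
  · intro i
    fin_cases i
    · show MvPowerSeries.pderiv ℚ (0 : Fin 2) f = _
      rw [h0, MvPowerSeries.pderiv_C]
    · show MvPowerSeries.pderiv ℚ (1 : Fin 2) f = _
      rw [h1, MvPowerSeries.pderiv_C]
  · simp

end Fermat.Agent.MZ.MOD.TateRho3
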