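/-
Programme MZ (S15, Mazur), chapter MOD-E, file TateAdd3 (helper3): **the group law of the formal Tate
curve**: in `A2⟦q⟧` (`A2 = ℤ[u, v, 1/(u v (1-u)(1-v)(1-uv))]`), with `Xu = X(u, q)` etc.,

  (A-x)  `(Xuv + Xu + Xv) (Xu - Xv)² = (Yu - Yv)² + (Yu - Yv)(Xu - Xv)`,
  (A-y)  `(Yuv + Xuv + Yu)(Xu - Xv) + (Yu - Yv)(Xuv - Xu) = 0`,

i.e. `P_u + P_v = P_{uv}` for the chord construction.  Purely formal proof: in `ℚ⟦α, β⟧⟦q⟧`
(`u = 2 + α`, `v = 3 + β`) the chord sum `(ξ, η)` of `P_u, P_v` and the point `P_{uv}` both lie on the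
curve, both satisfy `D ξ = ξ + 2 η` for `D = u ∂/∂u, v ∂/∂v`, and agree modulo `q` (nodal group
law); a `q`-adic induction shows that the leading coefficient of the difference is a rational
multiple of `g(uv)`, `g = X₀ + 2Y₀`, and the symmetry `(u, v) ↦ (u⁻¹, v⁻¹)` kills the multiple.
-/
import Mathlib
import Fermat.Agent.MZ.MOD.TateD3
import Fermat.Agent.MZ.MOD.TateRho3
import Fermat.Agent.MZ.MOD.TateChord3

set_option autoImplicit false
set_option linter.unusedSectionVars false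
set_option linter.unusedVariables false
set_option linter.style.longLine false

noncomputable section

namespace Fermat.Agent.MZ.MOD.TateAdd3

open Fermat.Agent.MZ.MOD.TateFormal4 Fermat.Agent.MZ.MOD.Der3 Fermat.Agent.MZ.MOD.TateD3
  Fermat.Agent.MZ.MOD.TateA2_3 Fermat.Agent.MZ.MOD.TateRho3 Fermat.Agent.MZ.MOD.TateChord3

/-- `ℚ⟦α, β⟧⟦q⟧`. -/
abbrev BB : Type := PowerSeries PP

theorem map_map' {R S T : Type*} [CommRing R] [CommRing S] [CommRing T] (f : R →+* S) (g : S →+* T)
    (F : PowerSeries R) : (F.map f).map g = F.map (g.comp f) := by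
  ext n
  simp

/-! ### the Tate series over a general base -/

section Gen

variable {T : Type*} [CommRing T] (τ : A →+* T)

/-- `X(τ u, q)`. -/
def xs : PowerSeries T := tX.map τ

/-- `Y(τ u, q)`. -/
def ys : PowerSeries T := tY.map τ

variable (T) in
/-- `a₄(q)`. -/
def b4 : PowerSeries T := a4.map (Int.castRingHom T)

variable (T) in
/-- `a₆(q)`. -/
def b6 : PowerSeries T := a6.map (Int.castRingHom T)

theorem map_a4A : a4A.map τ = b4 T := by
  rw [a4A, map_map', b4]
  have : τ.comp (Int.castRingHom A) = Int.castRingHom T := RingHom.ext_int _ _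
  rw [this]

theorem map_a6A : a6A.map τ = b6 T := by
  rw [a6A, map_map', b6]
  have : τ.comp (Int.castRingHom A) = Int.castRingHom T := RingHom.ext_int _ _
  rw [this]

/-- the Tate equation. -/
theorem curve : ys τ ^ 2 + xs τ * ys τ = xs τ ^ 3 + b4 T * xs τ + b6 T := by
  have h := congrArg (PowerSeries.map τ) Fermat.Agent.MZ.MOD.TateW4.tW_eq_zero
  rw [tW, map_sub, map_sub, map_sub, map_add, map_pow, map_mul, map_pow, map_mul, map_a4A, map_a6A,
    map_zero] at h
  unfold xs ys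
  linear_combination h

theorem coeff_zero_b4 : PowerSeries.coeff 0 (b4 T) = 0 := by
  rw [b4, PowerSeries.coeff_map, a4, PowerSeries.coeff_mk, if_pos rfl, map_zero]

theorem coeff_zero_xs : PowerSeries.coeff 0 (xs τ) = τ u * τ zi ^ 2 := by
  rw [xs, PowerSeries.coeff_map, tX, PowerSeries.coeff_mk, cX, if_pos rfl, map_mul, map_pow]

theorem coeff_zero_ys : PowerSeries.coeff 0 (ys τ) = τ u ^ 2 * τ zi ^ 3 := by
  rw [ys, PowerSeries.coeff_map, tY, PowerSeries.coeff_mk, cY, if_pos rfl, map_mul, map_pow, map_pow]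

variable (D₀ : Der T) (ε : T)

theorem lift_b4 : D₀.lift (b4 T) = 0 := Der.lift_map_intCast D₀ a4

theorem lift_b6 : D₀.lift (b6 T) = 0 := Der.lift_map_intCast D₀ a6

theorem lift_xs (h : D₀ (τ u) = ε * τ u) :
    D₀.lift (xs τ) = PowerSeries.C ε * (xs τ + 2 * ys τ) := by
  rw [xs, lift_map D₀ τ ε h, DA_tX, map_add, map_mul, map_ofNat]
  rfl

theorem lift_ys (h : D₀ (τ u) = ε * τ u) :
    D₀.lift (ys τ) = PowerSeries.C ε * (3 * xs τ ^ 2 + b4 T - ys τ) := by
  rw [ys, lift_map D₀ τ ε h, DA_tY, map_sub, map_add, map_mul, map_pow, map_ofNat, map_a4A]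
  rfl

theorem lift_xs_one (h : D₀ (τ u) = τ u) : D₀.lift (xs τ) = xs τ + 2 * ys τ := by
  rw [lift_xs τ D₀ 1 (by rw [one_mul]; exact h), map_one, one_mul]

theorem lift_ys_one (h : D₀ (τ u) = τ u) : D₀.lift (ys τ) = 3 * xs τ ^ 2 + b4 T - ys τ := by
  rw [lift_ys τ D₀ 1 (by rw [one_mul]; exact h), map_one, one_mul]

theorem lift_xs_zero (h : D₀ (τ u) = 0) : D₀.lift (xs τ) = 0 := by
  rw [lift_xs τ D₀ 0 (by rw [zero_mul]; exact h), map_zero, zero_mul]

theorem lift_ys_zero (h : D₀ (τ u) = 0) : D₀.lift (ys τ) = 0 := by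
  rw [lift_ys τ D₀ 0 (by rw [zero_mul]; exact h), map_zero, zero_mul]

end Gen

/-! ### the three points over `ℚ⟦α, β⟧` -/

/-- `u ↦ 2 + α`. -/
def τu : A →+* PP := rho.comp iu

/-- `u ↦ 3 + β`. -/
def τv : A →+* PP := rho.comp iv

/-- `u ↦ (2 + α)(3 + β)`. -/
def τw : A →+* PP := rho.comp iuv

@[simp] theorem τu_u : τu u = Ur := by simp [τu]
@[simp] theorem τv_u : τv u = Vr := by simp [τv]
@[simp] theorem τw_u : τw u = Ur * Vr := by simp [τw]

/-- the two derivations of `ℚ⟦α, β⟧⟦q⟧`. -/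
def DU : Der BB := Du.lift

/-- the two derivations of `ℚ⟦α, β⟧⟦q⟧`. -/
def DV : Der BB := Dv.lift

theorem Du_τw : Du (τw u) = τw u := by
  rw [τw_u, Der.leibniz, Du_Ur, Du_Vr, mul_zero, add_zero]

theorem Dv_τw : Dv (τw u) = τw u := by
  rw [τw_u, Der.leibniz, Dv_Ur, Dv_Vr, zero_mul, zero_add]

local notation "x1" => xs τu
local notation "y1" => ys τu
local notation "x2" => xs τv
local notation "y2" => ys τv
local notation "x3" => xs τw
local notation "y3" => ys τw

theorem DU_x1 : DU x1 = x1 + 2 * y1 := lift_xs_one τu Du (by rw [τu_u, Du_Ur])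
theorem DU_y1 : DU y1 = 3 * x1 ^ 2 + b4 PP - y1 := lift_ys_one τu Du (by rw [τu_u, Du_Ur])
theorem DU_x2 : DU x2 = 0 := lift_xs_zero τv Du (by rw [τv_u, Du_Vr])
theorem DU_y2 : DU y2 = 0 := lift_ys_zero τv Du (by rw [τv_u, Du_Vr])
theorem DU_x3 : DU x3 = x3 + 2 * y3 := lift_xs_one τw Du Du_τw
theorem DU_y3 : DU y3 = 3 * x3 ^ 2 + b4 PP - y3 := lift_ys_one τw Du Du_τw
theorem DV_x1 : DV x1 = 0 := lift_xs_zero τu Dv (by rw [τu_u, Dv_Ur])
theorem DV_y1 : DV y1 = 0 := lift_ys_zero τu Dv (by rw [τu_u, Dv_Ur])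
theorem DV_x2 : DV x2 = x2 + 2 * y2 := lift_xs_one τv Dv (by rw [τv_u, Dv_Vr])
theorem DV_y2 : DV y2 = 3 * x2 ^ 2 + b4 PP - y2 := lift_ys_one τv Dv (by rw [τv_u, Dv_Vr])
theorem DV_x3 : DV x3 = x3 + 2 * y3 := lift_xs_one τw Dv Dv_τw
theorem DV_y3 : DV y3 = 3 * x3 ^ 2 + b4 PP - y3 := lift_ys_one τw Dv Dv_τw

/-! ### units -/

theorem evA_cX_zero {K : Type*} [Field K] (a : K) (h0 : a ≠ 0) (h1 : a ≠ 1) :
    evA a h0 h1 (cX 0) = a * ((1 - a)⁻¹) ^ 2 := by
  simp [cX]

theorem evA_cY_zero {K : Type*} [Field K] (a : K) (h0 : a ≠ 0) (h1 : a ≠ 1) :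
    evA a h0 h1 (cY 0) = a ^ 2 * ((1 - a)⁻¹) ^ 3 := by
  simp [cY]

/-- `X₀(u) - X₀(v)` in `A2`. -/
def dX0 : A2 := iu (cX 0) - iv (cX 0)

/-- `g(uv) = (X₀ + 2 Y₀)(uv)` in `A2`. -/
def g0 : A2 := iuv (cX 0 + 2 * cY 0)

theorem ev23_dX0 : ev23 dX0 ≠ 0 := by
  rw [dX0, map_sub, ev23_iu, ev23_iv, evA_cX_zero, evA_cX_zero]
  norm_num

theorem ev23_g0 : ev23 g0 ≠ 0 := by
  rw [g0, ev23_iuv, map_add, map_mul, map_ofNat, evA_cX_zero, evA_cY_zero]
  norm_num

theorem isUnit_rho_dX0 : IsUnit (rho dX0) := isUnit_rho ev23_dX0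

theorem isUnit_rho_g0 : IsUnit (rho g0) := isUnit_rho ev23_g0

theorem coeff_zero_sub : PowerSeries.coeff 0 (x1 - x2) = rho dX0 := by
  rw [map_sub, xs, xs, PowerSeries.coeff_map, PowerSeries.coeff_map, tX, PowerSeries.coeff_mk, dX0,
    map_sub]
  rfl

theorem isUnit_sub : IsUnit (x1 - x2 : BB) := by
  rw [PowerSeries.isUnit_iff_constantCoeff, ← PowerSeries.coeff_zero_eq_constantCoeff_apply,
    coeff_zero_sub]
  exact isUnit_rho_dX0

/-- the inverse of `X(u) - X(v)`. -/
def ii : BB := Classical.choose isUnit_sub.exists_left_inv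

theorem ii_mul : ii * (x1 - x2) = 1 := Classical.choose_spec isUnit_sub.exists_left_inv

/-- the chord sum of `P_u` and `P_v`. -/
def xi : BB := chX x1 y1 x2 y2 ii

/-- the chord sum of `P_u` and `P_v`. -/
def eta : BB := chY x1 y1 x2 y2 ii

theorem curve_xi : eta ^ 2 + xi * eta = xi ^ 3 + b4 PP * xi + b6 PP :=
  chord_curve ii_mul (curve τu) (curve τv)

theorem DU_xi : DU xi = xi + 2 * eta :=
  D_chX DU ii_mul (curve τu) (curve τv) DU_x1 DU_y1 DU_x2 DU_y2

theorem DV_xi : DV xi = xi + 2 * eta :=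
  D_chX' DV ii_mul (curve τu) (curve τv) DV_x1 DV_y1 DV_x2 DV_y2


/-! ### agreement modulo `q`: the nodal group law -/

theorem map_chX {R S : Type*} [CommRing R] [CommRing S] (f : R →+* S) (a b c d e : R) :
    f (chX a b c d e) = chX (f a) (f b) (f c) (f d) (f e) := by
  simp [chX]

theorem map_chY {R S : Type*} [CommRing R] [CommRing S] (f : R →+* S) (a b c d e : R) :
    f (chY a b c d e) = chY (f a) (f b) (f c) (f d) (f e) := by
  simp [chY, chX]

theorem cc_xs {T : Type*} [CommRing T] (τ : A →+* T) :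
    PowerSeries.constantCoeff (xs τ) = τ u * τ zi ^ 2 := by
  rw [← PowerSeries.coeff_zero_eq_constantCoeff_apply, coeff_zero_xs]

theorem cc_ys {T : Type*} [CommRing T] (τ : A →+* T) :
    PowerSeries.constantCoeff (ys τ) = τ u ^ 2 * τ zi ^ 3 := by
  rw [← PowerSeries.coeff_zero_eq_constantCoeff_apply, coeff_zero_ys]

theorem cc_b4 {T : Type*} [CommRing T] : PowerSeries.constantCoeff (b4 T) = 0 := by
  rw [← PowerSeries.coeff_zero_eq_constantCoeff_apply, coeff_zero_b4]

theorem hzu : τu zi * (1 - Ur) = 1 := by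
  have := map_zi τu
  rwa [τu_u] at this

theorem hzv : τv zi * (1 - Vr) = 1 := by
  have := map_zi τv
  rwa [τv_u] at this

theorem hzw : τw zi * (1 - Ur * Vr) = 1 := by
  have := map_zi τw
  rwa [τw_u] at this

/-- the chord sum agrees with `P_{uv}` modulo `q`. -/
theorem cc_xi_eta : PowerSeries.constantCoeff xi = PowerSeries.constantCoeff x3 ∧
    PowerSeries.constantCoeff eta = PowerSeries.constantCoeff y3 := by
  rw [xi, eta, map_chX, map_chY, cc_xs, cc_xs, cc_xs, cc_ys, cc_ys, cc_ys, τu_u, τv_u, τw_u]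
  have hi : PowerSeries.constantCoeff ii * (Ur * τu zi ^ 2 - Vr * τv zi ^ 2) = 1 := by
    have := congrArg (PowerSeries.constantCoeff (R := PP)) ii_mul
    rw [map_mul, map_sub, cc_xs, cc_xs, τu_u, τv_u, map_one] at this
    exact this
  exact chord_of_add hi (nodal_x hzu hzv hzw) (nodal_y hzu hzv hzw)

/-! ### the induction step -/

/-- `X₀(uv)`. -/
def X03 : PP := PowerSeries.constantCoeff x3

/-- `Y₀(uv)`. -/
def Y03 : PP := PowerSeries.constantCoeff y3

theorem rho_g0 : rho g0 = X03 + 2 * Y03 := by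
  have hx : X03 = rho (iuv (cX 0)) := by
    rw [X03, ← PowerSeries.coeff_zero_eq_constantCoeff_apply, xs, PowerSeries.coeff_map, tX,
      PowerSeries.coeff_mk]
    rfl
  have hy : Y03 = rho (iuv (cY 0)) := by
    rw [Y03, ← PowerSeries.coeff_zero_eq_constantCoeff_apply, ys, PowerSeries.coeff_map, tY,
      PowerSeries.coeff_mk]
    rfl
  rw [g0, hx, hy]
  simp only [map_add, map_mul, map_ofNat]

theorem Du_X03 : Du X03 = X03 + 2 * Y03 := by
  have h := congrArg (PowerSeries.coeff 0) DU_x3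
  rw [DU, Der.coeff_lift, PowerSeries.coeff_zero_eq_constantCoeff_apply,
    PowerSeries.coeff_zero_eq_constantCoeff_apply, map_add, map_mul, map_ofNat] at h
  exact h

theorem Dv_X03 : Dv X03 = X03 + 2 * Y03 := by
  have h := congrArg (PowerSeries.coeff 0) DV_x3
  rw [DV, Der.coeff_lift, PowerSeries.coeff_zero_eq_constantCoeff_apply,
    PowerSeries.coeff_zero_eq_constantCoeff_apply, map_add, map_mul, map_ofNat] at h
  exact h

theorem Du_Y03 : Du Y03 = 3 * X03 ^ 2 - Y03 := by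
  have h := congrArg (PowerSeries.coeff 0) DU_y3
  rw [DU, Der.coeff_lift, PowerSeries.coeff_zero_eq_constantCoeff_apply,
    PowerSeries.coeff_zero_eq_constantCoeff_apply, map_sub, map_add, map_mul, map_pow, map_ofNat,
    cc_b4, add_zero] at h
  exact h

theorem Dv_Y03 : Dv Y03 = 3 * X03 ^ 2 - Y03 := by
  have h := congrArg (PowerSeries.coeff 0) DV_y3
  rw [DV, Der.coeff_lift, PowerSeries.coeff_zero_eq_constantCoeff_apply,
    PowerSeries.coeff_zero_eq_constantCoeff_apply, map_sub, map_add, map_mul, map_pow, map_ofNat,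
    cc_b4, add_zero] at h
  exact h

/-- the ODE for the coefficients of the difference. -/
theorem Du_coeff (k : ℕ) : Du (PowerSeries.coeff k (xi - x3)) =
    PowerSeries.coeff k (xi - x3) + 2 * PowerSeries.coeff k (eta - y3) := by
  have h : DU (xi - x3) = (xi - x3) + 2 * (eta - y3) := by
    rw [Der.map_sub, DU_xi, DU_x3]; ring
  have h2 := congrArg (PowerSeries.coeff k) h
  rw [DU, Der.coeff_lift, map_add] at h2
  have h3 : PowerSeries.coeff k ((2 : BB) * (eta - y3)) = 2 * PowerSeries.coeff k (eta - y3) := by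
    have : (2 : BB) = PowerSeries.C (2 : PP) := (map_ofNat (PowerSeries.C (R := PP)) 2).symm
    rw [this, PowerSeries.coeff_C_mul]
  rw [h3] at h2
  exact h2

theorem Dv_coeff (k : ℕ) : Dv (PowerSeries.coeff k (xi - x3)) =
    PowerSeries.coeff k (xi - x3) + 2 * PowerSeries.coeff k (eta - y3) := by
  have h : DV (xi - x3) = (xi - x3) + 2 * (eta - y3) := by
    rw [Der.map_sub, DV_xi, DV_x3]; ring
  have h2 := congrArg (PowerSeries.coeff k) h
  rw [DV, Der.coeff_lift, map_add] at h2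
  have h3 : PowerSeries.coeff k ((2 : BB) * (eta - y3)) = 2 * PowerSeries.coeff k (eta - y3) := by
    have : (2 : BB) = PowerSeries.C (2 : PP) := (map_ofNat (PowerSeries.C (R := PP)) 2).symm
    rw [this, PowerSeries.coeff_C_mul]
  rw [h3] at h2
  exact h2

/-- the linearised curve equation for the leading coefficients. -/
theorem lin_curve (k : ℕ) (hk : 0 < k)
    (ih : ∀ j < k, PowerSeries.coeff j (xi - x3) = 0 ∧ PowerSeries.coeff j (eta - y3) = 0) :
    PowerSeries.coeff k (eta - y3) * (X03 + 2 * Y03) =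
      PowerSeries.coeff k (xi - x3) * (3 * X03 ^ 2 - Y03) := by
  have h := curve_sub curve_xi (curve τw)
  have h2 := congrArg (PowerSeries.coeff k) h
  rw [coeff_mul_of_low (fun j hj => (ih j hj).2), coeff_mul_of_low (fun j hj => (ih j hj).1)] at h2
  have hd0 : PowerSeries.constantCoeff (xi - x3) = 0 := by
    rw [← PowerSeries.coeff_zero_eq_constantCoeff_apply]; exact (ih 0 hk).1
  have he0 : PowerSeries.constantCoeff (eta - y3) = 0 := by
    rw [← PowerSeries.coeff_zero_eq_constantCoeff_apply]; exact (ih 0 hk).2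
  rw [PowerSeries.coeff_zero_eq_constantCoeff_apply, PowerSeries.coeff_zero_eq_constantCoeff_apply]
    at h2
  simp only [map_add, map_sub, map_mul, map_pow, map_ofNat, cc_b4] at h2
  rw [map_sub] at hd0 he0
  rw [hd0, he0] at h2
  rw [X03, Y03, map_sub, map_sub]
  linear_combination h2

/-- the leading coefficient of the difference is a rational multiple of `g(uv)`. -/
theorem exists_const (k : ℕ) (hk : 0 < k)
    (ih : ∀ j < k, PowerSeries.coeff j (xi - x3) = 0 ∧ PowerSeries.coeff j (eta - y3) = 0) :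
    ∃ c : ℚ, PowerSeries.coeff k (xi - x3) = MvPowerSeries.C c * rho g0 := by
  obtain ⟨gi, hgi⟩ := isUnit_rho_g0.exists_left_inv
  rw [rho_g0] at hgi ⊢
  set d := PowerSeries.coeff k (xi - x3) with hd
  set e := PowerSeries.coeff k (eta - y3) with he
  have hL : e * (X03 + 2 * Y03) = d * (3 * X03 ^ 2 - Y03) := lin_curve k hk ih
  have hDu : Du d = d + 2 * e := Du_coeff k
  have hDv : Dv d = d + 2 * e := Dv_coeff k
  have hgu : Du gi = -(gi ^ 2) * (X03 + 2 * Y03 + 2 * (3 * X03 ^ 2 - Y03)) := by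
    have := Du.map_of_mul_eq_one (a := X03 + 2 * Y03) (b := gi) (by rw [mul_comm]; exact hgi)
    rw [this, Der.map_add, Der.leibniz, Der.map_ofNat, Du_X03, Du_Y03]
    ring
  have hgv : Dv gi = -(gi ^ 2) * (X03 + 2 * Y03 + 2 * (3 * X03 ^ 2 - Y03)) := by
    have := Dv.map_of_mul_eq_one (a := X03 + 2 * Y03) (b := gi) (by rw [mul_comm]; exact hgi)
    rw [this, Der.map_add, Der.leibniz, Der.map_ofNat, Dv_X03, Dv_Y03]
    ring
  have h1 : Du (d * gi) = 0 := by
    rw [Der.leibniz, hDu, hgu]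
    linear_combination (2 * gi ^ 2) * hL + (-(d + 2 * e) * gi) * hgi
  have h2 : Dv (d * gi) = 0 := by
    rw [Der.leibniz, hDv, hgv]
    linear_combination (2 * gi ^ 2) * hL + (-(d + 2 * e) * gi) * hgi
  have h3 := eq_C_of_Du_Dv_eq_zero h1 h2
  refine ⟨MvPowerSeries.constantCoeff (d * gi), ?_⟩
  rw [← h3]
  linear_combination (-d) * hgi


/-! ### the defects of (A-x), (A-y) and the inversion symmetry -/

/-- the defect of (A-x), in `A2⟦q⟧`. -/
def Theta : PowerSeries A2 :=
  (xs iuv + xs iu + xs iv) * (xs iu - xs iv) ^ 2 - (ys iu - ys iv) ^ 2 -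
    (ys iu - ys iv) * (xs iu - xs iv)

/-- the defect of (A-y), in `A2⟦q⟧`. -/
def Psi : PowerSeries A2 :=
  (ys iuv + xs iuv + ys iu) * (xs iu - xs iv) + (ys iu - ys iv) * (xs iuv - xs iu)

theorem map_rho_xs (j : A →+* A2) : (xs j).map rho = xs (rho.comp j) := map_map' j rho tX

theorem map_rho_ys (j : A →+* A2) : (ys j).map rho = ys (rho.comp j) := map_map' j rho tY

theorem map_rho_Theta : Theta.map rho = -((xi - x3) * (x1 - x2) ^ 2) := by
  rw [Theta]
  simp only [map_sub, map_add, map_mul, map_pow, map_rho_xs, map_rho_ys]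
  exact addX_defect ii_mul x3

theorem map_rho_Psi : Psi.map rho = (y3 + x3 + y1) * (x1 - x2) + (y1 - y2) * (x3 - x1) := by
  rw [Psi]
  simp only [map_sub, map_add, map_mul, map_pow, map_rho_xs, map_rho_ys]
  rfl

theorem map_inv2_xs (j : A →+* A2) (hj : inv2.comp j = j.comp invA) : (xs j).map inv2 = xs j := by
  rw [xs, map_map', hj, ← map_map', map_invA_tX]

theorem map_inv2_ys (j : A →+* A2) (hj : inv2.comp j = j.comp invA) :
    (ys j).map inv2 = -ys j - xs j := by
  rw [ys, map_map', hj, ← map_map', map_invA_tY, map_sub, map_neg]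
  rfl

theorem map_inv2_Theta : Theta.map inv2 = Theta := by
  rw [Theta]
  simp only [map_sub, map_add, map_mul, map_pow, map_inv2_xs _ inv2_comp_iu,
    map_inv2_xs _ inv2_comp_iv, map_inv2_xs _ inv2_comp_iuv, map_inv2_ys _ inv2_comp_iu,
    map_inv2_ys _ inv2_comp_iv]
  ring

theorem inv2_coeff_Theta (k : ℕ) : inv2 (PowerSeries.coeff k Theta) = PowerSeries.coeff k Theta := by
  rw [← PowerSeries.coeff_map, map_inv2_Theta]

theorem inv2_g0 : inv2 g0 = -g0 := by
  have h : inv2 (iuv (cX 0 + 2 * cY 0)) = iuv (invA (cX 0 + 2 * cY 0)) :=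
    RingHom.congr_fun inv2_comp_iuv _
  rw [g0, h, map_add, map_mul, map_ofNat, invA_cX, invA_cY, ← map_neg]
  congr 1
  ring

theorem inv2_dX0 : inv2 dX0 = dX0 := by
  have h1 : inv2 (iu (cX 0)) = iu (invA (cX 0)) := RingHom.congr_fun inv2_comp_iu _
  have h2 : inv2 (iv (cX 0)) = iv (invA (cX 0)) := RingHom.congr_fun inv2_comp_iv _
  rw [dX0, map_sub, h1, h2, invA_cX]

/-- the `k`-th coefficient of the defect, under the induction hypothesis. -/
theorem rho_coeff_Theta (k : ℕ)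
    (ih : ∀ j < k, PowerSeries.coeff j (xi - x3) = 0 ∧ PowerSeries.coeff j (eta - y3) = 0) :
    rho (PowerSeries.coeff k Theta) = -(PowerSeries.coeff k (xi - x3) * rho dX0 ^ 2) := by
  rw [← PowerSeries.coeff_map, map_rho_Theta, map_neg, coeff_mul_of_low (fun j hj => (ih j hj).1),
    PowerSeries.coeff_zero_eq_constantCoeff_apply, map_pow,
    ← PowerSeries.coeff_zero_eq_constantCoeff_apply, coeff_zero_sub]

/-- **the induction step.** -/
theorem step (k : ℕ) (hk : 0 < k)
    (ih : ∀ j < k, PowerSeries.coeff j (xi - x3) = 0 ∧ PowerSeries.coeff j (eta - y3) = 0) :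
    PowerSeries.coeff k (xi - x3) = 0 ∧ PowerSeries.coeff k (eta - y3) = 0 := by
  obtain ⟨c, hc⟩ := exists_const k hk ih
  have hθ := rho_coeff_Theta k ih
  set θ := PowerSeries.coeff k Theta with hθdef
  set G : A2 := g0 * dX0 ^ 2 with hG
  have hρG : rho G = rho g0 * rho dX0 ^ 2 := by rw [hG, map_mul, map_pow]
  have hGu : IsUnit (rho G) := by
    rw [hρG]; exact isUnit_rho_g0.mul (isUnit_rho_dX0.pow 2)
  have hnc : (c.den : ℚ) * c = c.num := Rat.den_mul_eq_num c
  -- the relation in `A2`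
  have E1 : (c.den : A2) * θ + (c.num : A2) * G = 0 := by
    apply rho_injective
    rw [map_add, map_mul, map_mul, map_natCast, map_intCast, map_zero, hθ, hc, hρG]
    have h1 : ((c.den : ℕ) : PP) = MvPowerSeries.C (c.den : ℚ) := (map_natCast (MvPowerSeries.C (σ := Fin 2) (R := ℚ)) _).symm
    have h2 : ((c.num : ℤ) : PP) = MvPowerSeries.C (c.num : ℚ) := (map_intCast (MvPowerSeries.C (σ := Fin 2) (R := ℚ)) _).symm
    rw [h1, h2, ← hnc, map_mul]
    ring
  have E2 : (c.den : A2) * θ - (c.num : A2) * G = 0 := by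
    have h := congrArg inv2 E1
    rw [map_add, map_mul, map_mul, map_natCast, map_intCast, map_zero, inv2_coeff_Theta, hG, map_mul,
      map_pow, inv2_g0, inv2_dX0] at h
    rw [hG]
    linear_combination h
  have E3 : ((2 * c.num : ℤ) : A2) * G = 0 := by
    push_cast
    linear_combination E1 - E2
  have hm : c.num = 0 := by
    have h := congrArg rho E3
    rw [map_mul, map_intCast, map_zero] at h
    have h2 : ((2 * c.num : ℤ) : PP) = 0 := (hGu.mul_left_eq_zero).1 h
    have h3 := congrArg (MvPowerSeries.constantCoeff (σ := Fin 2) (R := ℚ)) h2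
    rw [map_intCast, map_zero] at h3
    have h4 : (2 * c.num : ℤ) = 0 := by exact_mod_cast h3
    omega
  have hc0 : c = 0 := Rat.num_eq_zero.1 hm
  have hd : PowerSeries.coeff k (xi - x3) = 0 := by
    rw [hc, hc0, map_zero, zero_mul]
  refine ⟨hd, ?_⟩
  have hDu := Du_coeff k
  rw [hd, Der.map_zero, zero_add] at hDu
  have h2u : IsUnit (2 : PP) := isUnit_of_constantCoeff_ne_zero (by rw [map_ofNat]; norm_num)
  exact (h2u.mul_right_eq_zero).1 hDu.symm

/-- **the chord sum of `P_u` and `P_v` is `P_{uv}`.** -/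
theorem coeff_diff (k : ℕ) :
    PowerSeries.coeff k (xi - x3) = 0 ∧ PowerSeries.coeff k (eta - y3) = 0 := by
  induction k using Nat.strong_induction_on with
  | _ k ih =>
    rcases Nat.eq_zero_or_pos k with rfl | hk
    · rw [PowerSeries.coeff_zero_eq_constantCoeff_apply, PowerSeries.coeff_zero_eq_constantCoeff_apply,
        map_sub, map_sub, cc_xi_eta.1, cc_xi_eta.2, sub_self, sub_self]
      exact ⟨rfl, rfl⟩
    · exact step k hk ih

theorem xi_eq : xi = x3 := by
  refine PowerSeries.ext fun k => ?_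
  have := (coeff_diff k).1
  rwa [map_sub, sub_eq_zero] at this

theorem eta_eq : eta = y3 := by
  refine PowerSeries.ext fun k => ?_
  have := (coeff_diff k).2
  rwa [map_sub, sub_eq_zero] at this

/-! ### the group law in `A2⟦q⟧` -/

theorem map_rho_injective : Function.Injective (PowerSeries.map rho) := by
  intro F G h
  refine PowerSeries.ext fun k => ?_
  apply rho_injective
  rw [← PowerSeries.coeff_map, ← PowerSeries.coeff_map, h]

theorem Theta_eq_zero : Theta = 0 := by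
  apply map_rho_injective
  rw [map_rho_Theta, xi_eq, sub_self, zero_mul, neg_zero, map_zero]

theorem Psi_eq_zero : Psi = 0 := by
  apply map_rho_injective
  rw [map_rho_Psi, map_zero]
  exact addY_of_chord ii_mul xi_eq eta_eq

/-- **(A-x): the `x`-coordinate of `P_u + P_v = P_{uv}` on the formal Tate curve.** -/
theorem addX :
    (tX.map iuv + tX.map iu + tX.map iv) * (tX.map iu - tX.map iv) ^ 2 =
      (tY.map iu - tY.map iv) ^ 2 + (tY.map iu - tY.map iv) * (tX.map iu - tX.map iv) := by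
  have h := Theta_eq_zero
  rw [Theta] at h
  unfold xs ys at h
  linear_combination h

/-- **(A-y): the `y`-coordinate of `P_u + P_v = P_{uv}` on the formal Tate curve.** -/
theorem addY :
    (tY.map iuv + tX.map iuv + tY.map iu) * (tX.map iu - tX.map iv) +
      (tY.map iu - tY.map iv) * (tX.map iuv - tX.map iu) = 0 := by
  have h := Psi_eq_zero
  rw [Psi] at h
  unfold xs ys at h
  exact h

/-- pure algebra: (A-x) for `(P, Q)` and for `(P, -Q)` give
`(x(P+Q) - x(P-Q)) (x_P - x_Q)² = -(2 y_P + x_P)(2 y_Q + x_Q)`. -/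
theorem addX_sub {R : Type*} [CommRing R] {p1 q1 p2 q2 s d : R}
    (hs : (s + p1 + p2) * (p1 - p2) ^ 2 = (q1 - q2) ^ 2 + (q1 - q2) * (p1 - p2))
    (hd : (d + p1 + p2) * (p1 - p2) ^ 2 =
      (q1 - (-q2 - p2)) ^ 2 + (q1 - (-q2 - p2)) * (p1 - p2)) :
    (s - d) * (p1 - p2) ^ 2 = -((2 * q1 + p1) * (2 * q2 + p2)) := by
  linear_combination hs - hd

end Fermat.Agent.MZ.MOD.TateAdd3
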