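/-
Programme MZ (S15, Mazur), chapter MOD-E, file TateAddK3 (helper3): **the group law of the Tate
curve, evaluated** in a complete normed field `K`: for `u, v, uv ∉ {0, 1}` and `q` in the common
domain of convergence, with `XK`, `YK` of `TateCurve4`,

  `(XK(uv) + XK u + XK v)(XK u - XK v)² = (YK u - YK v)² + (YK u - YK v)(XK u - XK v)`,
  `(YK(uv) + XK(uv) + YK u)(XK u - XK v) + (YK u - YK v)(XK(uv) - XK u) = 0`,

and the corollary `(XK(uv) - XK(u v⁻¹))(XK u - XK v)² = -(2 YK u + XK u)(2 YK v + XK v)`, given the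
inversion formulas `XK v⁻¹ = XK v`, `YK v⁻¹ = -YK v - XK v` (`XK_inv`, `YK_inv`, proved here
from the formal statements `tX.map invA = tX`, `tY.map invA = -tY - tX`).
-/
import Mathlib
import Fermat.Agent.MZ.MOD.TateAdd3
import Fermat.Agent.MZ.MOD.TateCurve4

set_option autoImplicit false
set_option linter.unusedSectionVars false
set_option linter.unusedVariables false
set_option linter.style.longLine false

noncomputable section

namespace Fermat.Agent.MZ.MOD.TateAddK3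

open Fermat.Agent.MZ.MOD.TateFormal4 Fermat.Agent.MZ.MOD.PSEval4 Fermat.Agent.MZ.MOD.TateEval4
  Fermat.Agent.MZ.MOD.TateCurve4 Fermat.Agent.MZ.MOD.TateA2_3 Fermat.Agent.MZ.MOD.TateAdd3

variable {K : Type*} [NormedField K] [CompleteSpace K]

section Add

variable (u v q : K) (hu0 : u ≠ 0) (hu1 : u ≠ 1) (hv0 : v ≠ 0) (hv1 : v ≠ 1) (huv : u * v ≠ 1)

theorem map_evA2_iu (F : PowerSeries A) :
    (F.map iu).map (evA2 u v hu0 hu1 hv0 hv1 huv) = mapA u hu0 hu1 F := by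
  rw [map_map', evA2_comp_iu]; rfl

theorem map_evA2_iv (F : PowerSeries A) :
    (F.map iv).map (evA2 u v hu0 hu1 hv0 hv1 huv) = mapA v hv0 hv1 F := by
  rw [map_map', evA2_comp_iv]; rfl

theorem map_evA2_iuv (F : PowerSeries A) :
    (F.map iuv).map (evA2 u v hu0 hu1 hv0 hv1 huv) = mapA (u * v) (mul_ne_zero hu0 hv0) huv F := by
  rw [map_map', evA2_comp_iuv]; rfl

/-- (A-x) in `K⟦q⟧`. -/
theorem addX_series :
    (mapA (u * v) (mul_ne_zero hu0 hv0) huv tX + mapA u hu0 hu1 tX + mapA v hv0 hv1 tX) *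
        (mapA u hu0 hu1 tX - mapA v hv0 hv1 tX) ^ 2 =
      (mapA u hu0 hu1 tY - mapA v hv0 hv1 tY) ^ 2 +
        (mapA u hu0 hu1 tY - mapA v hv0 hv1 tY) * (mapA u hu0 hu1 tX - mapA v hv0 hv1 tX) := by
  have h := congrArg (PowerSeries.map (evA2 u v hu0 hu1 hv0 hv1 huv)) addX
  simp only [map_add, map_sub, map_mul, map_pow, map_evA2_iu, map_evA2_iv, map_evA2_iuv] at h
  exact h

/-- (A-y) in `K⟦q⟧`. -/
theorem addY_series :
    (mapA (u * v) (mul_ne_zero hu0 hv0) huv tY + mapA (u * v) (mul_ne_zero hu0 hv0) huv tX +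
          mapA u hu0 hu1 tY) * (mapA u hu0 hu1 tX - mapA v hv0 hv1 tX) +
        (mapA u hu0 hu1 tY - mapA v hv0 hv1 tY) *
          (mapA (u * v) (mul_ne_zero hu0 hv0) huv tX - mapA u hu0 hu1 tX) = 0 := by
  have h := congrArg (PowerSeries.map (evA2 u v hu0 hu1 hv0 hv1 huv)) addY
  simp only [map_add, map_sub, map_mul, map_pow, map_evA2_iu, map_evA2_iv, map_evA2_iuv,
    map_zero] at h
  exact h

variable (hρu : rho u * ‖q‖ < 1) (hρv : rho v * ‖q‖ < 1) (hρuv : rho (u * v) * ‖q‖ < 1)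

include hu0 hu1 hv0 hv1 huv hρu hρv hρuv in
/-- **(A-x), evaluated.** -/
theorem addX_K :
    (XK (u * v) q + XK u q + XK v q) * (XK u q - XK v q) ^ 2 =
      (YK u q - YK v q) ^ 2 + (YK u q - YK v q) * (XK u q - XK v q) := by
  have hw0 : u * v ≠ 0 := mul_ne_zero hu0 hv0
  have cXu := conv_tX u hu0 hu1 q hρu
  have cYu := conv_tY u hu0 hu1 q hρu
  have cXv := conv_tX v hv0 hv1 q hρv
  have cYv := conv_tY v hv0 hv1 q hρv
  have cXw := conv_tX (u * v) hw0 huv q hρuv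
  have h : ev _ q = ev _ q := congrArg (fun F => ev F q) (addX_series u v hu0 hu1 hv0 hv1 huv)
  rw [ev_mul ((cXw.add cXu).add cXv) ((cXu.sub cXv).pow 2), ev_add (cXw.add cXu) cXv,
    ev_add cXw cXu, ev_pow (cXu.sub cXv), ev_sub cXu cXv,
    ev_add ((cYu.sub cYv).pow 2) ((cYu.sub cYv).mul (cXu.sub cXv)), ev_pow (cYu.sub cYv),
    ev_sub cYu cYv, ev_mul (cYu.sub cYv) (cXu.sub cXv)] at h
  simp only [ev_sub cXu cXv, ev_sub cYu cYv] at h
  rw [XK_eq _ q hw0 huv, XK_eq u q hu0 hu1, XK_eq v q hv0 hv1, YK_eq u q hu0 hu1,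
    YK_eq v q hv0 hv1]
  exact h

include hu0 hu1 hv0 hv1 huv hρu hρv hρuv in
/-- **(A-y), evaluated.** -/
theorem addY_K :
    (YK (u * v) q + XK (u * v) q + YK u q) * (XK u q - XK v q) +
      (YK u q - YK v q) * (XK (u * v) q - XK u q) = 0 := by
  have hw0 : u * v ≠ 0 := mul_ne_zero hu0 hv0
  have cXu := conv_tX u hu0 hu1 q hρu
  have cYu := conv_tY u hu0 hu1 q hρu
  have cXv := conv_tX v hv0 hv1 q hρv
  have cYv := conv_tY v hv0 hv1 q hρv
  have cXw := conv_tX (u * v) hw0 huv q hρuv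
  have cYw := conv_tY (u * v) hw0 huv q hρuv
  have h : ev _ q = ev _ q := congrArg (fun F => ev F q) (addY_series u v hu0 hu1 hv0 hv1 huv)
  rw [ev_add (((cYw.add cXw).add cYu).mul (cXu.sub cXv)) ((cYu.sub cYv).mul (cXw.sub cXu)),
    ev_mul ((cYw.add cXw).add cYu) (cXu.sub cXv), ev_add (cYw.add cXw) cYu, ev_add cYw cXw,
    ev_sub cXu cXv, ev_mul (cYu.sub cYv) (cXw.sub cXu), ev_sub cYu cYv, ev_sub cXw cXu,
    ev_zero] at h
  rw [XK_eq _ q hw0 huv, YK_eq _ q hw0 huv, XK_eq u q hu0 hu1, XK_eq v q hv0 hv1, YK_eq u q hu0 hu1,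
    YK_eq v q hv0 hv1]
  exact h

end Add

/-! ### the inversion -/

section Inv

variable (u q : K) (h0 : u ≠ 0) (h1 : u ≠ 1)

include h0 h1 in
theorem inv_ne_one : u⁻¹ ≠ 1 := fun h => h1 (by rw [← inv_inv u, h, inv_one])

theorem evA_comp_invA :
    (evA u h0 h1).comp invA = evA u⁻¹ (inv_ne_zero h0) (inv_ne_one u h0 h1) :=
  ringHom_ext_A (by simp)

theorem mapA_inv (F : PowerSeries A) :
    mapA u⁻¹ (inv_ne_zero h0) (inv_ne_one u h0 h1) F = mapA u h0 h1 (F.map invA) := by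
  unfold mapA
  rw [map_map', evA_comp_invA]

/-- `X(u⁻¹) = X(u)`. -/
theorem XK_inv : XK u⁻¹ q = XK u q := by
  by_cases h : u ≠ 0 ∧ u ≠ 1
  · rw [XK_eq _ q (inv_ne_zero h.1) (inv_ne_one u h.1 h.2), XK_eq u q h.1 h.2, mapA_inv,
      map_invA_tX]
  · have h' : ¬ (u⁻¹ ≠ 0 ∧ u⁻¹ ≠ 1) := by
      rintro ⟨ha, hb⟩
      apply h
      refine ⟨fun h0 => ha (by rw [h0, inv_zero]), fun h1 => hb (by rw [h1, inv_one])⟩
    rw [XK, XK, dif_neg h, dif_neg h']

include h0 h1 in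
/-- `Y(u⁻¹) = -Y(u) - X(u)` in the domain of convergence. -/
theorem YK_inv (hρ : rho u * ‖q‖ < 1) : YK u⁻¹ q = -YK u q - XK u q := by
  rw [YK_eq _ q (inv_ne_zero h0) (inv_ne_one u h0 h1), YK_eq u q h0 h1, XK_eq u q h0 h1,
    mapA_inv u h0 h1, map_invA_tY]
  have cX := conv_tX u h0 h1 q hρ
  have cY := conv_tY u h0 h1 q hρ
  have e : mapA u h0 h1 (-tY - tX) = -mapA u h0 h1 tY - mapA u h0 h1 tX := by
    unfold mapA
    rw [map_sub, map_neg]
  rw [e, ev_sub cY.neg cX, ev_neg]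

theorem rho_inv : rho u⁻¹ = rho u := by
  unfold rho
  rw [norm_inv, inv_inv, max_comm]

end Inv

/-- **the corollary**: `(X(uv) - X(u/v)) (X(u) - X(v))² = -DX(u) DX(v)`, `DX = X + 2Y`. -/
theorem addX_sub_K (u v q : K) (hu0 : u ≠ 0) (hu1 : u ≠ 1) (hv0 : v ≠ 0) (hv1 : v ≠ 1)
    (huv : u * v ≠ 1) (huv' : u * v⁻¹ ≠ 1)
    (hρu : rho u * ‖q‖ < 1) (hρv : rho v * ‖q‖ < 1) (hρuv : rho (u * v) * ‖q‖ < 1)
    (hρuv' : rho (u * v⁻¹) * ‖q‖ < 1) :
    (XK (u * v) q - XK (u * v⁻¹) q) * (XK u q - XK v q) ^ 2 =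
      -((2 * YK u q + XK u q) * (2 * YK v q + XK v q)) := by
  have hs := addX_K u v q hu0 hu1 hv0 hv1 huv hρu hρv hρuv
  have hd := addX_K u v⁻¹ q hu0 hu1 (inv_ne_zero hv0) (inv_ne_one v hv0 hv1) huv' hρu
    (by rw [rho_inv]; exact hρv) hρuv'
  rw [XK_inv, YK_inv v q hv0 hv1 hρv] at hd
  exact addX_sub hs hd

end Fermat.Agent.MZ.MOD.TateAddK3
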