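/-
Programme MZ (S15, Mazur), chapter MOD-E, file TateHom3 (helper3): **the torsion parametrisation of
the Tate curve is additive**: `tP D (s + t) = tP D s + tP D t` for `s, t ∈ (ZMod p)²`, `p > 3`,
from the evaluated group law `TateAddK3.addX_K/addY_K`, the inversion and the periodicity
(`TateSym4`), given the injectivity of `X` modulo `±` on the torsion parameters (`hinj`, proved by
helper4 in `TateInj4`).
-/
import Mathlib
import Fermat.Agent.MZ.MOD.TateAddK3
import Fermat.Agent.MZ.MOD.TateTors4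

set_option autoImplicit false
set_option linter.unusedSectionVars false
set_option linter.unusedVariables false
set_option linter.style.longLine false

noncomputable section

namespace Fermat.Agent.MZ.MOD.TateHom3

open Fermat.Agent.MZ.MOD.TateFormal4 Fermat.Agent.MZ.MOD.PSEval4 Fermat.Agent.MZ.MOD.TateEval4
  Fermat.Agent.MZ.MOD.TateCurve4 Fermat.Agent.MZ.MOD.TateSym4 Fermat.Agent.MZ.MOD.TateTors4
  Fermat.Agent.MZ.MOD.TateChord3
open WeierstrassCurve.Affine

variable {K : Type*} [NormedField K] [IsUltrametricDist K] [CompleteSpace K] [CharZero K]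

/-! ### points of the Tate curve from parameters -/

section Pt

variable (q : K) (hΔ : (tateCurve q).Δ ≠ 0)

/-- `u` is a good parameter: `u ≠ 0, 1` and `‖q‖ < ‖u‖ < ‖q‖⁻¹`. -/
def Good (u : K) : Prop := u ≠ 0 ∧ u ≠ 1 ∧ rho u * ‖q‖ < 1

include hΔ in
theorem nonsingular_of_good {u : K} (h : Good q u) :
    (tateCurve q).toAffine.Nonsingular (XK u q) (YK u q) :=
  (WeierstrassCurve.Affine.equation_iff_nonsingular_of_Δ_ne_zero hΔ).1
    (tateCurve_equation u q h.1 h.2.1 h.2.2)

theorem some_congr {W : WeierstrassCurve.Affine K} {x y x' y' : K} (h : W.Nonsingular x y)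
    (h' : W.Nonsingular x' y') (hx : x = x') (hy : y = y') :
    Point.some x y h = Point.some x' y' h' := by
  subst hx hy
  rfl

theorem good_inv {u : K} (h : Good q u) : Good q u⁻¹ :=
  ⟨inv_ne_zero h.1, (inv_ne u h.1 h.2.1).2, by rw [rho_inv]; exact h.2.2⟩

include hΔ in
/-- inversion: `P(u⁻¹) = -P(u)`. -/
theorem pt_inv {u : K} (h : Good q u) :
    Point.some _ _ (nonsingular_of_good q hΔ (good_inv q h)) =
      -Point.some _ _ (nonsingular_of_good q hΔ h) := by
  rw [Point.neg_some]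
  refine some_congr _ _ (XK_inv u q h.1 h.2.1 h.2.2) ?_
  rw [YK_inv u q h.1 h.2.1 h.2.2]
  simp [WeierstrassCurve.Affine.negY]

theorem good_div_q {u : K} (h0 : u ≠ 0) (hq0 : q ≠ 0) (hu : ‖u‖ < 1) (hqu : ‖q‖ < ‖u‖) :
    Good q (u / q) :=
  ⟨(div_q_facts u q h0 hq0 hu hqu).1, (div_q_facts u q h0 hq0 hu hqu).2.1,
    (div_q_facts u q h0 hq0 hu hqu).2.2.1⟩

include hΔ in
/-- periodicity: `P(u/q) = P(u)`. -/
theorem pt_div_q {u : K} (h : Good q u) (hq0 : q ≠ 0) (hu : ‖u‖ < 1) (hqu : ‖q‖ < ‖u‖) :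
    Point.some _ _ (nonsingular_of_good q hΔ (good_div_q q h.1 hq0 hu hqu)) =
      Point.some _ _ (nonsingular_of_good q hΔ h) :=
  some_congr _ _ (XK_div_q u q h.1 hq0 hu hqu) (YK_div_q u q h.1 hq0 hu hqu)

variable [DecidableEq K]

include hΔ in
/-- **the generic addition**: `P(u) + P(v) = P(uv)` when `X(u) ≠ X(v)`. -/
theorem pt_add {u v : K} (hu : Good q u) (hv : Good q v) (huv : Good q (u * v))
    (hx : XK u q ≠ XK v q) :
    Point.some _ _ (nonsingular_of_good q hΔ hu) + Point.some _ _ (nonsingular_of_good q hΔ hv) =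
      Point.some _ _ (nonsingular_of_good q hΔ huv) := by
  rw [Point.add_of_X_ne hx]
  have hX := TateAddK3.addX_K u v q hu.1 hu.2.1 hv.1 hv.2.1 huv.2.1 hu.2.2 hv.2.2 huv.2.2
  have hY := TateAddK3.addY_K u v q hu.1 hu.2.1 hv.1 hv.2.1 huv.2.1 hu.2.2 hv.2.2 huv.2.2
  have hd : XK u q - XK v q ≠ 0 := sub_ne_zero.2 hx
  have hi : (XK u q - XK v q)⁻¹ * (XK u q - XK v q) = 1 := inv_mul_cancel₀ hd
  obtain ⟨h1, h2⟩ := chord_of_add hi hX hY
  have hs : (tateCurve q).toAffine.slope (XK u q) (XK v q) (YK u q) (YK v q) =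
      (YK u q - YK v q) * (XK u q - XK v q)⁻¹ := by
    rw [WeierstrassCurve.Affine.slope_of_X_ne hx, div_eq_mul_inv]
  refine some_congr _ _ ?_ ?_
  · rw [hs, ← h1]
    simp [WeierstrassCurve.Affine.addX, chX]
  · rw [hs, ← h2]
    simp [WeierstrassCurve.Affine.addY, WeierstrassCurve.Affine.negAddY,
      WeierstrassCurve.Affine.negY, WeierstrassCurve.Affine.addX, chY, chX]

end Pt


/-! ### arithmetic of the torsion parameters -/

section Tors

variable {p : ℕ} [hp : Fact p.Prime] (D : TorsData K p)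

theorem zeta_pow_val_add (a b : ZMod p) : D.ζ ^ (a + b).val = D.ζ ^ a.val * D.ζ ^ b.val := by
  haveI : NeZero p := ⟨(p_pos (p := p)).ne'⟩
  rw [← pow_add, ZMod.val_add, ← pow_eq_pow_mod _ D.hζ.pow_eq_one]

/-- no carry in the second coordinate. -/
theorem uT_mul_of_lt (s t : ZMod p × ZMod p) (h : s.2.val + t.2.val < p) :
    uT D s * uT D t = uT D (s + t) := by
  haveI : NeZero p := ⟨(p_pos (p := p)).ne'⟩
  have h2 : (s + t).2.val = s.2.val + t.2.val := by
    rw [Prod.snd_add, ZMod.val_add, Nat.mod_eq_of_lt h]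
  rw [uT, uT, uT, Prod.fst_add, zeta_pow_val_add, h2, pow_add]
  ring

/-- carry in the second coordinate. -/
theorem uT_mul_of_le (s t : ZMod p × ZMod p) (h : p ≤ s.2.val + t.2.val) :
    uT D s * uT D t = uT D (s + t) * D.q := by
  haveI : NeZero p := ⟨(p_pos (p := p)).ne'⟩
  have hs := val_lt s.2
  have ht := val_lt t.2
  have h2 : (s + t).2.val + p = s.2.val + t.2.val := by
    rw [Prod.snd_add, ZMod.val_add, Nat.mod_eq_sub_mod h, Nat.mod_eq_of_lt (by omega)]
    omega
  have h3 : D.q' ^ s.2.val * D.q' ^ t.2.val = D.q' ^ (s + t).2.val * D.q := by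
    rw [← pow_add, ← h2, pow_add, D.hq']
  rw [uT, uT, uT, Prod.fst_add, zeta_pow_val_add]
  linear_combination (D.ζ ^ s.1.val * D.ζ ^ t.1.val) * h3

theorem good_uT (s : ZMod p × ZMod p) (hs : s ≠ 0) : Good D.q (uT D s) :=
  ⟨uT_ne_zero D s, uT_ne_one D s hs, rho_uT_mul_lt D s⟩

theorem tP_eq (s : ZMod p × ZMod p) (hs : s ≠ 0) :
    tP D s = Point.some _ _ (nonsingular_of_good D.q D.hΔ (good_uT D s hs)) := tP_of_ne D s hs

theorem some_param_congr {u u' : K} (h : Good D.q u) (h' : Good D.q u') (e : u = u') :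
    Point.some _ _ (nonsingular_of_good D.q D.hΔ h) =
      Point.some _ _ (nonsingular_of_good D.q D.hΔ h') := by
  subst e
  rfl

theorem val_neg_add (b : ZMod p) (hb : b ≠ 0) : b.val + (-b).val = p := by
  haveI : NeZero p := ⟨(p_pos (p := p)).ne'⟩
  rw [ZMod.neg_val, if_neg hb]
  have := val_lt b
  omega

/-- **negation**: `tP (-s) = -tP s`. -/
theorem tP_neg (s : ZMod p × ZMod p) : tP D (-s) = -tP D s := by
  by_cases hs : s = 0
  · subst hs
    rw [neg_zero, tP_zero]
    rfl
  have hns : -s ≠ 0 := neg_ne_zero.2 hs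
  rw [tP_eq D s hs, tP_eq D (-s) hns, ← pt_inv D.q D.hΔ (good_uT D s hs)]
  by_cases h2 : s.2 = 0
  · -- `uT (-s) = (uT s)⁻¹`
    have h : uT D s * uT D (-s) = uT D (s + -s) := by
      apply uT_mul_of_lt
      rw [Prod.snd_neg, h2, neg_zero, ZMod.val_zero]
      exact p_pos
    rw [add_neg_cancel, uT_zero] at h
    exact some_param_congr D (good_uT D (-s) hns) (good_inv D.q (good_uT D s hs))
      (eq_inv_of_mul_eq_one_right h)
  · -- `uT (-s) = q (uT s)⁻¹`
    have h : uT D s * uT D (-s) = uT D (s + -s) * D.q := by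
      apply uT_mul_of_le
      rw [Prod.snd_neg, val_neg_add s.2 h2]
    rw [add_neg_cancel, uT_zero, one_mul] at h
    have hn2 : (-s).2 ≠ 0 := by
      rw [Prod.snd_neg]; exact neg_ne_zero.2 h2
    have hw := good_uT D (-s) hns
    have hlt := norm_uT_lt_one D (-s) hn2
    have hql := norm_q_lt_norm_uT D (-s)
    rw [← pt_div_q D.q D.hΔ hw D.hq0 hlt hql]
    refine some_param_congr D (good_div_q D.q hw.1 D.hq0 hlt hql) (good_inv D.q (good_uT D s hs)) ?_
    have hu0 := uT_ne_zero D s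
    rw [div_eq_iff D.hq0, ← h]
    field_simp

variable [DecidableEq K]

/-- **addition of independent torsion points.** -/
theorem tP_add_of_ne
    (hinj : ∀ s t : ZMod p × ZMod p, s ≠ 0 → t ≠ 0 →
      XK (uT D s) D.q = XK (uT D t) D.q → t = s ∨ t = -s)
    (s t : ZMod p × ZMod p) (hs : s ≠ 0) (ht : t ≠ 0) (h1 : t ≠ s) (h2 : t ≠ -s) :
    tP D (s + t) = tP D s + tP D t := by
  have hst : s + t ≠ 0 := fun h => h2 (eq_neg_of_add_eq_zero_right h)
  have hx : XK (uT D s) D.q ≠ XK (uT D t) D.q := fun h => by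
    rcases hinj s t hs ht h with h | h
    · exact h1 h
    · exact h2 h
  rw [tP_eq D s hs, tP_eq D t ht, tP_eq D (s + t) hst]
  rcases Nat.lt_or_ge (s.2.val + t.2.val) p with hlt | hle
  · have e := uT_mul_of_lt D s t hlt
    have hg : Good D.q (uT D s * uT D t) := by rw [e]; exact good_uT D (s + t) hst
    rw [pt_add D.q D.hΔ (good_uT D s hs) (good_uT D t ht) hg hx]
    exact some_param_congr D (good_uT D (s + t) hst) hg e.symm
  · have e := uT_mul_of_le D s t hle
    have ht2 : t.2 ≠ 0 := by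
      intro h0
      rw [h0, ZMod.val_zero, add_zero] at hle
      exact absurd (val_lt s.2) (not_lt.2 hle)
    have hlt1 := norm_uT_lt_one D t ht2
    have hql := norm_q_lt_norm_uT D t
    have hgt := good_uT D t ht
    have hgv := good_div_q D.q hgt.1 D.hq0 hlt1 hql
    have e' : uT D s * (uT D t / D.q) = uT D (s + t) := by
      rw [← mul_div_assoc, e, mul_div_assoc, div_self D.hq0, mul_one]
    have hg : Good D.q (uT D s * (uT D t / D.q)) := by rw [e']; exact good_uT D (s + t) hst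
    have hx' : XK (uT D s) D.q ≠ XK (uT D t / D.q) D.q := by
      rw [XK_div_q (uT D t) D.q hgt.1 D.hq0 hlt1 hql]; exact hx
    rw [← pt_div_q D.q D.hΔ hgt D.hq0 hlt1 hql, pt_add D.q D.hΔ (good_uT D s hs) hgv hg hx']
    exact some_param_congr D (good_uT D (s + t) hst) hg e'.symm

theorem nsmul_eq_zero_of_not_dvd (n : ℕ) (hn : ¬ p ∣ n) (s : ZMod p × ZMod p) (h : n • s = 0) :
    s = 0 := by
  have hn0 : ((n : ℕ) : ZMod p) ≠ 0 := fun h0 => hn ((ZMod.natCast_eq_zero_iff n p).1 h0)
  have h1 : n • s.1 = 0 := congrArg Prod.fst h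
  have h2 : n • s.2 = 0 := congrArg Prod.snd h
  rw [nsmul_eq_mul] at h1 h2
  exact Prod.ext ((mul_eq_zero.1 h1).resolve_left hn0) ((mul_eq_zero.1 h2).resolve_left hn0)

/-- **the torsion parametrisation is additive.** -/
theorem tP_add (hp3 : 3 < p)
    (hinj : ∀ s t : ZMod p × ZMod p, s ≠ 0 → t ≠ 0 →
      XK (uT D s) D.q = XK (uT D t) D.q → t = s ∨ t = -s)
    (s t : ZMod p × ZMod p) : tP D (s + t) = tP D s + tP D t := by
  have hp2 : ¬ p ∣ 2 := fun h => by
    have := Nat.le_of_dvd (by norm_num) h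
    omega
  have hp3' : ¬ p ∣ 3 := fun h => by
    have := Nat.le_of_dvd (by norm_num) h
    omega
  by_cases hs : s = 0
  · subst hs
    rw [zero_add, tP_zero, zero_add]
  by_cases ht : t = 0
  · subst ht
    rw [add_zero, tP_zero, add_zero]
  by_cases h2 : t = -s
  · subst h2
    rw [add_neg_cancel, tP_zero, tP_neg, add_neg_cancel]
  by_cases h1 : t = s
  · subst h1
    -- doubling through `tP (2t) + tP (-t) = tP t`
    have h2t : t + t ≠ 0 := fun h => ht (nsmul_eq_zero_of_not_dvd 2 hp2 t (by rw [two_nsmul]; exact h))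
    have hnt : -t ≠ 0 := neg_ne_zero.2 ht
    have ha : -t ≠ t + t := fun h => ht (nsmul_eq_zero_of_not_dvd 3 hp3' t (by
      rw [succ_nsmul, two_nsmul]
      have : t + t + t = (t + t) - (-t) := by abel
      rw [this, ← h, sub_self]))
    have hb : -t ≠ -(t + t) := fun h => ht (by
      have h' := neg_injective h
      have : t = t + t - t := by abel
      rw [this, ← h', sub_self])
    have h := tP_add_of_ne D hinj (t + t) (-t) h2t hnt ha hb
    rw [add_neg_cancel_right, tP_neg, eq_add_neg_iff_add_eq] at h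
    exact h.symm
  · exact tP_add_of_ne D hinj s t hs ht h1 h2

end Tors

end Fermat.Agent.MZ.MOD.TateHom3
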