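/-
Programme MZ (S15, Mazur), chapter MOD-E, item (T4) (helper1): **the formal Jacobi identity**

  `E₄(q)³ - E₆(q)² = 1728 · q · ∏ (1 - qⁿ)²⁴`   in `ℤ⟦q⟧`,

by transfer from `ℂ`: Mathlib's `ModularForm.discriminant_eq_E₄_cube_sub_E₆_sq` and
`discriminant_eq_q_prod`, through the Taylor series dictionary of `X0/JQExp`.

* `eis6 : ℤ⟦q⟧` (`1 - 504 ∑ σ₅(n) qⁿ`), `tps_e6Fun`;
* `jacobi_fun` : the identity of analytic functions on the unit disc;
* **`jacobi`** : `eisenstein4 ^ 3 - eis6 ^ 2 = C 1728 * (X * dedekindEtaUnit)`;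
* `eisenstein4_eq`, `eis6_eq` : `E₄ = 1 + 240 s₃`, `E₆ = 1 - 504 s₅` with `TateFormal4.sk`.
-/
import Mathlib
import Fermat.Agent.X0.JQExp
import Fermat.Agent.MZ.MOD.TateFormal4

set_option autoImplicit false
set_option linter.unusedSectionVars false
set_option linter.style.longLine false

noncomputable section

namespace Fermat.Agent.MZ.MOD.Jacobi1

open Filter Topology Complex UpperHalfPlane ModularForm
open Fermat.Agent.X0.JQExp Fermat.Agent.MZ.MOD.TateFormal4

local notation "𝕢" => Function.Periodic.qParam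

/-- the formal Eisenstein series `E₆ = 1 - 504 ∑ σ₅(n) qⁿ`. -/
def eis6 : PowerSeries ℤ :=
  PowerSeries.mk fun n => if n = 0 then 1 else -504 * ∑ d ∈ n.divisors, (d : ℤ) ^ 5

/-- The cusp function of `E₆` on the unit disc. -/
def e6Fun : ℂ → ℂ := cuspFunction 1 E₆

lemma differentiableOn_e6Fun : DifferentiableOn ℂ e6Fun (Metric.ball 0 1) := fun _ hq =>
  (ModularFormClass.differentiableAt_cuspFunction E₆ one_pos one_mem_strictPeriods_SL
    (mem_ball_zero_iff.mp hq)).differentiableWithinAt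

lemma e6Fun_qParam (τ : ℍ) : e6Fun (𝕢 1 τ) = E₆ τ :=
  SlashInvariantFormClass.eq_cuspFunction E₆ τ one_mem_strictPeriods_SL one_ne_zero

lemma tps_e6Fun : tps e6Fun = PowerSeries.map (Int.castRingHom ℂ) eis6 := by
  ext m
  have h := EisensteinSeries.E_qExpansion_coeff (k := 6) (by norm_num) (by decide) m
  rw [qExpansion_coeff] at h
  rw [tps_coeff]
  show ((m.factorial : ℕ) : ℂ)⁻¹ * iteratedDeriv m (cuspFunction 1 E₆) 0 = _
  rw [h, PowerSeries.coeff_map, eis6, PowerSeries.coeff_mk]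
  have hb : bernoulli 6 = 1 / 42 := by decide +kernel
  split_ifs with hm
  · simp
  · rw [hb, ArithmeticFunction.sigma_apply, eq_intCast]
    push_cast
    ring

/-- **Jacobi's identity on the punctured unit disc.** -/
theorem jacobi_fun {q : ℂ} (hq0 : q ≠ 0) (hq : ‖q‖ < 1) :
    e4Fun q ^ 3 - e6Fun q ^ 2 = 1728 * (q * etaFun q ^ 24) := by
  have him : 0 < (Function.Periodic.invQParam 1 q).im :=
    Function.Periodic.im_invQParam_pos_of_norm_lt_one one_pos hq hq0
  set τ : ℍ := ⟨Function.Periodic.invQParam 1 q, him⟩ with hτ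
  have hqτ : 𝕢 1 (τ : ℂ) = q := Function.Periodic.qParam_right_inv one_ne_zero hq0
  have h1 := discriminant_eq_E₄_cube_sub_E₆_sq τ
  have h2 := discriminant_eq_etaFun τ
  rw [← hqτ, e4Fun_qParam, e6Fun_qParam, ← h2, h1]
  ring

lemma analyticAt_e4Fun : AnalyticAt ℂ e4Fun 0 :=
  analyticAt_of_differentiableOn_ball differentiableOn_e4Fun (by simp)

lemma analyticAt_e6Fun : AnalyticAt ℂ e6Fun 0 :=
  analyticAt_of_differentiableOn_ball differentiableOn_e6Fun (by simp)

/-- **the formal Jacobi identity over `ℂ`.** -/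
theorem jacobi_complex :
    PowerSeries.map (Int.castRingHom ℂ) ModularCurve.eisenstein4 ^ 3 -
        PowerSeries.map (Int.castRingHom ℂ) eis6 ^ 2 =
      PowerSeries.C (1728 : ℂ) *
        (PowerSeries.X * PowerSeries.map (Int.castRingHom ℂ) ModularCurve.dedekindEtaUnit) := by
  have h4 := analyticAt_e4Fun
  have h6 := analyticAt_e6Fun
  have he : AnalyticAt ℂ (etaFun ^ 24) 0 := (analyticAt_etaFun (by simp)).pow 24
  have hX : AnalyticAt ℂ (fun q : ℂ => q ^ 1) 0 := by fun_prop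
  have hc : AnalyticAt ℂ (fun _ : ℂ => (1728 : ℂ)) 0 := analyticAt_const
  have hf : AnalyticAt ℂ (e4Fun ^ 3 - e6Fun ^ 2) 0 := (h4.pow 3).sub (h6.pow 2)
  have hg : AnalyticAt ℂ ((fun _ : ℂ => (1728 : ℂ)) * ((fun q : ℂ => q ^ 1) * etaFun ^ 24)) 0 :=
    hc.mul (hX.mul he)
  have hev : ∀ᶠ q in 𝓝[≠] (0 : ℂ), (e4Fun ^ 3 - e6Fun ^ 2) q =
      ((fun _ : ℂ => (1728 : ℂ)) * ((fun q : ℂ => q ^ 1) * etaFun ^ 24)) q := by
    have hball : Metric.ball (0 : ℂ) 1 ∈ 𝓝 (0 : ℂ) := Metric.ball_mem_nhds 0 one_pos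
    filter_upwards [nhdsWithin_le_nhds hball, self_mem_nhdsWithin] with q hq hq0
    have := jacobi_fun hq0 (mem_ball_zero_iff.mp hq)
    simpa using this
  have hnhds : (e4Fun ^ 3 - e6Fun ^ 2) =ᶠ[𝓝 0]
      ((fun _ : ℂ => (1728 : ℂ)) * ((fun q : ℂ => q ^ 1) * etaFun ^ 24)) :=
    (hf.frequently_eq_iff_eventually_eq hg).mp hev.frequently
  have h := tps_congr hnhds
  rw [tps_sub (h4.pow 3) (h6.pow 2), tps_pow h4, tps_pow h6, tps_e4Fun, tps_e6Fun,
    tps_mul hc (hX.mul he), tps_mul hX he, tps_const, tps_monomial, tps_etaFun_pow, pow_one] at h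
  exact h

/-- **the formal Jacobi identity** `E₄³ - E₆² = 1728 q ∏ (1 - qⁿ)²⁴` in `ℤ⟦q⟧`. -/
theorem jacobi :
    ModularCurve.eisenstein4 ^ 3 - eis6 ^ 2 =
      PowerSeries.C (1728 : ℤ) * (PowerSeries.X * ModularCurve.dedekindEtaUnit) := by
  have hinj : Function.Injective (PowerSeries.map (Int.castRingHom ℂ)) := by
    intro a b hab
    ext n
    have := congrArg (PowerSeries.coeff n) hab
    rw [PowerSeries.coeff_map, PowerSeries.coeff_map] at this
    exact Int.cast_injective this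
  apply hinj
  rw [map_sub, map_pow, map_pow, map_mul, map_mul, PowerSeries.map_C, PowerSeries.map_X]
  simpa using jacobi_complex

/-! ### link with `TateFormal4.sk` -/

theorem eisenstein4_eq : ModularCurve.eisenstein4 = 1 + PowerSeries.C (240 : ℤ) * sk 3 := by
  ext n
  rw [ModularCurve.eisenstein4, PowerSeries.coeff_mk, map_add, PowerSeries.coeff_C_mul, sk,
    PowerSeries.coeff_mk, PowerSeries.coeff_one]
  split_ifs with h
  · simp
  · rw [ArithmeticFunction.sigma_apply]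
    push_cast
    ring

theorem eis6_eq : eis6 = 1 - PowerSeries.C (504 : ℤ) * sk 5 := by
  ext n
  rw [eis6, PowerSeries.coeff_mk, map_sub, PowerSeries.coeff_C_mul, sk,
    PowerSeries.coeff_mk, PowerSeries.coeff_one]
  split_ifs with h
  · simp
  · rw [ArithmeticFunction.sigma_apply]
    push_cast
    ring

end Fermat.Agent.MZ.MOD.Jacobi1
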