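/-
Programme MZ (S15), chapter MOD-E (helper5), item (T5)(i): **`q` from `j`** in a complete ultrametric field.

`K` complete, ultrametric.  For a power series `F` with integral coefficients (`‖coeff n F‖ ≤ 1`):
* `conv_of_isInt` : `F` converges on the open unit disc;
* `norm_ev_le_one`, `norm_ev_sub_constantCoeff_le : ‖F(q) − F(0)‖ ≤ ‖q‖`, `norm_ev_eq_one` (`‖F(0)‖ = 1`);
* `norm_ev_sub_ev_le : ‖F(a) − F(b)‖ ≤ ‖a − b‖`;
* **`exists_q_of_j`** : if `F(0) = 1` and `‖j‖ > 1` there is `q ≠ 0`, `‖q‖ = ‖j‖⁻¹`, with `q⁻¹ · F(q) = j`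
  (Banach fixed point for `q ↦ j⁻¹ F(q)`), and it is unique in the punctured open unit disc (`q_unique`).
* the instance `F = jNumK K` (the Prelude's `jNum`, `jq = q⁻¹ · jNum`): `jK q := q⁻¹ * ev (jNumK K) q`,
  `norm_jK`, `exists_q_of_jK`.
-/
import Mathlib
import Fermat.Prelude.Def_ModularCurve_X0
import Fermat.Agent.MZ.MOD.PSEval4

set_option autoImplicit false
set_option linter.unusedSectionVars false
set_option linter.style.longLine false
set_option linter.style.haveILetI false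

open PowerSeries

namespace Fermat.Agent.MZ.MOD.QFromJ5

open Fermat.Agent.MZ.MOD.PSEval4

noncomputable section

variable {K : Type*} [NormedField K] [IsUltrametricDist K]

/-- a power series with coefficients in the unit ball. -/
def IsInt (F : PowerSeries K) : Prop := ∀ n : ℕ, ‖coeff n F‖ ≤ 1

theorem norm_term_le {F : PowerSeries K} (hF : IsInt F) {q : K} (_hq : ‖q‖ ≤ 1) (n : ℕ) :
    ‖coeff n F * q ^ n‖ ≤ ‖q‖ ^ n := by
  rw [norm_mul, norm_pow]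
  calc ‖coeff n F‖ * ‖q‖ ^ n ≤ 1 * ‖q‖ ^ n := by
        gcongr
        exact hF n
    _ = ‖q‖ ^ n := one_mul _

theorem conv_of_isInt {F : PowerSeries K} (hF : IsInt F) {q : K} (hq : ‖q‖ < 1) : Conv F q :=
  Summable.of_nonneg_of_le (fun _ => norm_nonneg _) (fun n => norm_term_le hF hq.le n)
    (summable_geometric_of_lt_one (norm_nonneg q) hq)

variable [CompleteSpace K]

theorem norm_ev_le_one {F : PowerSeries K} (hF : IsInt F) {q : K} (hq : ‖q‖ < 1) : ‖ev F q‖ ≤ 1 := by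
  unfold ev
  refine IsUltrametricDist.norm_tsum_le_of_forall_le_of_nonneg zero_le_one fun n => ?_
  exact (norm_term_le hF hq.le n).trans (pow_le_one₀ (norm_nonneg q) hq.le)

theorem norm_ev_sub_constantCoeff_le {F : PowerSeries K} (hF : IsInt F) {q : K} (hq : ‖q‖ < 1) :
    ‖ev F q - constantCoeff F‖ ≤ ‖q‖ := by
  have hc := conv_of_isInt hF hq
  have h1 : ev F q - constantCoeff F = ∑' N : ℕ, coeff (N + 1) F * q ^ (N + 1) := by
    unfold ev
    rw [hc.summable.tsum_eq_zero_add, pow_zero, mul_one, coeff_zero_eq_constantCoeff_apply,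
      add_sub_cancel_left]
  rw [h1]
  refine IsUltrametricDist.norm_tsum_le_of_forall_le_of_nonneg (norm_nonneg q) fun n => ?_
  refine (norm_term_le hF hq.le (n + 1)).trans ?_
  calc ‖q‖ ^ (n + 1) = ‖q‖ ^ n * ‖q‖ := pow_succ _ _
    _ ≤ 1 * ‖q‖ := by
        gcongr
        exact pow_le_one₀ (norm_nonneg q) hq.le
    _ = ‖q‖ := one_mul _

theorem norm_ev_eq_one {F : PowerSeries K} (hF : IsInt F) (h0 : ‖constantCoeff F‖ = 1) {q : K}
    (hq : ‖q‖ < 1) : ‖ev F q‖ = 1 := by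
  have h1 := norm_ev_sub_constantCoeff_le hF hq
  have h2 : ev F q = (ev F q - constantCoeff F) + constantCoeff F := by ring
  rw [h2]
  have h3 : ‖ev F q - constantCoeff F‖ < ‖constantCoeff F‖ := by rw [h0]; exact h1.trans_lt hq
  rw [IsUltrametricDist.norm_add_eq_max_of_norm_ne_norm h3.ne, max_eq_right h3.le, h0]

/-- `‖aⁿ − bⁿ‖ ≤ ‖a − b‖` in the closed unit disc. -/
theorem norm_pow_sub_pow_le {a b : K} (ha : ‖a‖ ≤ 1) (hb : ‖b‖ ≤ 1) (n : ℕ) :
    ‖a ^ n - b ^ n‖ ≤ ‖a - b‖ := by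
  have h := (Commute.all a b).geom_sum₂_mul n
  rw [← h, norm_mul]
  have h1 : ‖∑ i ∈ Finset.range n, a ^ i * b ^ (n - 1 - i)‖ ≤ 1 := by
    refine IsUltrametricDist.norm_sum_le_of_forall_le_of_nonneg zero_le_one fun i _ => ?_
    rw [norm_mul, norm_pow, norm_pow]
    exact mul_le_one₀ (pow_le_one₀ (norm_nonneg a) ha) (pow_nonneg (norm_nonneg b) _)
      (pow_le_one₀ (norm_nonneg b) hb)
  calc ‖∑ i ∈ Finset.range n, a ^ i * b ^ (n - 1 - i)‖ * ‖a - b‖ ≤ 1 * ‖a - b‖ := by gcongr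
    _ = ‖a - b‖ := one_mul _

/-- **`‖F(a) − F(b)‖ ≤ ‖a − b‖`** on the open unit disc. -/
theorem norm_ev_sub_ev_le {F : PowerSeries K} (hF : IsInt F) {a b : K} (ha : ‖a‖ < 1) (hb : ‖b‖ < 1) :
    ‖ev F a - ev F b‖ ≤ ‖a - b‖ := by
  have hca := conv_of_isInt hF ha
  have hcb := conv_of_isInt hF hb
  unfold ev
  rw [← hca.summable.tsum_sub hcb.summable]
  refine IsUltrametricDist.norm_tsum_le_of_forall_le_of_nonneg (norm_nonneg _) fun n => ?_
  rw [← mul_sub, norm_mul]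
  calc ‖coeff n F‖ * ‖a ^ n - b ^ n‖ ≤ 1 * ‖a - b‖ := by
        gcongr
        · exact hF n
        · exact norm_pow_sub_pow_le ha.le hb.le n
    _ = ‖a - b‖ := one_mul _

/-- **`q` from `j`.** -/
theorem exists_q_of_j {F : PowerSeries K} (hF : IsInt F) (h0 : constantCoeff F = 1) {j : K}
    (hj : 1 < ‖j‖) : ∃ q : K, q ≠ 0 ∧ ‖q‖ = ‖j‖⁻¹ ∧ q⁻¹ * ev F q = j := by
  have hj0 : j ≠ 0 := fun h => by rw [h, norm_zero] at hj; linarith
  have hρ0 : 0 < ‖j‖⁻¹ := inv_pos.mpr (lt_trans zero_lt_one hj)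
  have hρ1 : ‖j‖⁻¹ < 1 := inv_lt_one_of_one_lt₀ hj
  have h0' : ‖constantCoeff F‖ = 1 := by rw [h0, norm_one]
  -- the closed ball
  let s : Set K := Metric.closedBall (0 : K) ‖j‖⁻¹
  have hs_lt : ∀ q ∈ s, ‖q‖ < 1 := fun q hq => lt_of_le_of_lt (mem_closedBall_zero_iff.mp hq) hρ1
  haveI : CompleteSpace ↥s := Metric.isClosed_closedBall.completeSpace_coe
  haveI : Nonempty ↥s := ⟨⟨0, by simp [s, hρ0.le]⟩⟩
  have hmaps : ∀ q ∈ s, j⁻¹ * ev F q ∈ s := by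
    intro q hq
    rw [mem_closedBall_zero_iff, norm_mul, norm_inv, norm_ev_eq_one hF h0' (hs_lt q hq), mul_one]
  let Φ : ↥s → ↥s := fun q => ⟨j⁻¹ * ev F q, hmaps q q.2⟩
  have hΦ : ContractingWith ⟨‖j‖⁻¹, hρ0.le⟩ Φ := by
    refine ⟨by exact_mod_cast hρ1, LipschitzWith.of_dist_le_mul fun a b => ?_⟩
    rw [Subtype.dist_eq, Subtype.dist_eq, dist_eq_norm, dist_eq_norm]
    show ‖j⁻¹ * ev F a - j⁻¹ * ev F b‖ ≤ ‖j‖⁻¹ * ‖(a : K) - b‖
    rw [← mul_sub, norm_mul, norm_inv]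
    gcongr
    exact norm_ev_sub_ev_le hF (hs_lt a a.2) (hs_lt b b.2)
  have hfix := hΦ.fixedPoint_isFixedPt
  set q₀ : ↥s := hΦ.fixedPoint Φ with hq₀
  have hq : (q₀ : K) = j⁻¹ * ev F q₀ := (congrArg Subtype.val hfix).symm
  have hnorm : ‖(q₀ : K)‖ = ‖j‖⁻¹ := by
    rw [hq, norm_mul, norm_inv, norm_ev_eq_one hF h0' (hs_lt q₀ q₀.2), mul_one]
  have hne : (q₀ : K) ≠ 0 := fun h => by rw [h, norm_zero] at hnorm; linarith
  refine ⟨q₀, hne, hnorm, ?_⟩
  have h1 : j * (q₀ : K) = ev F (q₀ : K) := by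
    conv_lhs => rw [hq]
    exact mul_inv_cancel_left₀ hj0 _
  rw [← h1, mul_comm j, inv_mul_cancel_left₀ hne]

/-- uniqueness of `q`. -/
theorem q_unique {F : PowerSeries K} (hF : IsInt F) (h0 : constantCoeff F = 1) {q q' : K}
    (hq0 : q ≠ 0) (hq : ‖q‖ < 1) (hq'0 : q' ≠ 0) (hq' : ‖q'‖ < 1)
    (h : q⁻¹ * ev F q = q'⁻¹ * ev F q') : q = q' := by
  have h0' : ‖constantCoeff F‖ = 1 := by rw [h0, norm_one]
  by_contra hne
  have hd : 0 < ‖q - q'‖ := norm_pos_iff.mpr (sub_ne_zero.mpr hne)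
  -- `(q' − q) F(q) = q (F(q') − F(q))`
  have h1 : (q' - q) * ev F q = q * (ev F q' - ev F q) := by
    field_simp at h
    linear_combination h
  have h2 := congrArg norm h1
  rw [norm_mul, norm_mul, norm_ev_eq_one hF h0' hq, mul_one] at h2
  have h3 : ‖ev F q' - ev F q‖ ≤ ‖q' - q‖ := norm_ev_sub_ev_le hF hq' hq
  have h4 : ‖q' - q‖ = ‖q - q'‖ := norm_sub_rev _ _
  have h5 : ‖q‖ * ‖ev F q' - ev F q‖ ≤ ‖q‖ * ‖q' - q‖ := by gcongr
  have h6 : ‖q‖ * ‖q' - q‖ < 1 * ‖q' - q‖ := by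
    rw [h4]
    gcongr
  rw [one_mul] at h6
  linarith

/-! ### the instance `jq` -/

variable (K)

/-- the numerator of `j`, `jNum = E₄³ / ∏ (1 − qⁿ)²⁴`, with coefficients in `K`. -/
def jNumK : PowerSeries K := ModularCurve.jNum.map (Int.castRingHom K)

theorem isInt_jNumK : IsInt (jNumK K) := fun n => by
  rw [jNumK, coeff_map]
  exact IsUltrametricDist.norm_intCast_le_one K _

theorem constantCoeff_jNumK : constantCoeff (jNumK K) = 1 := by
  rw [← coeff_zero_eq_constantCoeff_apply, jNumK, coeff_map, coeff_zero_eq_constantCoeff_apply,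
    ModularCurve.constantCoeff_jNum]
  simp

variable {K}

/-- **the `j`-function `q⁻¹ + 744 + ⋯` on the punctured open unit disc of `K`.** -/
def jK (q : K) : K := q⁻¹ * ev (jNumK K) q

theorem norm_jK {q : K} (hq : ‖q‖ < 1) : ‖jK q‖ = ‖q‖⁻¹ := by
  rw [jK, norm_mul, norm_inv, norm_ev_eq_one (isInt_jNumK K)
    (by rw [constantCoeff_jNumK, norm_one]) hq, mul_one]

/-- **every `j` with `‖j‖ > 1` is `jK q` for a unique `q` with `0 < ‖q‖ < 1`.** -/
theorem exists_q_of_jK {j : K} (hj : 1 < ‖j‖) : ∃ q : K, q ≠ 0 ∧ ‖q‖ = ‖j‖⁻¹ ∧ jK q = j :=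
  exists_q_of_j (isInt_jNumK K) (constantCoeff_jNumK K) hj

theorem jK_injective {q q' : K} (hq0 : q ≠ 0) (hq : ‖q‖ < 1) (hq'0 : q' ≠ 0) (hq' : ‖q'‖ < 1)
    (h : jK q = jK q') : q = q' :=
  q_unique (isInt_jNumK K) (constantCoeff_jNumK K) hq0 hq hq'0 hq' h

end

end Fermat.Agent.MZ.MOD.QFromJ5
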