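/-
Programme MZ (S15, Mazur), chapter MOD-E, item (T4) (helper1): **Jacobi's identity on the Tate curve
over a complete ultrametric field `K` of characteristic zero**, and the link between helper4's
`TateCurve4.jK q = 1728 E₄³ / (E₄³ - E₆²)` and helper5's `QFromJ5.jK q = q⁻¹ · jNum(q)` (the
evaluation of the Prelude's `jq`).

* `evZ q hq : ℤ⟦q⟧ →+* K` : evaluation of integral power series on the open unit disc;
* `E4K_eq_evZ`, `E6K_eq_evZ` : `E4K q = eisenstein4 (q)`, `E6K q = eis6 (q)`;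
* `etaK q = ∏ (1 - qⁿ)²⁴ (q)`, `ΔK q = q · etaK q`, `norm_etaK : ‖etaK q‖ = 1`,
  `norm_ΔK : ‖ΔK q‖ = ‖q‖`;
* **`jacobiK`** : `E4K q ^ 3 - E6K q ^ 2 = 1728 * ΔK q`;
* `tateCurve_Δ_eq : (tateCurve q).Δ = ΔK q`, `isElliptic_tateCurve`, `j_tateCurve`;
* **`jK_eq`** : `TateCurve4.jK q = QFromJ5.jK q`, `norm_jK`.
-/
import Mathlib
import Fermat.Agent.MZ.MOD.Jacobi1
import Fermat.Agent.MZ.MOD.TateCurve4
import Fermat.Agent.MZ.MOD.QFromJ5

set_option autoImplicit false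
set_option linter.unusedSectionVars false
set_option linter.style.longLine false
set_option linter.style.haveILetI false

open PowerSeries

noncomputable section

namespace Fermat.Agent.MZ.MOD.JacobiK1

open Fermat.Agent.MZ.MOD.PSEval4 Fermat.Agent.MZ.MOD.TateFormal4 Fermat.Agent.MZ.MOD.TateEval4
  Fermat.Agent.MZ.MOD.TateCurve4 Fermat.Agent.MZ.MOD.QFromJ5 Fermat.Agent.MZ.MOD.Jacobi1

variable {K : Type*} [NormedField K] [IsUltrametricDist K] [CompleteSpace K]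

theorem isInt_mapZ (F : PowerSeries ℤ) : IsInt (mapZ (K := K) F) := fun n => by
  rw [coeff_mapZ]
  exact IsUltrametricDist.norm_intCast_le_one K _

theorem conv_mapZ (F : PowerSeries ℤ) {q : K} (hq : ‖q‖ < 1) : Conv (mapZ (K := K) F) q :=
  conv_of_isInt (isInt_mapZ F) hq

/-- **evaluation of integral power series** at a point of the open unit disc. -/
def evZ (q : K) (hq : ‖q‖ < 1) : PowerSeries ℤ →+* K where
  toFun F := ev (mapZ (K := K) F) q
  map_one' := by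
    simp only [mapZ, map_one]
    exact ev_one q
  map_mul' F G := by
    simp only [mapZ, map_mul]
    exact ev_mul (conv_mapZ F hq) (conv_mapZ G hq)
  map_zero' := by
    simp only [mapZ, map_zero]
    exact ev_zero q
  map_add' F G := by
    simp only [mapZ, map_add]
    exact ev_add (conv_mapZ F hq) (conv_mapZ G hq)

theorem evZ_apply (q : K) (hq : ‖q‖ < 1) (F : PowerSeries ℤ) :
    evZ q hq F = ev (mapZ (K := K) F) q := rfl

theorem evZ_C (q : K) (hq : ‖q‖ < 1) (n : ℤ) : evZ q hq (C n) = (n : K) := by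
  rw [evZ_apply, mapZ, PowerSeries.map_C, ev_C]
  rfl

theorem evZ_X (q : K) (hq : ‖q‖ < 1) : evZ q hq X = q := by
  rw [evZ_apply, mapZ, PowerSeries.map_X, ev_X]

theorem evZ_sk (q : K) (hq : ‖q‖ < 1) (k : ℕ) : evZ q hq (sk k) = sK k q := rfl

theorem norm_evZ_eq_one (q : K) (hq : ‖q‖ < 1) {F : PowerSeries ℤ} (hF : constantCoeff F = 1) :
    ‖evZ q hq F‖ = 1 := by
  rw [evZ_apply]
  refine norm_ev_eq_one (isInt_mapZ F) ?_ hq
  rw [← coeff_zero_eq_constantCoeff_apply, coeff_mapZ, coeff_zero_eq_constantCoeff_apply, hF,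
    Int.cast_one, norm_one]

/-! ### `E₄`, `E₆`, `Δ` -/

theorem E4K_eq_evZ (q : K) (hq : ‖q‖ < 1) : E4K q = evZ q hq ModularCurve.eisenstein4 := by
  rw [eisenstein4_eq, map_add, map_one, map_mul, evZ_C, evZ_sk, E4K]
  norm_num

theorem E6K_eq_evZ (q : K) (hq : ‖q‖ < 1) : E6K q = evZ q hq eis6 := by
  rw [eis6_eq, map_sub, map_one, map_mul, evZ_C, evZ_sk, E6K]
  norm_num

/-- `∏ (1 - qⁿ)²⁴`, evaluated. -/
def etaK (q : K) : K := ev (mapZ (K := K) ModularCurve.dedekindEtaUnit) q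

/-- `Δ(q) = q ∏ (1 - qⁿ)²⁴`, evaluated. -/
def ΔK (q : K) : K := q * etaK q

theorem etaK_eq_evZ (q : K) (hq : ‖q‖ < 1) : etaK q = evZ q hq ModularCurve.dedekindEtaUnit := rfl

theorem norm_etaK (q : K) (hq : ‖q‖ < 1) : ‖etaK q‖ = 1 := by
  rw [etaK_eq_evZ q hq]
  exact norm_evZ_eq_one q hq ModularCurve.constantCoeff_dedekindEtaUnit

theorem norm_ΔK (q : K) (hq : ‖q‖ < 1) : ‖ΔK q‖ = ‖q‖ := by
  rw [ΔK, norm_mul, norm_etaK q hq, mul_one]

theorem etaK_ne_zero (q : K) (hq : ‖q‖ < 1) : etaK q ≠ 0 := by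
  intro h
  have := norm_etaK q hq
  rw [h, norm_zero] at this
  exact zero_ne_one this

theorem ΔK_ne_zero (q : K) (hq0 : q ≠ 0) (hq : ‖q‖ < 1) : ΔK q ≠ 0 :=
  mul_ne_zero hq0 (etaK_ne_zero q hq)

/-- **Jacobi's identity**, evaluated. -/
theorem jacobiK (q : K) (hq : ‖q‖ < 1) : E4K q ^ 3 - E6K q ^ 2 = 1728 * ΔK q := by
  have h := congrArg (evZ q hq) jacobi
  rw [map_sub, map_pow, map_pow, map_mul, map_mul, evZ_C, evZ_X, ← E4K_eq_evZ, ← E6K_eq_evZ,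
    ← etaK_eq_evZ] at h
  rw [h, ΔK]
  norm_num

/-- the evaluated inverse of the eta product. -/
theorem evZ_etaInv (q : K) (hq : ‖q‖ < 1) :
    evZ q hq ModularCurve.dedekindEtaUnitInv = (etaK q)⁻¹ := by
  have h := congrArg (evZ q hq) ModularCurve.dedekindEtaUnit_mul_inv
  rw [map_mul, map_one, ← etaK_eq_evZ] at h
  exact eq_inv_of_mul_eq_one_right h

/-- helper5's `jK` (the evaluation of the Prelude's `jq = q⁻¹ · jNum`) is `E₄³ / Δ`. -/
theorem jK5_eq (q : K) (hq : ‖q‖ < 1) : QFromJ5.jK q = E4K q ^ 3 / ΔK q := by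
  have h : ev (jNumK K) q = evZ q hq ModularCurve.jNum := rfl
  rw [QFromJ5.jK, h, ModularCurve.jNum, map_mul, map_pow, ← E4K_eq_evZ, evZ_etaInv, ΔK,
    div_eq_mul_inv, mul_inv]
  ring

section CharZero

variable [CharZero K]

/-- **`Δ(E_q) = q ∏ (1 - qⁿ)²⁴`.** -/
theorem tateCurve_Δ_eq (q : K) (hq : ‖q‖ < 1) : (tateCurve q).Δ = ΔK q := by
  have h := tateCurve_Δ q hq
  rw [jacobiK q hq] at h
  exact mul_left_cancel₀ (by norm_num : (1728 : K) ≠ 0) h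

theorem norm_tateCurve_Δ (q : K) (hq : ‖q‖ < 1) : ‖(tateCurve q).Δ‖ = ‖q‖ := by
  rw [tateCurve_Δ_eq q hq, norm_ΔK q hq]

/-- **the Tate curve is an elliptic curve.** -/
theorem isElliptic_tateCurve (q : K) (hq0 : q ≠ 0) (hq : ‖q‖ < 1) : (tateCurve q).IsElliptic :=
  ⟨by rw [tateCurve_Δ_eq q hq]; exact isUnit_iff_ne_zero.mpr (ΔK_ne_zero q hq0 hq)⟩

/-- **helper4's `jK` is helper5's `jK`** : `1728 E₄³ / (E₄³ - E₆²) = q⁻¹ · jNum(q)`. -/
theorem jK_eq (q : K) (hq : ‖q‖ < 1) : TateCurve4.jK q = QFromJ5.jK q := by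
  rw [jK5_eq q hq, TateCurve4.jK, jacobiK q hq]
  rcases eq_or_ne (ΔK q) 0 with h0 | h0
  · rw [h0, mul_zero, div_zero, div_zero]
  · field_simp

theorem norm_jK (q : K) (hq : ‖q‖ < 1) : ‖TateCurve4.jK q‖ = ‖q‖⁻¹ := by
  rw [jK_eq q hq, QFromJ5.norm_jK hq]

/-- **`j(E_q) = jK q`.** -/
theorem j_tateCurve (q : K) (hq0 : q ≠ 0) (hq : ‖q‖ < 1) :
    haveI := isElliptic_tateCurve q hq0 hq
    (tateCurve q).j = TateCurve4.jK q := by
  haveI := isElliptic_tateCurve q hq0 hq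
  have h1 : (((tateCurve q).Δ'⁻¹ : Kˣ) : K) = (ΔK q)⁻¹ := by
    rw [Units.val_inv_eq_inv_val, WeierstrassCurve.coe_Δ', tateCurve_Δ_eq q hq]
  rw [WeierstrassCurve.j, h1, tateCurve_c₄ q hq, jK_eq q hq, jK5_eq q hq]
  ring

end CharZero

end Fermat.Agent.MZ.MOD.JacobiK1
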