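/-
Programme MZ (S15, Mazur), chapter MOD-E (helper4): **Vélu's formulas, as a definition.**

For a Weierstrass curve `W` over a field `F` and a finite set `xs` of `x`-coordinates — in the
application the `x`-coordinates of the nonzero points of a subgroup `C` of ODD order (each `x` occurs
for exactly the two points `±R`, and is listed ONCE) — Vélu's quotient curve is

  `a₁' = a₁, a₂' = a₂, a₃' = a₃, a₄' = a₄ - 5 t, a₆' = a₆ - b₂ t - 7 w`,
  `t = ∑_{x ∈ xs} (6 x² + b₂ x + b₄)`,  `w = ∑_{x ∈ xs} (10 x³ + 2 b₂ x² + 3 b₄ x + b₆)`.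

`veluJ W xs = c₄'³ / Δ'` is its `j`-invariant (junk value `0` when `Δ' = 0`).  Everything is a
polynomial in the `x ∈ xs`, hence commutes with ring homomorphisms (`map_velu*`), in particular with
Galois automorphisms.
-/
import Mathlib

set_option autoImplicit false

namespace Fermat.Agent.MZ.MOD.VeluDef4

variable {F : Type*} [Field F]

/-- Vélu's `t`. -/
def veluT (W : WeierstrassCurve F) (xs : Finset F) : F :=
  ∑ x ∈ xs, (6 * x ^ 2 + W.b₂ * x + W.b₄)

/-- Vélu's `w`. -/
def veluW (W : WeierstrassCurve F) (xs : Finset F) : F :=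
  ∑ x ∈ xs, (10 * x ^ 3 + 2 * W.b₂ * x ^ 2 + 3 * W.b₄ * x + W.b₆)

/-- Vélu's quotient curve. -/
def veluCurve (W : WeierstrassCurve F) (xs : Finset F) : WeierstrassCurve F where
  a₁ := W.a₁
  a₂ := W.a₂
  a₃ := W.a₃
  a₄ := W.a₄ - 5 * veluT W xs
  a₆ := W.a₆ - W.b₂ * veluT W xs - 7 * veluW W xs

/-- the `j`-invariant of Vélu's quotient curve. -/
noncomputable def veluJ (W : WeierstrassCurve F) (xs : Finset F) : F :=
  (veluCurve W xs).c₄ ^ 3 / (veluCurve W xs).Δ

@[simp] theorem veluCurve_a₁ (W : WeierstrassCurve F) (xs : Finset F) :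
    (veluCurve W xs).a₁ = W.a₁ := rfl
@[simp] theorem veluCurve_a₂ (W : WeierstrassCurve F) (xs : Finset F) :
    (veluCurve W xs).a₂ = W.a₂ := rfl
@[simp] theorem veluCurve_a₃ (W : WeierstrassCurve F) (xs : Finset F) :
    (veluCurve W xs).a₃ = W.a₃ := rfl
theorem veluCurve_a₄ (W : WeierstrassCurve F) (xs : Finset F) :
    (veluCurve W xs).a₄ = W.a₄ - 5 * veluT W xs := rfl
theorem veluCurve_a₆ (W : WeierstrassCurve F) (xs : Finset F) :
    (veluCurve W xs).a₆ = W.a₆ - W.b₂ * veluT W xs - 7 * veluW W xs := rfl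

theorem veluCurve_b₂ (W : WeierstrassCurve F) (xs : Finset F) :
    (veluCurve W xs).b₂ = W.b₂ := rfl

theorem veluCurve_b₄ (W : WeierstrassCurve F) (xs : Finset F) :
    (veluCurve W xs).b₄ = W.b₄ - 10 * veluT W xs := by
  simp only [WeierstrassCurve.b₄, veluCurve]
  ring

theorem veluCurve_b₆ (W : WeierstrassCurve F) (xs : Finset F) :
    (veluCurve W xs).b₆ = W.b₆ - 4 * W.b₂ * veluT W xs - 28 * veluW W xs := by
  simp only [WeierstrassCurve.b₆, veluCurve]
  ring

theorem veluCurve_c₄ (W : WeierstrassCurve F) (xs : Finset F) :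
    (veluCurve W xs).c₄ = W.c₄ + 240 * veluT W xs := by
  rw [WeierstrassCurve.c₄, veluCurve_b₂, veluCurve_b₄, WeierstrassCurve.c₄]
  ring

theorem veluCurve_c₆ (W : WeierstrassCurve F) (xs : Finset F) :
    (veluCurve W xs).c₆ = W.c₆ + 504 * W.b₂ * veluT W xs + 6048 * veluW W xs := by
  rw [WeierstrassCurve.c₆, veluCurve_b₂, veluCurve_b₄, veluCurve_b₆, WeierstrassCurve.c₆]
  ring

/-! ### compatibility with field homomorphisms -/

section Map

variable {F' : Type*} [Field F'] [DecidableEq F'] (φ : F →+* F')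

theorem map_veluT (W : WeierstrassCurve F) (xs : Finset F) :
    φ (veluT W xs) = veluT (W.map φ) (xs.image φ) := by
  rw [veluT, veluT, map_sum, Finset.sum_image (fun a _ b _ h => φ.injective h)]
  refine Finset.sum_congr rfl fun x _ => ?_
  simp only [map_add, map_mul, map_pow, map_ofNat, WeierstrassCurve.map_b₂,
    WeierstrassCurve.map_b₄]

theorem map_veluW (W : WeierstrassCurve F) (xs : Finset F) :
    φ (veluW W xs) = veluW (W.map φ) (xs.image φ) := by
  rw [veluW, veluW, map_sum, Finset.sum_image (fun a _ b _ h => φ.injective h)]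
  refine Finset.sum_congr rfl fun x _ => ?_
  simp only [map_add, map_mul, map_pow, map_ofNat, WeierstrassCurve.map_b₂,
    WeierstrassCurve.map_b₄, WeierstrassCurve.map_b₆]

theorem map_veluCurve (W : WeierstrassCurve F) (xs : Finset F) :
    (veluCurve W xs).map φ = veluCurve (W.map φ) (xs.image φ) := by
  ext
  · rfl
  · rfl
  · rfl
  · show φ (W.a₄ - 5 * veluT W xs) = φ W.a₄ - 5 * veluT (W.map φ) (xs.image φ)
    rw [map_sub, map_mul, map_ofNat, map_veluT]
  · show φ (W.a₆ - W.b₂ * veluT W xs - 7 * veluW W xs) =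
      φ W.a₆ - (W.map φ).b₂ * veluT (W.map φ) (xs.image φ) - 7 * veluW (W.map φ) (xs.image φ)
    rw [map_sub, map_sub, map_mul, map_mul, map_ofNat, map_veluT, map_veluW,
      WeierstrassCurve.map_b₂]

theorem map_veluJ (W : WeierstrassCurve F) (xs : Finset F) :
    φ (veluJ W xs) = veluJ (W.map φ) (xs.image φ) := by
  rw [veluJ, veluJ, map_div₀, map_pow, ← map_veluCurve, WeierstrassCurve.map_c₄,
    WeierstrassCurve.map_Δ]

/-- **Galois invariance**: if `σ` fixes the curve and permutes `xs`, it fixes `veluJ`. -/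
theorem veluJ_fixed [DecidableEq F] (σ : F →+* F) (W : WeierstrassCurve F) (xs : Finset F)
    (hW : W.map σ = W) (hxs : xs.image σ = xs) : σ (veluJ W xs) = veluJ W xs := by
  rw [map_veluJ, hW, hxs]

end Map

end Fermat.Agent.MZ.MOD.VeluDef4
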