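/-
Programme MZ (S15), chapter MOD-E (helper5), item (T5)(iii): **Vélu's quotient curve commutes with admissible
changes of variables**, hence `veluJ` is invariant.

For `C : VariableChange F` (`x = u² x' + r`, `y = u³ y' + u² s x' + t`) and `xs` a finite set of `x`-coordinates on
`W`, the corresponding `x`-coordinates on `C • W` are `xMap C x = u⁻² (x − r)`, and

* `veluT_vc : veluT (C • W) xs' = u⁻⁴ · veluT W xs`,  `veluW_vc : veluW (C • W) xs' = u⁻⁶ (veluW W xs − r · veluT W xs)`;
* **`veluCurve_vc : veluCurve (C • W) xs' = C • veluCurve W xs`** (any characteristic);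
* **`veluJ_vc : veluJ (C • W) xs' = veluJ W xs`**.
-/
import Mathlib
import Fermat.Agent.MZ.MOD.VeluDef4

set_option autoImplicit false
set_option linter.unusedSectionVars false
set_option linter.style.longLine false

namespace Fermat.Agent.MZ.MOD.VeluVC5

open WeierstrassCurve Fermat.Agent.MZ.MOD.VeluDef4

variable {F : Type*} [Field F] [DecidableEq F]

/-- the `x`-coordinate on `C • W` of the point with `x`-coordinate `x` on `W`. -/
def xMap (C : VariableChange F) (x : F) : F := (↑C.u⁻¹ : F) ^ 2 * (x - C.r)

/-- the `y`-coordinate on `C • W` of the point `(x, y)` of `W`. -/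
def yMap (C : VariableChange F) (x y : F) : F :=
  (↑C.u⁻¹ : F) ^ 3 * (y - C.s * (x - C.r) - C.t)

theorem xMap_injective (C : VariableChange F) : Function.Injective (xMap C) := by
  intro a b h
  have hu : ((↑C.u⁻¹ : F) ^ 2) ≠ 0 := pow_ne_zero _ (Units.ne_zero _)
  have := mul_left_cancel₀ hu h
  exact sub_left_injective this

theorem veluT_vc (C : VariableChange F) (W : WeierstrassCurve F) (xs : Finset F) :
    veluT (C • W) (xs.image (xMap C)) = (↑C.u⁻¹ : F) ^ 4 * veluT W xs := by
  rw [veluT, veluT, Finset.sum_image (fun a _ b _ h => xMap_injective C h), Finset.mul_sum]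
  refine Finset.sum_congr rfl fun x _ => ?_
  rw [variableChange_b₂, variableChange_b₄, xMap]
  ring

theorem veluW_vc (C : VariableChange F) (W : WeierstrassCurve F) (xs : Finset F) :
    veluW (C • W) (xs.image (xMap C)) =
      (↑C.u⁻¹ : F) ^ 6 * (veluW W xs - C.r * veluT W xs) := by
  rw [veluW, veluW, veluT, Finset.sum_image (fun a _ b _ h => xMap_injective C h), Finset.mul_sum,
    ← Finset.sum_sub_distrib, Finset.mul_sum]
  refine Finset.sum_congr rfl fun x _ => ?_
  rw [variableChange_b₂, variableChange_b₄, variableChange_b₆, xMap]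
  ring

/-- **Vélu's curve commutes with changes of variables.** -/
theorem veluCurve_vc (C : VariableChange F) (W : WeierstrassCurve F) (xs : Finset F) :
    veluCurve (C • W) (xs.image (xMap C)) = C • veluCurve W xs := by
  ext
  · rfl
  · rfl
  · rfl
  · rw [veluCurve_a₄, veluT_vc, variableChange_a₄, variableChange_a₄, veluCurve_a₄, veluCurve_a₁,
      veluCurve_a₂, veluCurve_a₃]
    ring
  · rw [veluCurve_a₆, veluT_vc, veluW_vc, variableChange_a₆, variableChange_a₆, variableChange_b₂,
      veluCurve_a₆, veluCurve_a₄, veluCurve_a₁, veluCurve_a₂, veluCurve_a₃]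
    ring

/-- **`veluJ` is invariant under changes of variables.** -/
theorem veluJ_vc (C : VariableChange F) (W : WeierstrassCurve F) (xs : Finset F) :
    veluJ (C • W) (xs.image (xMap C)) = veluJ W xs := by
  rw [veluJ, veluJ, veluCurve_vc, variableChange_c₄, variableChange_Δ]
  have hu : (↑C.u⁻¹ : F) ≠ 0 := Units.ne_zero _
  by_cases hΔ : (veluCurve W xs).Δ = 0
  · rw [hΔ, mul_zero, div_zero, div_zero]
  · field_simp

end Fermat.Agent.MZ.MOD.VeluVC5
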