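/-
Programme MZ (S15), chapter MOD-E (helper5), item (T5)(iv): **reduction type of a point and changes of variables
between integral models**, over an ultrametric normed field `K` (unit ball `O`, open unit ball `𝔪`).

* `IsIntegralW W` : the coefficients of `W` are in the unit ball;
* **`vc_integral`** : if `W` and `C • W` are integral and `‖c₄(W)‖ = ‖c₄(C • W)‖ = 1` then `‖u‖ = 1` and
  `r, s, t` are integral (Silverman VII.1.3);
* `RedSing W x y` : the point `(x, y)` reduces to a singular point of the reduction of `W`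
  (`x, y` integral and both partial derivatives in `𝔪`);
* **`redSing_vc`** : `RedSing (C • W) (xMap C x) (yMap C x y) ↔ RedSing W x y` for such a `C`;
* `redSing_tateForm` : for `W = ⟨1, 0, 0, a₄, a₆⟩` with `a₄, a₆ ∈ 𝔪`, a point of `W` reduces to the singular point
  iff `x, y ∈ 𝔪`.
-/
import Mathlib
import Fermat.Agent.MZ.MOD.VeluVC5

set_option autoImplicit false
set_option linter.unusedSectionVars false
set_option linter.style.longLine false

namespace Fermat.Agent.MZ.MOD.RedType5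

open WeierstrassCurve Fermat.Agent.MZ.MOD.VeluVC5

variable {K : Type*} [NormedField K] [IsUltrametricDist K]

/-! ### the unit ball and the open unit ball -/

variable (K) in
/-- the unit ball as a subring. -/
def O : Subring K where
  carrier := {x | ‖x‖ ≤ 1}
  mul_mem' := by
    intro a b ha hb
    simp only [Set.mem_ofPred_eq] at ha hb ⊢
    rw [norm_mul]
    exact mul_le_one₀ ha (norm_nonneg b) hb
  one_mem' := by simp
  add_mem' := by
    intro a b ha hb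
    simp only [Set.mem_ofPred_eq] at ha hb ⊢
    exact (IsUltrametricDist.norm_add_le_max a b).trans (max_le ha hb)
  zero_mem' := by simp
  neg_mem' := by
    intro a ha
    simp only [Set.mem_ofPred_eq] at ha ⊢
    rwa [norm_neg]

theorem mem_O {x : K} : x ∈ O K ↔ ‖x‖ ≤ 1 := Iff.rfl

theorem ofNat_mem_O (n : ℕ) [n.AtLeastTwo] : (OfNat.ofNat n : K) ∈ O K := by
  rw [← Nat.cast_ofNat]
  exact natCast_mem _ _

/-- `x ∈ 𝔪`. -/
def M (x : K) : Prop := ‖x‖ < 1

theorem M.add {a b : K} (ha : M a) (hb : M b) : M (a + b) :=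
  (IsUltrametricDist.norm_add_le_max a b).trans_lt (max_lt ha hb)

theorem M.neg {a : K} (ha : M a) : M (-a) := by rwa [M, norm_neg]

theorem M.sub {a b : K} (ha : M a) (hb : M b) : M (a - b) := by
  rw [sub_eq_add_neg]
  exact ha.add hb.neg

theorem M.mul_right {a b : K} (ha : M a) (hb : b ∈ O K) : M (a * b) := by
  rw [M, norm_mul]
  calc ‖a‖ * ‖b‖ ≤ ‖a‖ * 1 := by
        gcongr
        exact hb
    _ = ‖a‖ := mul_one _
    _ < 1 := ha

theorem M.mul_left {a b : K} (ha : M a) (hb : b ∈ O K) : M (b * a) := by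
  rw [mul_comm]
  exact ha.mul_right hb

theorem M.mem_O {a : K} (ha : M a) : a ∈ O K := le_of_lt ha

theorem M.pow {a : K} (ha : M a) {n : ℕ} (hn : n ≠ 0) : M (a ^ n) := by
  rw [M, norm_pow]
  exact pow_lt_one₀ (norm_nonneg a) ha hn

theorem not_M_one : ¬ M (1 : K) := by simp [M]

theorem M_zero : M (0 : K) := by simp [M]

/-- the inverse of an element of norm `> 1` is in `𝔪`. -/
theorem M_inv {a : K} (ha : 1 < ‖a‖) : M a⁻¹ := by
  rw [M, norm_inv]
  exact inv_lt_one_of_one_lt₀ ha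

theorem not_mem_O_iff {a : K} : a ∉ O K ↔ 1 < ‖a‖ := by
  rw [mem_O, not_le]

/-- units of `O`. -/
theorem mem_O_of_norm_eq_one {a : K} (ha : ‖a‖ = 1) : a ∈ O K := ha.le

theorem inv_mem_O_of_norm_eq_one {a : K} (ha : ‖a‖ = 1) : a⁻¹ ∈ O K := by
  rw [mem_O, norm_inv, ha, inv_one]

/-- `M` is invariant under multiplication by a unit. -/
theorem M_mul_unit_iff {a c : K} (hc : ‖c‖ = 1) : M (c * a) ↔ M a := by
  rw [M, M, norm_mul, hc, one_mul]

theorem mem_O_mul_unit_iff {a c : K} (hc : ‖c‖ = 1) : c * a ∈ O K ↔ a ∈ O K := by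
  rw [mem_O, mem_O, norm_mul, hc, one_mul]

/-! ### integral Weierstrass curves -/

/-- the coefficients of `W` lie in the unit ball. -/
def IsIntegralW (W : WeierstrassCurve K) : Prop :=
  W.a₁ ∈ O K ∧ W.a₂ ∈ O K ∧ W.a₃ ∈ O K ∧ W.a₄ ∈ O K ∧ W.a₆ ∈ O K

theorem IsIntegralW.b₂ {W : WeierstrassCurve K} (h : IsIntegralW W) : W.b₂ ∈ O K := by
  rw [WeierstrassCurve.b₂]
  exact add_mem (pow_mem h.1 2) (mul_mem (ofNat_mem_O 4) h.2.1)

theorem IsIntegralW.b₄ {W : WeierstrassCurve K} (h : IsIntegralW W) : W.b₄ ∈ O K := by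
  rw [WeierstrassCurve.b₄]
  exact add_mem (mul_mem (ofNat_mem_O 2) h.2.2.2.1) (mul_mem h.1 h.2.2.1)

theorem IsIntegralW.b₆ {W : WeierstrassCurve K} (h : IsIntegralW W) : W.b₆ ∈ O K := by
  rw [WeierstrassCurve.b₆]
  exact add_mem (pow_mem h.2.2.1 2) (mul_mem (ofNat_mem_O 4) h.2.2.2.2)

theorem IsIntegralW.b₈ {W : WeierstrassCurve K} (h : IsIntegralW W) : W.b₈ ∈ O K := by
  rw [WeierstrassCurve.b₈]
  obtain ⟨h1, h2, h3, h4, h6⟩ := h
  exact sub_mem (add_mem (sub_mem (add_mem (mul_mem (pow_mem h1 2) h6)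
    (mul_mem (mul_mem (ofNat_mem_O 4) h2) h6)) (mul_mem (mul_mem h1 h3) h4))
    (mul_mem h2 (pow_mem h3 2))) (pow_mem h4 2)

/-! ### integrality of the change of variables -/

section VC

variable {W : WeierstrassCurve K} {C : VariableChange K}

theorem u_mul_inv (C : VariableChange K) : (↑C.u : K) * (↑C.u⁻¹ : K) = 1 := by
  rw [← Units.val_mul, mul_inv_cancel, Units.val_one]

theorem pow_u_mul (C : VariableChange K) (n : ℕ) (a : K) :
    (↑C.u : K) ^ n * ((↑C.u⁻¹ : K) ^ n * a) = a := by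
  rw [← mul_assoc, ← mul_pow, u_mul_inv, one_pow, one_mul]

/-- `‖u‖ = 1` when both `c₄` are units. -/
theorem norm_u_eq_one (h4 : ‖W.c₄‖ = 1) (h4' : ‖(C • W).c₄‖ = 1) :
    ‖(↑C.u : K)‖ = 1 ∧ ‖(↑C.u⁻¹ : K)‖ = 1 := by
  have h := variableChange_c₄ W C
  have h1 : ‖(↑C.u⁻¹ : K)‖ ^ 4 = 1 := by
    have := congrArg norm h
    rw [norm_mul, norm_pow, h4, h4', mul_one] at this
    exact this.symm
  have h2 : ‖(↑C.u⁻¹ : K)‖ = 1 := (pow_eq_one_iff_of_nonneg (norm_nonneg _) (by norm_num)).mp h1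
  refine ⟨?_, h2⟩
  have h3 := congrArg norm (u_mul_inv C)
  rwa [norm_mul, h2, mul_one, norm_one] at h3

/-- **`r` is integral.** -/
theorem r_mem_O (hW : IsIntegralW W) (hW' : IsIntegralW (C • W)) (hu : ‖(↑C.u : K)‖ = 1) :
    C.r ∈ O K := by
  by_contra hr
  rw [not_mem_O_iff] at hr
  have hr0 : C.r ≠ 0 := fun h => by rw [h, norm_zero] at hr; linarith
  have hx : M C.r⁻¹ := M_inv hr
  have huO : (↑C.u : K) ∈ O K := mem_O_of_norm_eq_one hu
  have h6 : (↑C.u : K) ^ 6 * (C • W).b₆ =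
      W.b₆ + 2 * C.r * W.b₄ + C.r ^ 2 * W.b₂ + 4 * C.r ^ 3 := by
    rw [variableChange_b₆, pow_u_mul]
  have h8 : (↑C.u : K) ^ 8 * (C • W).b₈ =
      W.b₈ + 3 * C.r * W.b₆ + 3 * C.r ^ 2 * W.b₄ + C.r ^ 3 * W.b₂ + 3 * C.r ^ 4 := by
    rw [variableChange_b₈, pow_u_mul]
  have e4 : (4 : K) = C.r⁻¹ ^ 3 * ((↑C.u : K) ^ 6 * (C • W).b₆ - W.b₆) -
      C.r⁻¹ ^ 2 * (2 * W.b₄) - C.r⁻¹ * W.b₂ := by
    rw [h6]
    field_simp
    ring
  have e3 : (3 : K) = C.r⁻¹ ^ 4 * ((↑C.u : K) ^ 8 * (C • W).b₈ - W.b₈) -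
      C.r⁻¹ ^ 3 * (3 * W.b₆) - C.r⁻¹ ^ 2 * (3 * W.b₄) - C.r⁻¹ * W.b₂ := by
    rw [h8]
    field_simp
    ring
  have m4 : M (4 : K) := by
    rw [e4]
    refine M.sub (M.sub ?_ ?_) ?_
    · exact (hx.pow (by norm_num)).mul_right (sub_mem (mul_mem (pow_mem huO 6) hW'.b₆) hW.b₆)
    · exact (hx.pow (by norm_num)).mul_right (mul_mem (ofNat_mem_O 2) hW.b₄)
    · exact hx.mul_right hW.b₂
  have m3 : M (3 : K) := by
    rw [e3]
    refine M.sub (M.sub (M.sub ?_ ?_) ?_) ?_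
    · exact (hx.pow (by norm_num)).mul_right (sub_mem (mul_mem (pow_mem huO 8) hW'.b₈) hW.b₈)
    · exact (hx.pow (by norm_num)).mul_right (mul_mem (ofNat_mem_O 3) hW.b₆)
    · exact (hx.pow (by norm_num)).mul_right (mul_mem (ofNat_mem_O 3) hW.b₄)
    · exact hx.mul_right hW.b₂
  have m1 : M (1 : K) := by
    have : (1 : K) = 4 - 3 := by norm_num
    rw [this]
    exact m4.sub m3
  exact not_M_one m1

/-- **`s` is integral.** -/
theorem s_mem_O (hW : IsIntegralW W) (hW' : IsIntegralW (C • W)) (hu : ‖(↑C.u : K)‖ = 1)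
    (hr : C.r ∈ O K) : C.s ∈ O K := by
  by_contra hs
  rw [not_mem_O_iff] at hs
  have hs0 : C.s ≠ 0 := fun h => by rw [h, norm_zero] at hs; linarith
  have hx : M C.s⁻¹ := M_inv hs
  have huO : (↑C.u : K) ∈ O K := mem_O_of_norm_eq_one hu
  have h2 : (↑C.u : K) ^ 2 * (C • W).a₂ = W.a₂ - C.s * W.a₁ + 3 * C.r - C.s ^ 2 := by
    rw [variableChange_a₂, pow_u_mul]
  have e1 : (1 : K) = C.s⁻¹ ^ 2 * (W.a₂ + 3 * C.r - (↑C.u : K) ^ 2 * (C • W).a₂) -
      C.s⁻¹ * W.a₁ := by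
    rw [h2]
    field_simp
    ring
  have m1 : M (1 : K) := by
    rw [e1]
    refine M.sub ?_ ?_
    · exact (hx.pow (by norm_num)).mul_right (sub_mem (add_mem hW.2.1 (mul_mem (ofNat_mem_O 3) hr))
        (mul_mem (pow_mem huO 2) hW'.2.1))
    · exact hx.mul_right hW.1
  exact not_M_one m1

/-- **`t` is integral.** -/
theorem t_mem_O (hW : IsIntegralW W) (hW' : IsIntegralW (C • W)) (hu : ‖(↑C.u : K)‖ = 1)
    (hr : C.r ∈ O K) : C.t ∈ O K := by
  by_contra ht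
  rw [not_mem_O_iff] at ht
  have ht0 : C.t ≠ 0 := fun h => by rw [h, norm_zero] at ht; linarith
  have hx : M C.t⁻¹ := M_inv ht
  have huO : (↑C.u : K) ∈ O K := mem_O_of_norm_eq_one hu
  obtain ⟨h1, h2, h3, h4, h6⟩ := hW
  have e6 : (↑C.u : K) ^ 6 * (C • W).a₆ = W.a₆ + C.r * W.a₄ + C.r ^ 2 * W.a₂ + C.r ^ 3 -
      C.t * W.a₃ - C.t ^ 2 - C.r * C.t * W.a₁ := by
    rw [variableChange_a₆, pow_u_mul]
  have e1 : (1 : K) = C.t⁻¹ ^ 2 * (W.a₆ + C.r * W.a₄ + C.r ^ 2 * W.a₂ + C.r ^ 3 -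
      (↑C.u : K) ^ 6 * (C • W).a₆) - C.t⁻¹ * (W.a₃ + C.r * W.a₁) := by
    rw [e6]
    field_simp
    ring
  have m1 : M (1 : K) := by
    rw [e1]
    refine M.sub ?_ ?_
    · refine (hx.pow (by norm_num)).mul_right (sub_mem (add_mem (add_mem (add_mem h6 (mul_mem hr h4))
        (mul_mem (pow_mem hr 2) h2)) (pow_mem hr 3)) (mul_mem (pow_mem huO 6) hW'.2.2.2.2))
    · exact hx.mul_right (add_mem h3 (mul_mem hr h1))
  exact not_M_one m1

/-- **a change of variables between integral models with unit `c₄` is integral with unit `u`.** -/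
theorem vc_integral (hW : IsIntegralW W) (hW' : IsIntegralW (C • W)) (h4 : ‖W.c₄‖ = 1)
    (h4' : ‖(C • W).c₄‖ = 1) :
    ‖(↑C.u : K)‖ = 1 ∧ ‖(↑C.u⁻¹ : K)‖ = 1 ∧ C.r ∈ O K ∧ C.s ∈ O K ∧ C.t ∈ O K := by
  obtain ⟨hu, hv⟩ := norm_u_eq_one h4 h4'
  have hr := r_mem_O hW hW' hu
  exact ⟨hu, hv, hr, s_mem_O hW hW' hu hr, t_mem_O hW hW' hu hr⟩

end VC

/-! ### points reducing to a singular point -/

/-- `∂W/∂x` at `(x, y)`. -/
def WX (W : WeierstrassCurve K) (x y : K) : K := W.a₁ * y - (3 * x ^ 2 + 2 * W.a₂ * x + W.a₄)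

/-- `∂W/∂y` at `(x, y)`. -/
def WY (W : WeierstrassCurve K) (x y : K) : K := 2 * y + W.a₁ * x + W.a₃

/-- **the point `(x, y)` reduces to a singular point of the reduction of `W`.** -/
def RedSing (W : WeierstrassCurve K) (x y : K) : Prop :=
  x ∈ O K ∧ y ∈ O K ∧ M (WX W x y) ∧ M (WY W x y)

theorem WY_vc (C : VariableChange K) (W : WeierstrassCurve K) (x y : K) :
    WY (C • W) (xMap C x) (yMap C x y) = (↑C.u⁻¹ : K) ^ 3 * WY W x y := by
  rw [WY, WY, variableChange_a₁, variableChange_a₃, xMap, yMap]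
  ring

theorem WX_vc (C : VariableChange K) (W : WeierstrassCurve K) (x y : K) :
    WX (C • W) (xMap C x) (yMap C x y) = (↑C.u⁻¹ : K) ^ 4 * (WX W x y + C.s * WY W x y) := by
  rw [WX, WX, WY, variableChange_a₁, variableChange_a₂, variableChange_a₄, xMap, yMap]
  ring

theorem x_eq_of_xMap (C : VariableChange K) (x : K) : x = (↑C.u : K) ^ 2 * xMap C x + C.r := by
  rw [xMap, pow_u_mul]
  ring

theorem y_eq_of_yMap (C : VariableChange K) (x y : K) :
    y = (↑C.u : K) ^ 3 * yMap C x y + (↑C.u : K) ^ 2 * C.s * xMap C x + C.t := by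
  have h := u_mul_inv C
  have h3 : (↑C.u : K) ^ 3 * (↑C.u⁻¹ : K) ^ 3 = 1 := by rw [← mul_pow, h, one_pow]
  have h2 : (↑C.u : K) ^ 2 * (↑C.u⁻¹ : K) ^ 2 = 1 := by rw [← mul_pow, h, one_pow]
  rw [yMap, xMap]
  linear_combination (-(y - C.s * (x - C.r) - C.t)) * h3 + (-(C.s * (x - C.r))) * h2

/-- **the reduction type of a point is preserved by an integral change of variables.** -/
theorem redSing_vc {C : VariableChange K} (W : WeierstrassCurve K) (hu : ‖(↑C.u : K)‖ = 1)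
    (hv : ‖(↑C.u⁻¹ : K)‖ = 1) (hr : C.r ∈ O K) (hs : C.s ∈ O K) (ht : C.t ∈ O K) (x y : K) :
    RedSing (C • W) (xMap C x) (yMap C x y) ↔ RedSing W x y := by
  have huO : (↑C.u : K) ∈ O K := mem_O_of_norm_eq_one hu
  have hvO : (↑C.u⁻¹ : K) ∈ O K := mem_O_of_norm_eq_one hv
  have hv3 : ‖(↑C.u⁻¹ : K) ^ 3‖ = 1 := by rw [norm_pow, hv, one_pow]
  have hv4 : ‖(↑C.u⁻¹ : K) ^ 4‖ = 1 := by rw [norm_pow, hv, one_pow]
  unfold RedSing
  rw [WY_vc, WX_vc, M_mul_unit_iff hv3, M_mul_unit_iff hv4]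
  constructor
  · rintro ⟨hx', hy', hX, hY⟩
    have hx : x ∈ O K := by
      rw [x_eq_of_xMap C x]
      exact add_mem (mul_mem (pow_mem huO 2) hx') hr
    have hy : y ∈ O K := by
      rw [y_eq_of_yMap C x y]
      exact add_mem (add_mem (mul_mem (pow_mem huO 3) hy') (mul_mem (mul_mem (pow_mem huO 2) hs) hx')) ht
    refine ⟨hx, hy, ?_, hY⟩
    have : WX W x y = (WX W x y + C.s * WY W x y) - C.s * WY W x y := by ring
    rw [this]
    exact hX.sub (hY.mul_left hs)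
  · rintro ⟨hx, hy, hX, hY⟩
    refine ⟨?_, ?_, hX.add (hY.mul_left hs), hY⟩
    · rw [xMap]
      exact mul_mem (pow_mem hvO 2) (sub_mem hx hr)
    · rw [yMap]
      exact mul_mem (pow_mem hvO 3) (sub_mem (sub_mem hy (mul_mem hs (sub_mem hx hr))) ht)

/-! ### curves in Tate form -/

/-- for `W = ⟨1, 0, 0, a₄, a₆⟩` with `a₄, a₆ ∈ 𝔪`, a point reduces to the singular point `(0, 0)` iff
`x, y ∈ 𝔪`. -/
theorem redSing_tateForm {a₄ a₆ : K} (h4 : M a₄) (h6 : M a₆) {x y : K}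
    (hE : (⟨1, 0, 0, a₄, a₆⟩ : WeierstrassCurve K).toAffine.Equation x y) :
    RedSing (⟨1, 0, 0, a₄, a₆⟩ : WeierstrassCurve K) x y ↔ M x ∧ M y := by
  rw [WeierstrassCurve.Affine.equation_iff] at hE
  simp only [one_mul, zero_mul, add_zero] at hE
  unfold RedSing WX WY
  simp only [one_mul, zero_mul, add_zero, mul_zero]
  constructor
  · rintro ⟨hx, hy, hX, hY⟩
    -- `e = 2y + x`, `d = y − 3x² − a₄`
    have hP1 : M (y - 12 * y ^ 2) := by
      have : y - 12 * y ^ 2 = (y - (3 * x ^ 2 + a₄)) + 3 * (2 * y + x) ^ 2 - 12 * (2 * y + x) * y + a₄ := by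
        ring
      rw [this]
      refine M.add (M.sub (M.add hX ?_) ?_) h4
      · exact (hY.pow (by norm_num)).mul_left (ofNat_mem_O 3)
      · exact (hY.mul_left (ofNat_mem_O 12)).mul_right hy
    have hP2 : M (y ^ 2 - 8 * y ^ 3) := by
      have : y ^ 2 - 8 * y ^ 3 = (2 * y + x) * y - (2 * y + x) ^ 3 + 6 * (2 * y + x) ^ 2 * y -
          12 * (2 * y + x) * y ^ 2 - a₄ * x - a₆ := by
        linear_combination (-1 : K) * hE
      rw [this]
      refine M.sub (M.sub (M.sub (M.add (M.sub ?_ ?_) ?_) ?_) ?_) h6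
      · exact hY.mul_right hy
      · exact hY.pow (by norm_num)
      · exact ((hY.pow (by norm_num)).mul_left (ofNat_mem_O 6)).mul_right hy
      · exact (hY.mul_left (ofNat_mem_O 12)).mul_right (pow_mem hy 2)
      · exact h4.mul_right hx
    have h4y3 : M (4 * y ^ 3) := by
      have : 4 * y ^ 3 = (y ^ 2 - 8 * y ^ 3) - y * (y - 12 * y ^ 2) := by ring
      rw [this]
      exact hP2.sub (hP1.mul_left hy)
    have hy2 : M (y ^ 2) := by
      have : y ^ 2 = y * (y - 12 * y ^ 2) + 3 * (4 * y ^ 3) := by ring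
      rw [this]
      exact (hP1.mul_left hy).add (h4y3.mul_left (ofNat_mem_O 3))
    have hyM : M y := by
      rw [M, norm_pow] at hy2
      by_contra hcon
      rw [M, not_lt] at hcon
      have : 1 ≤ ‖y‖ ^ 2 := one_le_pow₀ hcon
      linarith
    refine ⟨?_, hyM⟩
    have : x = (2 * y + x) - 2 * y := by ring
    rw [this]
    exact hY.sub (hyM.mul_left (ofNat_mem_O 2))
  · rintro ⟨hx, hy⟩
    refine ⟨hx.mem_O, hy.mem_O, ?_, ?_⟩
    · exact hy.sub (((hx.pow (by norm_num)).mul_left (ofNat_mem_O 3)).add h4)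
    · exact (hy.mul_left (ofNat_mem_O 2)).add hx

end Fermat.Agent.MZ.MOD.RedType5
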