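/-
Programme MZ (S15), chapter MOD-E (helper5), item (T5)(ii): **transport of the local Tate–Vélu statement (LT)
from the Tate curve to an arbitrary integral model with unit `c₄`.**

`K` an ultrametric normed field, separably closed.  Abstractly: `T : K → WeierstrassCurve K` (the Tate curve
`q ↦ E_q`) and `jT : K → K` (`q ↦ j(q)`).  If
* every `j` with `‖j‖ > 1` is `jT q` with `0 < ‖q‖ < 1`,
* `T q` is integral with `‖c₄‖ = 1`, `Δ ≠ 0`, `j(T q) = jT q`, and LT holds for `T q`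
  (for `Q'` of exact order `p`: `veluJ (T q) (xsOf Q' p) = jT q'` with `q' = q ^ p` and `Q'` reducing to a
  nonsingular point, or `q' ^ p = q` and `Q'` reducing to the singular point),
then LT holds for every integral `W` with `‖c₄‖ = 1`, `Δ ≠ 0`, `‖Δ‖ < 1` (`lt_transport`).

Ingredients: Mathlib's `exists_variableChange_of_j_eq`, the group isomorphism of points under a change of
variables (`S05/Transport.pointEquiv`), `VeluVC5.veluJ_vc`, `RedType5.vc_integral`, `RedType5.redSing_vc`.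

* `xOf`, `xsOf Q p` : the `x`-coordinates of `⟨Q⟩ ∖ 0`, each listed once;
* `RedSingPt W Q` : `Q` reduces to a singular point;
* `xsOf_pointEquiv`, `redSingPt_pointEquiv`, `lt_transport`.
-/
import Mathlib
import Fermat.Agent.S05.Transport
import Fermat.Agent.MZ.MOD.RedType5

set_option autoImplicit false
set_option linter.unusedSectionVars false
set_option linter.style.longLine false
set_option linter.style.haveILetI false

namespace Fermat.Agent.MZ.MOD.LTTransport5

open WeierstrassCurve WeierstrassCurve.Affine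
open Fermat.Agent.S05.Transport Fermat.Agent.MZ.MOD.VeluDef4 Fermat.Agent.MZ.MOD.VeluVC5
open Fermat.Agent.MZ.MOD.RedType5

noncomputable section

section Field

variable {F : Type*} [Field F] [DecidableEq F]

/-- the `x`-coordinate of a point (`0` for the point at infinity). -/
def xOf {W : WeierstrassCurve F} : W.toAffine.Point → F
  | .zero => 0
  | .some x _ _ => x

/-- **the `x`-coordinates of the multiples `k • Q`, `1 ≤ k < p`** (each listed once). -/
def xsOf {W : WeierstrassCurve F} (Q : W.toAffine.Point) (p : ℕ) : Finset F :=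
  (Finset.Ico 1 p).image fun k => xOf (k • Q)

theorem xMap_vcX (C : VariableChange F) (x : F) : xMap C (vcX C x) = x := by
  have h : (↑C.u⁻¹ : F) ^ 2 * (↑C.u : F) ^ 2 = 1 := by
    rw [← mul_pow, ← Units.val_mul, inv_mul_cancel, Units.val_one, one_pow]
  rw [xMap, vcX]
  linear_combination x * h

theorem yMap_vcY (C : VariableChange F) (x y : F) : yMap C (vcX C x) (vcY C x y) = y := by
  have h : (↑C.u⁻¹ : F) ^ 3 * (↑C.u : F) ^ 3 = 1 := by
    rw [← mul_pow, ← Units.val_mul, inv_mul_cancel, Units.val_one, one_pow]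
  rw [yMap, vcX, vcY]
  linear_combination y * h

variable {W₁ W₂ : WeierstrassCurve F} {C : VariableChange F}

/-- the `x`-coordinate of a nonzero point, transported. -/
theorem xOf_eq_xMap (h : W₁ = C • W₂) {P : W₁.toAffine.Point} (hP : P ≠ 0) :
    xOf P = xMap C (xOf (pointEquiv h P)) := by
  rcases P with _ | ⟨x, y, hxy⟩
  · exact absurd rfl hP
  · rw [Fermat.Agent.S05.Transport.pointEquiv_some]
    show x = xMap C (vcX C x)
    rw [xMap_vcX]

/-- **the `x`-coordinates of `⟨Q'⟩ ∖ 0` on `C • W` are the images of those of `⟨Q⟩ ∖ 0` on `W`.** -/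
theorem xsOf_pointEquiv (h : W₁ = C • W₂) (Q' : W₁.toAffine.Point) {p : ℕ} (hQ' : addOrderOf Q' = p) :
    xsOf Q' p = (xsOf (pointEquiv h Q') p).image (xMap C) := by
  rw [xsOf, xsOf, Finset.image_image]
  refine Finset.image_congr fun k hk => ?_
  rw [Finset.coe_Ico, Set.mem_Ico] at hk
  have hne : k • Q' ≠ 0 := by
    intro h0
    have hdvd : addOrderOf Q' ∣ k := addOrderOf_dvd_of_nsmul_eq_zero h0
    rw [hQ'] at hdvd
    have := Nat.le_of_dvd (by omega) hdvd
    omega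
  show xOf (k • Q') = xMap C (xOf (k • pointEquiv h Q'))
  rw [xOf_eq_xMap h hne, map_nsmul]

/-- **`veluJ` of `⟨Q'⟩` on `C • W` equals `veluJ` of the corresponding subgroup on `W`.** -/
theorem veluJ_pointEquiv (W : WeierstrassCurve F) (C : VariableChange F) {W₁ : WeierstrassCurve F}
    (h : W₁ = C • W) (Q' : W₁.toAffine.Point) {p : ℕ} (hQ' : addOrderOf Q' = p) :
    veluJ W₁ (xsOf Q' p) = veluJ W (xsOf (pointEquiv h Q') p) := by
  rw [xsOf_pointEquiv h Q' hQ']
  subst h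
  exact veluJ_vc C W _

end Field

/-! ### reduction type of a point -/

section Normed

variable {K : Type*} [NormedField K] [IsUltrametricDist K] [DecidableEq K]

/-- **`Q` reduces to a singular point of the reduction of `W`.** -/
def RedSingPt (W : WeierstrassCurve K) : W.toAffine.Point → Prop
  | .zero => False
  | .some x y _ => RedSing W x y

theorem redSingPt_pointEquiv (W : WeierstrassCurve K) (C : VariableChange K) {W₁ : WeierstrassCurve K}
    (h : W₁ = C • W) (hu : ‖(↑C.u : K)‖ = 1) (hv : ‖(↑C.u⁻¹ : K)‖ = 1) (hr : C.r ∈ O K) (hs : C.s ∈ O K)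
    (ht : C.t ∈ O K) (P : W₁.toAffine.Point) :
    RedSingPt W (pointEquiv h P) ↔ RedSingPt W₁ P := by
  rcases P with _ | ⟨x, y, hxy⟩
  · exact Iff.rfl
  · rw [Fermat.Agent.S05.Transport.pointEquiv_some]
    show RedSing W (vcX C x) (vcY C x y) ↔ RedSing W₁ x y
    have h1 := redSing_vc W hu hv hr hs ht (vcX C x) (vcY C x y)
    rw [xMap_vcX, yMap_vcY] at h1
    subst h
    exact h1.symm

/-! ### the transport theorem -/

theorem j_eq_div (W : WeierstrassCurve K) [W.IsElliptic] : W.j = W.c₄ ^ 3 / W.Δ := by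
  rw [WeierstrassCurve.j, Units.val_inv_eq_inv_val, coe_Δ', div_eq_inv_mul]

/-- **transport of LT.** -/
theorem lt_transport [IsSepClosed K] (jT : K → K) (T : K → WeierstrassCurve K) (p : ℕ)
    (hq_of_j : ∀ j : K, 1 < ‖j‖ → ∃ q : K, q ≠ 0 ∧ ‖q‖ < 1 ∧ jT q = j)
    (hT : ∀ q : K, q ≠ 0 → ‖q‖ < 1 → IsIntegralW (T q) ∧ ‖(T q).c₄‖ = 1 ∧ (T q).Δ ≠ 0 ∧
      (T q).c₄ ^ 3 / (T q).Δ = jT q ∧
      ∀ Q' : (T q).toAffine.Point, addOrderOf Q' = p → ∃ q' : K,
        veluJ (T q) (xsOf Q' p) = jT q' ∧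
          ((q' = q ^ p ∧ ¬ RedSingPt (T q) Q') ∨ (q' ^ p = q ∧ RedSingPt (T q) Q')))
    (W : WeierstrassCurve K) (hW : IsIntegralW W) (h4 : ‖W.c₄‖ = 1) (hΔ0 : W.Δ ≠ 0) (hΔ : ‖W.Δ‖ < 1)
    (Q : W.toAffine.Point) (hQ : addOrderOf Q = p) :
    ∃ q q' : K, q ≠ 0 ∧ ‖q‖ < 1 ∧ W.c₄ ^ 3 / W.Δ = jT q ∧ veluJ W (xsOf Q p) = jT q' ∧
      ((q' = q ^ p ∧ ¬ RedSingPt W Q) ∨ (q' ^ p = q ∧ RedSingPt W Q)) := by
  -- `‖j(W)‖ > 1`
  have hj : 1 < ‖W.c₄ ^ 3 / W.Δ‖ := by
    rw [norm_div, norm_pow, h4, one_pow, one_div]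
    exact (one_lt_inv₀ (norm_pos_iff.mpr hΔ0)).mpr hΔ
  obtain ⟨q, hq0, hq1, hjq⟩ := hq_of_j _ hj
  obtain ⟨hTint, hT4, hTΔ, hTj, hLT⟩ := hT q hq0 hq1
  -- the change of variables
  haveI : W.IsElliptic := ⟨isUnit_iff_ne_zero.mpr hΔ0⟩
  haveI : (T q).IsElliptic := ⟨isUnit_iff_ne_zero.mpr hTΔ⟩
  have hjj : W.j = (T q).j := by rw [j_eq_div, j_eq_div, hTj, hjq]
  obtain ⟨C, hC⟩ := exists_variableChange_of_j_eq W (T q) hjj
  have h : T q = C • W := hC.symm
  -- integrality
  have hTint' : IsIntegralW (C • W) := hC ▸ hTint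
  have hT4' : ‖(C • W).c₄‖ = 1 := hC ▸ hT4
  obtain ⟨hu, hv, hr, hs, ht⟩ := vc_integral hW hTint' h4 hT4'
  -- the point on the Tate curve
  set Q' : (T q).toAffine.Point := (pointEquiv h).symm Q with hQ'def
  have hQQ' : pointEquiv h Q' = Q := (pointEquiv h).apply_symm_apply Q
  have hQ' : addOrderOf Q' = p := by
    rw [← hQ, ← hQQ']
    exact (AddEquiv.addOrderOf_eq (pointEquiv h) Q').symm
  obtain ⟨q', hv', hcase⟩ := hLT Q' hQ'
  refine ⟨q, q', hq0, hq1, hjq.symm, ?_, ?_⟩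
  · rw [← hv', veluJ_pointEquiv W C h Q' hQ', hQQ']
  · have hred := redSingPt_pointEquiv W C h hu hv hr hs ht Q'
    rw [hQQ'] at hred
    rcases hcase with ⟨h1, h2⟩ | ⟨h1, h2⟩
    · exact Or.inl ⟨h1, fun h3 => h2 (hred.mp h3)⟩
    · exact Or.inr ⟨h1, hred.mpr h2⟩

end Normed

end

end Fermat.Agent.MZ.MOD.LTTransport5
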