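/-
Programme MZ (S15, Mazur), chapter MOD-E (helper4): **Vélu's formulas on the Tate curve.**

For a finite set `xs` of `x`-coordinates which is the two-to-one image of `k ↦ X(u_k, q)`:
  `c₄' = E₄(q) + 120 ∑_k D²X(u_k, q)`,  `c₆' = -E₆(q) + 252 ∑_k D⁴X(u_k, q)`   (`velu_c₄`, `velu_c₆`),
and the two Lambert-series evaluations
  `∑_{k=1}^{p-1} D^{j-1}X(q'^k, q'^p) = 2 (s_j(q') - s_j(q'^p))`                     (`sum_root`),
  `∑_{k=1}^{p-1} D^{j-1}X(ζ^k, q) = ∑_k P(ζ^k) + 2 (p^{j+1} s_j(q^p) - s_j(q))`      (`sum_mu`),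
whence Vélu's curve of `(E_{q'^p}, ⟨q'⟩)` is `E_{q'}` and that of `(E_q, μ_p)` has
`c₄' = p⁴ E₄(q^p)`, `c₆' = -p⁶ E₆(q^p)` (given the two root-of-unity constants).
-/
import Mathlib
import Fermat.Agent.MZ.MOD.TateCurve4
import Fermat.Agent.MZ.MOD.VeluDef4

set_option autoImplicit false
set_option linter.unusedSectionVars false
set_option linter.unusedVariables false

open PowerSeries

namespace Fermat.Agent.MZ.MOD.TateVelu4

open TateFormal4 PSEval4 Regroup4 TateEval4 TateD4 TateLambert4 TateCurve4 VeluDef4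

variable {K : Type*} [NormedField K] [CompleteSpace K]

/-! ### Vélu's `c₄`, `c₆` on the Tate curve -/

/-- `xs` is the two-to-one image of `k ↦ x k`, `k ∈ I`. -/
def TwoToOne (xs : Finset K) (I : Finset ℕ) (x : ℕ → K) : Prop :=
  ∀ g : K → K, 2 * ∑ y ∈ xs, g y = ∑ k ∈ I, g (x k)

section Velu

variable [CharZero K] (q : K) (hq : ‖q‖ < 1) (xs : Finset K) (I : Finset ℕ) (us : ℕ → K)
  (hu0 : ∀ k ∈ I, us k ≠ 0) (hu1 : ∀ k ∈ I, us k ≠ 1) (hρ : ∀ k ∈ I, rho (us k) * ‖q‖ < 1)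
  (hxs : TwoToOne xs I (fun k => XK (us k) q))

include hu0 hu1 hρ hxs in
theorem two_mul_veluT : 2 * veluT (tateCurve q) xs = ∑ k ∈ I, X2K (us k) q := by
  rw [veluT, hxs (fun x => 6 * x ^ 2 + (tateCurve q).b₂ * x + (tateCurve q).b₄)]
  refine Finset.sum_congr rfl fun k hk => ?_
  rw [X2K_eq_poly (us k) q (hu0 k hk) (hu1 k hk) (hρ k hk), tateCurve_b₂, tateCurve_b₄]
  ring

include hu0 hu1 hρ hxs in
theorem twentyfour_mul_veluW :
    24 * veluW (tateCurve q) xs = ∑ k ∈ I, (X4K (us k) q - X2K (us k) q) := by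
  have h := hxs (fun x => 10 * x ^ 3 + 2 * (tateCurve q).b₂ * x ^ 2 + 3 * (tateCurve q).b₄ * x +
    (tateCurve q).b₆)
  have h2 : 24 * veluW (tateCurve q) xs = 12 * (2 * veluW (tateCurve q) xs) := by ring
  rw [h2, veluW, h, Finset.mul_sum]
  refine Finset.sum_congr rfl fun k hk => ?_
  rw [X4K_eq_poly (us k) q (hu0 k hk) (hu1 k hk) (hρ k hk), tateCurve_b₂, tateCurve_b₄,
    tateCurve_b₆]
  ring

include hq hu0 hu1 hρ hxs in
/-- **Vélu's `c₄` on the Tate curve.** -/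
theorem velu_c₄ :
    (veluCurve (tateCurve q) xs).c₄ = E4K q + 120 * ∑ k ∈ I, X2K (us k) q := by
  rw [veluCurve_c₄, tateCurve_c₄ q hq, ← two_mul_veluT q xs I us hu0 hu1 hρ hxs]
  ring

include hq hu0 hu1 hρ hxs in
/-- **Vélu's `c₆` on the Tate curve.** -/
theorem velu_c₆ :
    (veluCurve (tateCurve q) xs).c₆ = -E6K q + 252 * ∑ k ∈ I, X4K (us k) q := by
  have h1 := two_mul_veluT q xs I us hu0 hu1 hρ hxs
  have h2 := twentyfour_mul_veluW q xs I us hu0 hu1 hρ hxs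
  rw [Finset.sum_sub_distrib] at h2
  rw [veluCurve_c₆, tateCurve_c₆ q hq, tateCurve_b₂]
  linear_combination (252 : K) * h1 + (252 : K) * h2

end Velu

/-- Vélu's `j` from `c₄'`, `c₆'`. -/
theorem veluJ_eq [CharZero K] (W : WeierstrassCurve K) (xs : Finset K) :
    veluJ W xs = 1728 * (veluCurve W xs).c₄ ^ 3 /
      ((veluCurve W xs).c₄ ^ 3 - (veluCurve W xs).c₆ ^ 2) := by
  rw [veluJ, ← (veluCurve W xs).c_relation]
  rcases eq_or_ne (veluCurve W xs).Δ 0 with h | h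
  · rw [h, mul_zero, div_zero, div_zero]
  · field_simp

/-! ### the case `C = ⟨q'⟩`, `q = q'^p` -/

section Root

/-- for `‖q‖ < ‖u‖ < 1`: the power-sum constant term plus the Lambert part, as one series. -/
theorem combine_lambert (j : ℕ) (hj : 0 < j) (u q : K) (h0 : u ≠ 0) (hu : ‖u‖ < 1)
    (hρq : rho u * ‖q‖ < 1) :
    (Summable fun d : ℕ+ => ((d : ℕ) : K) ^ j *
      ((u ^ (d : ℕ) + u⁻¹ ^ (d : ℕ) * q ^ (d : ℕ)) / (1 - q ^ (d : ℕ)))) ∧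
    (∑' d : ℕ, (d : K) ^ j * u ^ d) + ∑' d : ℕ+, bE u j d * (q ^ (d : ℕ) / (1 - q ^ (d : ℕ))) =
      ∑' d : ℕ+, ((d : ℕ) : K) ^ j *
        ((u ^ (d : ℕ) + u⁻¹ ^ (d : ℕ) * q ^ (d : ℕ)) / (1 - q ^ (d : ℕ))) := by
  have hq1 := norm_lt_one_of_rho u h0 q hρq
  have s1 : Summable fun d : ℕ => (d : K) ^ j * u ^ d := summable_pow_mul hu j
  have s1' : Summable fun d : ℕ+ => ((d : ℕ) : K) ^ j * u ^ (d : ℕ) :=
    s1.comp_injective PNat.coe_injective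
  have s2 := summable_bE u h0 q j hρq
  have hterm : ∀ d : ℕ+, ((d : ℕ) : K) ^ j * u ^ (d : ℕ) +
      bE u j d * (q ^ (d : ℕ) / (1 - q ^ (d : ℕ))) =
      ((d : ℕ) : K) ^ j * ((u ^ (d : ℕ) + u⁻¹ ^ (d : ℕ) * q ^ (d : ℕ)) / (1 - q ^ (d : ℕ))) := by
    intro d
    have hne : (1 - q ^ (d : ℕ)) ≠ 0 := one_sub_ne_zero (norm_pow_pnat_lt_one hq1 d)
    rw [bE]
    field_simp
    ring
  refine ⟨(s1'.add s2).congr hterm, ?_⟩
  have h0' := tsum_zero_pnat_eq_tsum_nat s1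
  have hz : ((0 : ℕ) : K) ^ j * u ^ 0 = 0 := by
    rw [Nat.cast_zero, zero_pow hj.ne', zero_mul]
  rw [hz, zero_add] at h0'
  rw [← h0', ← s1'.tsum_add s2]
  exact tsum_congr hterm

variable (q' : K) (h0 : q' ≠ 0) (h1 : ‖q'‖ < 1) (p : ℕ)

include h0 h1 in
theorem root_facts (k : ℕ) (hk : k ∈ Finset.Ico 1 p) :
    q' ^ k ≠ 0 ∧ ‖q' ^ k‖ < 1 ∧ q' ^ k ≠ 1 ∧ rho (q' ^ k) * ‖q' ^ p‖ < 1 := by
  rw [Finset.mem_Ico] at hk
  have hq0 : 0 < ‖q'‖ := norm_pos_iff.2 h0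
  have hk0 : k ≠ 0 := by omega
  have hn : ‖q' ^ k‖ < 1 := by
    rw [norm_pow]
    exact pow_lt_one₀ hq0.le h1 hk0
  have hn0 : 0 < ‖q' ^ k‖ := norm_pos_iff.2 (pow_ne_zero k h0)
  refine ⟨pow_ne_zero k h0, hn, ?_, ?_⟩
  · intro h
    rw [h, norm_one] at hn
    exact lt_irrefl _ hn
  · have hr : rho (q' ^ k) = ‖q' ^ k‖⁻¹ := by
      unfold rho
      exact max_eq_right (hn.le.trans (one_le_inv₀ hn0 |>.2 hn.le))
    rw [hr, inv_mul_lt_iff₀ hn0, mul_one, norm_pow, norm_pow]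
    exact pow_lt_pow_right_of_lt_one₀ hq0 h1 hk.2

/-- the finite sum over `k` at fixed `d`. -/
theorem inner_root (y : K) (hy0 : y ≠ 0) (hy : ‖y‖ < 1) (hp : 1 ≤ p) (c : K) :
    ∑ k ∈ Finset.Ico 1 p, c * ((y ^ k + (y ^ k)⁻¹ * y ^ p) / (1 - y ^ p)) =
      2 * (c * (y / (1 - y)) - c * (y ^ p / (1 - y ^ p))) := by
  have hy1 : y ≠ 1 := by
    intro h
    rw [h, norm_one] at hy
    exact lt_irrefl _ hy
  have hyp : ‖y ^ p‖ < 1 := by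
    rw [norm_pow]
    exact pow_lt_one₀ (norm_nonneg y) hy (by omega)
  have hne1 : (1 - y) ≠ 0 := one_sub_ne_zero hy
  have hne2 : (1 - y ^ p) ≠ 0 := one_sub_ne_zero hyp
  have hne3 : (y - 1) ≠ 0 := sub_ne_zero.2 hy1
  have hrefl : ∑ k ∈ Finset.Ico 1 p, (y ^ k)⁻¹ * y ^ p = ∑ k ∈ Finset.Ico 1 p, y ^ k := by
    have h := Finset.sum_Ico_reflect (fun k => y ^ k) 1 (m := p) (n := p) (Nat.le_succ p)
    simp only [Nat.add_sub_cancel_left, Nat.add_sub_cancel] at h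
    rw [← h]
    refine Finset.sum_congr rfl fun k hk => ?_
    rw [Finset.mem_Ico] at hk
    rw [pow_sub₀ y hy0 hk.2.le, mul_comm]
  have hgeom := geom_sum_Ico hy1 hp
  rw [pow_one] at hgeom
  rw [← Finset.mul_sum, ← Finset.sum_div, Finset.sum_add_distrib, hrefl, hgeom]
  field_simp
  ring

include h0 h1 in
/-- **the Lambert sums for the subgroup `⟨q'⟩` of `E_{q'^p}`.** -/
theorem sum_root (hp : 2 ≤ p) (j : ℕ) (hj : 0 < j) :
    ∑ k ∈ Finset.Ico 1 p, ((∑' d : ℕ, (d : K) ^ j * (q' ^ k) ^ d) +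
      ∑' d : ℕ+, bE (q' ^ k) j d * ((q' ^ p) ^ (d : ℕ) / (1 - (q' ^ p) ^ (d : ℕ)))) =
      2 * (sK j q' - sK j (q' ^ p)) := by
  have hqp : ‖q' ^ p‖ < 1 := by
    rw [norm_pow]
    exact pow_lt_one₀ (norm_nonneg q') h1 (by omega)
  have hcomb : ∀ k ∈ Finset.Ico 1 p, ((∑' d : ℕ, (d : K) ^ j * (q' ^ k) ^ d) +
      ∑' d : ℕ+, bE (q' ^ k) j d * ((q' ^ p) ^ (d : ℕ) / (1 - (q' ^ p) ^ (d : ℕ)))) =
      ∑' d : ℕ+, ((d : ℕ) : K) ^ j * (((q' ^ k) ^ (d : ℕ) + (q' ^ k)⁻¹ ^ (d : ℕ) *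
        (q' ^ p) ^ (d : ℕ)) / (1 - (q' ^ p) ^ (d : ℕ))) := by
    intro k hk
    obtain ⟨e0, e1, e2, e3⟩ := root_facts q' h0 h1 p k hk
    exact (combine_lambert j hj (q' ^ k) (q' ^ p) e0 e1 e3).2
  have hsum : ∀ k ∈ Finset.Ico 1 p, Summable fun d : ℕ+ => ((d : ℕ) : K) ^ j *
      (((q' ^ k) ^ (d : ℕ) + (q' ^ k)⁻¹ ^ (d : ℕ) * (q' ^ p) ^ (d : ℕ)) /
        (1 - (q' ^ p) ^ (d : ℕ))) := by
    intro k hk
    obtain ⟨e0, e1, e2, e3⟩ := root_facts q' h0 h1 p k hk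
    exact (combine_lambert j hj (q' ^ k) (q' ^ p) e0 e1 e3).1
  rw [Finset.sum_congr rfl hcomb, ← Summable.tsum_finsetSum hsum]
  have hinner : ∀ d : ℕ+, ∑ k ∈ Finset.Ico 1 p, ((d : ℕ) : K) ^ j *
      (((q' ^ k) ^ (d : ℕ) + (q' ^ k)⁻¹ ^ (d : ℕ) * (q' ^ p) ^ (d : ℕ)) /
        (1 - (q' ^ p) ^ (d : ℕ))) =
      2 * (((d : ℕ) : K) ^ j * (q' ^ (d : ℕ) / (1 - q' ^ (d : ℕ))) -
        ((d : ℕ) : K) ^ j * ((q' ^ p) ^ (d : ℕ) / (1 - (q' ^ p) ^ (d : ℕ)))) := by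
    intro d
    have hy := norm_pow_pnat_lt_one h1 d
    have hy0 : q' ^ (d : ℕ) ≠ 0 := pow_ne_zero _ h0
    have h := inner_root p (q' ^ (d : ℕ)) hy0 hy (by omega) (((d : ℕ) : K) ^ j)
    have e1 : ∀ k : ℕ, (q' ^ k) ^ (d : ℕ) = (q' ^ (d : ℕ)) ^ k := fun k => pow_right_comm q' k d
    have e2 : ∀ k : ℕ, (q' ^ k)⁻¹ ^ (d : ℕ) = ((q' ^ (d : ℕ)) ^ k)⁻¹ := fun k => by
      rw [inv_pow, e1]
    simp_rw [e1, e2]
    exact h
  simp_rw [hinner]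
  have s1 := summable_sK j q' h1
  have s2 := summable_sK j (q' ^ p) hqp
  rw [tsum_mul_left, s1.tsum_sub s2, ← sK_eq j q' h1, ← sK_eq j (q' ^ p) hqp]

include h0 h1 in
theorem sum_X2K_root (hp : 2 ≤ p) :
    ∑ k ∈ Finset.Ico 1 p, X2K (q' ^ k) (q' ^ p) = 2 * (sK 3 q' - sK 3 (q' ^ p)) := by
  rw [← sum_root q' h0 h1 p hp 3 (by norm_num)]
  refine Finset.sum_congr rfl fun k hk => ?_
  obtain ⟨e0, e1, e2, e3⟩ := root_facts q' h0 h1 p k hk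
  rw [X2K_lambert (q' ^ k) (q' ^ p) e0 e2 e3, P2, tsum_pow3 e1]

include h0 h1 in
theorem sum_X4K_root (hp : 2 ≤ p) :
    ∑ k ∈ Finset.Ico 1 p, X4K (q' ^ k) (q' ^ p) = 2 * (sK 5 q' - sK 5 (q' ^ p)) := by
  rw [← sum_root q' h0 h1 p hp 5 (by norm_num)]
  refine Finset.sum_congr rfl fun k hk => ?_
  obtain ⟨e0, e1, e2, e3⟩ := root_facts q' h0 h1 p k hk
  rw [X4K_lambert (q' ^ k) (q' ^ p) e0 e2 e3, P4, tsum_pow5 e1]

include h0 h1 in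
/-- **Vélu's curve of `(E_{q'^p}, ⟨q'⟩)` has the `c₄`, `c₆` of `E_{q'}`.** -/
theorem velu_root [CharZero K] (hp : 2 ≤ p) (xs : Finset K)
    (hxs : TwoToOne xs (Finset.Ico 1 p) (fun k => XK (q' ^ k) (q' ^ p))) :
    (veluCurve (tateCurve (q' ^ p)) xs).c₄ = E4K q' ∧
      (veluCurve (tateCurve (q' ^ p)) xs).c₆ = -E6K q' := by
  have hqp : ‖q' ^ p‖ < 1 := by
    rw [norm_pow]
    exact pow_lt_one₀ (norm_nonneg q') h1 (by omega)
  have f := root_facts q' h0 h1 p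
  constructor
  · rw [velu_c₄ (q' ^ p) hqp xs (Finset.Ico 1 p) (fun k => q' ^ k) (fun k hk => (f k hk).1)
      (fun k hk => (f k hk).2.2.1) (fun k hk => (f k hk).2.2.2) hxs, sum_X2K_root q' h0 h1 p hp,
      E4K, E4K]
    ring
  · rw [velu_c₆ (q' ^ p) hqp xs (Finset.Ico 1 p) (fun k => q' ^ k) (fun k hk => (f k hk).1)
      (fun k hk => (f k hk).2.2.1) (fun k hk => (f k hk).2.2.2) hxs, sum_X4K_root q' h0 h1 p hp,
      E6K, E6K]
    ring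

include h0 h1 in
/-- **Vélu's `j` of `(E_{q'^p}, ⟨q'⟩)` is `j(q')`.** -/
theorem veluJ_root [CharZero K] (hp : 2 ≤ p) (xs : Finset K)
    (hxs : TwoToOne xs (Finset.Ico 1 p) (fun k => XK (q' ^ k) (q' ^ p))) :
    veluJ (tateCurve (q' ^ p)) xs = jK q' := by
  obtain ⟨e4, e6⟩ := velu_root q' h0 h1 p hp xs hxs
  rw [veluJ_eq, e4, e6, jK]
  ring_nf

end Root

/-! ### the case `C = μ_p` -/

section Mu

variable (ζ : K) (p : ℕ) (hp : 2 ≤ p) (hζ : IsPrimitiveRoot ζ p)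

include hp hζ in
theorem norm_root_eq_one : ‖ζ‖ = 1 := by
  have h := congrArg norm hζ.pow_eq_one
  rw [norm_pow, norm_one] at h
  exact (pow_eq_one_iff_of_nonneg (norm_nonneg ζ) (by omega)).1 h

include hp hζ in
theorem mu_facts (q : K) (hq : ‖q‖ < 1) (k : ℕ) (hk : k ∈ Finset.Ico 1 p) :
    ζ ^ k ≠ 0 ∧ ζ ^ k ≠ 1 ∧ rho (ζ ^ k) * ‖q‖ < 1 := by
  rw [Finset.mem_Ico] at hk
  have hn := norm_root_eq_one ζ p hp hζ
  refine ⟨pow_ne_zero k (hζ.ne_zero (by omega)), hζ.pow_ne_one_of_pos_of_lt (by omega) hk.2, ?_⟩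
  have hr : rho (ζ ^ k) = 1 := by
    unfold rho
    rw [norm_pow, hn, one_pow, inv_one, max_self]
  rw [hr, one_mul]
  exact hq

include hp hζ in
theorem sum_pow_root (d : ℕ) :
    ∑ k ∈ Finset.Ico 1 p, (ζ ^ k) ^ d = (if p ∣ d then (p : K) else 0) - 1 := by
  have e1 : ∀ k : ℕ, (ζ ^ k) ^ d = (ζ ^ d) ^ k := fun k => pow_right_comm ζ k d
  simp_rw [e1]
  have hsplit : ∑ k ∈ Finset.range p, (ζ ^ d) ^ k = 1 + ∑ k ∈ Finset.Ico 1 p, (ζ ^ d) ^ k := by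
    rw [Finset.range_eq_Ico, Finset.sum_eq_sum_Ico_succ_bot (by omega : 0 < p), pow_zero]
  have hfull : ∑ k ∈ Finset.range p, (ζ ^ d) ^ k = if p ∣ d then (p : K) else 0 := by
    split_ifs with hd
    · rw [(hζ.pow_eq_one_iff_dvd d).2 hd]
      simp
    · have hne : ζ ^ d ≠ 1 := fun h => hd ((hζ.pow_eq_one_iff_dvd d).1 h)
      rw [geom_sum_eq hne, ← pow_mul, mul_comm, pow_mul, hζ.pow_eq_one, one_pow, sub_self,
        zero_div]
  rw [← hfull, hsplit]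
  ring

include hp hζ in
theorem sum_bE_mu (j d : ℕ) :
    ∑ k ∈ Finset.Ico 1 p, bE (ζ ^ k) j d =
      2 * ((d : K) ^ j * ((if p ∣ d then (p : K) else 0) - 1)) := by
  have h1 := sum_pow_root ζ p hp hζ d
  have h2 := sum_pow_root ζ⁻¹ p hp hζ.inv d
  have e : ∀ k : ℕ, (ζ ^ k)⁻¹ ^ d = (ζ⁻¹ ^ k) ^ d := fun k => by rw [inv_pow ζ k]
  simp_rw [bE, e]
  rw [← Finset.mul_sum, Finset.sum_add_distrib, h1, h2]
  ring

include hp hζ in
/-- **the Lambert sums for the subgroup `μ_p` of `E_q`.** -/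
theorem sum_mu (q : K) (hq : ‖q‖ < 1) (j : ℕ) :
    ∑ k ∈ Finset.Ico 1 p, ∑' d : ℕ+, bE (ζ ^ k) j d * (q ^ (d : ℕ) / (1 - q ^ (d : ℕ))) =
      2 * ((p : K) ^ (j + 1) * sK j (q ^ p) - sK j q) := by
  have hqp : ‖q ^ p‖ < 1 := by
    rw [norm_pow]
    exact pow_lt_one₀ (norm_nonneg q) hq (by omega)
  have f := mu_facts ζ p hp hζ q hq
  have hsum : ∀ k ∈ Finset.Ico 1 p, Summable fun d : ℕ+ =>
      bE (ζ ^ k) j d * (q ^ (d : ℕ) / (1 - q ^ (d : ℕ))) := fun k hk =>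
    summable_bE (ζ ^ k) (f k hk).1 q j (f k hk).2.2
  rw [← Summable.tsum_finsetSum hsum]
  simp_rw [← Finset.sum_mul, sum_bE_mu ζ p hp hζ j]
  -- the two series
  set fd : ℕ+ → K := fun d => ((d : ℕ) : K) ^ j * (q ^ (d : ℕ) / (1 - q ^ (d : ℕ))) with hfd
  have s1 : Summable fd := summable_sK j q hq
  set F : ℕ+ → K := Set.indicator {d : ℕ+ | p ∣ (d : ℕ)} fd with hF
  have s2 : Summable F := s1.indicator _
  have hterm : ∀ d : ℕ+, 2 * (((d : ℕ) : K) ^ j * ((if p ∣ (d : ℕ) then (p : K) else 0) - 1)) *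
      (q ^ (d : ℕ) / (1 - q ^ (d : ℕ))) = 2 * ((p : K) * F d - fd d) := by
    intro d
    rw [hF, Set.indicator_apply, hfd]
    by_cases hd : p ∣ (d : ℕ)
    · have hm : d ∈ {d : ℕ+ | p ∣ (d : ℕ)} := hd
      rw [if_pos hd, if_pos hm]
      ring
    · have hm : d ∉ {d : ℕ+ | p ∣ (d : ℕ)} := hd
      rw [if_neg hd, if_neg hm]
      ring
  simp_rw [hterm]
  rw [tsum_mul_left, (s2.mul_left (p : K)).tsum_sub s1, tsum_mul_left, ← sK_eq j q hq]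
  -- reindex the multiples of `p`
  have hp0 : 0 < p := by omega
  set pp : ℕ+ := ⟨p, hp0⟩ with hpp
  have hppc : (pp : ℕ) = p := rfl
  set g : ℕ+ → ℕ+ := fun e => pp * e with hg
  have hginj : Function.Injective g := fun a b h => mul_left_cancel h
  have hsupp : Function.support F ⊆ Set.range g := by
    intro d hd
    rw [Function.mem_support, hF, Set.indicator_apply] at hd
    have hmem : p ∣ (d : ℕ) := by
      by_contra hcon
      have : d ∉ {d : ℕ+ | p ∣ (d : ℕ)} := hcon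
      rw [if_neg this] at hd
      exact hd rfl
    obtain ⟨e, he⟩ := hmem
    have he0 : 0 < e := by
      rcases Nat.eq_zero_or_pos e with rfl | h
      · rw [mul_zero] at he
        exact absurd he d.ne_zero
      · exact h
    set ee : ℕ+ := ⟨e, he0⟩ with hee
    have heec : (ee : ℕ) = e := rfl
    refine ⟨ee, ?_⟩
    apply PNat.coe_injective
    rw [hg]
    show ((pp * ee : ℕ+) : ℕ) = (d : ℕ)
    rw [PNat.mul_coe, hppc, heec]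
    exact he.symm
  rw [← hginj.tsum_eq hsupp]
  have hFg : ∀ e : ℕ+, F (g e) = (p : K) ^ j *
      (((e : ℕ) : K) ^ j * ((q ^ p) ^ (e : ℕ) / (1 - (q ^ p) ^ (e : ℕ)))) := by
    intro e
    have hge : ((g e : ℕ+) : ℕ) = p * (e : ℕ) := by
      rw [hg]
      show ((pp * e : ℕ+) : ℕ) = p * (e : ℕ)
      rw [PNat.mul_coe, hppc]
    have hmem : g e ∈ {d : ℕ+ | p ∣ (d : ℕ)} := by
      show p ∣ ((g e : ℕ+) : ℕ)
      rw [hge]
      exact dvd_mul_right p _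
    rw [hF, Set.indicator_of_mem hmem, hfd]
    show (((g e : ℕ+) : ℕ) : K) ^ j * (q ^ ((g e : ℕ+) : ℕ) / (1 - q ^ ((g e : ℕ+) : ℕ))) = _
    rw [hge, Nat.cast_mul, mul_pow, pow_mul]
    ring
  simp_rw [hFg]
  rw [tsum_mul_left, ← sK_eq j (q ^ p) hqp, pow_succ]
  ring

include hp hζ in
theorem sum_X2K_mu (q : K) (hq : ‖q‖ < 1) :
    ∑ k ∈ Finset.Ico 1 p, X2K (ζ ^ k) q =
      ∑ k ∈ Finset.Ico 1 p, P2 ((1 - ζ ^ k)⁻¹) + 2 * ((p : K) ^ 4 * sK 3 (q ^ p) - sK 3 q) := by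
  have f := mu_facts ζ p hp hζ q hq
  rw [← sum_mu ζ p hp hζ q hq 3, ← Finset.sum_add_distrib]
  refine Finset.sum_congr rfl fun k hk => ?_
  rw [X2K_lambert (ζ ^ k) q (f k hk).1 (f k hk).2.1 (f k hk).2.2]

include hp hζ in
theorem sum_X4K_mu (q : K) (hq : ‖q‖ < 1) :
    ∑ k ∈ Finset.Ico 1 p, X4K (ζ ^ k) q =
      ∑ k ∈ Finset.Ico 1 p, P4 ((1 - ζ ^ k)⁻¹) + 2 * ((p : K) ^ 6 * sK 5 (q ^ p) - sK 5 q) := by
  have f := mu_facts ζ p hp hζ q hq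
  rw [← sum_mu ζ p hp hζ q hq 5, ← Finset.sum_add_distrib]
  refine Finset.sum_congr rfl fun k hk => ?_
  rw [X4K_lambert (ζ ^ k) q (f k hk).1 (f k hk).2.1 (f k hk).2.2]

include hp hζ in
/-- **Vélu's curve of `(E_q, μ_p)` has `c₄' = p⁴ E₄(q^p)`, `c₆' = -p⁶ E₆(q^p)`**, given the two
root-of-unity constants. -/
theorem velu_mu [CharZero K] (q : K) (hq : ‖q‖ < 1)
    (hS4 : ∑ k ∈ Finset.Ico 1 p, P2 ((1 - ζ ^ k)⁻¹) = ((p : K) ^ 4 - 1) / 120)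
    (hS6 : ∑ k ∈ Finset.Ico 1 p, P4 ((1 - ζ ^ k)⁻¹) = -((p : K) ^ 6 - 1) / 252)
    (xs : Finset K) (hxs : TwoToOne xs (Finset.Ico 1 p) (fun k => XK (ζ ^ k) q)) :
    (veluCurve (tateCurve q) xs).c₄ = (p : K) ^ 4 * E4K (q ^ p) ∧
      (veluCurve (tateCurve q) xs).c₆ = -((p : K) ^ 6 * E6K (q ^ p)) := by
  have f := mu_facts ζ p hp hζ q hq
  constructor
  · rw [velu_c₄ q hq xs (Finset.Ico 1 p) (fun k => ζ ^ k) (fun k hk => (f k hk).1)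
      (fun k hk => (f k hk).2.1) (fun k hk => (f k hk).2.2) hxs, sum_X2K_mu ζ p hp hζ q hq, hS4,
      E4K, E4K]
    ring
  · rw [velu_c₆ q hq xs (Finset.Ico 1 p) (fun k => ζ ^ k) (fun k hk => (f k hk).1)
      (fun k hk => (f k hk).2.1) (fun k hk => (f k hk).2.2) hxs, sum_X4K_mu ζ p hp hζ q hq, hS6,
      E6K, E6K]
    ring

include hp hζ in
/-- **Vélu's `j` of `(E_q, μ_p)` is `j(q^p)`.** -/
theorem veluJ_mu [CharZero K] (q : K) (hq : ‖q‖ < 1)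
    (hS4 : ∑ k ∈ Finset.Ico 1 p, P2 ((1 - ζ ^ k)⁻¹) = ((p : K) ^ 4 - 1) / 120)
    (hS6 : ∑ k ∈ Finset.Ico 1 p, P4 ((1 - ζ ^ k)⁻¹) = -((p : K) ^ 6 - 1) / 252)
    (xs : Finset K) (hxs : TwoToOne xs (Finset.Ico 1 p) (fun k => XK (ζ ^ k) q)) :
    veluJ (tateCurve q) xs = jK (q ^ p) := by
  obtain ⟨e4, e6⟩ := velu_mu ζ p hp hζ q hq hS4 hS6 xs hxs
  have hp0 : (p : K) ≠ 0 := by
    have : p ≠ 0 := by omega
    exact_mod_cast this
  rw [veluJ_eq, e4, e6, jK]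
  have e : ((p : K) ^ 4 * E4K (q ^ p)) ^ 3 - (-((p : K) ^ 6 * E6K (q ^ p))) ^ 2 =
      (p : K) ^ 12 * (E4K (q ^ p) ^ 3 - E6K (q ^ p) ^ 2) := by ring
  rw [e, mul_pow, ← pow_mul, ← mul_assoc, mul_comm 1728 ((p : K) ^ (4 * 3)), mul_assoc,
    mul_div_mul_left _ _ (pow_ne_zero _ hp0)]

end Mu

/-! ### the two-to-one condition from symmetry and injectivity modulo `±` -/

open Classical in
theorem twoToOne_of_inj (p : ℕ) (hp : Odd p) (x : ℕ → K)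
    (hsymm : ∀ k ∈ Finset.Ico 1 p, x (p - k) = x k)
    (hinj : ∀ k ∈ Finset.Ico 1 p, ∀ l ∈ Finset.Ico 1 p, x k = x l → l = k ∨ l = p - k) :
    TwoToOne ((Finset.Ico 1 p).image x) (Finset.Ico 1 p) x := by
  intro g
  rw [← Finset.sum_fiberwise_of_maps_to (g := x) (t := (Finset.Ico 1 p).image x)
    (fun k hk => Finset.mem_image_of_mem x hk) (fun k => g (x k)), Finset.mul_sum]
  refine Finset.sum_congr rfl fun y hy => ?_
  obtain ⟨k, hk, rfl⟩ := Finset.mem_image.1 hy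
  have hk' := Finset.mem_Ico.1 hk
  have hpk : p - k ∈ Finset.Ico 1 p := by
    rw [Finset.mem_Ico]
    omega
  have hne : k ≠ p - k := by
    obtain ⟨m, hm⟩ := hp
    omega
  have hfilter : ((Finset.Ico 1 p).filter fun l => x l = x k) = {k, p - k} := by
    ext l
    simp only [Finset.mem_filter, Finset.mem_insert, Finset.mem_singleton]
    constructor
    · rintro ⟨hl, hxl⟩
      exact hinj k hk l hl hxl.symm
    · rintro (rfl | rfl)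
      · exact ⟨hk, rfl⟩
      · exact ⟨hpk, hsymm k hk⟩
  rw [hfilter, Finset.sum_pair hne, hsymm k hk]
  ring

end Fermat.Agent.MZ.MOD.TateVelu4
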