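/-
Programme MZ (S15, Mazur), chapter MOD-E (helper4): **the local Tate–Vélu statement (LT) on the Tate
curve.**  `K` complete ultrametric of characteristic zero, `p > 3` prime with `‖p‖ = 1`,
`D : TorsData K p`.  Given that `s ↦ tP D s` is additive (`IsHom D`, proved in `TateHom3`):

* `tP D` is injective with image the full `p`-torsion of `E_q` (counting via division polynomials);
* for `Q` of exact order `p`: either `Q = tP D (a, 0)` (`μ_p`-case), `Q` does not reduce to the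
  singular point and `veluJ E_q ⟨Q⟩ = j(q^p)`; or `⟨Q⟩` is generated by `tP D (a, 1)`, every point of
  which reduces to the singular point, and `veluJ E_q ⟨Q⟩ = j(q'')`, `q''^p = q` (`tate_LT`);
* `hT_tate` : the hypothesis `hT` of `LTTransport5.lt_transport` for `T = tateCurve`, `jT = jK`.
-/
import Mathlib
import Fermat.Agent.MZ.MOD.TateInj4
import Fermat.Agent.MZ.MOD.TateVelu4
import Fermat.Agent.MZ.MOD.LTTransport5
import Fermat.Agent.MZ.MOD.JacobiK1
import Fermat.Agent.MZ.MOD.RootConst0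
import Fermat.Agent.DivPoly.CountFinal

set_option autoImplicit false
set_option linter.unusedSectionVars false
set_option linter.unusedVariables false

open PowerSeries

namespace Fermat.Agent.MZ.MOD.TateLT4

open TateFormal4 PSEval4 Regroup4 TateEval4 TateD4 TateLambert4 TateCurve4 TateSym4 TateNorm4
  TateTors4 TateInj4 TateVelu4 VeluDef4 LTTransport5 RedType5
open WeierstrassCurve WeierstrassCurve.Affine

variable {K : Type*} [NormedField K] [IsUltrametricDist K] [CompleteSpace K] [CharZero K]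
  [DecidableEq K]
variable {p : ℕ} [hp : Fact p.Prime] (D : TorsData K p)

/-- additivity of the torsion parametrisation (proved in `TateHom3`). -/
def IsHom : Prop := ∀ s t : ZMod p × ZMod p, tP D (s + t) = tP D s + tP D t

section Hom

variable (hadd : IsHom D)

/-- the parametrisation as a homomorphism. -/
noncomputable def tPHom : (ZMod p × ZMod p) →+ (tateCurve D.q).toAffine.Point :=
  AddMonoidHom.mk' (tP D) hadd

theorem tPHom_apply (s : ZMod p × ZMod p) : tPHom D hadd s = tP D s := rfl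

include hadd in
theorem tP_nsmul (k : ℕ) (s : ZMod p × ZMod p) : k • tP D s = tP D (k • s) :=
  ((tPHom D hadd).map_nsmul k s).symm

include hadd in
theorem tP_neg (s : ZMod p × ZMod p) : tP D (-s) = -tP D s :=
  (tPHom D hadd).map_neg s

theorem tP_ne_zero (s : ZMod p × ZMod p) (hs : s ≠ 0) : tP D s ≠ 0 := by
  rw [tP_of_ne D s hs]
  exact Point.some_ne_zero _

include hadd in
theorem tP_injective : Function.Injective (tP D) := by
  have h := (injective_iff_map_eq_zero (tPHom D hadd)).2 fun s hs => by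
    by_contra hne
    exact tP_ne_zero D s hne hs
  exact h

theorem p_nsmul (s : ZMod p × ZMod p) : p • s = 0 := by
  ext
  · simp
  · simp

include hadd in
theorem p_nsmul_tP (s : ZMod p × ZMod p) : p • tP D s = 0 := by
  rw [tP_nsmul D hadd, p_nsmul, tP_zero]

include hadd in
/-- **every `p`-torsion point of `E_q` is a `tP D s`.** -/
theorem exists_tP_of_torsion (hodd : p ≠ 2) (Q : (tateCurve D.q).toAffine.Point)
    (hQ : p • Q = 0) : ∃ s, tP D s = Q := by
  have hoddp : Odd p := hp.out.odd_of_ne_two hodd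
  have hpK : (p : K) ≠ 0 := Nat.cast_ne_zero.2 (p_pos (p := p)).ne'
  obtain ⟨hfin, hcard⟩ :=
    Fermat.Agent.DivPoly.CountFinal.torsion_finite_ncard_le (W := (tateCurve D.q).toAffine)
      hoddp hpK
  have hsub : Set.range (tP D) ⊆ {P : (tateCurve D.q).toAffine.Point | p • P = 0} := by
    rintro _ ⟨s, rfl⟩
    exact p_nsmul_tP D hadd s
  have hrange : (Set.range (tP D)).ncard = p ^ 2 := by
    rw [← Set.image_univ, Set.ncard_image_of_injective _ (tP_injective D hadd), Set.ncard_univ,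
      Nat.card_prod, Nat.card_zmod]
    ring
  have heq := Set.eq_of_subset_of_ncard_le hsub (by rw [hrange]; exact hcard) hfin
  have hQ' : Q ∈ Set.range (tP D) := by
    rw [heq]
    exact hQ
  exact hQ'

end Hom

/-! ### parameters of multiples -/

section Mult

theorem zeta_pow_val (c : ZMod p) (n : ℕ) (h : (n : ZMod p) = c) : D.ζ ^ c.val = D.ζ ^ n := by
  subst h
  rw [ZMod.val_natCast]
  conv_rhs => rw [← Nat.mod_add_div n p, pow_add, pow_mul, D.hζ.pow_eq_one, one_pow, mul_one]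

theorem val_natCast_of_lt {k : ℕ} (hk : k < p) : ((k : ℕ) : ZMod p).val = k := by
  rw [ZMod.val_natCast, Nat.mod_eq_of_lt hk]

theorem natCast_ne_zero_of_mem {k : ℕ} (hk : k ∈ Finset.Ico 1 p) : ((k : ℕ) : ZMod p) ≠ 0 := by
  rw [Finset.mem_Ico] at hk
  intro h
  have := (ZMod.natCast_eq_zero_iff k p).1 h
  exact absurd (Nat.le_of_dvd (by omega) this) (by omega)

theorem nsmul_pair (k : ℕ) (a b : ZMod p) : k • ((a, b) : ZMod p × ZMod p) =
    ((k : ZMod p) * a, (k : ZMod p) * b) := by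
  ext
  · simp
  · simp

theorem one_val : (1 : ZMod p).val = 1 := by
  have : Fact (1 < p) := ⟨hp.out.one_lt⟩
  exact ZMod.val_one p

/-- root case: `uT D (k • (a, 1)) = (uT D (a, 1)) ^ k`, `k < p`. -/
theorem uT_nsmul_root (a : ZMod p) {k : ℕ} (hk : k < p) :
    uT D (k • ((a, 1) : ZMod p × ZMod p)) = uT D (a, 1) ^ k := by
  rw [nsmul_pair, uT, uT]
  simp only
  rw [mul_one, val_natCast_of_lt hk, one_val, pow_one,
    zeta_pow_val D ((k : ZMod p) * a) (k * a.val) (by rw [Nat.cast_mul, natCast_val]), mul_pow,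
    ← pow_mul, mul_comm a.val k]

/-- `μ_p` case: `uT D (k • (a, 0)) = (uT D (a, 0)) ^ k`. -/
theorem uT_nsmul_mu (a : ZMod p) (k : ℕ) :
    uT D (k • ((a, 0) : ZMod p × ZMod p)) = uT D (a, 0) ^ k := by
  rw [nsmul_pair, uT, uT]
  simp only
  rw [mul_zero, ZMod.val_zero, pow_zero, mul_one, mul_one,
    zeta_pow_val D ((k : ZMod p) * a) (k * a.val) (by rw [Nat.cast_mul, natCast_val]),
    ← pow_mul, mul_comm a.val k]

theorem uT_mu (a : ZMod p) : uT D (a, 0) = D.ζ ^ a.val := by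
  rw [uT]
  simp

/-- `(uT D (a, 1)) ^ p = q`. -/
theorem uT_root_pow (a : ZMod p) : uT D (a, 1) ^ p = D.q := by
  rw [uT]
  simp only
  rw [one_val, pow_one, mul_pow, ← pow_mul, mul_comm a.val p, pow_mul, D.hζ.pow_eq_one, one_pow,
    one_mul, D.hq']

end Mult

/-! ### the `x`-coordinates of a cyclic subgroup -/

section Xs

variable (hadd : IsHom D)

theorem xOf_tP (s : ZMod p × ZMod p) (hs : s ≠ 0) : xOf (tP D s) = XK (uT D s) D.q := by
  rw [tP_of_ne D s hs]
  rfl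

theorem xOf_neg {W : WeierstrassCurve K} (P : W.toAffine.Point) : xOf (-P) = xOf P := by
  rcases P with _ | ⟨x, y, h⟩
  · rfl
  · rfl

include hadd in
theorem XK_uT_neg (s : ZMod p × ZMod p) (hs : s ≠ 0) :
    XK (uT D (-s)) D.q = XK (uT D s) D.q := by
  rw [← xOf_tP D (-s) (neg_ne_zero.2 hs), tP_neg D hadd, xOf_neg, xOf_tP D s hs]

theorem nsmul_ne_zero_of_mem (s : ZMod p × ZMod p) (hs : s ≠ 0) {k : ℕ}
    (hk : k ∈ Finset.Ico 1 p) : k • s ≠ 0 := by
  rw [← Nat.cast_smul_eq_nsmul (ZMod p)]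
  exact smul_ne_zero (natCast_ne_zero_of_mem hk) hs

include hadd in
theorem mem_xsOf_tP (s : ZMod p × ZMod p) (hs : s ≠ 0) (x : K) :
    x ∈ xsOf (tP D s) p ↔ ∃ c : ZMod p, c ≠ 0 ∧ XK (uT D (c • s)) D.q = x := by
  unfold xsOf
  rw [Finset.mem_image]
  constructor
  · rintro ⟨k, hk, rfl⟩
    refine ⟨(k : ZMod p), natCast_ne_zero_of_mem hk, ?_⟩
    rw [tP_nsmul D hadd, Nat.cast_smul_eq_nsmul, xOf_tP D _ (nsmul_ne_zero_of_mem s hs hk)]
  · rintro ⟨c, hc, rfl⟩
    have hmem : c.val ∈ Finset.Ico 1 p := by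
      rw [Finset.mem_Ico]
      exact ⟨val_pos_of_ne hc, val_lt c⟩
    refine ⟨c.val, hmem, ?_⟩
    rw [tP_nsmul D hadd, xOf_tP D _ (nsmul_ne_zero_of_mem s hs hmem),
      ← Nat.cast_smul_eq_nsmul (ZMod p), natCast_val]

include hadd in
/-- the `x`-coordinates of `⟨Q⟩` do not depend on the generator. -/
theorem xsOf_tP_smul (s : ZMod p × ZMod p) (hs : s ≠ 0) (m : ZMod p) (hm : m ≠ 0) :
    xsOf (tP D (m • s)) p = xsOf (tP D s) p := by
  ext x
  rw [mem_xsOf_tP D hadd _ (smul_ne_zero hm hs), mem_xsOf_tP D hadd _ hs]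
  constructor
  · rintro ⟨c, hc, rfl⟩
    exact ⟨c * m, mul_ne_zero hc hm, by rw [mul_smul]⟩
  · rintro ⟨c, hc, rfl⟩
    refine ⟨c * m⁻¹, mul_ne_zero hc (inv_ne_zero hm), ?_⟩
    rw [smul_smul, mul_assoc, inv_mul_cancel₀ hm, mul_one]

include hadd in
theorem xsOf_eq_image (s' : ZMod p × ZMod p) (hs' : s' ≠ 0) (u₀ : K)
    (hpow : ∀ k, k < p → uT D (k • s') = u₀ ^ k) :
    xsOf (tP D s') p = (Finset.Ico 1 p).image (fun k => XK (u₀ ^ k) D.q) := by
  unfold xsOf
  refine Finset.image_congr ?_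
  intro k hk
  have hk' := Finset.mem_Ico.1 (Finset.mem_coe.1 hk)
  show xOf (k • tP D s') = XK (u₀ ^ k) D.q
  rw [tP_nsmul D hadd, xOf_tP D _ (nsmul_ne_zero_of_mem s' hs' (Finset.mem_coe.1 hk)),
    hpow k hk'.2]

include hadd in
theorem twoToOne_gen (hodd : p ≠ 2) (s' : ZMod p × ZMod p) (hs' : s' ≠ 0) (u₀ : K)
    (hpow : ∀ k, k < p → uT D (k • s') = u₀ ^ k) :
    TwoToOne ((Finset.Ico 1 p).image (fun k => XK (u₀ ^ k) D.q)) (Finset.Ico 1 p)
      (fun k => XK (u₀ ^ k) D.q) := by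
  have hoddp : Odd p := hp.out.odd_of_ne_two hodd
  convert twoToOne_of_inj p hoddp (fun k => XK (u₀ ^ k) D.q) ?_ ?_
  · -- symmetry
    intro k hk
    have hk' := Finset.mem_Ico.1 hk
    show XK (u₀ ^ (p - k)) D.q = XK (u₀ ^ k) D.q
    rw [← hpow (p - k) (by omega), ← hpow k hk'.2]
    have e : (p - k) • s' = -(k • s') := by
      rw [eq_neg_iff_add_eq_zero, ← add_nsmul, Nat.sub_add_cancel hk'.2.le, p_nsmul]
    rw [e, XK_uT_neg D hadd _ (nsmul_ne_zero_of_mem s' hs' hk)]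
  · -- injectivity modulo `±`
    intro k hk l hl h
    have hk' := Finset.mem_Ico.1 hk
    have hl' := Finset.mem_Ico.1 hl
    rw [← hpow k hk'.2, ← hpow l hl'.2] at h
    rcases XK_inj D hodd (k • s') (l • s') (nsmul_ne_zero_of_mem s' hs' hk)
      (nsmul_ne_zero_of_mem s' hs' hl) h with h1 | h1
    · left
      rw [← Nat.cast_smul_eq_nsmul (ZMod p), ← Nat.cast_smul_eq_nsmul (ZMod p) k] at h1
      have h2 : ((l : ℕ) : ZMod p) = ((k : ℕ) : ZMod p) := smul_left_injective (ZMod p) hs' h1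
      have h3 := (ZMod.natCast_eq_natCast_iff' l k p).1 h2
      rwa [Nat.mod_eq_of_lt hl'.2, Nat.mod_eq_of_lt hk'.2] at h3
    · right
      have h2 : (l + k) • s' = 0 := by rw [add_nsmul, h1, neg_add_cancel]
      rw [← Nat.cast_smul_eq_nsmul (ZMod p)] at h2
      have h3 : ((l + k : ℕ) : ZMod p) = 0 := (smul_eq_zero.1 h2).resolve_right hs'
      obtain ⟨c, hc⟩ := (ZMod.natCast_eq_zero_iff (l + k) p).1 h3
      have hc1 : c = 1 := by
        rcases Nat.lt_or_ge c 1 with h | h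
        · have : c = 0 := by omega
          subst this
          rw [mul_zero] at hc
          omega
        · rcases Nat.lt_or_ge c 2 with h' | h'
          · omega
          · exfalso
            have : p * 2 ≤ p * c := Nat.mul_le_mul_left p h'
            omega
      subst hc1
      omega

end Xs

/-! ### reduction of the torsion points -/

section Red

theorem norm_ev_mapZ_le (F : PowerSeries ℤ) (hF : constantCoeff F = 0) (q : K) (hq : ‖q‖ < 1) :
    ‖ev (mapZ (K := K) F) q‖ ≤ ‖q‖ := by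
  have h := QFromJ5.norm_ev_sub_constantCoeff_le (JacobiK1.isInt_mapZ (K := K) F) hq
  rwa [← coeff_zero_eq_constantCoeff_apply, coeff_mapZ, coeff_zero_eq_constantCoeff_apply, hF,
    Int.cast_zero, sub_zero] at h

theorem M_a4K (q : K) (hq : ‖q‖ < 1) : M (a4K q) := by
  refine (norm_ev_mapZ_le a4 ?_ q hq).trans_lt hq
  rw [← coeff_zero_eq_constantCoeff_apply, a4, coeff_mk, if_pos rfl]

theorem M_a6K (q : K) (hq : ‖q‖ < 1) : M (a6K q) := by
  refine (norm_ev_mapZ_le a6 ?_ q hq).trans_lt hq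
  rw [← coeff_zero_eq_constantCoeff_apply, a6, coeff_mk, if_pos rfl]

theorem redSingPt_tP (s : ZMod p × ZMod p) (hs : s ≠ 0) :
    RedSingPt (tateCurve D.q) (tP D s) ↔ M (XK (uT D s) D.q) ∧ M (YK (uT D s) D.q) := by
  rw [tP_of_ne D s hs]
  show RedSing (tateCurve D.q) _ _ ↔ _
  exact redSing_tateForm (M_a4K D.q D.hq1) (M_a6K D.q D.hq1) (nonsingular_uT D s hs).1

end Red

/-! ### the local statement on the Tate curve -/

section LT

variable (hadd : IsHom D)

include hadd in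
/-- **(LT) on the Tate curve.** -/
theorem tate_LT (hp3 : 3 < p) (Q : (tateCurve D.q).toAffine.Point) (hQ : addOrderOf Q = p) :
    ∃ q' : K, veluJ (tateCurve D.q) (xsOf Q p) = jK q' ∧
      ((q' = D.q ^ p ∧ ¬ RedSingPt (tateCurve D.q) Q) ∨
        (q' ^ p = D.q ∧ RedSingPt (tateCurve D.q) Q)) := by
  have hodd : p ≠ 2 := by omega
  have hp2 : 2 ≤ p := by omega
  have hQp : p • Q = 0 := by
    have h := addOrderOf_nsmul_eq_zero Q
    rwa [hQ] at h
  obtain ⟨s, rfl⟩ := exists_tP_of_torsion D hadd hodd Q hQp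
  have hs : s ≠ 0 := by
    rintro rfl
    rw [tP_zero, addOrderOf_zero] at hQ
    omega
  obtain ⟨a, b⟩ := s
  by_cases hb : b = 0
  · -- the `μ_p` case
    subst hb
    have ha : a ≠ 0 := fun h0 => hs (by rw [h0]; rfl)
    have hpow : ∀ k, k < p → uT D (k • ((a, 0) : ZMod p × ZMod p)) = uT D (a, 0) ^ k :=
      fun k _ => uT_nsmul_mu D a k
    refine ⟨D.q ^ p, ?_, Or.inl ⟨rfl, ?_⟩⟩
    · have hζ' : IsPrimitiveRoot (uT D (a, 0)) p := by
        rw [uT_mu]
        exact D.hζ.pow_of_coprime _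
          (Nat.coprime_comm.1 ((Nat.Prime.coprime_iff_not_dvd hp.out).2 (not_dvd_val ha)))
      rw [xsOf_eq_image D hadd (a, 0) hs (uT D (a, 0)) hpow]
      exact veluJ_mu (uT D (a, 0)) p hp2 hζ' D.q D.hq1
        (RootConst0.sum_S4 (p_pos (p := p)) hζ') (RootConst0.sum_S6 (p_pos (p := p)) hζ') _
        (twoToOne_gen D hadd hodd (a, 0) hs _ hpow)
    · rw [redSingPt_tP D _ hs]
      rintro ⟨hx, -⟩
      have h1 : ‖XK (uT D (a, 0)) D.q‖ = 1 :=
        norm_XK_unit _ _ (norm_uT_eq_one D (a, 0) rfl) (by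
          rw [uT_mu]
          exact norm_one_sub_root D.ζ p hp2 D.hζ D.hpK _ (not_dvd_val ha)) D.hq1
      rw [M, h1] at hx
      exact lt_irrefl _ hx
  · -- the root case
    have hm : b⁻¹ ≠ 0 := inv_ne_zero hb
    have hs' : b⁻¹ • ((a, b) : ZMod p × ZMod p) = (b⁻¹ * a, 1) := by
      ext
      · simp
      · simp [hb]
    have hs'0 : ((b⁻¹ * a, 1) : ZMod p × ZMod p) ≠ 0 := by
      intro h
      have h2 := congrArg Prod.snd h
      simp at h2
    have hxs : xsOf (tP D (a, b)) p = xsOf (tP D (b⁻¹ * a, 1)) p := by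
      rw [← hs', xsOf_tP_smul D hadd _ hs _ hm]
    have hpow : ∀ k, k < p →
        uT D (k • ((b⁻¹ * a, 1) : ZMod p × ZMod p)) = uT D (b⁻¹ * a, 1) ^ k :=
      fun k hk => uT_nsmul_root D _ hk
    have hq : uT D (b⁻¹ * a, 1) ^ p = D.q := uT_root_pow D _
    refine ⟨uT D (b⁻¹ * a, 1), ?_, Or.inr ⟨hq, ?_⟩⟩
    · rw [hxs, xsOf_eq_image D hadd _ hs'0 _ hpow]
      have h0 : uT D (b⁻¹ * a, 1) ≠ 0 := uT_ne_zero D _
      have h1 : ‖uT D (b⁻¹ * a, 1)‖ < 1 := norm_uT_lt_one D (b⁻¹ * a, 1) one_ne_zero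
      have key := veluJ_root (uT D (b⁻¹ * a, 1)) h0 h1 p hp2
        ((Finset.Ico 1 p).image fun k => XK (uT D (b⁻¹ * a, 1) ^ k) (uT D (b⁻¹ * a, 1) ^ p)) (by
          rw [hq]
          exact twoToOne_gen D hadd hodd _ hs'0 _ hpow)
      rw [hq] at key
      exact key
    · rw [redSingPt_tP D _ hs]
      have hlt := norm_uT_lt_one D (a, b) hb
      have h0 := uT_ne_zero D (a, b)
      have hq' := norm_q_lt_norm_uT D (a, b)
      have hM := Mid_lt_one _ _ h0 hlt hq'
      exact ⟨(norm_XK_le_mid _ _ h0 hlt hq').trans_lt hM, (norm_YK_le_mid _ _ h0 hlt hq').trans_lt hM⟩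

end LT

/-! ### the hypothesis `hT` of `LTTransport5.lt_transport` -/

section Final

theorem isIntegralW_tateCurve (q : K) (hq : ‖q‖ < 1) : IsIntegralW (tateCurve q) := by
  refine ⟨?_, ?_, ?_, (M_a4K q hq).le, (M_a6K q hq).le⟩
  · show ‖(1 : K)‖ ≤ 1
    rw [norm_one]
  · show ‖(0 : K)‖ ≤ 1
    rw [norm_zero]
    exact zero_le_one
  · show ‖(0 : K)‖ ≤ 1
    rw [norm_zero]
    exact zero_le_one

theorem norm_c₄_tateCurve (q : K) (hq : ‖q‖ < 1) : ‖(tateCurve q).c₄‖ = 1 := by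
  rw [tateCurve_c₄ q hq, JacobiK1.E4K_eq_evZ q hq]
  exact JacobiK1.norm_evZ_eq_one q hq ModularCurve.constantCoeff_eisenstein4

theorem Δ_tateCurve_ne_zero (q : K) (hq0 : q ≠ 0) (hq : ‖q‖ < 1) : (tateCurve q).Δ ≠ 0 := by
  rw [JacobiK1.tateCurve_Δ_eq q hq]
  exact JacobiK1.ΔK_ne_zero q hq0 hq

theorem j_tateCurve' (q : K) (hq : ‖q‖ < 1) :
    (tateCurve q).c₄ ^ 3 / (tateCurve q).Δ = jK q := by
  rw [tateCurve_c₄ q hq, JacobiK1.tateCurve_Δ_eq q hq, JacobiK1.jK_eq q hq, JacobiK1.jK5_eq q hq]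

/-- **the hypothesis `hT` of `LTTransport5.lt_transport`** for `T = tateCurve`, `jT = jK`, given the
additivity of the torsion parametrisation. -/
theorem hT_tate [IsSepClosed K] (hp3 : 3 < p) (hpK : ‖(p : K)‖ = 1)
    (hhom : ∀ D : TorsData K p, IsHom D) :
    ∀ q : K, q ≠ 0 → ‖q‖ < 1 → IsIntegralW (tateCurve q) ∧ ‖(tateCurve q).c₄‖ = 1 ∧
      (tateCurve q).Δ ≠ 0 ∧ (tateCurve q).c₄ ^ 3 / (tateCurve q).Δ = jK q ∧
      ∀ Q' : (tateCurve q).toAffine.Point, addOrderOf Q' = p → ∃ q' : K,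
        veluJ (tateCurve q) (xsOf Q' p) = jK q' ∧
          ((q' = q ^ p ∧ ¬ RedSingPt (tateCurve q) Q') ∨
            (q' ^ p = q ∧ RedSingPt (tateCurve q) Q')) := by
  intro q hq0 hq
  refine ⟨isIntegralW_tateCurve q hq, norm_c₄_tateCurve q hq, Δ_tateCurve_ne_zero q hq0 hq,
    j_tateCurve' q hq, ?_⟩
  have : NeZero ((p : ℕ) : K) := ⟨Nat.cast_ne_zero.2 (p_pos (p := p)).ne'⟩
  obtain ⟨q', hq'⟩ := IsSepClosed.exists_pow_nat_eq q p
  obtain ⟨ζ, hζ⟩ := HasEnoughRootsOfUnity.exists_primitiveRoot K p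
  let D : TorsData K p :=
    { q := q, q' := q', ζ := ζ, hq0 := hq0, hq1 := hq, hq' := hq', hζ := hζ, hpK := hpK,
      hΔ := Δ_tateCurve_ne_zero q hq0 hq }
  intro Q' hQ'
  exact tate_LT D (hhom D) hp3 Q' hQ'

end Final

end Fermat.Agent.MZ.MOD.TateLT4
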