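/-
Programme MZ (S15), chapter MOD-E (helper5): **from the local theorem LT over an `r`-adic field `K` to the valuation
types of `(α, β) = (j(E), j(E/⟨Q⟩))` at a place `A` of `ℚ̄` over `r`**, for a point `Q` with rational coordinates.

* `LTStatement jT p` : the local Tate–Vélu theorem over `K` (= the conclusion of `LTTransport5.lt_transport`);
* `norm_types` : LT ⇒ `‖β‖ = ‖α‖ ^ p` if `Q` does not reduce to the singular point, `‖β‖ ^ p = ‖α‖` if it does;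
* **`local_types`** : `W / ℤ`, `r ∣ Δ`, `r ∤ c₄`, `Q = (x₀, y₀)` rational of exact order `p`, `β₀ ∈ ℚ` with
  `veluJ (W / ℚ̄) (xsOf Q p) = β₀`, `α₀ = c₄³ / Δ`: for every `A` over `r`
  `α₀ ∉ A`, `InZeroComponentAt A Q → v_A(β₀) = v_A(α₀) ^ p`, `¬ InZeroComponentAt A Q → v_A(β₀) ^ p = v_A(α₀)`
  (exactly the valuation conditions of `Types2.IsInfType` / `IsZeroType`).
-/
import Mathlib
import Fermat.Agent.MZ.MOD.LTTransport5
import Fermat.Agent.MZ.MOD.ZeroComp5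

set_option autoImplicit false
set_option linter.unusedSectionVars false
set_option linter.style.longLine false
set_option linter.style.haveILetI false

namespace Fermat.Agent.MZ.MOD.LocalGlobal5

open WeierstrassCurve WeierstrassCurve.Affine
open Fermat.Agent.MZ.MOD.VeluDef4 Fermat.Agent.MZ.MOD.RedType5 Fermat.Agent.MZ.MOD.LTTransport5
open Fermat.Agent.MZ.MOD.ZeroComp5

local notation "Qb" => AlgebraicClosure ℚ

noncomputable section

/-! ### the local statement and its norm form -/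

section Local

variable {K : Type*} [NormedField K] [IsUltrametricDist K] [DecidableEq K]

/-- **the local Tate–Vélu theorem over `K`** (for the prime `p` and the `j`-function `jT`). -/
def LTStatement (jT : K → K) (p : ℕ) : Prop :=
  ∀ (W : WeierstrassCurve K), IsIntegralW W → ‖W.c₄‖ = 1 → W.Δ ≠ 0 → ‖W.Δ‖ < 1 →
    ∀ Q : W.toAffine.Point, addOrderOf Q = p →
      ∃ q q' : K, q ≠ 0 ∧ ‖q‖ < 1 ∧ W.c₄ ^ 3 / W.Δ = jT q ∧ veluJ W (xsOf Q p) = jT q' ∧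
        ((q' = q ^ p ∧ ¬ RedSingPt W Q) ∨ (q' ^ p = q ∧ RedSingPt W Q))

/-- LT in terms of norms. -/
theorem norm_types {jT : K → K} {p : ℕ} (hp : 0 < p) (hLT : LTStatement jT p)
    (hnorm : ∀ q : K, q ≠ 0 → ‖q‖ < 1 → ‖jT q‖ = ‖q‖⁻¹)
    (W : WeierstrassCurve K) (hW : IsIntegralW W) (h4 : ‖W.c₄‖ = 1) (hΔ0 : W.Δ ≠ 0) (hΔ : ‖W.Δ‖ < 1)
    (Q : W.toAffine.Point) (hQ : addOrderOf Q = p) :
    (¬ RedSingPt W Q → ‖veluJ W (xsOf Q p)‖ = ‖W.c₄ ^ 3 / W.Δ‖ ^ p) ∧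
      (RedSingPt W Q → ‖veluJ W (xsOf Q p)‖ ^ p = ‖W.c₄ ^ 3 / W.Δ‖) := by
  obtain ⟨q, q', hq0, hq1, hα, hβ, hcase⟩ := hLT W hW h4 hΔ0 hΔ Q hQ
  rw [hα, hβ, hnorm q hq0 hq1]
  rcases hcase with ⟨h1, h2⟩ | ⟨h1, h2⟩
  · refine ⟨fun _ => ?_, fun h3 => absurd h3 h2⟩
    have hq'0 : q' ≠ 0 := by rw [h1]; exact pow_ne_zero p hq0
    have hq'1 : ‖q'‖ < 1 := by
      rw [h1, norm_pow]
      exact pow_lt_one₀ (norm_nonneg q) hq1 hp.ne'
    rw [hnorm q' hq'0 hq'1, h1, norm_pow, inv_pow]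
  · refine ⟨fun h3 => absurd h2 h3, fun _ => ?_⟩
    have hq'0 : q' ≠ 0 := by
      rintro rfl
      rw [zero_pow hp.ne'] at h1
      exact hq0 h1.symm
    have hq'1 : ‖q'‖ < 1 := by
      by_contra hcon
      rw [not_lt] at hcon
      have : 1 ≤ ‖q'‖ ^ p := one_le_pow₀ hcon
      rw [← norm_pow, h1] at this
      linarith
    rw [hnorm q' hq'0 hq'1, inv_pow, ← norm_pow, h1]

end Local

/-! ### transport of a rational point of `W / ℚ̄` to `K` -/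

section Global

variable {K : Type*} [NormedField K] [IsUltrametricDist K] [CharZero K] [DecidableEq K]

theorem xOf_map (W' : WeierstrassCurve ℚ) (f : Qb →ₐ[ℚ] K) (P : (W'⁄Qb).Point) :
    xOf (Point.map f P) = f (xOf P) := by
  rcases P with _ | ⟨x, y, h⟩
  · exact (map_zero f).symm
  · rfl

theorem xsOf_map (W' : WeierstrassCurve ℚ) (f : Qb →ₐ[ℚ] K) (P : (W'⁄Qb).Point) (p : ℕ) :
    xsOf (Point.map f P) p = (xsOf P p).image f := by
  rw [xsOf, xsOf, Finset.image_image]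
  refine Finset.image_congr fun k _ => ?_
  show xOf (k • Point.map f P) = f (xOf (k • P))
  rw [← map_nsmul, xOf_map]

theorem veluJ_map (W' : WeierstrassCurve ℚ) (f : Qb →ₐ[ℚ] K) (P : (W'⁄Qb).Point) (p : ℕ) :
    veluJ (W'⁄K) (xsOf (Point.map f P) p) = f (veluJ (W'⁄Qb) (xsOf P p)) := by
  rw [xsOf_map, ← WeierstrassCurve.Affine.map_baseChange W' f]
  exact (map_veluJ (f : Qb →+* K) (W'⁄Qb) (xsOf P p)).symm

theorem baseChange_eq_map_int (W : WeierstrassCurve ℤ) :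
    ((W.map (Int.castRingHom ℚ))⁄K : WeierstrassCurve K) = W.map (Int.castRingHom K) := by
  show (W.map (Int.castRingHom ℚ)).map (algebraMap ℚ K) = _
  rw [WeierstrassCurve.map_map]
  congr 1
  exact RingHom.ext_int _ _



/-- the `K`-side: norms of `α`, `β` for the curve `W.map (ℤ → K)` and a point of order `p`. -/
theorem norm_types_int {r p : ℕ} (hp : 0 < p)
    (hK : ∀ n : ℤ, ‖(n : K)‖ < 1 ↔ (r : ℤ) ∣ n)
    {jT : K → K} (hLT : LTStatement jT p) (hnorm : ∀ q : K, q ≠ 0 → ‖q‖ < 1 → ‖jT q‖ = ‖q‖⁻¹)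
    (W : WeierstrassCurve ℤ) (hΔ0 : W.Δ ≠ 0) (hΔ : (r : ℤ) ∣ W.Δ) (hc4 : ¬ (r : ℤ) ∣ W.c₄)
    (WK : WeierstrassCurve K) (hWK : WK = W.map (Int.castRingHom K))
    (Q : WK.toAffine.Point) (hQ : addOrderOf Q = p) :
    1 < ‖(((W.c₄ : ℚ) ^ 3 / (W.Δ : ℚ) : ℚ) : K)‖ ∧
      (¬ RedSingPt WK Q →
        ‖veluJ WK (xsOf Q p)‖ = ‖(((W.c₄ : ℚ) ^ 3 / (W.Δ : ℚ) : ℚ) : K)‖ ^ p) ∧
      (RedSingPt WK Q →
        ‖veluJ WK (xsOf Q p)‖ ^ p = ‖(((W.c₄ : ℚ) ^ 3 / (W.Δ : ℚ) : ℚ) : K)‖) := by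
  subst hWK
  have hint : IsIntegralW (W.map (Int.castRingHom K)) := isIntegralW_map_int W
  have hc4K : (W.map (Int.castRingHom K)).c₄ = ((W.c₄ : ℤ) : K) := by
    rw [WeierstrassCurve.map_c₄, eq_intCast]
  have hΔK : (W.map (Int.castRingHom K)).Δ = ((W.Δ : ℤ) : K) := by
    rw [WeierstrassCurve.map_Δ, eq_intCast]
  have h4 : ‖(W.map (Int.castRingHom K)).c₄‖ = 1 := by
    rw [hc4K]
    exact le_antisymm (IsUltrametricDist.norm_intCast_le_one K _)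
      (not_lt.mp fun hlt => hc4 ((hK _).mp hlt))
  have hΔ0K : (W.map (Int.castRingHom K)).Δ ≠ 0 := by
    rw [hΔK]
    exact Int.cast_ne_zero.mpr hΔ0
  have hΔ1K : ‖(W.map (Int.castRingHom K)).Δ‖ < 1 := by
    rw [hΔK]
    exact (hK _).mpr hΔ
  have hαK : (W.map (Int.castRingHom K)).c₄ ^ 3 / (W.map (Int.castRingHom K)).Δ =
      (((W.c₄ : ℚ) ^ 3 / (W.Δ : ℚ) : ℚ) : K) := by
    rw [hc4K, hΔK]
    push_cast
    rfl
  obtain ⟨hns, hs⟩ := norm_types hp hLT hnorm _ hint h4 hΔ0K hΔ1K Q hQ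
  rw [hαK] at hns hs
  refine ⟨?_, hns, hs⟩
  rw [← hαK, norm_div, norm_pow, h4, one_pow, one_div]
  exact (one_lt_inv₀ (norm_pos_iff.mpr hΔ0K)).mpr hΔ1K

/-- from norms in `K` to valuations at `A`. -/
theorem val_of_norm {r p : ℕ} (hr : r.Prime)
    (hK : ∀ n : ℤ, ‖(n : K)‖ < 1 ↔ (r : ℤ) ∣ n)
    {A : ValuationSubring Qb} (hA : A.LiesOverPrime r) (α₀ β₀ : ℚ) (hα : 1 < ‖(α₀ : K)‖) :
    (α₀ : Qb) ∉ A ∧
      (‖(β₀ : K)‖ = ‖(α₀ : K)‖ ^ p → A.valuation (β₀ : Qb) = A.valuation (α₀ : Qb) ^ p) ∧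
      (‖(β₀ : K)‖ ^ p = ‖(α₀ : K)‖ → A.valuation (β₀ : Qb) ^ p = A.valuation (α₀ : Qb)) := by
  have hα0 : α₀ ≠ 0 := by
    intro h0
    rw [h0, Rat.cast_zero, norm_zero] at hα
    linarith
  have hαv0 : A.valuation (α₀ : Qb) ≠ 0 :=
    (Valuation.ne_zero_iff _).mpr (Rat.cast_ne_zero.mpr hα0)
  refine ⟨fun hmem => ?_, fun h1 => ?_, fun h1 => ?_⟩
  · have := (ratCast_mem_A_iff_norm hr hA hK α₀).mp hmem
    rw [mem_O] at this
    linarith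
  · have h2 : ‖((β₀ / α₀ ^ p : ℚ) : K)‖ = 1 := by
      push_cast
      rw [norm_div, norm_pow, h1, div_self]
      exact pow_ne_zero p (by linarith)
    have h3 := (valuation_eq_one_iff_norm hr hA hK (β₀ / α₀ ^ p)).mpr h2
    push_cast at h3
    rw [map_div₀, map_pow, div_eq_one_iff_eq (pow_ne_zero p hαv0)] at h3
    exact h3
  · have h2 : ‖((β₀ ^ p / α₀ : ℚ) : K)‖ = 1 := by
      push_cast
      rw [norm_div, norm_pow, h1, div_self]
      linarith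
    have h3 := (valuation_eq_one_iff_norm hr hA hK (β₀ ^ p / α₀)).mpr h2
    push_cast at h3
    rw [map_div₀, map_pow, div_eq_one_iff_eq hαv0] at h3
    exact h3


/-- the point of `W / K` obtained from a rational point of `W / ℚ̄`. -/
theorem redSingPt_map (W : WeierstrassCurve ℤ) (f : Qb →ₐ[ℚ] K) (x₀ y₀ : ℚ)
    (h : ((W.map (Int.castRingHom ℚ))⁄Qb).toAffine.Nonsingular (x₀ : Qb) (y₀ : Qb)) :
    RedSingPt ((W.map (Int.castRingHom ℚ))⁄K)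
        (Point.map (W' := (W.map (Int.castRingHom ℚ))) f (Point.some _ _ h)) ↔
      RedSing (W.map (Int.castRingHom K)) (x₀ : K) (y₀ : K) := by
  rw [Point.map_some]
  show RedSing ((W.map (Int.castRingHom ℚ))⁄K) (f (x₀ : Qb)) (f (y₀ : Qb)) ↔ _
  rw [map_ratCast f x₀, map_ratCast f y₀, baseChange_eq_map_int]


/-- **the valuation types of `(α, β)` at `A`.** -/
theorem local_types {r p : ℕ} (hr : r.Prime) (hp : 0 < p)
    (hK : ∀ n : ℤ, ‖(n : K)‖ < 1 ↔ (r : ℤ) ∣ n) (f : Qb →ₐ[ℚ] K)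
    {jT : K → K} (hLT : LTStatement jT p) (hnorm : ∀ q : K, q ≠ 0 → ‖q‖ < 1 → ‖jT q‖ = ‖q‖⁻¹)
    (W : WeierstrassCurve ℤ) (hΔ0 : W.Δ ≠ 0) (hΔ : (r : ℤ) ∣ W.Δ) (hc4 : ¬ (r : ℤ) ∣ W.c₄)
    (x₀ y₀ : ℚ) (h : ((W.map (Int.castRingHom ℚ))⁄Qb).toAffine.Nonsingular (x₀ : Qb) (y₀ : Qb))
    (hord : addOrderOf (Point.some _ _ h) = p) (β₀ : ℚ)
    (hβ : veluJ ((W.map (Int.castRingHom ℚ))⁄Qb) (xsOf (Point.some _ _ h) p) = (β₀ : Qb))
    {A : ValuationSubring Qb} (hA : A.LiesOverPrime r) :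
    (((W.c₄ : ℚ) ^ 3 / (W.Δ : ℚ) : ℚ) : Qb) ∉ A ∧
      (W.InZeroComponentAt A (.some _ _ h) →
        A.valuation (β₀ : Qb) = A.valuation (((W.c₄ : ℚ) ^ 3 / (W.Δ : ℚ) : ℚ) : Qb) ^ p) ∧
      (¬ W.InZeroComponentAt A (.some _ _ h) →
        A.valuation (β₀ : Qb) ^ p = A.valuation (((W.c₄ : ℚ) ^ 3 / (W.Δ : ℚ) : ℚ) : Qb)) := by
  have hordK : addOrderOf (Point.map (W' := (W.map (Int.castRingHom ℚ))) f (Point.some _ _ h)) = p := by
    rw [addOrderOf_injective (Point.map (W' := (W.map (Int.castRingHom ℚ))) f)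
      (Point.map_injective f) (Point.some _ _ h), hord]
  obtain ⟨hα, hns, hs⟩ := norm_types_int hp hK hLT hnorm W hΔ0 hΔ hc4
    ((W.map (Int.castRingHom ℚ))⁄K) (baseChange_eq_map_int W) _ hordK
  have hβK : veluJ ((W.map (Int.castRingHom ℚ))⁄K)
      (xsOf (Point.map (W' := (W.map (Int.castRingHom ℚ))) f (Point.some _ _ h)) p) = (β₀ : K) := by
    rw [veluJ_map, hβ]
    exact map_ratCast f β₀
  rw [hβK] at hns hs
  have hred := (redSingPt_map W f x₀ y₀ h).trans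
    (not_iff_comm.mp (inZeroComponentAt_iff hr hK W hA x₀ y₀ h).symm).symm
  obtain ⟨h1, h2, h3⟩ := val_of_norm (p := p) hr hK hA ((W.c₄ : ℚ) ^ 3 / (W.Δ : ℚ)) β₀ hα
  refine ⟨h1, fun hin => h2 (hns fun hred' => (hred.mp hred') hin), fun hnin => h3 (hs (hred.mpr hnin))⟩

end Global

end

end Fermat.Agent.MZ.MOD.LocalGlobal5
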