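/-
Programme MZ (S15, Mazur), chapter MOD-E (helper4): **the local Tate–Vélu theorem (LT), final form.**
`K` a complete, separably closed ultrametric normed field of characteristic zero, `p > 3` a prime with
`‖p‖ = 1`: `LocalGlobal5.LTStatement TateCurve4.jK p` holds (`ltStatement`), together with the norm
formula `‖jK q‖ = ‖q‖⁻¹` (`norm_jK`) — the two inputs of `LocalGlobal5.local_types`.

Assembly of: `TateLT4.hT_tate` (LT on the Tate curve), `TateHom3.tP_add` (additivity of the torsion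
parametrisation), `TateInj4.XK_inj` (injectivity of `X` modulo `±`), `LTTransport5.lt_transport`
(transport to an arbitrary integral model), `QFromJ5.exists_q_of_jK` and `JacobiK1.jK_eq`.
-/
import Mathlib
import Fermat.Agent.MZ.MOD.TateLT4
import Fermat.Agent.MZ.MOD.TateHom3
import Fermat.Agent.MZ.MOD.LocalGlobal5

set_option autoImplicit false
set_option linter.unusedSectionVars false
set_option linter.unusedVariables false

namespace Fermat.Agent.MZ.MOD.TateLTFinal4

open TateCurve4 TateTors4 TateInj4 TateLT4 LTTransport5 LocalGlobal5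

variable {K : Type*} [NormedField K] [IsUltrametricDist K] [CompleteSpace K] [CharZero K]
  [DecidableEq K]
variable {p : ℕ} [hp : Fact p.Prime]

/-- the torsion parametrisation is additive. -/
theorem isHom (D : TorsData K p) (hp3 : 3 < p) : IsHom D := fun s t =>
  TateHom3.tP_add D hp3 (XK_inj D (by omega)) s t

/-- every `j` with `‖j‖ > 1` is a `jK q`. -/
theorem hq_of_j (j : K) (hj : 1 < ‖j‖) : ∃ q : K, q ≠ 0 ∧ ‖q‖ < 1 ∧ jK q = j := by
  obtain ⟨q, hq0, hqn, hjq⟩ := QFromJ5.exists_q_of_jK hj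
  have hq1 : ‖q‖ < 1 := by
    rw [hqn]
    exact inv_lt_one_of_one_lt₀ hj
  exact ⟨q, hq0, hq1, by rw [JacobiK1.jK_eq q hq1, hjq]⟩

/-- `‖j(q)‖ = ‖q‖⁻¹`. -/
theorem norm_jK (q : K) (hq0 : q ≠ 0) (hq : ‖q‖ < 1) : ‖jK q‖ = ‖q‖⁻¹ :=
  JacobiK1.norm_jK q hq

/-- **the local Tate–Vélu theorem.** -/
theorem ltStatement [IsSepClosed K] (hp3 : 3 < p) (hpK : ‖(p : K)‖ = 1) :
    LTStatement (K := K) jK p :=
  fun W hW h4 hΔ0 hΔ Q hQ =>
    lt_transport jK tateCurve p hq_of_j (hT_tate hp3 hpK fun D => isHom D hp3) W hW h4 hΔ0 hΔ Q hQ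

end Fermat.Agent.MZ.MOD.TateLTFinal4
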