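/-
Programme MS (S12) / MZ, chapter MOD (helper5): **the zero component at `A` is stable under the decomposition
group of `A`** — by pure transport of structure (no completion, no continuity).

* `inZeroComponentAt_smul_iff` : for `σ` in the decomposition group of `A`,
  `W.InZeroComponentAt A (σ • P) ↔ W.InZeroComponentAt A P`;
* `inZeroComponentAt_smul_smul_iff` : for arbitrary `σ`,
  `W.InZeroComponentAt (σ • A) (σ • P) ↔ W.InZeroComponentAt A P`;
* `liesOverPrime_smul_iff` : `(σ • A).LiesOverPrime q ↔ A.LiesOverPrime q`.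
-/
import Mathlib
import Fermat.Prelude.Def_EllipticCurve_ZeroComponentAt
import Fermat.Prelude.Def_FLTPrelim_Ramification

set_option autoImplicit false
set_option linter.unusedSectionVars false
set_option linter.style.longLine false

namespace Fermat.Agent.MZ.MOD.ZeroCompGal5

open WeierstrassCurve WeierstrassCurve.Affine
open scoped Pointwise

local notation "Qb" => AlgebraicClosure ℚ

noncomputable section

variable {A : ValuationSubring Qb}

/-- `σ` in the decomposition group maps `A` into `A`. -/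
theorem smul_mem_of_mem_decomp {σ : Qb ≃ₐ[ℚ] Qb} (hσ : σ ∈ A.decompositionSubgroup ℚ) {x : Qb}
    (hx : x ∈ A) : σ x ∈ A := by
  have h1 : σ • x ∈ σ • A := ValuationSubring.smul_mem_pointwise_smul σ x A hx
  have h2 : σ • A = A := hσ
  rw [h2] at h1
  exact h1

theorem mem_iff_smul_mem_of_mem_decomp {σ : Qb ≃ₐ[ℚ] Qb} (hσ : σ ∈ A.decompositionSubgroup ℚ) {x : Qb} :
    σ x ∈ A ↔ x ∈ A := by
  refine ⟨fun h => ?_, smul_mem_of_mem_decomp hσ⟩
  have := smul_mem_of_mem_decomp ((A.decompositionSubgroup ℚ).inv_mem hσ) h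
  rwa [show σ⁻¹ (σ x) = x from σ.symm_apply_apply x] at this

/-- one direction. -/
theorem inZeroComponentAt_smul (W : WeierstrassCurve ℤ) {σ : Qb ≃ₐ[ℚ] Qb}
    (hσ : σ ∈ A.decompositionSubgroup ℚ) (P : ((W.map (Int.castRingHom ℚ))⁄Qb).Point)
    (hP : W.InZeroComponentAt A P) : W.InZeroComponentAt A (σ • P) := by
  rcases hP with rfl | ⟨x, y, h, rfl, hcase⟩
  · exact Or.inl rfl
  · right
    refine ⟨σ x, σ y, (WeierstrassCurve.Affine.baseChange_nonsingular (W.map (Int.castRingHom ℚ))
      (f := σ.toAlgHom) σ.toAlgHom.injective x y).mpr h, rfl, ?_⟩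
    rcases hcase with hx | ⟨hx, hy, hns⟩
    · exact Or.inl fun hmem => hx ((mem_iff_smul_mem_of_mem_decomp hσ).mp hmem)
    · right
      refine ⟨smul_mem_of_mem_decomp hσ hx, smul_mem_of_mem_decomp hσ hy, ?_⟩
      -- the automorphism of the residue field
      set g : A.decompositionSubgroup ℚ := ⟨σ, hσ⟩ with hg
      set φ : IsLocalRing.ResidueField A →+* IsLocalRing.ResidueField A :=
        MulSemiringAction.toRingHom (A.decompositionSubgroup ℚ) (IsLocalRing.ResidueField A) g with hφ
      have hφinj : Function.Injective φ := φ.injective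
      have hxres : IsLocalRing.residue A ⟨σ x, smul_mem_of_mem_decomp hσ hx⟩ =
          φ (IsLocalRing.residue A ⟨x, hx⟩) :=
        IsLocalRing.ResidueField.residue_smul (R := A) (A.decompositionSubgroup ℚ) g (⟨x, hx⟩ : A)
      have hyres : IsLocalRing.residue A ⟨σ y, smul_mem_of_mem_decomp hσ hy⟩ =
          φ (IsLocalRing.residue A ⟨y, hy⟩) :=
        IsLocalRing.ResidueField.residue_smul (R := A) (A.decompositionSubgroup ℚ) g (⟨y, hy⟩ : A)
      have hWφ : (W.map (Int.castRingHom (IsLocalRing.ResidueField A))).map φ =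
          W.map (Int.castRingHom (IsLocalRing.ResidueField A)) := by
        rw [WeierstrassCurve.map_map]
        congr 1
        exact RingHom.ext_int _ _
      rw [hxres, hyres, ← hWφ]
      exact (WeierstrassCurve.Affine.map_nonsingular
        (W := (W.map (Int.castRingHom (IsLocalRing.ResidueField A))).toAffine) hφinj _ _).mpr hns

/-- **the zero component at `A` is stable under the decomposition group of `A`.** -/
theorem inZeroComponentAt_smul_iff (W : WeierstrassCurve ℤ) {σ : Qb ≃ₐ[ℚ] Qb}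
    (hσ : σ ∈ A.decompositionSubgroup ℚ) (P : ((W.map (Int.castRingHom ℚ))⁄Qb).Point) :
    W.InZeroComponentAt A (σ • P) ↔ W.InZeroComponentAt A P := by
  refine ⟨fun h => ?_, inZeroComponentAt_smul W hσ P⟩
  have := inZeroComponentAt_smul W ((A.decompositionSubgroup ℚ).inv_mem hσ) (σ • P) h
  rwa [inv_smul_smul] at this

/-! ### the general form: transport along an arbitrary `σ` -/

/-- the ring isomorphism `A ≃ σ • A` induced by `σ`. -/
def smulEquiv (A : ValuationSubring Qb) (σ : Qb ≃ₐ[ℚ] Qb) : A ≃+* ↥(σ • A) where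
  toFun x := ⟨σ (x : Qb), ValuationSubring.smul_mem_pointwise_smul σ (x : Qb) A x.2⟩
  invFun y := ⟨σ⁻¹ (y : Qb), by
    have h := y.2
    rw [ValuationSubring.mem_pointwise_smul_iff_inv_smul_mem] at h
    exact h⟩
  left_inv x := Subtype.ext (σ.symm_apply_apply (x : Qb))
  right_inv y := Subtype.ext (σ.apply_symm_apply (y : Qb))
  map_mul' x y := Subtype.ext (map_mul σ (x : Qb) (y : Qb))
  map_add' x y := Subtype.ext (map_add σ (x : Qb) (y : Qb))

theorem smulEquiv_apply (A : ValuationSubring Qb) (σ : Qb ≃ₐ[ℚ] Qb) (x : A) :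
    ((smulEquiv A σ x : ↥(σ • A)) : Qb) = σ (x : Qb) := rfl

/-- one direction of the general transport. -/
theorem inZeroComponentAt_smul_smul (W : WeierstrassCurve ℤ) (A : ValuationSubring Qb)
    (σ : Qb ≃ₐ[ℚ] Qb) (P : ((W.map (Int.castRingHom ℚ))⁄Qb).Point)
    (hP : W.InZeroComponentAt A P) : W.InZeroComponentAt (σ • A) (σ • P) := by
  rcases hP with rfl | ⟨x, y, h, rfl, hcase⟩
  · exact Or.inl rfl
  · right
    refine ⟨σ x, σ y, (WeierstrassCurve.Affine.baseChange_nonsingular (W.map (Int.castRingHom ℚ))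
      (f := σ.toAlgHom) σ.toAlgHom.injective x y).mpr h, rfl, ?_⟩
    rcases hcase with hx | ⟨hx, hy, hns⟩
    · exact Or.inl fun hmem => hx (ValuationSubring.smul_mem_pointwise_smul_iff.mp hmem)
    · right
      refine ⟨ValuationSubring.smul_mem_pointwise_smul σ x A hx,
        ValuationSubring.smul_mem_pointwise_smul σ y A hy, ?_⟩
      set φ : IsLocalRing.ResidueField A →+* IsLocalRing.ResidueField ↥(σ • A) :=
        IsLocalRing.ResidueField.map ((smulEquiv A σ : A ≃+* ↥(σ • A)) : A →+* ↥(σ • A)) with hφ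
      have hφinj : Function.Injective φ := φ.injective
      have hxres : IsLocalRing.residue ↥(σ • A)
          ⟨σ x, ValuationSubring.smul_mem_pointwise_smul σ x A hx⟩ =
          φ (IsLocalRing.residue A ⟨x, hx⟩) := rfl
      have hyres : IsLocalRing.residue ↥(σ • A)
          ⟨σ y, ValuationSubring.smul_mem_pointwise_smul σ y A hy⟩ =
          φ (IsLocalRing.residue A ⟨y, hy⟩) := rfl
      have hWφ : (W.map (Int.castRingHom (IsLocalRing.ResidueField A))).map φ =
          W.map (Int.castRingHom (IsLocalRing.ResidueField ↥(σ • A))) := by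
        rw [WeierstrassCurve.map_map]
        congr 1
        exact RingHom.ext_int _ _
      rw [hxres, hyres, ← hWφ]
      exact (WeierstrassCurve.Affine.map_nonsingular
        (W := (W.map (Int.castRingHom (IsLocalRing.ResidueField A))).toAffine) hφinj _ _).mpr hns

/-- **transport of the zero component along an arbitrary `σ`.** -/
theorem inZeroComponentAt_smul_smul_iff (W : WeierstrassCurve ℤ) (A : ValuationSubring Qb)
    (σ : Qb ≃ₐ[ℚ] Qb) (P : ((W.map (Int.castRingHom ℚ))⁄Qb).Point) :
    W.InZeroComponentAt (σ • A) (σ • P) ↔ W.InZeroComponentAt A P := by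
  refine ⟨fun h => ?_, inZeroComponentAt_smul_smul W A σ P⟩
  have := inZeroComponentAt_smul_smul W (σ • A) σ⁻¹ (σ • P) h
  rwa [inv_smul_smul, inv_smul_smul] at this

/-- `σ • A` lies over the same prime as `A`. -/
theorem liesOverPrime_smul {A : ValuationSubring Qb} {q : ℕ} (hA : A.LiesOverPrime q) (σ : Qb ≃ₐ[ℚ] Qb) :
    (σ • A).LiesOverPrime q := by
  unfold ValuationSubring.LiesOverPrime at hA ⊢
  rw [ValuationSubring.mem_nonunits_iff_or] at hA ⊢
  have hq : ∀ τ : Qb ≃ₐ[ℚ] Qb, τ (q : Qb) = (q : Qb) := fun τ => map_natCast τ q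
  rcases hA with h0 | hinv
  · exact Or.inl h0
  · right
    intro hmem
    rw [ValuationSubring.mem_pointwise_smul_iff_inv_smul_mem] at hmem
    apply hinv
    have h1 : σ⁻¹ • ((q : Qb))⁻¹ = ((q : Qb))⁻¹ := by
      show σ⁻¹ ((q : Qb))⁻¹ = _
      rw [map_inv₀, hq]
    rwa [h1] at hmem

theorem liesOverPrime_smul_iff {A : ValuationSubring Qb} {q : ℕ} (σ : Qb ≃ₐ[ℚ] Qb) :
    (σ • A).LiesOverPrime q ↔ A.LiesOverPrime q := by
  refine ⟨fun h => ?_, fun h => liesOverPrime_smul h σ⟩
  have := liesOverPrime_smul h σ⁻¹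
  rwa [inv_smul_smul] at this

end

end Fermat.Agent.MZ.MOD.ZeroCompGal5
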