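/-
PROGRAMME MZ (S15), chapter MOD (helper2), step (K3): **degrees of `j` and `j_p = j(q^p)` at a level
`M` divisible by the prime `p`, on the generic and on the special fibre.**

* `relfinrank_jp_eq` : `[k(j(q^d) : d ∣ M) : k(j(q^p))] = [k(j(q^d) : d ∣ M) : k(j)]` for every field
  `k` in which `p` is invertible (prime level is symmetric: `IG/PR/Main20.primeLevel`);
* generic fibre (`ℚbar`, `FF M`): `isGen_jpM`, `finrank_jM`, `finrank_jpM` (`= ψ(M)`);
* special fibre (`k = ResidueField A`, `A ∣ r ∤ M`): `jRes`, `jpRes`, `isGen_*`, `finrank_* = ψ(M)`,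
  `isSeparable_*`.
-/
import Mathlib
import Fermat.Agent.RED.PUR.DegBaseChange25
import Fermat.Agent.ES.RED.SpecialGen25
import Fermat.Agent.ES.RED.SumOrdSep15
import Fermat.Agent.ES.N34.GaussVTwoFam25
import Fermat.Agent.ES.N34.FrickeFK8
import Fermat.Agent.RED.TOP.FbarFacts20
import Fermat.Agent.IG.PR.Main20

set_option autoImplicit false
set_option linter.unusedSectionVars false
set_option linter.unusedVariables false
set_option linter.style.longLine false
set_option linter.style.haveILetI false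
set_option synthInstance.maxHeartbeats 400000
set_option maxHeartbeats 1000000

open AlgebraicCurve ModularCurve IntermediateField

noncomputable section

namespace Fermat.Agent.MZ.MOD.RedDeg2

open Fermat.Agent.X0 Fermat.Agent.IG

/-! ### any field -/

section AnyField

variable (k : Type) [Field k] {p M : ℕ} [NeZero p] [NeZero M]

theorem jp_mem_full (hpM : p ∣ M) : qExpand k p (jqModC k) ∈ modularFunctionFieldFullC k M :=
  jqModCd_mem_full k M hpM

/-- **`[F_M : k(j_p)] = [F_M : k(j)]`** (`p` prime, `p ∣ M`, `p` invertible in `k`). -/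
theorem relfinrank_jp_eq (hp : p.Prime) (hpM : p ∣ M) (hpk : (p : k) ≠ 0) :
    relfinrank k⟮qExpand k p (jqModC k)⟯ (modularFunctionFieldFullC k M) =
      relfinrank k⟮jqModC k⟯ (modularFunctionFieldFullC k M) := by
  obtain ⟨⟨-, h1⟩, ⟨-, h2⟩⟩ := PR.Main20.primeLevel p hp.two_le (AN.ModPoly3.p0 p hp)
    AN.FormalJ10.p1 (AN.P2Final9.p2 p) k hpk
  have hj : k⟮jqModC k⟯ ≤ k⟮jqModC k⟯ ⊔ k⟮qExpand k p (jqModC k)⟯ := le_sup_left
  have hjp : k⟮qExpand k p (jqModC k)⟯ ≤ k⟮jqModC k⟯ ⊔ k⟮qExpand k p (jqModC k)⟯ := le_sup_right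
  have hS : k⟮jqModC k⟯ ⊔ k⟮qExpand k p (jqModC k)⟯ ≤ modularFunctionFieldFullC k M := by
    apply sup_le
    · rw [adjoin_simple_le_iff]; exact jqModC_mem_full k M
    · rw [adjoin_simple_le_iff]; exact jp_mem_full k hpM
  have e1 := relfinrank_mul_relfinrank hj hS
  have e2 := relfinrank_mul_relfinrank hjp hS
  rw [h1] at e1
  rw [h2] at e2
  rw [← e1, ← e2]

end AnyField

/-! ### the generic fibre -/

section Generic

variable {p M : ℕ} [NeZero p] [NeZero M]

/-- `j_p = j(q^p)` as an element of `FF M`. -/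
def jpM (hpM : p ∣ M) : FF M := jdF M p hpM

theorem coe_jM : ((jF M : FF M) : LaurentSeries Kbar) = jqModC Kbar :=
  Fermat.Agent.RED.BASE.JInKt25.coe_jF_eq M

theorem coe_jpM (hpM : p ∣ M) :
    ((jpM hpM : FF M) : LaurentSeries Kbar) = qExpand Kbar p (jqModC Kbar) := by
  rw [jpM, Fermat.Agent.ES.N34.FrickeFK8.coe_jdF_eq_qExpand, Fermat.Agent.X0.jqK_eq_jqModC]

theorem relfinrank_bar_eq_psi :
    relfinrank Kbar⟮jqModC Kbar⟯ (modularFunctionFieldBar M) = dedekindPsi M :=
  Fermat.Agent.RED.PUR.DegBaseChange25.relfinrank_laurentBaseChange_eq_psi Kbar M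

theorem psi_ne_zero : dedekindPsi M ≠ 0 :=
  (Fermat.Agent.X0.GNPsi.gnp_dedekindPsi_pos (NeZero.ne M)).ne'

theorem relfinrank_jp_bar (hp : p.Prime) (hpM : p ∣ M) :
    relfinrank Kbar⟮qExpand Kbar p (jqModC Kbar)⟯ (modularFunctionFieldBar M) = dedekindPsi M := by
  have h := relfinrank_jp_eq Kbar (M := M) hp hpM (Nat.cast_ne_zero.mpr hp.ne_zero)
  rw [← Fermat.Agent.RED.PUR.DegBaseChange25.laurentBaseChange_full_eq] at h
  rw [h]
  exact relfinrank_bar_eq_psi

theorem transcendental_jp (k : Type*) [Field k] :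
    Transcendental k (qExpand k p (jqModC k)) :=
  Fermat.Agent.ES.N34.GaussVTwoFam25.transcendental_qExpand p
    (Fermat.Agent.IG.VAL.OvBasics22.transcendental_jqModC k)

/-- `j_p` is a transcendental generator of `FF M`. -/
theorem isGen_jpM (hp : p.Prime) (hpM : p ∣ M) : FF.IsGen Kbar (jpM hpM) := by
  apply Fermat.Agent.ES.RED.SpecialGen25.isGen_of_relfinrank_ne_zero (modularFunctionFieldBar M)
  · rw [coe_jpM]; exact transcendental_jp Kbar
  · rw [coe_jpM, relfinrank_jp_bar hp hpM]; exact psi_ne_zero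

theorem finrank_jM : Module.finrank Kbar⟮jF M⟯ (FF M) = dedekindPsi M :=
  Degree.finrank_adjoin M (realizeData M) (cuspData M)

theorem finrank_jpM (hp : p.Prime) (hpM : p ∣ M) :
    Module.finrank Kbar⟮jpM hpM⟯ (FF M) = dedekindPsi M := by
  have h := Fermat.Agent.ES.RED.SpecialGen25.finrank_adjoin_simple_eq_relfinrank
    (modularFunctionFieldBar M) (jpM hpM)
  rw [coe_jpM, relfinrank_jp_bar hp hpM] at h
  exact h

end Generic

/-! ### the special fibre -/

section Special

variable {p M : ℕ} [NeZero p] [NeZero M] (A : ValuationSubring Kbar)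

/-- the residue field of `A`. -/
abbrev kRes (A : ValuationSubring Kbar) : Type := IsLocalRing.ResidueField ↥A

/-- the function field of the special fibre at level `M`. -/
abbrev FRes (A : ValuationSubring Kbar) (M : ℕ) [NeZero M] :
    IntermediateField (kRes A) (LaurentSeries (kRes A)) :=
  modularFunctionFieldFullC (kRes A) M

local notation "kk" => kRes A
local notation "Fk" => FRes A M

/-- `j̃` as an element of the special fibre field at level `M`. -/
def jRes : ↥(modularFunctionFieldFullC (IsLocalRing.ResidueField ↥A) M) :=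
  ⟨jqModC kk, jqModC_mem_full kk M⟩

/-- `j̃_p` as an element of the special fibre field at level `M`. -/
def jpRes (hpM : p ∣ M) : ↥(modularFunctionFieldFullC (IsLocalRing.ResidueField ↥A) M) :=
  ⟨qExpand kk p (jqModC kk), jp_mem_full kk hpM⟩

variable {A}
variable {r : ℕ} (hr : r.Prime) (hA : A.LiesOverPrime r) (hrM : ¬ r ∣ M)

include hr hA hrM in
theorem relfinrank_res_eq_psi :
    relfinrank kk⟮jqModC kk⟯ Fk = dedekindPsi M := by
  haveI : Fact r.Prime := ⟨hr⟩
  haveI : CharP kk r := Fermat.Agent.ES.KRON.KronInst10.charP_residueField A hr hA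
  exact Fermat.Agent.RED.PUR.DegBaseChange25.relfinrank_fullC_eq_psi_of_charP r kk M hrM

include hr hA in
theorem natCast_res_ne_zero {n : ℕ} (hn : ¬ r ∣ n) : ((n : ℕ) : kk) ≠ 0 := by
  haveI : CharP kk r := Fermat.Agent.ES.KRON.KronInst10.charP_residueField A hr hA
  intro h0
  rw [CharP.cast_eq_zero_iff kk r] at h0
  exact hn h0

include hr hA hrM in
theorem relfinrank_jp_res (hp : p.Prime) (hpM : p ∣ M) :
    relfinrank kk⟮qExpand kk p (jqModC kk)⟯ Fk = dedekindPsi M := by
  have hrp : ¬ r ∣ p := fun h => hrM (h.trans hpM)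
  rw [relfinrank_jp_eq kk (M := M) hp hpM (natCast_res_ne_zero hr hA hrp)]
  exact relfinrank_res_eq_psi hr hA hrM

include hr hA hrM in
theorem isGen_jRes : FF.IsGen kk (jRes (M := M) A) := by
  apply Fermat.Agent.ES.RED.SpecialGen25.isGen_of_relfinrank_ne_zero Fk
  · exact Fermat.Agent.IG.VAL.OvBasics22.transcendental_jqModC kk
  · show relfinrank kk⟮jqModC kk⟯ Fk ≠ 0
    rw [relfinrank_res_eq_psi hr hA hrM]; exact psi_ne_zero

include hr hA hrM in
theorem isGen_jpRes (hp : p.Prime) (hpM : p ∣ M) : FF.IsGen kk (jpRes (M := M) A hpM) := by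
  apply Fermat.Agent.ES.RED.SpecialGen25.isGen_of_relfinrank_ne_zero Fk
  · exact transcendental_jp kk
  · show relfinrank kk⟮qExpand kk p (jqModC kk)⟯ Fk ≠ 0
    rw [relfinrank_jp_res hr hA hrM hp hpM]; exact psi_ne_zero

include hr hA hrM in
theorem finrank_jRes :
    Module.finrank ↥(kk⟮jRes (M := M) A⟯ : IntermediateField kk ↥Fk) ↥Fk = dedekindPsi M := by
  rw [Fermat.Agent.ES.RED.SpecialGen25.finrank_adjoin_simple_eq_relfinrank]
  exact relfinrank_res_eq_psi hr hA hrM

include hr hA hrM in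
theorem finrank_jpRes (hp : p.Prime) (hpM : p ∣ M) :
    Module.finrank ↥(kk⟮jpRes (M := M) A hpM⟯ : IntermediateField kk ↥Fk) ↥Fk = dedekindPsi M := by
  rw [Fermat.Agent.ES.RED.SpecialGen25.finrank_adjoin_simple_eq_relfinrank]
  exact relfinrank_jp_res hr hA hrM hp hpM

/-- separability of `F̃_M` over `k(x)` for `x ∈ F̃_M` of `q`-order prime to `r`. -/
theorem isSeparable_of_order (x : ↥Fk) (hx0 : (x : LaurentSeries kk) ≠ 0)
    (hcop : IsCoprime (x : LaurentSeries kk).order (r : ℤ))
    (hfin : relfinrank kk⟮(x : LaurentSeries kk)⟯ Fk ≠ 0) (hr : r.Prime) (hA : A.LiesOverPrime r) :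
    Algebra.IsSeparable ↥(kk⟮x⟯ : IntermediateField kk ↥Fk) ↥Fk := by
  haveI : Fact r.Prime := ⟨hr⟩
  haveI : IsAlgClosed kk := Fermat.Agent.ES.KRON.KronInst10.isAlgClosed_residueField A
  haveI : CharP kk r := Fermat.Agent.ES.KRON.KronInst10.charP_residueField A hr hA
  have hle := Fermat.Agent.ES.RED.SpecialGen25.adjoin_simple_le Fk x
  have hfin' := hfin
  rw [relfinrank_eq_finrank_of_le hle] at hfin'
  haveI hfd : FiniteDimensional ↥(kk⟮(x : LaurentSeries kk)⟯) ↥(extendScalars hle) :=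
    Module.finite_of_finrank_pos (Nat.pos_of_ne_zero hfin')
  have hsep : Algebra.IsSeparable ↥(kk⟮(x : LaurentSeries kk)⟯) ↥(extendScalars hle) :=
    Fermat.Agent.RED.PUR.SepLaurent25.isSeparable_intermediateField r hx0 hcop (extendScalars hle)
  exact Fermat.Agent.ES.RED.SpecialGen25.isSeparable_adjoin_simple_of_extendScalars (h := hsep) Fk x

include hr hA hrM in
theorem isSeparable_jRes :
    Algebra.IsSeparable ↥(kk⟮jRes (M := M) A⟯ : IntermediateField kk ↥Fk) ↥Fk := by
  have ho : (jqModC kk).order = -1 := Fermat.Agent.IG.PR.TransferPoly20.order_jqModC kk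
  apply isSeparable_of_order (jRes (M := M) A) _ _ _ hr hA
  · intro h0
    have : (jqModC kk).order = 0 := by rw [show jqModC kk = 0 from h0, HahnSeries.order_zero]
    omega
  · show IsCoprime (jqModC kk).order (r : ℤ)
    rw [ho]; exact (isCoprime_one_left (x := (r : ℤ))).neg_left
  · show relfinrank kk⟮jqModC kk⟯ Fk ≠ 0
    rw [relfinrank_res_eq_psi hr hA hrM]; exact psi_ne_zero

include hr hA hrM in
theorem isSeparable_jpRes (hp : p.Prime) (hpM : p ∣ M) :
    Algebra.IsSeparable ↥(kk⟮jpRes (M := M) A hpM⟯ : IntermediateField kk ↥Fk) ↥Fk := by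
  have ho : (qExpand kk p (jqModC kk)).order = -(p : ℤ) := by
    rw [Fermat.Agent.IG.PR.ThetaV1.order_qExpand, Fermat.Agent.IG.PR.TransferPoly20.order_jqModC]
    ring
  have hp0 : (0 : ℤ) < p := by exact_mod_cast hp.pos
  have hrp : ¬ r ∣ p := fun h => hrM (h.trans hpM)
  apply isSeparable_of_order (jpRes (M := M) A hpM) _ _ _ hr hA
  · intro h0
    have : (qExpand kk p (jqModC kk)).order = 0 := by
      rw [show qExpand kk p (jqModC kk) = 0 from h0, HahnSeries.order_zero]
    omega
  · show IsCoprime (qExpand kk p (jqModC kk)).order (r : ℤ)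
    rw [ho]
    apply IsCoprime.neg_left
    rw [Int.isCoprime_iff_gcd_eq_one, Int.gcd_natCast_natCast]
    exact ((Nat.coprime_primes hp hr).mpr (fun h => hrp (h ▸ dvd_rfl)))
  · show relfinrank kk⟮qExpand kk p (jqModC kk)⟯ Fk ≠ 0
    rw [relfinrank_jp_res hr hA hrM hp hpM]; exact psi_ne_zero

end Special

end Fermat.Agent.MZ.MOD.RedDeg2
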