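/-
PROGRAMME MZ (S15), chapter MOD (helper2), step (K3): **abstract lemmas on push-forwards of
`ℤ`-valued finitely supported functions** (`Finsupp.mapDomain`), used for the specialisation of
divisors.

* `le_mapDomain_apply` : `f w ≤ (r_* f)(r w)` for `f ≥ 0`;
* `exists_of_mapDomain_ne_zero` : a point of the support of `r_* f` is the image of a point of the
  support of `f`;
* `mapDomain_eq_of_le_of_sum_eq` : if `0 ≤ g ≤ r_* f` pointwise and `∑ g = ∑ f`, then `r_* f = g`.
-/
import Mathlib

set_option autoImplicit false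
set_option linter.unusedSectionVars false
set_option linter.unusedVariables false
set_option linter.style.longLine false

noncomputable section

namespace Fermat.Agent.MZ.MOD.RhoAbs2

variable {P P' : Type*} (r : P → P')

theorem le_mapDomain_apply (f : P →₀ ℤ) (hf : 0 ≤ f) (w : P) :
    f w ≤ Finsupp.mapDomain r f (r w) := by
  classical
  have h1 : Finsupp.single w (f w) ≤ f := by
    intro v
    rw [Finsupp.single_apply]
    split_ifs with hv
    · rw [hv]
    · exact hf v
  have h2 := Finsupp.mapDomain_mono (f := r) h1 (r w)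
  rwa [Finsupp.mapDomain_single, Finsupp.single_eq_same] at h2

theorem exists_of_mapDomain_ne_zero (f : P →₀ ℤ) (Q : P')
    (h : Finsupp.mapDomain r f Q ≠ 0) : ∃ w, r w = Q ∧ f w ≠ 0 := by
  classical
  have h1 : Q ∈ (Finsupp.mapDomain r f).support := Finsupp.mem_support_iff.mpr h
  have h2 := Finsupp.mapDomain_support h1
  obtain ⟨w, hw, hwQ⟩ := Finset.mem_image.mp h2
  exact ⟨w, hwQ, Finsupp.mem_support_iff.mp hw⟩

theorem sum_mapDomain_id (f : P →₀ ℤ) :
    ((Finsupp.mapDomain r f).sum fun _ n => n) = f.sum fun _ n => n :=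
  Finsupp.sum_mapDomain_index_addMonoidHom (fun _ => AddMonoidHom.id ℤ)

/-- **counting**: if `0 ≤ g ≤ r_* f` pointwise and `∑ g = ∑ f`, then `r_* f = g`. -/
theorem mapDomain_eq_of_le_of_sum_eq (f : P →₀ ℤ) (g : P' → ℤ) (hg : ∀ Q, 0 ≤ g Q)
    (hle : ∀ Q, g Q ≤ Finsupp.mapDomain r f Q)
    (hsum : ∑ᶠ Q, g Q = f.sum fun _ n => n) (Q : P') :
    Finsupp.mapDomain r f Q = g Q := by
  classical
  set R := Finsupp.mapDomain r f with hR
  have hsupp : Function.support g ⊆ ↑R.support := by
    intro Q' hQ'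
    rw [Function.mem_support] at hQ'
    rw [Finset.mem_coe, Finsupp.mem_support_iff]
    intro h0
    have := hle Q'
    rw [h0] at this
    exact hQ' (le_antisymm this (hg Q'))
  have h1 : ∑ᶠ Q, g Q = ∑ Q ∈ R.support, g Q := finsum_eq_sum_of_support_subset g hsupp
  have h2 : (R.sum fun _ n => n) = ∑ Q ∈ R.support, R Q := rfl
  have h3 : ∑ Q ∈ R.support, (R Q - g Q) = 0 := by
    rw [Finset.sum_sub_distrib, ← h2, ← h1, hsum, hR, sum_mapDomain_id, sub_self]
  have h4 := (Finset.sum_eq_zero_iff_of_nonneg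
    (fun Q' _ => sub_nonneg.mpr (hle Q'))).mp h3
  by_cases hQ : Q ∈ R.support
  · have := h4 Q hQ
    omega
  · have hRQ : R Q = 0 := by simpa [Finsupp.mem_support_iff] using hQ
    have := hle Q
    rw [hRQ] at this ⊢
    exact (le_antisymm this (hg Q)).symm

end Fermat.Agent.MZ.MOD.RhoAbs2
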