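/-
PROGRAMME MZ (S15), chapter MOD (helper2), step (K3): **specialisation of poles and zeros.**

For ANY place reduction map `rmap` at level `M` along `A` (`IsPlaceReductionAlong`), and an
`A`-integral function `y` whose reduction `ỹ` has the same degree (`[F_M : ℚbar(y)] = [F̃_M : k(ỹ)]`,
`F̃_M / k(ỹ)` separable): `rmap` maps poles of `y` to poles of `ỹ` and zeros to zeros
(`spec_of_finrank_eq`).  Instances: `y = j` (`spec_j`) and `y = j_p = j(q^p)`, `p ∣ M` prime
(`spec_jp`), `A` over a prime `r ∤ M`.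
-/
import Mathlib
import Fermat.Prelude.Def_ModularCurve_ReductionModL
import Fermat.Agent.MZ.MOD.RhoAbs2
import Fermat.Agent.MZ.MOD.RedDeg2
import Fermat.Agent.X0.FFSum

set_option autoImplicit false
set_option linter.unusedSectionVars false
set_option linter.unusedVariables false
set_option linter.style.longLine false
set_option linter.style.haveILetI false
set_option synthInstance.maxHeartbeats 400000
set_option maxHeartbeats 1000000

open AlgebraicCurve ModularCurve IntermediateField

noncomputable section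

namespace Fermat.Agent.MZ.MOD.RedSpec2

open Fermat.Agent.X0 Fermat.Agent.MZ.MOD.RhoAbs2 Fermat.Agent.MZ.MOD.RedDeg2

section Abstract

variable {M : ℕ} [NeZero M] {A : ValuationSubring Kbar}
  {rmap : Place Kbar (FF M) → Place (kRes A) (FRes A M)}

theorem max_neg_eq_finsum (n : ℤ) : max (-n) 0 = ∑ᶠ (_ : n < 0), -n := by
  classical
  rw [finsum_eq_if]
  split_ifs with h
  · exact max_eq_left (by omega)
  · exact max_eq_right (by omega)

/-- **specialisation of poles and zeros** of an `A`-integral function of the same degree on both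
fibres. -/
theorem spec_of_finrank_eq (hr : IsPlaceReductionAlong A (IsLocalRing.residue A) M rmap)
    (yL : FF M) (yk : FRes A M)
    (y : LaurentSeries A) (hyL : coeffMap A.subtype y = (yL : LaurentSeries Kbar))
    (hyk : coeffMap (IsLocalRing.residue A) y = (yk : LaurentSeries (kRes A)))
    (hgenL : FF.IsGen Kbar yL) (hgenk : FF.IsGen (kRes A) yk)
    [Algebra.IsSeparable ↥((kRes A)⟮yk⟯ : IntermediateField (kRes A) ↥(FRes A M)) ↥(FRes A M)]
    (hdeg : Module.finrank ↥(Kbar⟮yL⟯ : IntermediateField Kbar (FF M)) (FF M) =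
      Module.finrank ↥((kRes A)⟮yk⟯ : IntermediateField (kRes A) ↥(FRes A M)) ↥(FRes A M))
    (w : Place Kbar (FF M)) :
    (w.ord yL < 0 → (rmap w).ord yk < 0) ∧ (0 < w.ord yL → 0 < (rmap w).ord yk) := by
  classical
  haveI : IsAlgClosed (kRes A) := Fermat.Agent.ES.KRON.KronInst10.isAlgClosed_residueField A
  have hyL0 : yL ≠ 0 := hgenL.ne_zero
  have hyk0 : yk ≠ 0 := hgenk.ne_zero
  have hdiv := Fermat.Agent.RED.TOP.FbarFacts20.hasPrincipalDivisors_bar M
  obtain ⟨D, hD, -⟩ := hdiv.exists_divisor yL hyL0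
  have hmemL : coeffMap A.subtype y ∈ modularFunctionFieldBar M := by rw [hyL]; exact yL.2
  have hmemk : coeffMap (IsLocalRing.residue A) y ∈ modularFunctionFieldFullC (kRes A) M := by
    rw [hyk]; exact yk.2
  have hne : coeffMap (IsLocalRing.residue A) y ≠ 0 := by
    rw [hyk]; exact fun h => hyk0 (Subtype.ext h)
  have e1 : (⟨coeffMap A.subtype y, hmemL⟩ : FF M) = yL := Subtype.ext hyL
  have e2 : (⟨coeffMap (IsLocalRing.residue A) y, hmemk⟩ : FRes A M) = yk := Subtype.ext hyk
  have hex : ∀ Q, Finsupp.mapDomain rmap D Q = Q.ord yk := by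
    intro Q
    have := hr.2 y hmemL hmemk hne D (fun P => by rw [hD P, e1]) Q
    rw [this, e2]
  -- positive and negative parts
  set Dn : Divisor Kbar (FF M) := (-D) ⊔ 0 with hDn
  set Dp : Divisor Kbar (FF M) := D ⊔ 0 with hDp
  have hDn_apply : ∀ v, Dn v = max (-(v.ord yL)) 0 := fun v => by
    rw [hDn, Finsupp.sup_apply, Finsupp.neg_apply, hD v]; rfl
  have hDp_apply : ∀ v, Dp v = max (v.ord yL) 0 := fun v => by
    rw [hDp, Finsupp.sup_apply, hD v]; rfl
  have hDn0 : 0 ≤ Dn := fun v => by rw [hDn_apply]; exact le_max_right _ _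
  have hDp0 : 0 ≤ Dp := fun v => by rw [hDp_apply]; exact le_max_right _ _
  have hDsub : D = Dp - Dn := by
    ext v
    rw [Finsupp.sub_apply, hDn_apply, hDp_apply, hD v]
    rcases le_total (v.ord yL) 0 with h | h
    · rw [max_eq_right h, max_eq_left (by omega)]; ring
    · rw [max_eq_left h, max_eq_right (by omega)]; ring
  have hRsub : ∀ Q, Finsupp.mapDomain rmap Dp Q - Finsupp.mapDomain rmap Dn Q = Q.ord yk := by
    intro Q
    rw [← hex Q, hDsub, ← Finsupp.sub_apply]
    congr 1
    exact ((Finsupp.mapDomain.addMonoidHom rmap).map_sub Dp Dn).symm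
  have hRp0 : ∀ Q, 0 ≤ Finsupp.mapDomain rmap Dp Q := fun Q => Finsupp.mapDomain_nonneg hDp0 Q
  have hRn0 : ∀ Q, 0 ≤ Finsupp.mapDomain rmap Dn Q := fun Q => Finsupp.mapDomain_nonneg hDn0 Q
  -- the counting
  have hsumL : (Dn.sum fun _ n => n) =
      (Module.finrank ↥(Kbar⟮yL⟯ : IntermediateField Kbar (FF M)) (FF M) : ℤ) := by
    rw [← FF.sum_ord_poles hgenL]
    have h1 : ∑ᶠ v, Dn v = ∑ v ∈ Dn.support, Dn v :=
      finsum_eq_sum_of_support_subset _ (by rw [Finsupp.fun_support_eq])
    have h2 : (Dn.sum fun _ n => n) = ∑ v ∈ Dn.support, Dn v := rfl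
    rw [h2, ← h1]
    refine finsum_congr fun v => ?_
    rw [hDn_apply, max_neg_eq_finsum]
  have hsumk : ∑ᶠ Q : Place (kRes A) (FRes A M), max (-(Q.ord yk)) 0 =
      (Module.finrank ↥((kRes A)⟮yk⟯ : IntermediateField (kRes A) ↥(FRes A M)) ↥(FRes A M) : ℤ) := by
    rw [← Fermat.Agent.ES.RED.SumOrdSep15.sum_ord_poles_sep hgenk]
    refine finsum_congr fun Q => ?_
    rw [max_neg_eq_finsum]
  have hcount := mapDomain_eq_of_le_of_sum_eq rmap Dn (fun Q => max (-(Q.ord yk)) 0)
    (fun Q => le_max_right _ _)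
    (fun Q => by
      have := hRsub Q
      have := hRp0 Q
      have := hRn0 Q
      apply max_le <;> omega)
    (by rw [hsumk, hsumL, hdeg])
  constructor
  · intro hw
    have h1 := le_mapDomain_apply rmap Dn hDn0 w
    rw [hcount, hDn_apply, max_eq_left (by omega)] at h1
    by_contra hcon
    rw [max_eq_right (by omega)] at h1
    omega
  · intro hw
    have h1 := le_mapDomain_apply rmap Dp hDp0 w
    rw [hDp_apply, max_eq_left (by omega)] at h1
    have h2 := hRsub (rmap w)
    rw [hcount] at h2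
    by_contra hcon
    rw [max_eq_left (by omega)] at h2
    omega

end Abstract

section Concrete

variable {p M : ℕ} [NeZero p] [NeZero M] {A : ValuationSubring Kbar}
  {rmap : Place Kbar (FF M) → Place (kRes A) (FRes A M)}
  (hrm : IsPlaceReductionAlong A (IsLocalRing.residue A) M rmap)
  {r : ℕ} (hr : r.Prime) (hA : A.LiesOverPrime r) (hrM : ¬ r ∣ M)

include hrm hr hA hrM in
/-- `rmap` maps poles of `j` to poles of `j̃` and zeros to zeros. -/
theorem spec_j (w : Place Kbar (FF M)) :
    (w.ord (jF M) < 0 → (rmap w).ord (jRes (M := M) A) < 0) ∧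
      (0 < w.ord (jF M) → 0 < (rmap w).ord (jRes (M := M) A)) := by
  haveI := isSeparable_jRes (M := M) hr hA hrM
  refine spec_of_finrank_eq hrm (jF M) (jRes A) (jqModC ↥A) ?_ ?_
    (Fermat.Agent.RED.TOP.FbarFacts20.isGen_j M) (isGen_jRes hr hA hrM) ?_ w
  · rw [coeffMap_jqModC, coe_jM]
  · rw [coeffMap_jqModC]; rfl
  · rw [finrank_jM, finrank_jRes hr hA hrM]

include hrm hr hA hrM in
/-- `rmap` maps poles of `j_p` to poles of `j̃_p` and zeros to zeros. -/
theorem spec_jp (hp : p.Prime) (hpM : p ∣ M) (w : Place Kbar (FF M)) :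
    (w.ord (jpM hpM) < 0 → (rmap w).ord (jpRes (M := M) A hpM) < 0) ∧
      (0 < w.ord (jpM hpM) → 0 < (rmap w).ord (jpRes (M := M) A hpM)) := by
  haveI := isSeparable_jpRes (M := M) hr hA hrM hp hpM
  refine spec_of_finrank_eq hrm (jpM hpM) (jpRes A hpM) (qExpand ↥A p (jqModC ↥A)) ?_ ?_
    (isGen_jpM hp hpM) (isGen_jpRes hr hA hrM hp hpM) ?_ w
  · rw [coeffMap_qExpand, coeffMap_jqModC, coe_jpM]
  · rw [coeffMap_qExpand, coeffMap_jqModC]; rfl
  · rw [finrank_jpM hp hpM, finrank_jpRes hr hA hrM hp hpM]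

include hrm hr hA hrM in
/-- a pole and a zero of `j` have different reductions. -/
theorem rmap_ne_of_j {w w' : Place Kbar (FF M)} (hw : w.ord (jF M) < 0)
    (hw' : 0 < w'.ord (jF M)) : rmap w ≠ rmap w' := by
  intro h
  have h1 := (spec_j hrm hr hA hrM w).1 hw
  have h2 := (spec_j hrm hr hA hrM w').2 hw'
  rw [h] at h1
  omega

include hrm hr hA hrM in
/-- a pole and a zero of `j_p` have different reductions. -/
theorem rmap_ne_of_jp (hp : p.Prime) (hpM : p ∣ M) {w w' : Place Kbar (FF M)}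
    (hw : w.ord (jpM hpM) < 0) (hw' : 0 < w'.ord (jpM hpM)) : rmap w ≠ rmap w' := by
  intro h
  have h1 := (spec_jp hrm hr hA hrM hp hpM w).1 hw
  have h2 := (spec_jp hrm hr hA hrM hp hpM w').2 hw'
  rw [h] at h1
  omega

end Concrete

end Fermat.Agent.MZ.MOD.RedSpec2
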