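/-
PROGRAMME MZ (S15), chapter MOD (helper2): **the interface of the moduli step.**

* `IsZeroType A P`, `IsInfType A P` : the two "valuation types" of a place `P` of
  `FF p = ℚbar(j, j_p)` at a place `A` of `ℚbar`: `P` is a point `(α, β) = (j(P), j_p(P))` with
  `v_A(α) < 0` and `p · v_A(β) = v_A(α)` (type `0`: `P` reduces to the cusp `0`), resp.
  `v_A(β) = p · v_A(α)` (type `∞`: `P` reduces to the cusp `∞`).  These are the hypotheses of
  (K3) `MZ/MOD/Red2` and the conclusions of the moduli bridge.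
* `ModuliBridge : Prop` : the statement of the moduli bridge MOD-E (a rational point of exact order
  `p` on `E/ℚ` gives a `G_ℚ`-fixed place of `FF p` whose type at every multiplicative prime
  `r ≠ p` is dictated by whether the point lies in the zero component).
-/
import Mathlib
import Fermat.Prelude.Def_EllipticCurve_ZeroComponentAt
import Fermat.Prelude.Def_FLTPrelim_Ramification
import Fermat.Agent.MZ.CUSP.CuspPlaces1

set_option autoImplicit false
set_option linter.unusedSectionVars false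
set_option linter.unusedVariables false
set_option linter.style.longLine false
set_option synthInstance.maxHeartbeats 400000

open AlgebraicCurve ModularCurve

noncomputable section

namespace Fermat.Agent.MZ.MOD.Types2

open Fermat.Agent.X0 Fermat.Agent.MZ.CUSP.CuspPlaces1

variable (p : ℕ) [NeZero p]

/-- **type `0`**: `P = (α, β)`, `v_A(α) < 0`, `p · v_A(β) = v_A(α)`. -/
def IsZeroType (A : ValuationSubring Kbar) (P : Place Kbar (FF p)) : Prop :=
  ∃ α β : Kbar, α ∉ A ∧ 0 < P.ord (jF p - algebraMap Kbar (FF p) α) ∧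
    0 < P.ord (jNF p - algebraMap Kbar (FF p) β) ∧ A.valuation β ^ p = A.valuation α

/-- **type `∞`**: `P = (α, β)`, `v_A(α) < 0`, `v_A(β) = p · v_A(α)`. -/
def IsInfType (A : ValuationSubring Kbar) (P : Place Kbar (FF p)) : Prop :=
  ∃ α β : Kbar, α ∉ A ∧ 0 < P.ord (jF p - algebraMap Kbar (FF p) α) ∧
    0 < P.ord (jNF p - algebraMap Kbar (FF p) β) ∧ A.valuation β = A.valuation α ^ p

end Fermat.Agent.MZ.MOD.Types2

namespace Fermat.Agent.MZ.MOD.Types2

open Fermat.Agent.X0 Fermat.Agent.MZ.CUSP.CuspPlaces1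
open WeierstrassCurve WeierstrassCurve.Affine

/-- **the moduli bridge MOD-E** (as a proposition): the data of S15 give a `G_ℚ`-fixed place of
`FF p` of the right type at every multiplicative prime `r ≠ p`. -/
def ModuliBridge : Prop :=
  ∀ {p : ℕ} [NeZero p] (hp : p.Prime) (hp' : p ∉ ({2, 3, 5, 7, 13} : Finset ℕ))
    (W : WeierstrassCurve ℤ) (hΔ : W.Δ ≠ 0)
    (Q : ((W.map (Int.castRingHom ℚ))⁄(AlgebraicClosure ℚ)).Point)
    (hQfix : ∀ σ : AlgebraicClosure ℚ ≃ₐ[ℚ] AlgebraicClosure ℚ, σ • Q = Q)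
    (hQord : addOrderOf Q = p),
    ∃ x : Place Kbar (FF p),
      (∀ σ : Kbar ≃ₐ[ℚ] Kbar, arithmeticGalois (modularFunctionFieldFull p) σ • x = x) ∧
      ∀ r : ℕ, r.Prime → r ≠ p → (r : ℤ) ∣ W.Δ → ¬ (r : ℤ) ∣ W.c₄ →
        ∀ A : ValuationSubring Kbar, A.LiesOverPrime r →
          (¬ W.InZeroComponentAt A Q → IsZeroType p A x) ∧
          (W.InZeroComponentAt A Q → IsInfType p A x)

end Fermat.Agent.MZ.MOD.Types2
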