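/-
PROGRAMME MZ (S15), chapter MOD (helper2), step **(K3) MOD-R**: a place of `FF p = ℚbar(j, j_p)` of
type `0` (resp. `∞`) at `A ∣ r` has the same reduction as the cusp `0` (resp. `∞`), for ANY place
reduction map at a level `M` with `p ∣ M`, `r ∤ M`.

* `rho h rmap = rmap_* ∘ π^*` on divisors (level `p` → special fibre at level `M`): monotone
  (`rho_mono`), kills `div (1 - c f)` for `f` `A`-integral, `c ∈ 𝔪_A` (`rho_one_sub_eq_zero`), and
  preserves degree zero (`rho_degree_eq_zero`);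
* `rho_single_eq` : the generic comparison lemma;
* `rho_zeroType`, `rho_infType`; `red_zeroType`, `red_infType` : the statements in `Pic⁰`;
* `mem_Kred_zeroType`, `mem_Kred_infType` : the statements for helper9's `Kred D`.
-/
import Mathlib
import Fermat.Agent.MZ.MOD.RedSpec2
import Fermat.Agent.MZ.MOD.Types2
import Fermat.Agent.MZ.CUSP.CuspUnit1
import Fermat.Agent.ES.HECKE.LevelPullback12
import Fermat.Agent.ES.RED.PlaceValue13
import Fermat.Agent.J.DESC.ExtPicHecke22
import Fermat.Agent.RED.TOP.ConstViaR20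
import Fermat.Agent.MZ.TOP.Kred9

set_option autoImplicit false
set_option linter.unusedSectionVars false
set_option linter.unusedVariables false
set_option linter.style.longLine false
set_option linter.style.haveILetI false
set_option synthInstance.maxHeartbeats 400000
set_option maxHeartbeats 1000000

open AlgebraicCurve ModularCurve IntermediateField

noncomputable section

namespace Fermat.Agent.MZ.MOD.Red2

open Fermat.Agent.X0 Fermat.Agent.MZ.MOD.RhoAbs2 Fermat.Agent.MZ.MOD.RedDeg2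
  Fermat.Agent.MZ.MOD.RedSpec2 Fermat.Agent.ES.HECKE.LevelPullback12
  Fermat.Agent.RED.TOP.ConstViaR20

/-! ### `A`-integral functions -/

section AInt

variable (A : ValuationSubring Kbar) {N : ℕ} [NeZero N]

/-- `f ∈ FF N` has a `q`-expansion with coefficients in `A`. -/
def IsAInt (f : FF N) : Prop :=
  ∃ u : LaurentSeries ↥A, coeffMap A.subtype u = (f : LaurentSeries Kbar)

variable {A}

theorem IsAInt.mul {f g : FF N} (hf : IsAInt A f) (hg : IsAInt A g) : IsAInt A (f * g) := by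
  obtain ⟨u, hu⟩ := hf
  obtain ⟨v, hv⟩ := hg
  exact ⟨u * v, by rw [map_mul, hu, hv]; rfl⟩

theorem IsAInt.one : IsAInt A (1 : FF N) := ⟨1, by rw [map_one]; rfl⟩

theorem IsAInt.pow {f : FF N} (hf : IsAInt A f) (n : ℕ) : IsAInt A (f ^ n) := by
  induction n with
  | zero => rw [pow_zero]; exact IsAInt.one
  | succ n ih => rw [pow_succ]; exact ih.mul hf

end AInt

/-! ### the map `ρ = rmap_* ∘ π^*` -/

section Rho

variable {p M : ℕ} [NeZero p] [NeZero M] (h : p ∣ M) {A : ValuationSubring Kbar}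
  (rmap : Place Kbar (FF M) → Place (kRes A) (FRes A M))

/-- `ρ = rmap_* ∘ π^*` on divisors. -/
def rho : Divisor Kbar (FF p) →+ Divisor (kRes A) (FRes A M) :=
  (Finsupp.mapDomain.addMonoidHom rmap).comp (levelPullbackDiv h)

theorem rho_apply (D : Divisor Kbar (FF p)) :
    rho h rmap D = Finsupp.mapDomain rmap (levelPullbackDiv h D) := rfl

theorem lpd_nonneg {D : Divisor Kbar (FF p)} (hD : 0 ≤ D) : 0 ≤ levelPullbackDiv h D := by
  intro w
  rw [levelPullbackDiv_apply]
  exact mul_nonneg (Nat.cast_nonneg _) (hD _)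

theorem rho_nonneg {D : Divisor Kbar (FF p)} (hD : 0 ≤ D) : 0 ≤ rho h rmap D :=
  Finsupp.mapDomain_nonneg (lpd_nonneg h hD)

theorem rho_mono {D D' : Divisor Kbar (FF p)} (hD : D ≤ D') : rho h rmap D ≤ rho h rmap D' := by
  have h1 := rho_nonneg h rmap (sub_nonneg.mpr hD)
  rw [map_sub] at h1
  exact sub_nonneg.mp h1

variable {rmap}
variable (hrm : IsPlaceReductionAlong A (IsLocalRing.residue A) M rmap)

theorem coe_one_sub (c : Kbar) (f : FF p) :
    ((1 - algebraMap Kbar (FF p) c * f : FF p) : LaurentSeries Kbar) =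
      1 - HahnSeries.C c * (f : LaurentSeries Kbar) := by
  have : ((algebraMap Kbar (FF p) c : FF p) : LaurentSeries Kbar) = HahnSeries.C c := by
    show algebraMap Kbar (LaurentSeries Kbar) c = _
    rw [algebraMap_laurentSeries_eq_single, HahnSeries.C_apply]
  rw [← this]
  rfl

include hrm in
/-- **`ρ` kills `div (1 - c f)`** for `f` `A`-integral and `c ∈ 𝔪_A`. -/
theorem rho_one_sub_eq_zero (f : FF p) (hf : IsAInt A f) (c : Kbar) (hc : A.valuation c < 1)
    (D : Divisor Kbar (FF p))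
    (hD : ∀ v : Place Kbar (FF p), D v = v.ord (1 - algebraMap Kbar (FF p) c * f)) :
    rho h rmap D = 0 := by
  obtain ⟨u, hu⟩ := hf
  have hcA : c ∈ A := (A.valuation_le_one_iff c).mp hc.le
  have hres : IsLocalRing.residue ↥A ⟨c, hcA⟩ = 0 := by
    rw [IsLocalRing.residue_eq_zero_iff, A.valuation_lt_one_iff]
    exact hc
  set y : LaurentSeries ↥A := 1 - HahnSeries.C (⟨c, hcA⟩ : ↥A) * u with hy
  have e1 : coeffMap A.subtype y = 1 - HahnSeries.C c * (f : LaurentSeries Kbar) := by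
    rw [hy, map_sub, map_one, map_mul, coeffMap_C, hu]
    rfl
  have hyM : coeffMap A.subtype y ∈ modularFunctionFieldBar M := by
    rw [e1]
    exact sub_mem (one_mem _) (mul_mem (C_mem_bar c)
      (Fermat.Agent.RED.BASE.Interface12.fbar_mono h f.2))
  have e2 : coeffMap (IsLocalRing.residue ↥A) y = 1 := by
    rw [hy, map_sub, map_one, map_mul, coeffMap_C, hres, map_zero, zero_mul, sub_zero]
  have hyk : coeffMap (IsLocalRing.residue ↥A) y ∈ modularFunctionFieldFullC (kRes A) M := by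
    rw [e2]; exact one_mem _
  have hne : coeffMap (IsLocalRing.residue ↥A) y ≠ 0 := by
    rw [e2]; exact one_ne_zero
  have key := hrm.2 y hyM hyk hne (levelPullbackDiv h D) (fun w => by
    rw [levelPullbackDiv_apply_eq_ord h hD w]
    congr 1
    apply Subtype.ext
    rw [coe_levelIncl, coe_one_sub]
    exact e1.symm)
  ext Q
  rw [rho_apply, key Q]
  have e3 : (⟨coeffMap (IsLocalRing.residue ↥A) y, hyk⟩ : FRes A M) = 1 := Subtype.ext e2
  rw [e3, Place.ord_one]
  rfl

include hrm in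
theorem rho_degree_eq_zero {D : Divisor Kbar (FF p)}
    (hD : D ∈ Divisor.degZero (K := Kbar) (F := FF p)) :
    Divisor.degree (rho h rmap D) = 0 := by
  rw [rho_apply, degree_mapDomain_of_deg_eq hrm.1]
  exact Divisor.mem_degZero.mp (levelPullbackDiv_mem_degZero h hD)

end Rho

/-! ### the generic comparison lemma -/

section Generic

open Fermat.Agent.ES.RED.PlaceValue13

variable {p M : ℕ} [NeZero p] [NeZero M] (h : p ∣ M) {A : ValuationSubring Kbar}
  {rmap : Place Kbar (FF M) → Place (kRes A) (FRes A M)}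
  (hrm : IsPlaceReductionAlong A (IsLocalRing.residue A) M rmap)

theorem ord_one_sub_ge (v : Place Kbar (FF p)) (f : FF p) :
    min 0 (v.ord f) ≤ v.ord (1 - f) := by
  rcases eq_or_ne (1 - f) 0 with h0 | h0
  · rw [h0, Place.ord_zero]; exact min_le_left _ _
  · have := FF.ord_sub_ge v h0
    rwa [Place.ord_one] at this

theorem ne_zero_of_ord_ne_zero {v : Place Kbar (FF p)} {f : FF p} (hf : v.ord f ≠ 0) : f ≠ 0 := by
  rintro rfl
  exact hf v.ord_zero

theorem deg_place_p (v : Place Kbar (FF p)) : v.deg = 1 :=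
  Fermat.Agent.RED.TOP.FbarFacts20.deg_eq_one_bar p v

include hrm in
/-- **the generic comparison lemma.**  `X` ("far") and `Y` ("near") have their poles at the two
places `c` (orders `p`, `1`) and `c'` (orders `1`, `p`); `P = (ξ, η)` with `v(ξ) < 0` and
`p · v(η) = v(ξ)`.  Then `ρ(P) = ρ(c)`. -/
theorem rho_single_eq (hp2 : 2 ≤ p)
    (X Y Yi : FF p) (hYYi : Y * Yi = 1) (hXint : IsAInt A X) (hYiint : IsAInt A Yi)
    (c c' : Place Kbar (FF p))
    (hXpoles : ∀ v : Place Kbar (FF p), v.ord X < 0 → v = c ∨ v = c')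
    (hXc : c.ord X = -(p : ℤ)) (hYc : c.ord Y = -1)
    (hXc' : c'.ord X = -1) (hYc' : c'.ord Y = -(p : ℤ))
    (hsep : ∀ w w' : Place Kbar (FF M), w.ord (levelIncl h Y) < 0 →
      0 < w'.ord (levelIncl h Y) → rmap w ≠ rmap w')
    (hdeg1 : ∀ Q : Place (kRes A) (FRes A M), Q.deg = 1)
    (P : Place Kbar (FF p)) (ξ η : Kbar) (hξ : ξ ∉ A)
    (hPX : 0 < P.ord (X - algebraMap Kbar (FF p) ξ))
    (hPY : 0 < P.ord (Y - algebraMap Kbar (FF p) η))
    (hval : A.valuation η ^ p = A.valuation ξ) :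
    rho h rmap (Finsupp.single P 1) = rho h rmap (Finsupp.single c 1) := by
  classical
  have hdivp := Fermat.Agent.RED.TOP.FbarFacts20.hasPrincipalDivisors_bar p
  have hp0 : (0 : ℤ) < p := by exact_mod_cast (by omega : 0 < p)
  have hcc' : c ≠ c' := by
    rintro rfl
    rw [hXc] at hXc'
    omega
  -- the point `(ξ, η)`
  have hξ0 : ξ ≠ 0 := fun h0 => hξ (h0 ▸ A.zero_mem)
  have hvξ : 1 < A.valuation ξ := by
    rw [← not_le, A.valuation_le_one_iff]; exact hξ
  have hvη : 1 < A.valuation η := by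
    by_contra hle
    rw [not_lt] at hle
    have h1 : A.valuation η ^ p ≤ 1 := pow_le_one' hle p
    rw [hval] at h1
    exact absurd hvξ (not_lt.mpr h1)
  have hη0 : η ≠ 0 := by
    rintro rfl
    rw [map_zero] at hvη
    exact not_lt_zero hvη
  have hX0 : X ≠ 0 := ne_zero_of_ord_ne_zero (v := c) (by rw [hXc]; omega)
  have hY0 : Y ≠ 0 := ne_zero_of_ord_ne_zero (v := c) (by rw [hYc]; omega)
  have hYi0 : Yi ≠ 0 := by
    rintro rfl
    rw [mul_zero] at hYYi
    exact zero_ne_one hYYi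
  have hYi_eq : Yi = Y⁻¹ := eq_inv_of_mul_eq_one_right hYYi
  have hordYi : ∀ v : Place Kbar (FF p), v.ord Yi = -v.ord Y := fun v => by
    rw [hYi_eq, v.ord_inv]
  have hcξ : algebraMap Kbar (FF p) ξ ≠ 0 := (map_ne_zero _).mpr hξ0
  have hcη : algebraMap Kbar (FF p) η ≠ 0 := (map_ne_zero _).mpr hη0
  have hXP : 0 ≤ P.ord X := by
    have h1 : X = (X - algebraMap Kbar (FF p) ξ) + algebraMap Kbar (FF p) ξ := by ring
    have h2 := FF.ord_add_ge P (f := X - algebraMap Kbar (FF p) ξ)
      (g := algebraMap Kbar (FF p) ξ) (by rw [← h1]; exact hX0)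
    rw [← h1, FF.ord_algebraMap] at h2
    have := min_eq_right hPX.le
    omega
  have hYP0 : P.ord Y = 0 := by
    have h1 : Y = algebraMap Kbar (FF p) η + (Y - algebraMap Kbar (FF p) η) := by ring
    have h2 := FF.ord_add_eq_of_lt P (f := algebraMap Kbar (FF p) η)
      (g := Y - algebraMap Kbar (FF p) η) hcη (by rw [FF.ord_algebraMap]; exact hPY)
    rw [← h1, FF.ord_algebraMap] at h2
    exact h2
  have hPc : P ≠ c := by
    rintro rfl
    rw [hXc] at hXP
    omega
  have hPc' : P ≠ c' := by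
    rintro rfl
    rw [hXc'] at hXP
    omega
  have hXv : ∀ v : Place Kbar (FF p), v ≠ c → v ≠ c' → 0 ≤ v.ord X := by
    intro v hvc hvc'
    by_contra hneg
    rw [not_le] at hneg
    rcases hXpoles v hneg with h1 | h1
    · exact hvc h1
    · exact hvc' h1
  -- notation
  set e := rho h rmap (Finsupp.single P 1) with he
  set a := rho h rmap (Finsupp.single c 1) with ha
  set b := rho h rmap (Finsupp.single c' 1) with hb
  have ha0 : 0 ≤ a := rho_nonneg h rmap (by
    intro v; rw [Finsupp.single_apply]; split_ifs <;> simp)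
  -- STEP 1
  have hcξi : algebraMap Kbar (FF p) ξ⁻¹ ≠ 0 := (map_ne_zero _).mpr (inv_ne_zero hξ0)
  obtain ⟨f1, hf1⟩ : ∃ f1 : FF p, f1 = 1 - algebraMap Kbar (FF p) ξ⁻¹ * X := ⟨_, rfl⟩
  have hordξX : ∀ v : Place Kbar (FF p), v.ord (algebraMap Kbar (FF p) ξ⁻¹ * X) = v.ord X :=
    fun v => by rw [v.ord_mul hcξi hX0, FF.ord_algebraMap, zero_add]
  have hf1c : c.ord f1 ≠ 0 := by
    have h1 : f1 = -(algebraMap Kbar (FF p) ξ⁻¹ * X) + 1 := by rw [hf1]; ring
    have hne : -(algebraMap Kbar (FF p) ξ⁻¹ * X) ≠ 0 := neg_ne_zero.mpr (mul_ne_zero hcξi hX0)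
    have h2 := FF.ord_add_eq_of_lt c (f := -(algebraMap Kbar (FF p) ξ⁻¹ * X)) (g := 1) hne
      (by rw [FF.ord_neg, hordξX, hXc, Place.ord_one]; omega)
    rw [← h1, FF.ord_neg, hordξX, hXc] at h2
    omega
  have hf1ne : f1 ≠ 0 := ne_zero_of_ord_ne_zero hf1c
  obtain ⟨D1, hD1, -⟩ := hdivp.exists_divisor f1 hf1ne
  have hρ1 : rho h rmap D1 = 0 :=
    rho_one_sub_eq_zero h hrm X hXint ξ⁻¹
      (by rw [map_inv₀]; exact inv_lt_one_of_one_lt₀ hvξ) D1 (fun v => by rw [hD1 v, hf1])
  have hL1 : Finsupp.single P (1 : ℤ) - (p : ℤ) • Finsupp.single c (1 : ℤ) -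
      Finsupp.single c' (1 : ℤ) ≤ D1 := by
    intro v
    rw [hD1 v]
    have hge : min 0 (v.ord X) ≤ v.ord f1 := by
      have := ord_one_sub_ge v (algebraMap Kbar (FF p) ξ⁻¹ * X)
      rwa [hordξX, ← hf1] at this
    simp only [Finsupp.coe_sub, Finsupp.coe_smul, Pi.sub_apply, Pi.smul_apply,
      Finsupp.single_apply, smul_eq_mul]
    by_cases hvP : v = P
    · rw [if_pos hvP.symm, if_neg (fun hh => hPc (hvP.symm.trans hh.symm)),
        if_neg (fun hh => hPc' (hvP.symm.trans hh.symm))]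
      have hinv : algebraMap Kbar (FF p) ξ⁻¹ * algebraMap Kbar (FF p) ξ = 1 := by
        rw [← map_mul, inv_mul_cancel₀ hξ0, map_one]
      have h1 : f1 = algebraMap Kbar (FF p) (-ξ⁻¹) * (X - algebraMap Kbar (FF p) ξ) := by
        rw [hf1, map_neg]
        linear_combination -hinv
      have hne2 : X - algebraMap Kbar (FF p) ξ ≠ 0 := ne_zero_of_ord_ne_zero hPX.ne'
      rw [h1, v.ord_mul ((map_ne_zero _).mpr (neg_ne_zero.mpr (inv_ne_zero hξ0))) hne2,
        FF.ord_algebraMap, hvP]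
      omega
    · rw [if_neg (fun hh => hvP hh.symm)]
      by_cases hvc : v = c
      · rw [if_pos hvc.symm, if_neg (fun hh => hcc' (hvc.symm.trans hh.symm))]
        rw [hvc, hXc, min_eq_right (show -(p : ℤ) ≤ 0 by omega)] at hge
        rw [hvc]
        omega
      · rw [if_neg (fun hh => hvc hh.symm)]
        by_cases hvc' : v = c'
        · rw [if_pos hvc'.symm]
          rw [hvc', hXc', min_eq_right (show (-1 : ℤ) ≤ 0 by omega)] at hge
          rw [hvc']
          omega
        · rw [if_neg (fun hh => hvc' hh.symm)]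
          rw [min_eq_left (hXv v hvc hvc')] at hge
          omega
  have h1 : ∀ Q, e Q ≤ p * a Q + b Q := by
    intro Q
    have h2 := rho_mono h rmap hL1 Q
    rw [hρ1, map_sub, map_sub, map_zsmul] at h2
    simp only [Finsupp.coe_sub, Finsupp.coe_smul, Pi.sub_apply, Pi.smul_apply,
      Finsupp.coe_zero, Pi.zero_apply, smul_eq_mul] at h2
    rw [he, ha, hb]
    linarith
  -- STEP 2
  obtain ⟨n, hn⟩ : ∃ n : ℕ, p = n + 1 := ⟨p - 1, by omega⟩
  have hn1 : 1 ≤ n := by omega
  have hnZ : (n : ℤ) = p - 1 := by rw [hn]; push_cast; ring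
  set γ : Kbar := η ^ n / ξ with hγ
  have hγ0 : γ ≠ 0 := div_ne_zero (pow_ne_zero n hη0) hξ0
  have hγξ : γ * ξ = η ^ n := by rw [hγ]; field_simp
  have hγval : A.valuation γ < 1 := by
    have hvη0 : A.valuation η ≠ 0 := (ne_of_gt (lt_trans zero_lt_one hvη))
    have h2 : A.valuation γ * A.valuation η = 1 := by
      have h3 : A.valuation γ * A.valuation ξ = A.valuation η ^ n := by
        rw [← map_mul, hγξ, map_pow]
      rw [← hval, hn, pow_succ, ← mul_assoc] at h3
      have h4 : A.valuation η ^ n ≠ 0 := pow_ne_zero n hvη0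
      have h5 : A.valuation γ * A.valuation η * A.valuation η ^ n = 1 * A.valuation η ^ n := by
        rw [mul_right_comm, h3, one_mul]
      exact mul_right_cancel₀ h4 h5
    have h6 : A.valuation γ = (A.valuation η)⁻¹ := eq_inv_of_mul_eq_one_left h2
    rw [h6]
    exact inv_lt_one_of_one_lt₀ hvη
  have hcγ : algebraMap Kbar (FF p) γ ≠ 0 := (map_ne_zero _).mpr hγ0
  obtain ⟨g2, hg2⟩ : ∃ g2 : FF p, g2 = algebraMap Kbar (FF p) γ * (X * Yi ^ n) := ⟨_, rfl⟩
  have hg2ne : g2 ≠ 0 := by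
    rw [hg2]; exact mul_ne_zero hcγ (mul_ne_zero hX0 (pow_ne_zero n hYi0))
  have hordg2 : ∀ v : Place Kbar (FF p), v.ord g2 = v.ord X - n * v.ord Y := by
    intro v
    rw [hg2, v.ord_mul hcγ (mul_ne_zero hX0 (pow_ne_zero n hYi0)),
      v.ord_mul hX0 (pow_ne_zero n hYi0), FF.ord_algebraMap, FF.ord_pow, hordYi]
    ring
  obtain ⟨f2, hf2⟩ : ∃ f2 : FF p, f2 = 1 - g2 := ⟨_, rfl⟩
  have hf2c : c.ord f2 ≠ 0 := by
    have h2 : f2 = -g2 + 1 := by rw [hf2]; ring
    have h3 := FF.ord_add_eq_of_lt c (f := -g2) (g := 1) (neg_ne_zero.mpr hg2ne)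
      (by rw [FF.ord_neg, hordg2, hXc, hYc, Place.ord_one, hnZ]; omega)
    rw [← h2, FF.ord_neg, hordg2, hXc, hYc, hnZ] at h3
    omega
  have hf2ne : f2 ≠ 0 := ne_zero_of_ord_ne_zero hf2c
  obtain ⟨D2, hD2, -⟩ := hdivp.exists_divisor f2 hf2ne
  have hρ2 : rho h rmap D2 = 0 :=
    rho_one_sub_eq_zero h hrm (X * Yi ^ n) (hXint.mul (hYiint.pow n)) γ hγval D2
      (fun v => by rw [hD2 v, hf2, hg2])
  obtain ⟨DY, hDY, -⟩ := hdivp.exists_divisor Y hY0
  set Zy : Divisor Kbar (FF p) := DY ⊔ 0 with hZy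
  have hZy_apply : ∀ v, Zy v = max (v.ord Y) 0 := fun v => by
    rw [hZy, Finsupp.sup_apply, hDY v]; rfl
  -- the value at `P`
  have hgen := Fermat.Agent.RED.TOP.FbarFacts20.isGen_j p
  have hXmem : X ∈ P.toValuationSubring := FF.mem_of_ord_nonneg P hXP
  have hYmem : Y ∈ P.toValuationSubring := FF.mem_of_ord_nonneg P (by rw [hYP0])
  have hφX : valueHom hgen P ⟨X, hXmem⟩ = ξ :=
    (valueHom_eq_iff hgen P ⟨X, hXmem⟩ ξ).mpr (Or.inr hPX)
  have hφY : valueHom hgen P ⟨Y, hYmem⟩ = η :=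
    (valueHom_eq_iff hgen P ⟨Y, hYmem⟩ η).mpr (Or.inr hPY)
  set T : P.toValuationSubring :=
    (⟨Y, hYmem⟩ : P.toValuationSubring) ^ n -
      algebraMap Kbar P.toValuationSubring γ * ⟨X, hXmem⟩ with hT
  have hφT : valueHom hgen P T = 0 := by
    rw [hT, map_sub, map_pow, map_mul, AlgHom.commutes, hφX, hφY]
    show η ^ n - γ * ξ = 0
    rw [hγξ, sub_self]
  have hTcoe : (T : FF p) = Y ^ n - algebraMap Kbar (FF p) γ * X := rfl
  have hf2T : f2 = Yi ^ n * (Y ^ n - algebraMap Kbar (FF p) γ * X) := by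
    rw [hf2, hg2, mul_sub, ← mul_pow, mul_comm Yi Y, hYYi, one_pow]
    ring
  have hTne : (T : FF p) ≠ 0 := by
    intro h0
    rw [hTcoe] at h0
    rw [hf2T, h0, mul_zero] at hf2ne
    exact hf2ne rfl
  have hTpos : 0 < P.ord (T : FF p) :=
    ((valueHom_eq_zero_iff_ord hgen P T).mp hφT).resolve_left hTne
  have hf2P : 1 ≤ P.ord f2 := by
    rw [hf2T, ← hTcoe, P.ord_mul (pow_ne_zero n hYi0) hTne, FF.ord_pow, hordYi, hYP0]
    omega
  have hL2 : Finsupp.single P (1 : ℤ) - Finsupp.single c (1 : ℤ) - (n : ℤ) • Zy ≤ D2 := by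
    intro v
    rw [hD2 v]
    have hge : min 0 (v.ord X - n * v.ord Y) ≤ v.ord f2 := by
      have := ord_one_sub_ge v g2
      rwa [hordg2, ← hf2] at this
    simp only [Finsupp.coe_sub, Finsupp.coe_smul, Pi.sub_apply, Pi.smul_apply,
      Finsupp.single_apply, smul_eq_mul, hZy_apply]
    by_cases hvP : v = P
    · rw [if_pos hvP.symm, if_neg (fun hh => hPc (hvP.symm.trans hh.symm)), hvP, hYP0, max_self,
        mul_zero]
      omega
    · rw [if_neg (fun hh => hvP hh.symm)]
      by_cases hvc : v = c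
      · rw [if_pos hvc.symm, hvc, hYc, max_eq_right (show (-1 : ℤ) ≤ 0 by omega), mul_zero]
        rw [hvc, hXc, hYc, hnZ,
          min_eq_right (show -(p : ℤ) - ((p : ℤ) - 1) * -1 ≤ 0 by omega)] at hge
        omega
      · rw [if_neg (fun hh => hvc hh.symm)]
        by_cases hvc' : v = c'
        · rw [hvc', hYc', max_eq_right (show -(p : ℤ) ≤ 0 by omega), mul_zero]
          have hnp : (1 : ℤ) ≤ n * p := by
            have h2 : (1 : ℤ) ≤ n := by exact_mod_cast hn1
            nlinarith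
          rw [hvc', hXc', hYc',
            min_eq_left (show (0 : ℤ) ≤ -1 - n * -(p : ℤ) by linarith)] at hge
          omega
        · have hXnn := hXv v hvc hvc'
          rcases le_or_gt (v.ord Y) 0 with hY | hY
          · rw [max_eq_right hY, mul_zero]
            have hnY : (n : ℤ) * v.ord Y ≤ 0 :=
              mul_nonpos_of_nonneg_of_nonpos (Int.natCast_nonneg n) hY
            rw [min_eq_left (show (0 : ℤ) ≤ v.ord X - n * v.ord Y by linarith)] at hge
            omega
          · rw [max_eq_left hY.le]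
            have hnY : 0 ≤ (n : ℤ) * v.ord Y := mul_nonneg (Int.natCast_nonneg n) hY.le
            rcases le_total 0 (v.ord X - n * v.ord Y) with h3 | h3
            · rw [min_eq_left h3] at hge
              omega
            · rw [min_eq_right h3] at hge
              omega
  set z := rho h rmap Zy with hz
  have h2 : ∀ Q, e Q ≤ a Q + n * z Q := by
    intro Q
    have h3 := rho_mono h rmap hL2 Q
    rw [hρ2, map_sub, map_sub, map_zsmul] at h3
    simp only [Finsupp.coe_sub, Finsupp.coe_smul, Pi.sub_apply, Pi.smul_apply,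
      Finsupp.coe_zero, Pi.zero_apply, smul_eq_mul] at h3
    rw [he, ha, hz]
    linarith
  -- STEP 3: disjointness
  have hdisj : ∀ Q, z Q ≠ 0 → a Q = 0 ∧ b Q = 0 := by
    intro Q hzQ
    obtain ⟨w', hw'Q, hw'⟩ := exists_of_mapDomain_ne_zero rmap _ Q hzQ
    rw [levelPullbackDiv_apply] at hw'
    have he' : (Place.ramificationIndexAlong (levelIncl h) w' : ℤ) ≠ 0 := left_ne_zero_of_mul hw'
    have hZ' := right_ne_zero_of_mul hw'
    have hpos : 0 < w'.ord (levelIncl h Y) := by
      rw [Place.ord_restrictAlong (levelIncl h) (levelIncl_isIntegral h)]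
      rw [hZy_apply] at hZ'
      have h3 : 0 < (w'.restrictAlong (levelIncl h) (levelIncl_isIntegral h)).ord Y := by
        by_contra hcon
        rw [not_lt] at hcon
        exact hZ' (max_eq_right hcon)
      have h4 : (0 : ℤ) < Place.ramificationIndexAlong (levelIncl h) w' := by
        have := Int.natCast_nonneg (Place.ramificationIndexAlong (levelIncl h) w')
        omega
      exact mul_pos h4 h3
    have key : ∀ c₀ : Place Kbar (FF p), c₀.ord Y < 0 →
        rho h rmap (Finsupp.single c₀ 1) Q = 0 := by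
      intro c₀ hc₀
      by_contra hne
      obtain ⟨w, hwQ, hw⟩ := exists_of_mapDomain_ne_zero rmap _ Q hne
      rw [levelPullbackDiv_apply, Finsupp.single_apply] at hw
      split_ifs at hw with hc
      · have h4 : (0 : ℤ) < Place.ramificationIndexAlong (levelIncl h) w := by
          have := Int.natCast_nonneg (Place.ramificationIndexAlong (levelIncl h) w)
          have := left_ne_zero_of_mul hw
          omega
        have hneg : w.ord (levelIncl h Y) < 0 := by
          rw [Place.ord_restrictAlong (levelIncl h) (levelIncl_isIntegral h), ← hc]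
          exact mul_neg_of_pos_of_neg h4 hc₀
        exact hsep w w' hneg hpos (hwQ.trans hw'Q.symm)
      · simp at hw
    exact ⟨key c (by rw [hYc]; omega), key c' (by rw [hYc']; omega)⟩
  -- STEP 4
  have hle : ∀ Q, e Q ≤ a Q := by
    intro Q
    by_cases hzQ : z Q = 0
    · have := h2 Q
      rw [hzQ, mul_zero, add_zero] at this
      exact this
    · obtain ⟨haQ, hbQ⟩ := hdisj Q hzQ
      have := h1 Q
      rw [haQ, hbQ] at this
      rw [haQ]
      linarith
  -- STEP 5
  have hdz : Finsupp.single c (1 : ℤ) - Finsupp.single P (1 : ℤ) ∈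
      Divisor.degZero (K := Kbar) (F := FF p) := by
    rw [Divisor.mem_degZero, map_sub, Divisor.degree_single, Divisor.degree_single,
      deg_place_p, deg_place_p, sub_self]
  have hdeg0 := rho_degree_eq_zero h hrm hdz
  rw [map_sub] at hdeg0
  ext Q
  have h3 := eq_zero_of_nonneg_of_degree_eq_zero (a - e)
    (fun v => by rw [Finsupp.sub_apply]; exact sub_nonneg.mpr (hle v)) hdeg0 Q (hdeg1 Q)
  rw [Finsupp.sub_apply] at h3
  omega

end Generic

/-! ### integral expansions of `j`, `j_p` and their inverses -/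

section Series

variable (R : Type*) [CommRing R]

/-- the `q`-expansion of `1/j`, over any ring. -/
def jInvS : LaurentSeries R :=
  HahnSeries.single (1 : ℤ) (1 : R) *
    HahnSeries.ofPowerSeries ℤ R (PowerSeries.invOfUnit (jNum.map (Int.castRingHom R)) 1)

theorem jqModC_mul_jInvS : jqModC R * jInvS R = 1 := by
  have hc : PowerSeries.constantCoeff (jNum.map (Int.castRingHom R)) = ((1 : Rˣ) : R) := by
    rw [← PowerSeries.coeff_zero_eq_constantCoeff_apply, PowerSeries.coeff_map,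
      PowerSeries.coeff_zero_eq_constantCoeff_apply, constantCoeff_jNum]
    simp
  have h1 := PowerSeries.mul_invOfUnit (jNum.map (Int.castRingHom R)) 1 hc
  rw [jqModC, jInvS]
  calc HahnSeries.single (-1 : ℤ) (1 : R) *
        HahnSeries.ofPowerSeries ℤ R (jNum.map (Int.castRingHom R)) *
        (HahnSeries.single (1 : ℤ) (1 : R) *
          HahnSeries.ofPowerSeries ℤ R
            (PowerSeries.invOfUnit (jNum.map (Int.castRingHom R)) 1))
      = (HahnSeries.single (-1 : ℤ) (1 : R) * HahnSeries.single (1 : ℤ) (1 : R)) *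
        (HahnSeries.ofPowerSeries ℤ R (jNum.map (Int.castRingHom R)) *
          HahnSeries.ofPowerSeries ℤ R
            (PowerSeries.invOfUnit (jNum.map (Int.castRingHom R)) 1)) := by ring
    _ = 1 := by
      rw [HahnSeries.single_mul_single, ← map_mul, h1, map_one, mul_one]
      simp

end Series

section IntegralReps

variable (A : ValuationSubring Kbar) (p : ℕ) [NeZero p]

open Fermat.Agent.MZ.CUSP.CuspPlaces1

theorem coe_jNF : ((jNF p : FF p) : LaurentSeries Kbar) = qExpand Kbar p (jqModC Kbar) :=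
  coe_jpM (M := p) dvd_rfl

theorem isAInt_jF : IsAInt A (jF p) := ⟨jqModC ↥A, by rw [coeffMap_jqModC, coe_jM]⟩

theorem isAInt_jNF : IsAInt A (jNF p) :=
  ⟨qExpand ↥A p (jqModC ↥A), by rw [coeffMap_qExpand, coeffMap_jqModC, coe_jNF]⟩

theorem isAInt_jF_inv : IsAInt A (jF p)⁻¹ := by
  refine ⟨jInvS ↥A, ?_⟩
  rw [IntermediateField.coe_inv, coe_jM]
  apply eq_inv_of_mul_eq_one_right
  rw [← coeffMap_jqModC A.subtype, ← map_mul, jqModC_mul_jInvS, map_one]

theorem isAInt_jNF_inv : IsAInt A (jNF p)⁻¹ := by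
  refine ⟨qExpand ↥A p (jInvS ↥A), ?_⟩
  rw [IntermediateField.coe_inv, coe_jNF]
  apply eq_inv_of_mul_eq_one_right
  rw [← coeffMap_jqModC A.subtype, ← coeffMap_qExpand, ← map_mul, ← map_mul, jqModC_mul_jInvS,
    map_one, map_one]

end IntegralReps

/-! ### the two types -/

section Types

open Fermat.Agent.MZ.CUSP.CuspPlaces1 Fermat.Agent.MZ.CUSP.CuspUnit1 Fermat.Agent.MZ.MOD.Types2
open Fermat.Agent.RED.BASE.QExpMem19

variable {p M : ℕ} [NeZero p] [NeZero M] {A : ValuationSubring Kbar}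
  {rmap : Place Kbar (FF M) → Place (kRes A) (FRes A M)}
  (hrm : IsPlaceReductionAlong A (IsLocalRing.residue A) M rmap)
  {r : ℕ} (hr : r.Prime) (hA : A.LiesOverPrime r) (hrM : ¬ r ∣ M)

theorem levelIncl_jF (hpM : p ∣ M) : levelIncl hpM (jF p) = jF M := by
  apply Subtype.ext
  rw [coe_levelIncl, coe_jM, coe_jM]

theorem levelIncl_jNF (hpM : p ∣ M) : levelIncl hpM (jNF p) = jpM hpM := by
  apply Subtype.ext
  rw [coe_levelIncl, coe_jNF, coe_jpM]

theorem jNF_mem_Rsub : jNF p ∈ Rsub p :=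
  Algebra.subset_adjoin ⟨p, inferInstance, dvd_rfl, rfl⟩

/-- at prime level the poles of `j_p` are the two cusps. -/
theorem poles_jNF_prime (hp : p.Prime) (v : Place Kbar (FF p)) (hv : v.ord (jNF p) < 0) :
    v = cuspInf p ∨ v = cuspZero p := by
  apply poles_jF_prime p hp v
  by_contra hcon
  rw [not_lt] at hcon
  have := ord_nonneg_of_isNice (jNF p) (isNice_of_Rsub (⟨jNF p, jNF_mem_Rsub⟩ : Rsub p)) v hcon
  omega

include hr hA hrM in
theorem deg_place_res (Q : Place (kRes A) (FRes A M)) : Q.deg = 1 := by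
  haveI : IsAlgClosed (kRes A) := Fermat.Agent.ES.KRON.KronInst10.isAlgClosed_residueField A
  exact FF.deg_eq_one (isGen_jRes hr hA hrM) Q

include hrm hr hA hrM in
/-- **(K3), type `0`, on divisors**: `ρ(P) = ρ(cusp 0)`. -/
theorem rho_zeroType (hp : p.Prime) (hpM : p ∣ M) (P : Place Kbar (FF p))
    (hP : IsZeroType p A P) :
    rho hpM rmap (Finsupp.single P 1) = rho hpM rmap (Finsupp.single (cuspZero p) 1) := by
  obtain ⟨α, β, hα, hPα, hPβ, hval⟩ := hP
  refine rho_single_eq hpM hrm hp.two_le (jF p) (jNF p) (jNF p)⁻¹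
    (mul_inv_cancel₀ (jNF_ne_zero p)) (isAInt_jF A p) (isAInt_jNF_inv A p)
    (cuspZero p) (cuspInf p) ?_ (ord_cuspZero_jF p) (ord_cuspZero_jNF p) (ord_cuspInf_jF p)
    (ord_cuspInf_jNF p) ?_ (deg_place_res hr hA hrM) P α β hα hPα hPβ hval
  · intro v hv
    exact (poles_jF_prime p hp v hv).symm
  · intro w w' hw hw'
    rw [levelIncl_jNF] at hw hw'
    exact rmap_ne_of_jp hrm hr hA hrM hp hpM hw hw'

include hrm hr hA hrM in
/-- **(K3), type `∞`, on divisors**: `ρ(P) = ρ(cusp ∞)`. -/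
theorem rho_infType (hp : p.Prime) (hpM : p ∣ M) (P : Place Kbar (FF p))
    (hP : IsInfType p A P) :
    rho hpM rmap (Finsupp.single P 1) = rho hpM rmap (Finsupp.single (cuspInf p) 1) := by
  obtain ⟨α, β, hα, hPα, hPβ, hval⟩ := hP
  have hvα : 1 < A.valuation α := by
    rw [← not_le, A.valuation_le_one_iff]; exact hα
  have hβ : β ∉ A := by
    rw [← A.valuation_le_one_iff, not_le, hval]
    exact one_lt_pow₀ hvα (NeZero.ne p)
  refine rho_single_eq hpM hrm hp.two_le (jNF p) (jF p) (jF p)⁻¹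
    (mul_inv_cancel₀ (jF_ne_zero p)) (isAInt_jNF A p) (isAInt_jF_inv A p)
    (cuspInf p) (cuspZero p) ?_ (ord_cuspInf_jNF p) (ord_cuspInf_jF p) (ord_cuspZero_jNF p)
    (ord_cuspZero_jF p) ?_ (deg_place_res hr hA hrM) P β α hβ hPβ hPα hval.symm
  · intro v hv
    exact poles_jNF_prime hp v hv
  · intro w w' hw hw'
    rw [levelIncl_jF] at hw hw'
    exact rmap_ne_of_j hrm hr hA hrM hw hw'

theorem sub_single_mem_degZero (P c : Place Kbar (FF p)) :
    Finsupp.single P (1 : ℤ) - Finsupp.single c (1 : ℤ) ∈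
      Divisor.degZero (K := Kbar) (F := FF p) := by
  rw [Divisor.mem_degZero, map_sub, Divisor.degree_single, Divisor.degree_single,
    deg_place_p, deg_place_p, sub_self]

theorem red_eq_zero_of_rho_eq (hpM : p ∣ M)
    (hgen : PrincipalGeneratedByIntegral A (IsLocalRing.residue A) M)
    (P c : Place Kbar (FF p))
    (hρ : rho hpM rmap (Finsupp.single P 1) = rho hpM rmap (Finsupp.single c 1))
    (hmem : Finsupp.single P (1 : ℤ) - Finsupp.single c (1 : ℤ) ∈
      Divisor.degZero (K := Kbar) (F := FF p)) :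
    reductionPic0Along rmap hrm hgen (levelPullback hpM (Pic0.mk ⟨_, hmem⟩)) = 0 := by
  rw [levelPullback_mk, reductionPic0Along_mk]
  have h0 : reductionDegZeroAlong rmap hrm.1
      ⟨levelPullbackDiv hpM (Finsupp.single P (1 : ℤ) - Finsupp.single c (1 : ℤ)),
        levelPullbackDiv_mem_degZero hpM hmem⟩ = 0 := by
    apply Subtype.ext
    rw [coe_reductionDegZeroAlong]
    show rho hpM rmap (Finsupp.single P (1 : ℤ) - Finsupp.single c (1 : ℤ)) = 0
    rw [map_sub, hρ, sub_self]
  rw [h0]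
  rfl

include hr hA hrM in
/-- **(K3), type `0`**: the class of `(P) − (0)` dies in the special fibre at level `M`. -/
theorem red_zeroType (hp : p.Prime) (hpM : p ∣ M)
    (hgen : PrincipalGeneratedByIntegral A (IsLocalRing.residue A) M)
    (P : Place Kbar (FF p)) (hP : IsZeroType p A P)
    (hmem : Finsupp.single P (1 : ℤ) - Finsupp.single (cuspZero p) (1 : ℤ) ∈
      Divisor.degZero (K := Kbar) (F := FF p)) :
    reductionPic0Along rmap hrm hgen (levelPullback hpM (Pic0.mk ⟨_, hmem⟩)) = 0 :=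
  red_eq_zero_of_rho_eq hrm hpM hgen P (cuspZero p) (rho_zeroType hrm hr hA hrM hp hpM P hP) hmem

include hr hA hrM in
/-- **(K3), type `∞`**: the class of `(P) − (∞)` dies in the special fibre at level `M`. -/
theorem red_infType (hp : p.Prime) (hpM : p ∣ M)
    (hgen : PrincipalGeneratedByIntegral A (IsLocalRing.residue A) M)
    (P : Place Kbar (FF p)) (hP : IsInfType p A P)
    (hmem : Finsupp.single P (1 : ℤ) - Finsupp.single (cuspInf p) (1 : ℤ) ∈
      Divisor.degZero (K := Kbar) (F := FF p)) :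
    reductionPic0Along rmap hrm hgen (levelPullback hpM (Pic0.mk ⟨_, hmem⟩)) = 0 :=
  red_eq_zero_of_rho_eq hrm hpM hgen P (cuspInf p) (rho_infType hrm hr hA hrM hp hpM P hP) hmem

end Types

/-! ### the statements for `Kred` -/

section KredSection

open Fermat.Agent.MZ.CUSP.CuspPlaces1 Fermat.Agent.MZ.MOD.Types2 Fermat.Agent.MZ.TOP.Kred9
open Fermat.Agent.RED.Interface4

variable {p r : ℕ} [NeZero p] {A : ValuationSubring Kbar}

/-- **(K3), type `0`**: `cl((P) − (0)) ∈ Kred D`. -/
theorem mem_Kred_zeroType (hp : p.Prime) (hr : r.Prime) (hrp : r ≠ p) (hA : A.LiesOverPrime r)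
    (D : RedData r p A) (P : Place Kbar (FF p)) (hP : IsZeroType p A P)
    (hmem : Finsupp.single P (1 : ℤ) - Finsupp.single (cuspZero p) (1 : ℤ) ∈
      Divisor.degZero (K := Kbar) (F := FF p)) :
    (Pic0.mk ⟨_, hmem⟩ : JZero p) ∈ Kred D := by
  have hrp' : ¬ r ∣ p := fun hd => hrp ((Nat.prime_dvd_prime_iff_eq hr hp).mp hd)
  rw [mem_Kred]
  exact red_zeroType D.hr hr hA (not_dvd_auxLevel hr hrp') hp (dvd_auxLevel r p) D.hgen P hP hmem

/-- **(K3), type `∞`**: `cl((P) − (∞)) ∈ Kred D`. -/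
theorem mem_Kred_infType (hp : p.Prime) (hr : r.Prime) (hrp : r ≠ p) (hA : A.LiesOverPrime r)
    (D : RedData r p A) (P : Place Kbar (FF p)) (hP : IsInfType p A P)
    (hmem : Finsupp.single P (1 : ℤ) - Finsupp.single (cuspInf p) (1 : ℤ) ∈
      Divisor.degZero (K := Kbar) (F := FF p)) :
    (Pic0.mk ⟨_, hmem⟩ : JZero p) ∈ Kred D := by
  have hrp' : ¬ r ∣ p := fun hd => hrp ((Nat.prime_dvd_prime_iff_eq hr hp).mp hd)
  rw [mem_Kred]
  exact red_infType D.hr hr hA (not_dvd_auxLevel hr hrp') hp (dvd_auxLevel r p) D.hgen P hP hmem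

end KredSection

end Fermat.Agent.MZ.MOD.Red2
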