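/-
PROGRAMME MZ (S15), chapter MOD (helper2): **uniqueness and `G_ℚ`-invariance of typed places.**

A place of `FF p` over `j = α` (`v_A(α) < 0`) of type `∞` at `A ∣ r` is unique
(`infType_unique`); a place over `j_p = β` of type `0` is unique (`zeroType_unique`, by the Fricke
involution).  Consequently a place `x = (α, β)` with `α, β ∈ ℚ` which is typed at one place `A` is
fixed by `G_ℚ` (`galois_smul_eq_of_typed`).

Key input besides (K3): the `q`-expansion place `Q∞` of the special fibre (`qPlace`), at which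
`ρ(cusp ∞)` has multiplicity one and `ρ(cusp 0)` multiplicity zero (`rho_cuspInf_qPlace`,
`rho_cuspZero_qPlace`).
-/
import Mathlib
import Fermat.Agent.MZ.MOD.Red2
import Fermat.Agent.X0.LaurentPlace
import Fermat.Agent.ORD.IFACEN.FrickeGal9

set_option autoImplicit false
set_option linter.unusedSectionVars false
set_option linter.unusedVariables false
set_option linter.style.longLine false
set_option linter.style.haveILetI false
set_option synthInstance.maxHeartbeats 400000
set_option maxHeartbeats 1000000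

open AlgebraicCurve ModularCurve IntermediateField

noncomputable section

namespace Fermat.Agent.MZ.MOD.Unique2

open Fermat.Agent.X0 Fermat.Agent.MZ.MOD.RhoAbs2 Fermat.Agent.MZ.MOD.RedDeg2
  Fermat.Agent.MZ.MOD.RedSpec2 Fermat.Agent.MZ.MOD.Red2 Fermat.Agent.ES.HECKE.LevelPullback12
  Fermat.Agent.RED.TOP.ConstViaR20 Fermat.Agent.MZ.CUSP.CuspPlaces1 Fermat.Agent.MZ.CUSP.CuspUnit1
  Fermat.Agent.MZ.MOD.Types2

/-! ### the `q`-expansion place of the special fibre -/

section QPlace

variable (A : ValuationSubring Kbar) (M : ℕ) [NeZero M]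

/-- the inclusion of the special fibre field into Laurent series. -/
def incl : ↥(FRes A M) →+* LaurentSeries (kRes A) := (FRes A M).val.toRingHom

theorem incl_apply (f : ↥(FRes A M)) : incl A M f = (f : LaurentSeries (kRes A)) := rfl

theorem incl_const (c : kRes A) :
    incl A M (algebraMap (kRes A) ↥(FRes A M) c) = HahnSeries.C c := by
  rw [incl_apply]
  exact coe_algebraMap_fullC c

theorem order_jRes : ((jRes (M := M) A : ↥(FRes A M)) : LaurentSeries (kRes A)).order = -1 :=
  Fermat.Agent.IG.PR.TransferPoly20.order_jqModC (kRes A)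

theorem jRes_ne_zero : jRes (M := M) A ≠ 0 := by
  intro h
  have := order_jRes A M
  rw [h] at this
  simp at this

theorem incl_nontrivial : ∃ f : ↥(FRes A M), f ≠ 0 ∧ (incl A M f).order ≠ 0 :=
  ⟨jRes A, jRes_ne_zero A M, by rw [incl_apply, order_jRes]; decide⟩

/-- **the `q`-expansion place `Q∞`** of the special fibre at level `M`. -/
def qPlace : Place (kRes A) ↥(FRes A M) :=
  LaurentPlace.embPlace (incl A M) (incl_const A M) (incl_nontrivial A M)

theorem ord_qPlace_jRes : (qPlace A M).ord (jRes (M := M) A) = -1 := by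
  obtain ⟨m, hm, hspec⟩ :=
    LaurentPlace.embPlace_spec (incl A M) (incl_const A M) (incl_nontrivial A M)
  have h1 := hspec (jRes A) (jRes_ne_zero A M)
  rw [incl_apply, order_jRes] at h1
  have hdvd : (m : ℤ) ∣ 1 := ⟨-(qPlace A M).ord (jRes (M := M) A), by
    show (1 : ℤ) = m * -(LaurentPlace.embPlace (incl A M) (incl_const A M)
      (incl_nontrivial A M)).ord (jRes (M := M) A)
    linarith⟩
  have hm1 : (m : ℤ) = 1 := Int.eq_one_of_dvd_one (by positivity) hdvd
  rw [hm1, one_mul] at h1
  show (LaurentPlace.embPlace (incl A M) (incl_const A M)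
      (incl_nontrivial A M)).ord (jRes (M := M) A) = -1
  linarith

end QPlace

/-! ### exactness of `ρ` for `A`-integral functions -/

section Exact

variable {p M : ℕ} [NeZero p] [NeZero M] (h : p ∣ M) {A : ValuationSubring Kbar}
  {rmap : Place Kbar (FF M) → Place (kRes A) (FRes A M)}
  (hrm : IsPlaceReductionAlong A (IsLocalRing.residue A) M rmap)

include hrm in
/-- **`ρ(div f) = div f̃`** for `f` `A`-integral with nonzero reduction `f̃` in the special fibre. -/
theorem rho_div_apply (f : FF p) (u : LaurentSeries ↥A)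
    (hu : coeffMap A.subtype u = (f : LaurentSeries Kbar)) (fk : ↥(FRes A M))
    (huk : coeffMap (IsLocalRing.residue ↥A) u = (fk : LaurentSeries (kRes A))) (hfk : fk ≠ 0)
    (D : Divisor Kbar (FF p)) (hD : ∀ v : Place Kbar (FF p), D v = v.ord f)
    (Q : Place (kRes A) ↥(FRes A M)) : rho h rmap D Q = Q.ord fk := by
  have hyM : coeffMap A.subtype u ∈ modularFunctionFieldBar M := by
    rw [hu]
    exact Fermat.Agent.RED.BASE.Interface12.fbar_mono h f.2
  have hyk : coeffMap (IsLocalRing.residue ↥A) u ∈ modularFunctionFieldFullC (kRes A) M := by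
    rw [huk]; exact fk.2
  have hne : coeffMap (IsLocalRing.residue ↥A) u ≠ 0 := by
    rw [huk]; exact fun h0 => hfk (Subtype.ext h0)
  have key := hrm.2 u hyM hyk hne (levelPullbackDiv h D) (fun w => by
    rw [levelPullbackDiv_apply_eq_ord h hD w]
    congr 1
    apply Subtype.ext
    rw [coe_levelIncl]
    exact hu.symm) Q
  rw [rho_apply, key]
  congr 1
  exact Subtype.ext huk

end Exact

/-! ### `ρ` of the cusps at `Q∞` -/

section Cusps

variable {p M : ℕ} [NeZero p] [NeZero M] {A : ValuationSubring Kbar}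
  {rmap : Place Kbar (FF M) → Place (kRes A) (FRes A M)}
  (hrm : IsPlaceReductionAlong A (IsLocalRing.residue A) M rmap)
  {r : ℕ} (hr : r.Prime) (hA : A.LiesOverPrime r) (hrM : ¬ r ∣ M)

theorem single_nonneg (v : Place Kbar (FF p)) : (0 : Divisor Kbar (FF p)) ≤ Finsupp.single v 1 := by
  classical
  intro w
  rw [Finsupp.single_apply]
  split_ifs <;> simp

include hrm hr hA hrM in
/-- `ρ(∞) + p · ρ(0)` has multiplicity one at `Q∞`. -/
theorem rho_cusps_qPlace (hp : p.Prime) (hpM : p ∣ M) :
    rho hpM rmap (Finsupp.single (cuspInf p) 1) (qPlace A M) +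
      p * rho hpM rmap (Finsupp.single (cuspZero p) 1) (qPlace A M) = 1 := by
  classical
  have hdivp := Fermat.Agent.RED.TOP.FbarFacts20.hasPrincipalDivisors_bar p
  have hp0 : (0 : ℤ) < p := by exact_mod_cast hp.pos
  have hne := cuspInf_ne_cuspZero p hp.one_lt
  obtain ⟨Dj, hDj, -⟩ := hdivp.exists_divisor (jF p) (jF_ne_zero p)
  set Zj : Divisor Kbar (FF p) := Dj ⊔ 0 with hZj
  have hZj_apply : ∀ v, Zj v = max (v.ord (jF p)) 0 := fun v => by
    rw [hZj, Finsupp.sup_apply, hDj v]; rfl
  have hZj0 : 0 ≤ Zj := fun v => by rw [hZj_apply]; exact le_max_right _ _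
  have hdecomp : Dj = Zj - (Finsupp.single (cuspInf p) (1 : ℤ) +
      (p : ℤ) • Finsupp.single (cuspZero p) (1 : ℤ)) := by
    ext v
    simp only [Finsupp.coe_sub, Finsupp.coe_add, Finsupp.coe_smul, Pi.sub_apply, Pi.add_apply,
      Pi.smul_apply, Finsupp.single_apply, smul_eq_mul, hZj_apply, hDj v]
    by_cases hv1 : v = cuspInf p
    · rw [if_pos hv1.symm, if_neg (fun hh => hne (hv1.symm.trans hh.symm)), hv1, ord_cuspInf_jF,
        max_eq_right (by omega)]
      ring
    · rw [if_neg (fun hh => hv1 hh.symm)]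
      by_cases hv2 : v = cuspZero p
      · rw [if_pos hv2.symm, hv2, ord_cuspZero_jF, max_eq_right (by omega)]
        ring
      · rw [if_neg (fun hh => hv2 hh.symm)]
        have : 0 ≤ v.ord (jF p) := by
          by_contra hcon
          rw [not_le] at hcon
          rcases poles_jF_prime p hp v hcon with h1 | h1
          · exact hv1 h1
          · exact hv2 h1
        rw [max_eq_left this]
        ring
  have hex := rho_div_apply hpM hrm (jF p) (jqModC ↥A) (by rw [coeffMap_jqModC, coe_jM])
    (jRes A) (by rw [coeffMap_jqModC]; rfl) (jRes_ne_zero A M) Dj hDj (qPlace A M)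
  rw [ord_qPlace_jRes, hdecomp, map_sub, map_add, map_zsmul] at hex
  simp only [Finsupp.coe_sub, Finsupp.coe_add, Finsupp.coe_smul, Pi.sub_apply, Pi.add_apply,
    Pi.smul_apply, smul_eq_mul] at hex
  -- `ρ(Z(j))` vanishes at `Q∞`
  have hz : rho hpM rmap Zj (qPlace A M) = 0 := by
    by_contra hcon
    obtain ⟨w, hwQ, hw⟩ := exists_of_mapDomain_ne_zero rmap _ _ hcon
    rw [levelPullbackDiv_apply] at hw
    have he' : (Place.ramificationIndexAlong (levelIncl hpM) w : ℤ) ≠ 0 := left_ne_zero_of_mul hw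
    have hZ' := right_ne_zero_of_mul hw
    rw [hZj_apply] at hZ'
    have h3 : 0 < (w.restrictAlong (levelIncl hpM) (levelIncl_isIntegral hpM)).ord (jF p) := by
      by_contra hcon'
      rw [not_lt] at hcon'
      exact hZ' (max_eq_right hcon')
    have h4 : (0 : ℤ) < Place.ramificationIndexAlong (levelIncl hpM) w := by
      have := Int.natCast_nonneg (Place.ramificationIndexAlong (levelIncl hpM) w)
      omega
    have hpos : 0 < w.ord (jF M) := by
      rw [← levelIncl_jF hpM, Place.ord_restrictAlong (levelIncl hpM) (levelIncl_isIntegral hpM)]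
      exact mul_pos h4 h3
    have := (spec_j hrm hr hA hrM w).2 hpos
    rw [hwQ, ord_qPlace_jRes] at this
    omega
  rw [hz] at hex
  linarith

include hrm hr hA hrM in
theorem rho_cuspZero_qPlace (hp : p.Prime) (hpM : p ∣ M) :
    rho hpM rmap (Finsupp.single (cuspZero p) 1) (qPlace A M) = 0 := by
  have h1 := rho_cusps_qPlace hrm hr hA hrM hp hpM
  have ha := rho_nonneg hpM rmap (single_nonneg (cuspInf p)) (qPlace A M)
  have hb := rho_nonneg hpM rmap (single_nonneg (cuspZero p)) (qPlace A M)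
  rw [Finsupp.coe_zero, Pi.zero_apply] at ha hb
  have hp2 : (2 : ℤ) ≤ p := by exact_mod_cast hp.two_le
  by_contra hcon
  have hb1 : 1 ≤ rho hpM rmap (Finsupp.single (cuspZero p) 1) (qPlace A M) := by omega
  nlinarith

include hrm hr hA hrM in
theorem rho_cuspInf_qPlace (hp : p.Prime) (hpM : p ∣ M) :
    rho hpM rmap (Finsupp.single (cuspInf p) 1) (qPlace A M) = 1 := by
  have h1 := rho_cusps_qPlace hrm hr hA hrM hp hpM
  rw [rho_cuspZero_qPlace hrm hr hA hrM hp hpM, mul_zero, add_zero] at h1
  exact h1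

end Cusps

/-! ### uniqueness of typed places -/

section Uniq

variable {p M : ℕ} [NeZero p] [NeZero M] {A : ValuationSubring Kbar}
  {rmap : Place Kbar (FF M) → Place (kRes A) (FRes A M)}
  (hrm : IsPlaceReductionAlong A (IsLocalRing.residue A) M rmap)
  {r : ℕ} (hr : r.Prime) (hA : A.LiesOverPrime r) (hrM : ¬ r ∣ M)

/-- a place at which `j − α` vanishes is not a pole of `j`. -/
theorem ord_jF_nonneg_of_pos {x : Place Kbar (FF p)} {α : Kbar}
    (hx : 0 < x.ord (jF p - algebraMap Kbar (FF p) α)) : 0 ≤ x.ord (jF p) := by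
  have h1 : jF p = (jF p - algebraMap Kbar (FF p) α) + algebraMap Kbar (FF p) α := by ring
  have h2 := FF.ord_add_ge x (f := jF p - algebraMap Kbar (FF p) α)
    (g := algebraMap Kbar (FF p) α) (by rw [← h1]; exact jF_ne_zero p)
  rw [← h1, FF.ord_algebraMap] at h2
  have := min_eq_right hx.le
  omega

include hrm hr hA hrM in
/-- **the place of type `∞` over `j = α` is unique.** -/
theorem infType_unique (hp : p.Prime) (hpM : p ∣ M) (x x' : Place Kbar (FF p)) (α : Kbar)
    (hα : α ∉ A) (hx : 0 < x.ord (jF p - algebraMap Kbar (FF p) α))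
    (hx' : 0 < x'.ord (jF p - algebraMap Kbar (FF p) α))
    (htx : IsInfType p A x) (htx' : IsInfType p A x') : x = x' := by
  classical
  by_contra hne
  have hdivp := Fermat.Agent.RED.TOP.FbarFacts20.hasPrincipalDivisors_bar p
  have hp0 : (0 : ℤ) < p := by exact_mod_cast hp.pos
  have hcne := cuspInf_ne_cuspZero p hp.one_lt
  have hα0 : α ≠ 0 := fun h0 => hα (h0 ▸ A.zero_mem)
  have hvα : 1 < A.valuation α := by
    rw [← not_le, A.valuation_le_one_iff]; exact hα
  have hxj := ord_jF_nonneg_of_pos hx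
  have hx'j := ord_jF_nonneg_of_pos hx'
  have hxc1 : x ≠ cuspInf p := by
    rintro rfl; rw [ord_cuspInf_jF] at hxj; omega
  have hxc2 : x ≠ cuspZero p := by
    rintro rfl; rw [ord_cuspZero_jF] at hxj; omega
  have hx'c1 : x' ≠ cuspInf p := by
    rintro rfl; rw [ord_cuspInf_jF] at hx'j; omega
  have hx'c2 : x' ≠ cuspZero p := by
    rintro rfl; rw [ord_cuspZero_jF] at hx'j; omega
  have hcαi : algebraMap Kbar (FF p) α⁻¹ ≠ 0 := (map_ne_zero _).mpr (inv_ne_zero hα0)
  obtain ⟨f1, hf1⟩ : ∃ f1 : FF p, f1 = 1 - algebraMap Kbar (FF p) α⁻¹ * jF p := ⟨_, rfl⟩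
  have hordαj : ∀ v : Place Kbar (FF p),
      v.ord (algebraMap Kbar (FF p) α⁻¹ * jF p) = v.ord (jF p) :=
    fun v => by rw [v.ord_mul hcαi (jF_ne_zero p), FF.ord_algebraMap, zero_add]
  have hinv : algebraMap Kbar (FF p) α⁻¹ * algebraMap Kbar (FF p) α = 1 := by
    rw [← map_mul, inv_mul_cancel₀ hα0, map_one]
  have hf1' : f1 = algebraMap Kbar (FF p) (-α⁻¹) * (jF p - algebraMap Kbar (FF p) α) := by
    rw [hf1, map_neg]
    linear_combination -hinv
  have hordf1 : ∀ v : Place Kbar (FF p), 0 < v.ord (jF p - algebraMap Kbar (FF p) α) →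
      1 ≤ v.ord f1 := by
    intro v hv
    have hne2 : jF p - algebraMap Kbar (FF p) α ≠ 0 := ne_zero_of_ord_ne_zero hv.ne'
    rw [hf1', v.ord_mul ((map_ne_zero _).mpr (neg_ne_zero.mpr (inv_ne_zero hα0))) hne2,
      FF.ord_algebraMap]
    omega
  have hf1ne : f1 ≠ 0 := ne_zero_of_ord_ne_zero (v := x) (by have := hordf1 x hx; omega)
  obtain ⟨D1, hD1, -⟩ := hdivp.exists_divisor f1 hf1ne
  have hρ1 : rho hpM rmap D1 = 0 :=
    rho_one_sub_eq_zero hpM hrm (jF p) (isAInt_jF A p) α⁻¹
      (by rw [map_inv₀]; exact inv_lt_one_of_one_lt₀ hvα) D1 (fun v => by rw [hD1 v, hf1])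
  have hL : Finsupp.single x (1 : ℤ) + Finsupp.single x' (1 : ℤ) -
      Finsupp.single (cuspInf p) (1 : ℤ) - (p : ℤ) • Finsupp.single (cuspZero p) (1 : ℤ) ≤ D1 := by
    intro v
    rw [hD1 v]
    have hge : min 0 (v.ord (jF p)) ≤ v.ord f1 := by
      have := ord_one_sub_ge v (algebraMap Kbar (FF p) α⁻¹ * jF p)
      rwa [hordαj, ← hf1] at this
    simp only [Finsupp.coe_sub, Finsupp.coe_add, Finsupp.coe_smul, Pi.sub_apply, Pi.add_apply,
      Pi.smul_apply, Finsupp.single_apply, smul_eq_mul]
    by_cases hv1 : v = x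
    · rw [if_pos hv1.symm, if_neg (fun hh => hne (hv1.symm.trans hh.symm)),
        if_neg (fun hh => hxc1 (hv1.symm.trans hh.symm)),
        if_neg (fun hh => hxc2 (hv1.symm.trans hh.symm))]
      have := hordf1 v (by rw [hv1]; exact hx)
      omega
    · rw [if_neg (fun hh => hv1 hh.symm)]
      by_cases hv2 : v = x'
      · rw [if_pos hv2.symm, if_neg (fun hh => hx'c1 (hv2.symm.trans hh.symm)),
          if_neg (fun hh => hx'c2 (hv2.symm.trans hh.symm))]
        have := hordf1 v (by rw [hv2]; exact hx')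
        omega
      · rw [if_neg (fun hh => hv2 hh.symm)]
        by_cases hv3 : v = cuspInf p
        · rw [if_pos hv3.symm, if_neg (fun hh => hcne (hv3.symm.trans hh.symm))]
          rw [hv3, ord_cuspInf_jF, min_eq_right (show (-1 : ℤ) ≤ 0 by omega)] at hge
          rw [hv3]
          omega
        · rw [if_neg (fun hh => hv3 hh.symm)]
          by_cases hv4 : v = cuspZero p
          · rw [if_pos hv4.symm]
            rw [hv4, ord_cuspZero_jF, min_eq_right (show -(p : ℤ) ≤ 0 by omega)] at hge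
            rw [hv4]
            omega
          · rw [if_neg (fun hh => hv4 hh.symm)]
            have : 0 ≤ v.ord (jF p) := by
              by_contra hcon
              rw [not_le] at hcon
              rcases poles_jF_prime p hp v hcon with h1 | h1
              · exact hv3 h1
              · exact hv4 h1
            rw [min_eq_left this] at hge
            omega
  have h2 := rho_mono hpM rmap hL (qPlace A M)
  rw [hρ1, map_sub, map_sub, map_add, map_zsmul,
    rho_infType hrm hr hA hrM hp hpM x htx, rho_infType hrm hr hA hrM hp hpM x' htx'] at h2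
  simp only [Finsupp.coe_sub, Finsupp.coe_add, Finsupp.coe_smul, Pi.sub_apply, Pi.add_apply,
    Pi.smul_apply, Finsupp.coe_zero, Pi.zero_apply, smul_eq_mul] at h2
  rw [rho_cuspInf_qPlace hrm hr hA hrM hp hpM, rho_cuspZero_qPlace hrm hr hA hrM hp hpM] at h2
  omega

end Uniq

/-! ### the Fricke involution on places -/

section FrickeSec

open Fermat.Agent.ES.N34.FrickeFK8

variable {p : ℕ} [NeZero p]

/-- the Fricke involution as a semilinear automorphism of `FF p`. -/
def wp (p : ℕ) [NeZero p] : SemilinearAut Kbar (FF p) := SemilinearAut.ofAlgAut (frickeBarEquiv p)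

theorem wp_smul (f : FF p) : wp p • f = frickeBar p f := rfl

theorem wp_smul_jF : wp p • jF p = jNF p := by rw [wp_smul, frickeBar_jF]

theorem wp_smul_jNF : wp p • jNF p = jF p := by rw [wp_smul, frickeBar_jNF]

theorem wp_smul_const (c : Kbar) :
    wp p • algebraMap Kbar (FF p) c = algebraMap Kbar (FF p) c := by
  rw [wp_smul, AlgHom.commutes]

theorem ord_wp_jF (x : Place Kbar (FF p)) (c : Kbar) :
    (wp p • x).ord (jF p - algebraMap Kbar (FF p) c) =
      x.ord (jNF p - algebraMap Kbar (FF p) c) := by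
  have := SemilinearAut.ord_smul (wp p) x (jNF p - algebraMap Kbar (FF p) c)
  rwa [smul_sub, wp_smul_jNF, wp_smul_const] at this

theorem ord_wp_jNF (x : Place Kbar (FF p)) (c : Kbar) :
    (wp p • x).ord (jNF p - algebraMap Kbar (FF p) c) =
      x.ord (jF p - algebraMap Kbar (FF p) c) := by
  have := SemilinearAut.ord_smul (wp p) x (jF p - algebraMap Kbar (FF p) c)
  rwa [smul_sub, wp_smul_jF, wp_smul_const] at this

/-- the Fricke involution exchanges the two types. -/
theorem isInfType_wp {A : ValuationSubring Kbar} {x : Place Kbar (FF p)}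
    (hx : IsZeroType p A x) : IsInfType p A (wp p • x) := by
  obtain ⟨α, β, hα, hxα, hxβ, hval⟩ := hx
  have hvα : 1 < A.valuation α := by
    rw [← not_le, A.valuation_le_one_iff]; exact hα
  have hβ : β ∉ A := by
    rw [← A.valuation_le_one_iff, not_le]
    by_contra hle
    rw [not_lt] at hle
    have h1 : A.valuation β ^ p ≤ 1 := pow_le_one' hle p
    rw [hval] at h1
    exact absurd hvα (not_lt.mpr h1)
  exact ⟨β, α, hβ, by rw [ord_wp_jF]; exact hxβ, by rw [ord_wp_jNF]; exact hxα, hval.symm⟩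

end FrickeSec

section Uniq0

variable {p M : ℕ} [NeZero p] [NeZero M] {A : ValuationSubring Kbar}
  {rmap : Place Kbar (FF M) → Place (kRes A) (FRes A M)}
  (hrm : IsPlaceReductionAlong A (IsLocalRing.residue A) M rmap)
  {r : ℕ} (hr : r.Prime) (hA : A.LiesOverPrime r) (hrM : ¬ r ∣ M)

include hrm hr hA hrM in
/-- **the place of type `0` over `j_p = β` is unique.** -/
theorem zeroType_unique (hp : p.Prime) (hpM : p ∣ M) (x x' : Place Kbar (FF p)) (β : Kbar)
    (hβ : β ∉ A) (hx : 0 < x.ord (jNF p - algebraMap Kbar (FF p) β))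
    (hx' : 0 < x'.ord (jNF p - algebraMap Kbar (FF p) β))
    (htx : IsZeroType p A x) (htx' : IsZeroType p A x') : x = x' := by
  have h := infType_unique hrm hr hA hrM hp hpM (wp p • x) (wp p • x') β hβ
    (by rw [ord_wp_jF]; exact hx) (by rw [ord_wp_jF]; exact hx')
    (isInfType_wp htx) (isInfType_wp htx')
  exact MulAction.injective (wp p) h

end Uniq0

/-! ### `G_ℚ`-invariance -/

section Galois

open Fermat.Agent.MZ.TOP.Kred9 Fermat.Agent.RED.Interface4

variable {p : ℕ} [NeZero p]

theorem gal_smul_jF (σ : Kbar ≃ₐ[ℚ] Kbar) :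
    arithmeticGalois (modularFunctionFieldFull p) σ • jF p = jF p := by
  apply Subtype.ext
  rw [coe_arithmeticGalois_smul, coe_jM, coeffMap_jqModC]

theorem gal_smul_jNF (σ : Kbar ≃ₐ[ℚ] Kbar) :
    arithmeticGalois (modularFunctionFieldFull p) σ • jNF p = jNF p := by
  apply Subtype.ext
  rw [coe_arithmeticGalois_smul, coe_jNF, coeffMap_qExpand, coeffMap_jqModC]

theorem gal_smul_const (σ : Kbar ≃ₐ[ℚ] Kbar) (c : Kbar) :
    arithmeticGalois (modularFunctionFieldFull p) σ • algebraMap Kbar (FF p) c =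
      algebraMap Kbar (FF p) (σ c) :=
  SemilinearAut.smul_algebraMap _ c

theorem ord_gal_jF (σ : Kbar ≃ₐ[ℚ] Kbar) (x : Place Kbar (FF p)) (c : Kbar) (hc : σ c = c) :
    (arithmeticGalois (modularFunctionFieldFull p) σ • x).ord
      (jF p - algebraMap Kbar (FF p) c) = x.ord (jF p - algebraMap Kbar (FF p) c) := by
  have := SemilinearAut.ord_smul (arithmeticGalois (modularFunctionFieldFull p) σ) x
    (jF p - algebraMap Kbar (FF p) c)
  rwa [smul_sub, gal_smul_jF, gal_smul_const, hc] at this

theorem ord_gal_jNF (σ : Kbar ≃ₐ[ℚ] Kbar) (x : Place Kbar (FF p)) (c : Kbar) (hc : σ c = c) :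
    (arithmeticGalois (modularFunctionFieldFull p) σ • x).ord
      (jNF p - algebraMap Kbar (FF p) c) = x.ord (jNF p - algebraMap Kbar (FF p) c) := by
  have := SemilinearAut.ord_smul (arithmeticGalois (modularFunctionFieldFull p) σ) x
    (jNF p - algebraMap Kbar (FF p) c)
  rwa [smul_sub, gal_smul_jNF, gal_smul_const, hc] at this

/-- **a place `(α, β)` with rational coordinates which is typed at one place `A ∣ r ≠ p` is fixed by
`G_ℚ`.** -/
theorem galois_smul_eq_of_typed {r : ℕ} {A : ValuationSubring Kbar} (hp : p.Prime) (hr : r.Prime)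
    (hrp : r ≠ p) (hA : A.LiesOverPrime r) (x : Place Kbar (FF p)) (α β : Kbar)
    (hα : ∀ σ : Kbar ≃ₐ[ℚ] Kbar, σ α = α) (hβ : ∀ σ : Kbar ≃ₐ[ℚ] Kbar, σ β = β) (hαA : α ∉ A)
    (hxα : 0 < x.ord (jF p - algebraMap Kbar (FF p) α))
    (hxβ : 0 < x.ord (jNF p - algebraMap Kbar (FF p) β))
    (hval : A.valuation β ^ p = A.valuation α ∨ A.valuation β = A.valuation α ^ p)
    (σ : Kbar ≃ₐ[ℚ] Kbar) :
    arithmeticGalois (modularFunctionFieldFull p) σ • x = x := by
  have hrp' : ¬ r ∣ p := fun hd => hrp ((Nat.prime_dvd_prime_iff_eq hr hp).mp hd)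
  obtain ⟨D⟩ := exists_redData hr hrp' A hA
  have hrM := not_dvd_auxLevel hr hrp'
  have hpM := dvd_auxLevel r p
  rcases hval with hv | hv
  · have hvα : 1 < A.valuation α := by
      rw [← not_le, A.valuation_le_one_iff]; exact hαA
    have hβA : β ∉ A := by
      rw [← A.valuation_le_one_iff, not_le]
      by_contra hle
      rw [not_lt] at hle
      have h1 : A.valuation β ^ p ≤ 1 := pow_le_one' hle p
      rw [hv] at h1
      exact absurd hvα (not_lt.mpr h1)
    exact zeroType_unique D.hr hr hA hrM hp hpM _ x β hβA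
      (by rw [ord_gal_jNF σ x β (hβ σ)]; exact hxβ) hxβ
      ⟨α, β, hαA, by rw [ord_gal_jF σ x α (hα σ)]; exact hxα,
        by rw [ord_gal_jNF σ x β (hβ σ)]; exact hxβ, hv⟩
      ⟨α, β, hαA, hxα, hxβ, hv⟩
  · exact infType_unique D.hr hr hA hrM hp hpM _ x α hαA
      (by rw [ord_gal_jF σ x α (hα σ)]; exact hxα) hxα
      ⟨α, β, hαA, by rw [ord_gal_jF σ x α (hα σ)]; exact hxα,
        by rw [ord_gal_jNF σ x β (hβ σ)]; exact hxβ, hv⟩
      ⟨α, β, hαA, hxα, hxβ, hv⟩

end Galois

end Fermat.Agent.MZ.MOD.Unique2
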