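/-
Programme MZ (S15), chapter MOD-E (helper5): **a `G_ℚ`-fixed point has rational coordinates and a rational Vélu
`j`-invariant**; the fixed-point form of `LocalGlobal5.local_types`.

* `exists_rat_coords` : `Q ≠ 0`, `σ • Q = Q` for all `σ` ⇒ `Q = (x₀, y₀)` with `x₀ y₀ : ℚ`;
* `exists_rat_veluJ` : `σ • Q = Q` for all `σ` ⇒ `veluJ (W / ℚ̄) (xsOf Q p) = β₀` with `β₀ : ℚ`;
* `local_types_fixed` : `LocalGlobal5.local_types` for a `G_ℚ`-fixed point `Q` of order `p ≥ 2`.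
-/
import Mathlib
import Fermat.Agent.MZ.MOD.LocalGlobal5
import Fermat.Prelude.Def_FLTPrelim_GaloisRep

set_option autoImplicit false
set_option linter.unusedSectionVars false
set_option linter.style.longLine false

namespace Fermat.Agent.MZ.MOD.RatPoint5

open WeierstrassCurve WeierstrassCurve.Affine
open Fermat.Agent.MZ.MOD.VeluDef4 Fermat.Agent.MZ.MOD.RedType5 Fermat.Agent.MZ.MOD.LTTransport5
open Fermat.Agent.MZ.MOD.ZeroComp5 Fermat.Agent.MZ.MOD.LocalGlobal5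

local notation "Qb" => AlgebraicClosure ℚ

noncomputable section

/-- an element of `ℚ̄` fixed by `G_ℚ` is rational. -/
theorem exists_rat_of_fixed (x : Qb) (h : ∀ σ : Qb ≃ₐ[ℚ] Qb, σ x = x) : ∃ x₀ : ℚ, (x₀ : Qb) = x := by
  have hcl : IsAlgClosure ℚ Qb := ⟨inferInstance, inferInstance⟩
  have hgal : IsGalois ℚ Qb := IsAlgClosure.isGalois ℚ Qb
  obtain ⟨x₀, hx₀⟩ := (InfiniteGalois.mem_range_algebraMap_iff_fixed (k := ℚ) (K := Qb) x).mpr h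
  exact ⟨x₀, by rw [← hx₀, eq_ratCast]⟩

/-- **a nonzero `G_ℚ`-fixed point has rational coordinates.** -/
theorem exists_rat_coords (W' : WeierstrassCurve ℚ) (Q : (W'⁄Qb).Point) (hQ : Q ≠ 0)
    (hfix : ∀ σ : Qb ≃ₐ[ℚ] Qb, σ • Q = Q) :
    ∃ (x₀ y₀ : ℚ) (h : (W'⁄Qb).toAffine.Nonsingular (x₀ : Qb) (y₀ : Qb)), Q = .some _ _ h := by
  rcases Q with _ | ⟨x, y, hxy⟩
  · exact absurd rfl hQ
  · have hx : ∀ σ : Qb ≃ₐ[ℚ] Qb, σ x = x := fun σ => by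
      have h1 := hfix σ
      rw [Point.algEquiv_smul_def, Point.map_some] at h1
      exact (Point.some.inj h1).1
    have hy : ∀ σ : Qb ≃ₐ[ℚ] Qb, σ y = y := fun σ => by
      have h1 := hfix σ
      rw [Point.algEquiv_smul_def, Point.map_some] at h1
      exact (Point.some.inj h1).2
    obtain ⟨x₀, rfl⟩ := exists_rat_of_fixed x hx
    obtain ⟨y₀, rfl⟩ := exists_rat_of_fixed y hy
    exact ⟨x₀, y₀, hxy, rfl⟩

theorem xOf_map_field (W' : WeierstrassCurve ℚ) (f : Qb →ₐ[ℚ] Qb) (P : (W'⁄Qb).Point) :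
    xOf (Point.map f P) = f (xOf P) := by
  rcases P with _ | ⟨x, y, h⟩
  · exact (map_zero f).symm
  · rfl

theorem xsOf_map_field (W' : WeierstrassCurve ℚ) (f : Qb →ₐ[ℚ] Qb) (P : (W'⁄Qb).Point) (p : ℕ) :
    xsOf (Point.map f P) p = (xsOf P p).image f := by
  rw [xsOf, xsOf, Finset.image_image]
  refine Finset.image_congr fun k _ => ?_
  show xOf (k • Point.map f P) = f (xOf (k • P))
  rw [← map_nsmul, xOf_map_field]

theorem veluJ_map_field (W' : WeierstrassCurve ℚ) (f : Qb →ₐ[ℚ] Qb) (P : (W'⁄Qb).Point) (p : ℕ) :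
    veluJ (W'⁄Qb) (xsOf (Point.map f P) p) = f (veluJ (W'⁄Qb) (xsOf P p)) := by
  rw [xsOf_map_field]
  have h := map_veluJ (f : Qb →+* Qb) (W'⁄Qb) (xsOf P p)
  have h' := WeierstrassCurve.Affine.map_baseChange W' f
  calc veluJ (W'⁄Qb) ((xsOf P p).image f) = veluJ ((W'⁄Qb).map f) ((xsOf P p).image f) := by rw [h']
    _ = f (veluJ (W'⁄Qb) (xsOf P p)) := h.symm

/-- **the Vélu `j`-invariant of the subgroup generated by a `G_ℚ`-fixed point is rational.** -/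
theorem exists_rat_veluJ (W' : WeierstrassCurve ℚ) (Q : (W'⁄Qb).Point)
    (hfix : ∀ σ : Qb ≃ₐ[ℚ] Qb, σ • Q = Q) (p : ℕ) :
    ∃ β₀ : ℚ, veluJ (W'⁄Qb) (xsOf Q p) = (β₀ : Qb) := by
  obtain ⟨β₀, hβ₀⟩ := exists_rat_of_fixed (veluJ (W'⁄Qb) (xsOf Q p)) fun σ => by
    have h2 := veluJ_map_field W' (σ.toAlgHom : Qb →ₐ[ℚ] Qb) Q p
    rw [← Point.algEquiv_smul_def, hfix σ] at h2
    exact h2.symm
  exact ⟨β₀, hβ₀.symm⟩

section Global

variable {K : Type*} [NormedField K] [IsUltrametricDist K] [CharZero K] [DecidableEq K]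

/-- **the valuation types of `(α, β)` at `A`, for a `G_ℚ`-fixed point `Q` of order `p ≥ 2`.** -/
theorem local_types_fixed {r p : ℕ} (hr : r.Prime) (hp : 2 ≤ p)
    (hK : ∀ n : ℤ, ‖(n : K)‖ < 1 ↔ (r : ℤ) ∣ n) (f : Qb →ₐ[ℚ] K)
    {jT : K → K} (hLT : LTStatement jT p) (hnorm : ∀ q : K, q ≠ 0 → ‖q‖ < 1 → ‖jT q‖ = ‖q‖⁻¹)
    (W : WeierstrassCurve ℤ) (hΔ0 : W.Δ ≠ 0) (hΔ : (r : ℤ) ∣ W.Δ) (hc4 : ¬ (r : ℤ) ∣ W.c₄)
    (Q : ((W.map (Int.castRingHom ℚ))⁄Qb).Point) (hfix : ∀ σ : Qb ≃ₐ[ℚ] Qb, σ • Q = Q)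
    (hord : addOrderOf Q = p) (β₀ : ℚ)
    (hβ : veluJ ((W.map (Int.castRingHom ℚ))⁄Qb) (xsOf Q p) = (β₀ : Qb))
    {A : ValuationSubring Qb} (hA : A.LiesOverPrime r) :
    (((W.c₄ : ℚ) ^ 3 / (W.Δ : ℚ) : ℚ) : Qb) ∉ A ∧
      (W.InZeroComponentAt A Q →
        A.valuation (β₀ : Qb) = A.valuation (((W.c₄ : ℚ) ^ 3 / (W.Δ : ℚ) : ℚ) : Qb) ^ p) ∧
      (¬ W.InZeroComponentAt A Q →
        A.valuation (β₀ : Qb) ^ p = A.valuation (((W.c₄ : ℚ) ^ 3 / (W.Δ : ℚ) : ℚ) : Qb)) := by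
  have hQ0 : Q ≠ 0 := by
    rintro rfl
    rw [addOrderOf_zero] at hord
    omega
  obtain ⟨x₀, y₀, h, rfl⟩ := exists_rat_coords _ Q hQ0 hfix
  exact local_types hr (by omega) hK f hLT hnorm W hΔ0 hΔ hc4 x₀ y₀ h hord β₀ hβ hA

end Global

end

end Fermat.Agent.MZ.MOD.RatPoint5
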