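/-
Programme MZ (S15, Mazur), chapter MOD-E (helper1): **evaluation of integral Laurent series and of
`ℤ`-relations between `j(t)` and `j(tⁿ)` at a point `q` of the punctured open unit disc of a
complete ultrametric field `K`.**

* `ev_expand`, `evZ_expand` : `F(tⁿ)` evaluated at `q` is `F` evaluated at `qⁿ`;
* `evL q hq0 hq : LaurentSeries ℤ →+* K` : evaluation of integral Laurent series (localisation of
  `JacobiK1.evZ` at `X`); `evL_ofPowerSeries`, `evL_single_one`, `evL_single_neg_one`;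
* `evL_jq : evL q (jqModC ℤ) = QFromJ5.jK q`;
* `evL_qExpand : evL q (qExpand ℤ n F) = evL (qⁿ) F`, `evL_jqN : evL q (j(tⁿ)) = jK (qⁿ)`;
* **`eval_rel`** : a relation `Φ(X := x, Y := y) = 0`, `Φ ∈ ℤ[Y][X]`, between integral Laurent
  series evaluates to `Φ(X := x(q), Y := y(q)) = 0` in `K`;
* `eval_rel_j`, `eval_rel_j'` : the two instances `(x, y) = (j(tⁿ), j(t))`, `(j(t), j(tⁿ))`.
-/
import Mathlib
import Fermat.Agent.MZ.MOD.JacobiK1
import Fermat.Agent.ES.KRON.KronCong24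

set_option autoImplicit false
set_option linter.unusedSectionVars false
set_option linter.style.longLine false

open PowerSeries

noncomputable section

namespace Fermat.Agent.MZ.MOD.EvalRel1

open Fermat.Agent.MZ.MOD.PSEval4 Fermat.Agent.MZ.MOD.TateEval4 Fermat.Agent.MZ.MOD.QFromJ5
  Fermat.Agent.MZ.MOD.JacobiK1 ModularCurve

variable {K : Type*} [NormedField K]

/-- `F(tⁿ)` at `q` is `F` at `qⁿ`. -/
theorem ev_expand (F : PowerSeries K) (n : ℕ) (hn : n ≠ 0) (q : K) :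
    ev (F.expand n hn) q = ev F (q ^ n) := by
  unfold ev
  have hinj : Function.Injective (fun k : ℕ => n * k) := fun a b h =>
    Nat.eq_of_mul_eq_mul_left (Nat.pos_of_ne_zero hn) h
  rw [← hinj.tsum_eq (f := fun m => coeff m (F.expand n hn) * q ^ m)]
  · refine tsum_congr fun k => ?_
    rw [PowerSeries.coeff_expand_mul, pow_mul]
  · intro m hm
    by_contra hnot
    apply hm
    have hd : ¬ n ∣ m := fun ⟨k, hk⟩ => hnot ⟨k, hk.symm⟩
    show coeff m (F.expand n hn) * q ^ m = 0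
    rw [PowerSeries.coeff_expand_of_not_dvd n hn F hd, zero_mul]

variable [IsUltrametricDist K] [CompleteSpace K]

theorem norm_pow_lt_one {q : K} (hq : ‖q‖ < 1) {n : ℕ} (hn : n ≠ 0) : ‖q ^ n‖ < 1 := by
  rw [norm_pow]
  exact pow_lt_one₀ (norm_nonneg q) hq hn

theorem evZ_expand (q : K) (hq : ‖q‖ < 1) (n : ℕ) (hn : n ≠ 0) (F : PowerSeries ℤ) :
    evZ q hq (F.expand n hn) = evZ (q ^ n) (norm_pow_lt_one hq hn) F := by
  rw [evZ_apply, evZ_apply, mapZ, PowerSeries.map_expand, ev_expand]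
  rfl

theorem isUnit_evZ_powers (q : K) (hq0 : q ≠ 0) (hq : ‖q‖ < 1)
    (y : Submonoid.powers (PowerSeries.X : PowerSeries ℤ)) :
    IsUnit (evZ q hq (y : PowerSeries ℤ)) := by
  obtain ⟨_, n, rfl⟩ := y
  rw [map_pow, evZ_X]
  exact (isUnit_iff_ne_zero.mpr hq0).pow n

/-- **evaluation of integral Laurent series** at a point of the punctured open unit disc. -/
def evL (q : K) (hq0 : q ≠ 0) (hq : ‖q‖ < 1) : LaurentSeries ℤ →+* K :=
  IsLocalization.lift (M := Submonoid.powers (PowerSeries.X : PowerSeries ℤ))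
    (g := evZ q hq) (isUnit_evZ_powers q hq0 hq)

variable (q : K) (hq0 : q ≠ 0) (hq : ‖q‖ < 1)

theorem evL_ofPowerSeries (F : PowerSeries ℤ) :
    evL q hq0 hq (HahnSeries.ofPowerSeries ℤ ℤ F) = evZ q hq F := by
  rw [← LaurentSeries.coe_algebraMap]
  exact IsLocalization.lift_eq _ F

theorem evL_single_one : evL q hq0 hq (HahnSeries.single (1 : ℤ) (1 : ℤ)) = q := by
  rw [← HahnSeries.ofPowerSeries_X, evL_ofPowerSeries, evZ_X]

theorem evL_single_neg_one : evL q hq0 hq (HahnSeries.single (-1 : ℤ) (1 : ℤ)) = q⁻¹ := by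
  have h : (HahnSeries.single (-1 : ℤ) (1 : ℤ) : LaurentSeries ℤ) * HahnSeries.single 1 1 = 1 := by
    rw [HahnSeries.single_mul_single]
    simp
  have h2 := congrArg (evL q hq0 hq) h
  rw [(evL q hq0 hq).map_mul, (evL q hq0 hq).map_one, evL_single_one] at h2
  exact eq_inv_of_mul_eq_one_left h2

/-- **the evaluation of the Prelude's `j(t) = t⁻¹ + 744 + ⋯` is `jK q`.** -/
theorem evL_jq : evL q hq0 hq (jqModC ℤ) = QFromJ5.jK q := by
  have hid : jNum.map (Int.castRingHom ℤ) = jNum := by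
    ext n
    simp
  rw [jqModC, map_mul, evL_single_neg_one, evL_ofPowerSeries, hid]
  rfl

theorem evL_qExpand (n : ℕ) [hn : NeZero n] (F : LaurentSeries ℤ) :
    evL q hq0 hq (qExpand ℤ n F) =
      evL (q ^ n) (pow_ne_zero n hq0) (norm_pow_lt_one hq hn.ne) F := by
  have key : (evL q hq0 hq).comp (qExpand ℤ n) =
      evL (q ^ n) (pow_ne_zero n hq0) (norm_pow_lt_one hq hn.ne) := by
    refine IsLocalization.ringHom_ext (Submonoid.powers (PowerSeries.X : PowerSeries ℤ)) ?_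
    ext G
    · simp only [RingHom.comp_apply]
      rw [LaurentSeries.coe_algebraMap, Fermat.Agent.ES.KRON.KronCong24.qExpand_ofPowerSeries,
        evL_ofPowerSeries, evL_ofPowerSeries, evZ_expand]
  exact congrFun (congrArg DFunLike.coe key) F

/-- the evaluation of `j(tⁿ)` is `jK (qⁿ)`. -/
theorem evL_jqN (n : ℕ) [hn : NeZero n] :
    evL q hq0 hq (qExpand ℤ n (jqModC ℤ)) = QFromJ5.jK (q ^ n) := by
  rw [evL_qExpand, evL_jq]

/-! ### relations -/

/-- evaluation `ℤ[Y] → K`, `Y ↦ a`. -/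
def evalAtK (a : K) : Polynomial ℤ →+* K := Polynomial.eval₂RingHom (Int.castRingHom K) a

theorem evL_comp_evalAt (y : LaurentSeries ℤ) :
    (evL q hq0 hq).comp (Polynomial.eval₂RingHom (Int.castRingHom (LaurentSeries ℤ)) y) =
      evalAtK (evL q hq0 hq y) := by
  refine Polynomial.ringHom_ext (fun a => ?_) ?_
  · simp [evalAtK]
  · simp [evalAtK]

/-- **relations between integral Laurent series evaluate.** -/
theorem eval_rel (Φ : Polynomial (Polynomial ℤ)) (x y : LaurentSeries ℤ)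
    (h : Φ.eval₂ (Polynomial.eval₂RingHom (Int.castRingHom (LaurentSeries ℤ)) y) x = 0) :
    Φ.eval₂ (evalAtK (evL q hq0 hq y)) (evL q hq0 hq x) = 0 := by
  have h2 := congrArg (evL q hq0 hq) h
  rw [Polynomial.hom_eval₂, map_zero, evL_comp_evalAt] at h2
  exact h2

/-- `Φ(X := j(tⁿ), Y := j(t)) = 0 ⇒ Φ(X := jK (qⁿ), Y := jK q) = 0`. -/
theorem eval_rel_j (hq0 : q ≠ 0) (hq : ‖q‖ < 1) (n : ℕ) [hn : NeZero n]
    (Φ : Polynomial (Polynomial ℤ))
    (h : Φ.eval₂ (Polynomial.eval₂RingHom (Int.castRingHom (LaurentSeries ℤ)) (jqModC ℤ))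
      (qExpand ℤ n (jqModC ℤ)) = 0) :
    Φ.eval₂ (evalAtK (QFromJ5.jK q)) (QFromJ5.jK (q ^ n)) = 0 := by
  have := eval_rel q hq0 hq Φ _ _ h
  rwa [evL_jq, evL_jqN] at this

/-- `Φ(X := j(t), Y := j(tⁿ)) = 0 ⇒ Φ(X := jK q, Y := jK (qⁿ)) = 0`. -/
theorem eval_rel_j' (hq0 : q ≠ 0) (hq : ‖q‖ < 1) (n : ℕ) [hn : NeZero n]
    (Φ : Polynomial (Polynomial ℤ))
    (h : Φ.eval₂ (Polynomial.eval₂RingHom (Int.castRingHom (LaurentSeries ℤ))
      (qExpand ℤ n (jqModC ℤ))) (jqModC ℤ) = 0) :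
    Φ.eval₂ (evalAtK (QFromJ5.jK (q ^ n))) (QFromJ5.jK q) = 0 := by
  have := eval_rel q hq0 hq Φ _ _ h
  rwa [evL_jq, evL_jqN] at this

end Fermat.Agent.MZ.MOD.EvalRel1
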