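/-
Programme MZ (S15, Mazur), chapter MOD-E (helper1): **the modular equation of prime level `p`,
evaluated on the punctured open unit disc of a complete ultrametric field**: there is
`Φ ∈ ℤ[Y][X]`, monic of `X`-degree `p + 1`, with
`Φ(X := jK (q^p), Y := jK q) = 0` and `Φ(X := jK q, Y := jK (q^p)) = 0` for all `0 < ‖q‖ < 1`
(`jK = QFromJ5.jK = TateCurve4.jK`, see `JacobiK1.jK_eq`).  Source: `IG/AN/ModPoly3.p0` (the formal
modular equation over `ℤ((q))`) + `EvalRel1`.
-/
import Mathlib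
import Fermat.Agent.MZ.MOD.EvalRel1
import Fermat.Agent.IG.AN.ModPoly3

set_option autoImplicit false
set_option linter.unusedSectionVars false
set_option linter.style.longLine false

noncomputable section

namespace Fermat.Agent.MZ.MOD.ModEqK1

open Fermat.Agent.MZ.MOD.EvalRel1 Fermat.Agent.MZ.MOD.QFromJ5 ModularCurve

universe u

/-- **the modular equation, evaluated.** -/
theorem exists_modular_equation (p : ℕ) [NeZero p] (hp : p.Prime) :
    ∃ Φ : Polynomial (Polynomial ℤ), Φ.Monic ∧ Φ.natDegree = p + 1 ∧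
      ∀ (K : Type u) [NormedField K] [IsUltrametricDist K] [CompleteSpace K] (q : K),
        q ≠ 0 → ‖q‖ < 1 →
          Φ.eval₂ (evalAtK (QFromJ5.jK q)) (QFromJ5.jK (q ^ p)) = 0 ∧
            Φ.eval₂ (evalAtK (QFromJ5.jK (q ^ p))) (QFromJ5.jK q) = 0 := by
  obtain ⟨Φ, hm, hd, h1, h2⟩ := Fermat.Agent.IG.AN.ModPoly3.p0 p hp
  refine ⟨Φ, hm, hd, fun K _ _ _ q hq0 hq => ⟨?_, ?_⟩⟩
  · exact eval_rel_j q hq0 hq p Φ h1
  · exact eval_rel_j' q hq0 hq p Φ h2

end Fermat.Agent.MZ.MOD.ModEqK1
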