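/-
Programme MZ (S15, Mazur), chapter MOD-E (helper4): **the modular equation for `(α₀, β₀)`.**
`W / ℤ` with a prime `r ≠ p` of multiplicative reduction (`r ∣ Δ`, `r ∤ c₄`), `Q = (x₀, y₀)` a rational
point of exact order `p > 3` on `W / ℚ̄`, `α₀ = c₄³ / Δ = j(W)`, `β₀ ∈ ℚ` the `j`-invariant of Vélu's
quotient `W / ⟨Q⟩`.  Then every `Φ ∈ ℤ[Y][X]` satisfying the two formal modular relations
`Φ(X := j(tᵖ), Y := j(t)) = 0`, `Φ(X := j(t), Y := j(tᵖ)) = 0` in `ℤ((t))` (e.g. the `Φ` of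
`IG/AN/ModPoly3.p0`) vanishes at `(X, Y) = (β₀, α₀)` and at `(α₀, β₀)`.

Proof: over `K = ℂ_[r]`, the local Tate–Vélu theorem (`TateLTFinal4.ltStatement`) gives
`α₀ = jK q`, `β₀ = jK q'` with `q' = qᵖ` or `q'ᵖ = q`; evaluate the formal relations at `q` resp. `q'`
(`EvalRel1`).
-/
import Mathlib
import Fermat.Agent.MZ.MOD.TateLTFinal4
import Fermat.Agent.MZ.MOD.ModEqK1

set_option autoImplicit false
set_option linter.unusedSectionVars false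
set_option linter.unusedVariables false

open WeierstrassCurve WeierstrassCurve.Affine

namespace Fermat.Agent.MZ.MOD.ModEqGlobal4

open TateCurve4 LTTransport5 LocalGlobal5 RedType5 VeluDef4 EvalRel1 ModularCurve
open Fermat.Agent.IG.PR.Interface20 (evalAt)

local notation "Qb" => AlgebraicClosure ℚ

/-! ### over `K` -/

section Local

variable {K : Type*} [NormedField K] [IsUltrametricDist K] [CompleteSpace K] [CharZero K]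
  [DecidableEq K]

/-- **the modular equation for `(j(W), j(W/⟨Q⟩))` over `K`**, from (LT). -/
theorem modEq_K {p : ℕ} [NeZero p] (hLT : LTStatement (K := K) jK p)
    (Φ : Polynomial (Polynomial ℤ))
    (h1 : Φ.eval₂ (evalAt ℤ (jqModC ℤ)) (qExpand ℤ p (jqModC ℤ)) = 0)
    (h2 : Φ.eval₂ (evalAt ℤ (qExpand ℤ p (jqModC ℤ))) (jqModC ℤ) = 0)
    (W : WeierstrassCurve K) (hW : IsIntegralW W) (h4 : ‖W.c₄‖ = 1) (hΔ0 : W.Δ ≠ 0) (hΔ : ‖W.Δ‖ < 1)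
    (Q : W.toAffine.Point) (hQ : addOrderOf Q = p) :
    Φ.eval₂ (evalAtK (W.c₄ ^ 3 / W.Δ)) (veluJ W (xsOf Q p)) = 0 ∧
      Φ.eval₂ (evalAtK (veluJ W (xsOf Q p))) (W.c₄ ^ 3 / W.Δ) = 0 := by
  have hp : p ≠ 0 := NeZero.ne p
  obtain ⟨q, q', hq0, hq1, hα, hβ, hcase⟩ := hLT W hW h4 hΔ0 hΔ Q hQ
  rw [hα, hβ]
  rcases hcase with ⟨e, -⟩ | ⟨e, -⟩
  · have hq'1 : ‖q ^ p‖ < 1 := by
      rw [norm_pow]
      exact pow_lt_one₀ (norm_nonneg q) hq1 hp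
    rw [e, JacobiK1.jK_eq q hq1, JacobiK1.jK_eq (q ^ p) hq'1]
    exact ⟨eval_rel_j q hq0 hq1 p Φ h1, eval_rel_j' q hq0 hq1 p Φ h2⟩
  · have hq'0 : q' ≠ 0 := by
      rintro rfl
      rw [zero_pow hp] at e
      exact hq0 e.symm
    have hq'1 : ‖q'‖ < 1 := by
      by_contra hcon
      rw [not_lt] at hcon
      have h : 1 ≤ ‖q'‖ ^ p := one_le_pow₀ hcon
      rw [← norm_pow, e] at h
      linarith
    have hqp : ‖q' ^ p‖ < 1 := by rwa [e]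
    rw [← e, JacobiK1.jK_eq q' hq'1, JacobiK1.jK_eq (q' ^ p) hqp]
    exact ⟨eval_rel_j' q' hq'0 hq'1 p Φ h2, eval_rel_j q' hq'0 hq'1 p Φ h1⟩

end Local

/-! ### over `ℚ` -/

section Global

theorem evalAtK_ratCast {K : Type*} [NormedField K] [CharZero K] (a : ℚ) :
    (algebraMap ℚ K).comp (Polynomial.eval₂RingHom (Int.castRingHom ℚ) a) = evalAtK ((a : ℚ) : K) := by
  refine Polynomial.ringHom_ext (fun n => ?_) ?_
  · simp [evalAtK]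
  · simp [evalAtK]

/-- descent of a polynomial relation from `K` to `ℚ`. -/
theorem eval₂_rat_of_K {K : Type*} [NormedField K] [CharZero K] (Φ : Polynomial (Polynomial ℤ))
    (a b : ℚ) (h : Φ.eval₂ (evalAtK ((a : ℚ) : K)) ((b : ℚ) : K) = 0) :
    Φ.eval₂ (Polynomial.eval₂RingHom (Int.castRingHom ℚ) a) b = 0 := by
  apply (algebraMap ℚ K).injective
  rw [Polynomial.hom_eval₂, map_zero, evalAtK_ratCast, eq_ratCast]
  exact h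

variable (r : ℕ) [hr : Fact r.Prime]

/-- `‖(p : ℂ_[r])‖ = 1` for a prime `p ≠ r`. -/
theorem norm_natCast_padicComplex {p : ℕ} (hp : p.Prime) (hrp : r ≠ p) :
    ‖((p : ℕ) : ℂ_[r])‖ = 1 := by
  refine le_antisymm (IsUltrametricDist.norm_natCast_le_one _ p) (not_lt.1 fun hlt => ?_)
  have h := (ZeroComp5.norm_intCast_padicComplex_lt_one_iff r (p : ℤ)).1 (by
    rwa [Int.cast_natCast])
  have h' : r ∣ p := Int.natCast_dvd_natCast.1 h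
  exact hrp ((Nat.prime_dvd_prime_iff_eq hr.out hp).1 h')

/-- the `K`-side, for a curve `WK = W.map (ℤ → K)`. -/
theorem modEq_int {K : Type*} [NormedField K] [IsUltrametricDist K] [CompleteSpace K] [CharZero K]
    [DecidableEq K] {r p : ℕ} [NeZero p]
    (hK : ∀ n : ℤ, ‖(n : K)‖ < 1 ↔ (r : ℤ) ∣ n) (hLT : LTStatement (K := K) jK p)
    (Φ : Polynomial (Polynomial ℤ))
    (h1 : Φ.eval₂ (evalAt ℤ (jqModC ℤ)) (qExpand ℤ p (jqModC ℤ)) = 0)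
    (h2 : Φ.eval₂ (evalAt ℤ (qExpand ℤ p (jqModC ℤ))) (jqModC ℤ) = 0)
    (W : WeierstrassCurve ℤ) (hΔ0 : W.Δ ≠ 0) (hΔ : (r : ℤ) ∣ W.Δ) (hc4 : ¬ (r : ℤ) ∣ W.c₄)
    (WK : WeierstrassCurve K) (hWK : WK = W.map (Int.castRingHom K))
    (Q : WK.toAffine.Point) (hQ : addOrderOf Q = p) :
    Φ.eval₂ (evalAtK ((((W.c₄ : ℚ) ^ 3 / (W.Δ : ℚ) : ℚ)) : K)) (veluJ WK (xsOf Q p)) = 0 ∧
      Φ.eval₂ (evalAtK (veluJ WK (xsOf Q p))) ((((W.c₄ : ℚ) ^ 3 / (W.Δ : ℚ) : ℚ)) : K) = 0 := by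
  subst hWK
  have hint : IsIntegralW (W.map (Int.castRingHom K)) := ZeroComp5.isIntegralW_map_int W
  have hc4K : (W.map (Int.castRingHom K)).c₄ = ((W.c₄ : ℤ) : K) := by
    rw [WeierstrassCurve.map_c₄, eq_intCast]
  have hΔK : (W.map (Int.castRingHom K)).Δ = ((W.Δ : ℤ) : K) := by
    rw [WeierstrassCurve.map_Δ, eq_intCast]
  have h4 : ‖(W.map (Int.castRingHom K)).c₄‖ = 1 := by
    rw [hc4K]
    exact le_antisymm (IsUltrametricDist.norm_intCast_le_one K _)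
      (not_lt.mp fun hlt => hc4 ((hK _).mp hlt))
  have hΔ0K : (W.map (Int.castRingHom K)).Δ ≠ 0 := by
    rw [hΔK]
    exact Int.cast_ne_zero.mpr hΔ0
  have hΔ1K : ‖(W.map (Int.castRingHom K)).Δ‖ < 1 := by
    rw [hΔK]
    exact (hK _).mpr hΔ
  have hαK : (W.map (Int.castRingHom K)).c₄ ^ 3 / (W.map (Int.castRingHom K)).Δ =
      (((W.c₄ : ℚ) ^ 3 / (W.Δ : ℚ) : ℚ) : K) := by
    rw [hc4K, hΔK]
    push_cast
    rfl
  have key := modEq_K hLT Φ h1 h2 _ hint h4 hΔ0K hΔ1K Q hQ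
  rwa [hαK] at key

/-- **the modular equation for `(α₀, β₀)`**, `α₀ = c₄³/Δ`, `β₀ = j(W/⟨Q⟩)`. -/
theorem modEq_global {p : ℕ} [hp : Fact p.Prime] (hp3 : 3 < p) (hrp : r ≠ p)
    (W : WeierstrassCurve ℤ) (hΔ0 : W.Δ ≠ 0) (hΔ : (r : ℤ) ∣ W.Δ) (hc4 : ¬ (r : ℤ) ∣ W.c₄)
    (x₀ y₀ : ℚ) (h : ((W.map (Int.castRingHom ℚ))⁄Qb).toAffine.Nonsingular (x₀ : Qb) (y₀ : Qb))
    (hord : addOrderOf (Point.some _ _ h) = p) (β₀ : ℚ)
    (hβ : veluJ ((W.map (Int.castRingHom ℚ))⁄Qb) (xsOf (Point.some _ _ h) p) = (β₀ : Qb))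
    (Φ : Polynomial (Polynomial ℤ))
    (h1 : Φ.eval₂ (evalAt ℤ (jqModC ℤ)) (qExpand ℤ p (jqModC ℤ)) = 0)
    (h2 : Φ.eval₂ (evalAt ℤ (qExpand ℤ p (jqModC ℤ))) (jqModC ℤ) = 0) :
    Φ.eval₂ (Polynomial.eval₂RingHom (Int.castRingHom ℚ) ((W.c₄ : ℚ) ^ 3 / (W.Δ : ℚ))) β₀ = 0 ∧
      Φ.eval₂ (Polynomial.eval₂RingHom (Int.castRingHom ℚ) β₀) ((W.c₄ : ℚ) ^ 3 / (W.Δ : ℚ)) = 0 := by
  classical
  have : NeZero p := ⟨hp.out.ne_zero⟩
  let f : Qb →ₐ[ℚ] ℂ_[r] := IsAlgClosed.lift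
  have hpK : ‖((p : ℕ) : ℂ_[r])‖ = 1 := norm_natCast_padicComplex r hp.out hrp
  have hLT : LTStatement (K := ℂ_[r]) jK p := TateLTFinal4.ltStatement hp3 hpK
  have hordK : addOrderOf (Point.map (W' := (W.map (Int.castRingHom ℚ))) f (Point.some _ _ h)) = p := by
    rw [addOrderOf_injective (Point.map (W' := (W.map (Int.castRingHom ℚ))) f)
      (Point.map_injective f) (Point.some _ _ h), hord]
  have hβK : veluJ ((W.map (Int.castRingHom ℚ))⁄ℂ_[r])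
      (xsOf (Point.map (W' := (W.map (Int.castRingHom ℚ))) f (Point.some _ _ h)) p) =
      (β₀ : ℂ_[r]) := by
    rw [veluJ_map, hβ]
    exact map_ratCast f β₀
  obtain ⟨k1, k2⟩ := modEq_int (ZeroComp5.norm_intCast_padicComplex_lt_one_iff r) hLT Φ h1 h2 W hΔ0 hΔ
    hc4 ((W.map (Int.castRingHom ℚ))⁄ℂ_[r]) (baseChange_eq_map_int W) _ hordK
  rw [hβK] at k1 k2
  exact ⟨eval₂_rat_of_K Φ _ _ k1, eval₂_rat_of_K Φ _ _ k2⟩

/-- transport of a rational relation to any field of characteristic zero (e.g. `ℚ̄`). -/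
theorem eval₂_cast {L : Type*} [Field L] [CharZero L] (Φ : Polynomial (Polynomial ℤ)) (a b : ℚ)
    (h : Φ.eval₂ (Polynomial.eval₂RingHom (Int.castRingHom ℚ) a) b = 0) :
    Φ.eval₂ (Polynomial.eval₂RingHom (Int.castRingHom L) ((a : ℚ) : L)) ((b : ℚ) : L) = 0 := by
  have h2 := congrArg (algebraMap ℚ L) h
  rw [Polynomial.hom_eval₂, map_zero, eq_ratCast] at h2
  have e : (algebraMap ℚ L).comp (Polynomial.eval₂RingHom (Int.castRingHom ℚ) a) =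
      Polynomial.eval₂RingHom (Int.castRingHom L) ((a : ℚ) : L) := by
    refine Polynomial.ringHom_ext (fun n => ?_) ?_
    · simp
    · simp
  rwa [e] at h2

/-- **the modular equation for `(α₀, β₀)`, in `ℚ̄`.** -/
theorem modEq_global_Qb {p : ℕ} [hp : Fact p.Prime] (hp3 : 3 < p) (hrp : r ≠ p)
    (W : WeierstrassCurve ℤ) (hΔ0 : W.Δ ≠ 0) (hΔ : (r : ℤ) ∣ W.Δ) (hc4 : ¬ (r : ℤ) ∣ W.c₄)
    (x₀ y₀ : ℚ) (h : ((W.map (Int.castRingHom ℚ))⁄Qb).toAffine.Nonsingular (x₀ : Qb) (y₀ : Qb))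
    (hord : addOrderOf (Point.some _ _ h) = p) (β₀ : ℚ)
    (hβ : veluJ ((W.map (Int.castRingHom ℚ))⁄Qb) (xsOf (Point.some _ _ h) p) = (β₀ : Qb))
    (Φ : Polynomial (Polynomial ℤ))
    (h1 : Φ.eval₂ (evalAt ℤ (jqModC ℤ)) (qExpand ℤ p (jqModC ℤ)) = 0)
    (h2 : Φ.eval₂ (evalAt ℤ (qExpand ℤ p (jqModC ℤ))) (jqModC ℤ) = 0) :
    Φ.eval₂ (Polynomial.eval₂RingHom (Int.castRingHom Qb)
        ((((W.c₄ : ℚ) ^ 3 / (W.Δ : ℚ) : ℚ)) : Qb)) ((β₀ : ℚ) : Qb) = 0 ∧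
      Φ.eval₂ (Polynomial.eval₂RingHom (Int.castRingHom Qb) ((β₀ : ℚ) : Qb))
        ((((W.c₄ : ℚ) ^ 3 / (W.Δ : ℚ) : ℚ)) : Qb) = 0 := by
  obtain ⟨k1, k2⟩ := modEq_global r hp3 hrp W hΔ0 hΔ hc4 x₀ y₀ h hord β₀ hβ Φ h1 h2
  exact ⟨eval₂_cast Φ _ _ k1, eval₂_cast Φ _ _ k2⟩

end Global

end Fermat.Agent.MZ.MOD.ModEqGlobal4
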