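/-
Programme MZ (S15, Mazur), chapter MOD-E (helper4): **assembly of the moduli bridge**
`Types2.ModuliBridge` from the existence of a place of `FF p` over a solution `(α, β)` of the modular
equation (`PlaceExistsProp`, helper1's `PlaceExists1`).

Given `W / ℤ`, `Q` a `G_ℚ`-fixed point of exact order `p ∉ {2,3,5,7,13}`:
* if there is no prime `r ≠ p` with `r ∣ Δ`, `r ∤ c₄`, take `x = cuspInf p` (the type clause is void);
* otherwise `Q = (x₀, y₀)` is rational (`RatPoint5`), `β₀ = veluJ (W/ℚ̄) ⟨Q⟩ ∈ ℚ`, `α₀ = c₄³/Δ`,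
  `Φ_p(β₀, α₀) = 0` (`ModEqGlobal4`), so a place `x` over `(α₀, β₀)` exists; its types are given by
  `RatPoint5.local_types_fixed` + `TateLTFinal4.ltStatement` over `ℂ_[r]`, and it is `G_ℚ`-fixed by
  `Unique2.galois_smul_eq_of_typed`.
-/
import Mathlib
import Fermat.Agent.MZ.MOD.ModEqGlobal4
import Fermat.Agent.MZ.MOD.RatPoint5
import Fermat.Agent.MZ.MOD.Unique2
import Fermat.Agent.MZ.MOD.Types2
import Fermat.Agent.FF.BASE.Place2

set_option autoImplicit false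
set_option linter.unusedSectionVars false
set_option linter.unusedVariables false
set_option linter.style.longLine false
set_option synthInstance.maxHeartbeats 400000
set_option maxHeartbeats 1000000

open AlgebraicCurve ModularCurve
open WeierstrassCurve WeierstrassCurve.Affine

noncomputable section

namespace Fermat.Agent.MZ.MOD.BridgeAsm4

open Fermat.Agent.X0 Fermat.Agent.MZ.CUSP.CuspPlaces1 Fermat.Agent.MZ.MOD.Types2
open TateCurve4 LTTransport5 LocalGlobal5 RedType5 VeluDef4 RatPoint5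
open Fermat.Agent.IG.PR.Interface20 (evalAt)

/-- **existence of a place over a solution of the modular equation.** -/
def PlaceExistsProp : Prop :=
  ∀ {p : ℕ} [NeZero p], p.Prime → ∀ (Φ : Polynomial (Polynomial ℤ)), Φ.Monic → Φ.natDegree = p + 1 →
    Φ.eval₂ (evalAt ℤ (jqModC ℤ)) (qExpand ℤ p (jqModC ℤ)) = 0 →
    Φ.eval₂ (evalAt ℤ (qExpand ℤ p (jqModC ℤ))) (jqModC ℤ) = 0 →
    ∀ α β : Kbar, Φ.eval₂ (Polynomial.eval₂RingHom (Int.castRingHom Kbar) α) β = 0 →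
      ∃ x : Place Kbar (FF p), 0 < x.ord (jF p - algebraMap Kbar (FF p) α) ∧
        0 < x.ord (jNF p - algebraMap Kbar (FF p) β)

/-- **the moduli bridge**, from the existence of places. -/
theorem moduliBridge (hPlace : PlaceExistsProp) : ModuliBridge := by
  intro p _ hp hp' W hΔ Q hQfix hQord
  have : Fact p.Prime := ⟨hp⟩
  have hp3 : 3 < p := by
    have h2 := hp.two_le
    simp only [Finset.mem_insert, Finset.mem_singleton, not_or] at hp'
    obtain ⟨n2, n3, -, -, -⟩ := hp'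
    omega
  by_cases hex : ∃ r : ℕ, r.Prime ∧ r ≠ p ∧ (r : ℤ) ∣ W.Δ ∧ ¬ (r : ℤ) ∣ W.c₄
  · obtain ⟨r₀, hr₀, hr₀p, hr₀Δ, hr₀c⟩ := hex
    have hQ0 : Q ≠ 0 := by
      rintro rfl
      rw [addOrderOf_zero] at hQord
      omega
    obtain ⟨x₀, y₀, h, rfl⟩ := exists_rat_coords _ Q hQ0 hQfix
    obtain ⟨β₀, hβ⟩ := exists_rat_veluJ _ _ hQfix p
    obtain ⟨Φ, hm, hd, h1, h2⟩ := Fermat.Agent.IG.AN.ModPoly3.p0 p hp
    have : Fact r₀.Prime := ⟨hr₀⟩
    obtain ⟨k1, -⟩ := ModEqGlobal4.modEq_global_Qb r₀ hp3 hr₀p W hΔ hr₀Δ hr₀c x₀ y₀ h hQord β₀ hβ Φ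
      h1 h2
    obtain ⟨x, hxα, hxβ⟩ := hPlace hp Φ hm hd h1 h2 _ _ k1
    -- the types at every multiplicative prime
    have htypes : ∀ r : ℕ, r.Prime → r ≠ p → (r : ℤ) ∣ W.Δ → ¬ (r : ℤ) ∣ W.c₄ →
        ∀ A : ValuationSubring Kbar, A.LiesOverPrime r →
          (((W.c₄ : ℚ) ^ 3 / (W.Δ : ℚ) : ℚ) : Kbar) ∉ A ∧
          (W.InZeroComponentAt A (.some _ _ h) →
            A.valuation (β₀ : Kbar) = A.valuation (((W.c₄ : ℚ) ^ 3 / (W.Δ : ℚ) : ℚ) : Kbar) ^ p) ∧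
          (¬ W.InZeroComponentAt A (.some _ _ h) →
            A.valuation (β₀ : Kbar) ^ p = A.valuation (((W.c₄ : ℚ) ^ 3 / (W.Δ : ℚ) : ℚ) : Kbar)) := by
      intro r hr hrp hrΔ hrc A hA
      have : Fact r.Prime := ⟨hr⟩
      classical
      have hpK : ‖((p : ℕ) : ℂ_[r])‖ = 1 := ModEqGlobal4.norm_natCast_padicComplex r hp hrp
      exact local_types hr hp.pos (ZeroComp5.norm_intCast_padicComplex_lt_one_iff r)
        (IsAlgClosed.lift : Kbar →ₐ[ℚ] ℂ_[r]) (TateLTFinal4.ltStatement hp3 hpK)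
        TateLTFinal4.norm_jK W hΔ hrΔ hrc x₀ y₀ h hQord β₀ hβ hA
    refine ⟨x, ?_, ?_⟩
    · intro σ
      have hA₀ : (padicPlace r₀).LiesOverPrime r₀ := Fermat.Agent.FF.BASE.Place2.liesOverPrime r₀
      obtain ⟨t1, t2, t3⟩ := htypes r₀ hr₀ hr₀p hr₀Δ hr₀c _ hA₀
      refine Unique2.galois_smul_eq_of_typed hp hr₀ hr₀p hA₀ x _ _ (fun τ => ?_) (fun τ => ?_) t1
        hxα hxβ ?_ σ
      · exact map_ratCast τ _
      · exact map_ratCast τ _
      · by_cases hin : W.InZeroComponentAt (padicPlace r₀) (.some _ _ h)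
        · exact Or.inr (t2 hin)
        · exact Or.inl (t3 hin)
    · intro r hr hrp hrΔ hrc A hA
      obtain ⟨t1, t2, t3⟩ := htypes r hr hrp hrΔ hrc A hA
      exact ⟨fun hn => ⟨_, _, t1, hxα, hxβ, t3 hn⟩, fun hin => ⟨_, _, t1, hxα, hxβ, t2 hin⟩⟩
  · refine ⟨cuspInf p, fun σ => arithmeticGalois_smul_cuspInf p σ, ?_⟩
    intro r hr hrp hrΔ hrc
    exact absurd ⟨r, hr, hrp, hrΔ, hrc⟩ hex

end Fermat.Agent.MZ.MOD.BridgeAsm4
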