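/-
Programme MZ (S15, Mazur), chapter MOD-E (helper1): **existence of the place `(α, β)` of `FF p`.**

`p` prime, `Φ ∈ ℤ[Y][X]` the modular equation of level `p` (`IG/AN/ModPoly3.p0`: monic of `X`-degree
`p + 1`, `Φ(X := j(q^p), Y := j(q)) = 0`).  If `α β : ℚbar` satisfy `Φ(X := β, Y := α) = 0`, then there
is a place `x` of `FF p = ℚbar(j, j_p)` with `j(x) = α` and `j_p(x) = β`:

  `exists_place_of_rel`, and the packaged form `exists_modular_equation_place` (the SAME `Φ` satisfies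
  the evaluated modular equation of `ModEqK1` on every punctured ultrametric unit disc).

Proof.  `F = ℚbar(j) ⊆ FF p` has `[FF p : F] = ψ(p) = p + 1` (`X0/Degree`) and `FF p = F(j_p)`
(`FracR.mem_adjoin_genSet`), so `Φ(X, j)` is the minimal polynomial of `j_p` over `F` and
`N_{FF p/F}(j_p - β) = ± Φ(β, j)`, a polynomial in `j` vanishing at `j = α`.  Take a place `v` of `F` with
`j(v) = α`; the norm formula `ES/HECKE/NormFormula15.ord_norm` gives a place `w ∣ v` with
`ord_w (j_p - β) > 0`.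
-/
import Mathlib
import Fermat.Agent.MZ.MOD.ModEqK1
import Fermat.Agent.MZ.CUSP.CuspPlaces1
import Fermat.Agent.ES.HECKE.NormFormula15
import Fermat.Agent.RED.TOP.FbarFacts20
import Fermat.Agent.FF.NS.GenPos9
import Fermat.Agent.RR.LHypGen
import Fermat.Agent.X0.FracR
import Fermat.Agent.X0.Degree
import Fermat.Agent.ES.N34.FrickeFK8

set_option autoImplicit false
set_option linter.unusedSectionVars false
set_option linter.unusedVariables false
set_option linter.style.longLine false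
set_option synthInstance.maxHeartbeats 400000
set_option maxHeartbeats 1000000

open AlgebraicCurve ModularCurve Polynomial IntermediateField

noncomputable section

namespace Fermat.Agent.MZ.MOD.PlaceExists1

open Fermat.Agent.X0 Fermat.Agent.MZ.CUSP.CuspPlaces1 Fermat.Agent.MZ.MOD.EvalRel1

variable (p : ℕ) [NeZero p]

/-- `ℚbar(j) ⊆ FF p`. -/
abbrev Fj : IntermediateField Kbar (FF p) := Kbar⟮jF p⟯

/-- `j` as an element of `ℚbar(j)`. -/
def jF' : Fj p := ⟨jF p, mem_adjoin_simple_self Kbar (jF p)⟩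

theorem coe_jF' : ((jF' p : Fj p) : FF p) = jF p := rfl

theorem finiteDimensional_Fj : FiniteDimensional (Fj p) (FF p) :=
  Degree.finiteDimensional_adjoin p (realizeData p) (cuspData p)

theorem genSet_subset (hp : p.Prime) : genSet p ⊆ {jF p, jNF p} := by
  rintro x ⟨d, hd0, hd, rfl⟩
  rcases (Nat.dvd_prime hp).1 hd with h1 | h1
  · left
    subst h1
    rfl
  · right
    subst h1
    rfl

theorem adjoin_pair_eq_top (hp : p.Prime) : Kbar⟮jF p, jNF p⟯ = ⊤ := by
  rw [eq_top_iff]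
  intro y _
  exact adjoin.mono Kbar _ _ (genSet_subset p hp) (FracR.mem_adjoin_genSet p y)

/-- `FF p = ℚbar(j)(j_p)` for `p` prime. -/
theorem adjoin_jNF_eq_top (hp : p.Prime) : (Fj p)⟮jNF p⟯ = ⊤ := by
  rw [← restrictScalars_eq_top_iff (K := Kbar), adjoin_simple_adjoin_simple]
  exact adjoin_pair_eq_top p hp

theorem natDegree_minpoly_jNF (hp : p.Prime) :
    (minpoly (Fj p) (jNF p)).natDegree = p + 1 := by
  haveI := finiteDimensional_Fj p
  have hint : IsIntegral (Fj p) (jNF p) := IsIntegral.of_finite _ _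
  have key : ∀ S : IntermediateField (Fj p) (FF p), S = ⊤ →
      Module.finrank (Fj p) S = Module.finrank (Fj p) (FF p) := by
    rintro _ rfl
    exact finrank_top'
  rw [← adjoin.finrank hint, key _ (adjoin_jNF_eq_top p hp),
    Degree.finrank_adjoin p (realizeData p) (cuspData p)]
  have h := GNPsi.gnp_dedekindPsi_prime_pow hp 0
  simpa using h

/-- the coefficient map `ℤ[Y] → ℚbar(j)`, `Y ↦ j`. -/
def ψF : Polynomial ℤ →+* Fj p := Polynomial.eval₂RingHom (Int.castRingHom (Fj p)) (jF' p)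

/-- `Φ(X, j)` kills `j_p`. -/
theorem aeval_jNF_map (Φ : Polynomial (Polynomial ℤ))
    (h1 : Φ.eval₂ (Fermat.Agent.IG.PR.Interface20.evalAt ℤ (jqModC ℤ))
      (qExpand ℤ p (jqModC ℤ)) = 0) :
    Polynomial.aeval (jNF p) (Φ.map (ψF p)) = 0 := by
  rw [Polynomial.aeval_def, Polynomial.eval₂_map]
  apply (algebraMap (FF p) (LaurentSeries Kbar)).injective
  rw [Polynomial.hom_eval₂, map_zero]
  have h2 := congrArg (coeffMap (Int.castRingHom Kbar)) h1
  rw [Polynomial.hom_eval₂, map_zero, Analytic.coeffMap_qExpand,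
    Fermat.Agent.IG.AN.ModPoly3.coeffMap_intCast_jqModC] at h2
  have hcomp : (algebraMap (FF p) (LaurentSeries Kbar)).comp
      ((algebraMap (Fj p) (FF p)).comp (ψF p)) =
      (coeffMap (Int.castRingHom Kbar)).comp
        (Fermat.Agent.IG.PR.Interface20.evalAt ℤ (jqModC ℤ)) := by
    refine Polynomial.ringHom_ext (fun a => ?_) ?_
    · simp [ψF, Fermat.Agent.IG.PR.Interface20.evalAt]
    · simp only [RingHom.comp_apply, ψF, Fermat.Agent.IG.PR.Interface20.evalAt,
        Polynomial.coe_eval₂RingHom, Polynomial.eval₂_X]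
      rw [Fermat.Agent.IG.AN.ModPoly3.coeffMap_intCast_jqModC]
      exact coe_jF p
  have hj : algebraMap (FF p) (LaurentSeries Kbar) (jNF p) = qExpand Kbar p jqK := by
    show ((jdF p p dvd_rfl : FF p) : LaurentSeries Kbar) = _
    exact Fermat.Agent.ES.N34.FrickeFK8.coe_jdF_eq_qExpand p p dvd_rfl
  rw [hcomp, hj]
  exact h2

/-- `Φ(X, j)` is the minimal polynomial of `j_p` over `ℚbar(j)`. -/
theorem minpoly_jNF_eq (hp : p.Prime) (Φ : Polynomial (Polynomial ℤ)) (hm : Φ.Monic)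
    (hd : Φ.natDegree = p + 1)
    (h1 : Φ.eval₂ (Fermat.Agent.IG.PR.Interface20.evalAt ℤ (jqModC ℤ))
      (qExpand ℤ p (jqModC ℤ)) = 0) :
    minpoly (Fj p) (jNF p) = Φ.map (ψF p) := by
  haveI := finiteDimensional_Fj p
  have hint : IsIntegral (Fj p) (jNF p) := IsIntegral.of_finite _ _
  refine (Polynomial.eq_of_monic_of_dvd_of_natDegree_le (minpoly.monic hint) (hm.map _)
    (minpoly.dvd _ _ (aeval_jNF_map p Φ h1)) ?_).symm
  rw [hm.natDegree_map, hd, natDegree_minpoly_jNF p hp]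

/-- `N_{FF p / ℚbar(j)} (j_p - β) = (± Φ(β, j))^m`, `m ≥ 1` (in fact `m = 1`). -/
theorem norm_jNF_sub (hp : p.Prime) (Φ : Polynomial (Polynomial ℤ)) (hm : Φ.Monic)
    (hd : Φ.natDegree = p + 1)
    (h1 : Φ.eval₂ (Fermat.Agent.IG.PR.Interface20.evalAt ℤ (jqModC ℤ))
      (qExpand ℤ p (jqModC ℤ)) = 0) (β : Kbar) :
    ∃ d m : ℕ, 0 < m ∧ Algebra.norm (Fj p) (jNF p - algebraMap Kbar (FF p) β) =
      ((-1) ^ d * (Φ.map (ψF p)).eval (algebraMap Kbar (Fj p) β)) ^ m := by
  haveI := finiteDimensional_Fj p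
  have hxx : jNF p - algebraMap Kbar (FF p) β =
      jNF p - algebraMap (Fj p) (FF p) (algebraMap Kbar (Fj p) β) := by
    rw [← IsScalarTower.algebraMap_apply]
  rw [hxx]
  set b : Fj p := algebraMap Kbar (Fj p) β with hb
  set x : FF p := jNF p - algebraMap (Fj p) (FF p) b with hx
  have hint : IsIntegral (Fj p) x := IsIntegral.of_finite _ _
  refine ⟨(adjoin.powerBasis hint).dim, Module.finrank (Fj p)⟮x⟯ (FF p), Module.finrank_pos, ?_⟩
  rw [Algebra.norm_eq_norm_adjoin (Fj p) x]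
  congr 1
  have h := Algebra.PowerBasis.norm_gen_eq_coeff_zero_minpoly (adjoin.powerBasis hint)
  rw [adjoin.powerBasis_gen, minpoly_gen] at h
  rw [h]
  congr 1
  rw [hx, minpoly.sub_algebraMap, minpoly_jNF_eq p hp Φ hm hd h1,
    Polynomial.coeff_zero_eq_eval_zero, Polynomial.eval_comp]
  simp

/-- the specialisation `Φ(X := β, Y) ∈ ℚbar[Y]`. -/
def gβ (Φ : Polynomial (Polynomial ℤ)) (β : Kbar) : Polynomial Kbar :=
  Φ.eval₂ (Polynomial.mapRingHom (Int.castRingHom Kbar)) (Polynomial.C β)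

theorem eval_gβ (Φ : Polynomial (Polynomial ℤ)) (α β : Kbar) :
    (gβ Φ β).eval α = Φ.eval₂ (Polynomial.eval₂RingHom (Int.castRingHom Kbar) α) β := by
  have h := Polynomial.hom_eval₂ Φ (Polynomial.mapRingHom (Int.castRingHom Kbar))
    (Polynomial.evalRingHom α) (Polynomial.C β)
  have hcomp : (Polynomial.evalRingHom α).comp (Polynomial.mapRingHom (Int.castRingHom Kbar)) =
      Polynomial.eval₂RingHom (Int.castRingHom Kbar) α := by
    refine Polynomial.ringHom_ext (fun a => ?_) ?_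
    · simp
    · simp
  rw [hcomp] at h
  simpa [gβ] using h

theorem aeval_gβ (Φ : Polynomial (Polynomial ℤ)) (β : Kbar) :
    Polynomial.aeval (jF' p) (gβ Φ β) = (Φ.map (ψF p)).eval (algebraMap Kbar (Fj p) β) := by
  have h := Polynomial.hom_eval₂ Φ (Polynomial.mapRingHom (Int.castRingHom Kbar))
    ((Polynomial.aeval (jF' p) : Polynomial Kbar →ₐ[Kbar] Fj p) : Polynomial Kbar →+* Fj p)
    (Polynomial.C β)
  have hcomp : ((Polynomial.aeval (jF' p) : Polynomial Kbar →ₐ[Kbar] Fj p) :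
      Polynomial Kbar →+* Fj p).comp (Polynomial.mapRingHom (Int.castRingHom Kbar)) = ψF p := by
    refine Polynomial.ringHom_ext (fun a => ?_) ?_
    · simp [ψF]
    · simp [ψF]
  rw [hcomp] at h
  rw [Polynomial.eval_map]
  simpa [gβ] using h

theorem aeval_mem_place {K F : Type*} [Field K] [Field F] [Algebra K F] (v : Place K F) {t : F}
    (ht : t ∈ v.toValuationSubring) (P : Polynomial K) :
    Polynomial.aeval t P ∈ v.toValuationSubring := by
  rw [Polynomial.aeval_eq_sum_range]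
  refine sum_mem fun i _ => ?_
  rw [Algebra.smul_def]
  exact mul_mem (v.algebraMap_mem' _) (pow_mem ht i)

theorem jNF_sub_ne_zero (β : Kbar) : jNF p - algebraMap Kbar (FF p) β ≠ 0 := by
  intro h
  have h1 : jNF p = algebraMap Kbar (FF p) β := sub_eq_zero.1 h
  have h2 := ord_cuspInf_jNF p
  rw [h1, FF.ord_algebraMap] at h2
  have : (p : ℤ) ≠ 0 := by exact_mod_cast NeZero.ne p
  omega

/-- **existence of the place `(α, β)`**: if `Φ(X := β, Y := α) = 0` then some place `x` of `FF p`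
has `j(x) = α` and `j_p(x) = β`. -/
theorem exists_place_of_rel (hp : p.Prime) (Φ : Polynomial (Polynomial ℤ)) (hm : Φ.Monic)
    (hd : Φ.natDegree = p + 1)
    (h1 : Φ.eval₂ (Fermat.Agent.IG.PR.Interface20.evalAt ℤ (jqModC ℤ))
      (qExpand ℤ p (jqModC ℤ)) = 0) (α β : Kbar)
    (hαβ : Φ.eval₂ (Polynomial.eval₂RingHom (Int.castRingHom Kbar) α) β = 0) :
    ∃ x : Place Kbar (FF p), 0 < x.ord (jF p - algebraMap Kbar (FF p) α) ∧
      0 < x.ord (jNF p - algebraMap Kbar (FF p) β) := by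
  classical
  haveI := finiteDimensional_Fj p
  haveI : CharZero (Fj p) := charZero_of_injective_algebraMap (algebraMap Kbar (Fj p)).injective
  have hgen : FF.IsGen Kbar (jF p) := Fermat.Agent.RED.TOP.FbarFacts20.isGen_j p
  have H : Fermat.Agent.RR.LSpace.LHyp Kbar (FF p) := Fermat.Agent.RR.LHypGen.lHyp_of_isGen hgen
  -- a place `x₀` of `FF p` over `j = α`
  obtain ⟨x₀, hx₀⟩ := Fermat.Agent.FF.NS.GenPos9.exists_ord_pos H
    (f := jF p - algebraMap Kbar (FF p) α) (by
      intro c h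
      exact hgen.sub_algebraMap_ne_zero (α + c) (by rw [map_add, ← sub_sub, h, sub_self]))
  set v : Place Kbar (Fj p) := x₀.restrict (Fj p) with hv
  have hjα : algebraMap (Fj p) (FF p) (jF' p - algebraMap Kbar (Fj p) α) =
      jF p - algebraMap Kbar (FF p) α := by
    rw [map_sub, ← IsScalarTower.algebraMap_apply]
    rfl
  have hpos_of : ∀ w : Place Kbar (FF p), w.restrict (Fj p) = v →
      (0 < w.ord (jF p - algebraMap Kbar (FF p) α) ↔
        0 < v.ord (jF' p - algebraMap Kbar (Fj p) α)) := by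
    intro w hw
    have h := w.ord_restrict (F := Fj p) (jF' p - algebraMap Kbar (Fj p) α)
    rw [hjα, hw] at h
    have he := w.ramificationIndex_pos (F := Fj p)
    rw [h]
    constructor
    · intro h3
      by_contra hneg
      push Not at hneg
      have : (Place.ramificationIndex (F := Fj p) w : ℤ) *
          v.ord (jF' p - algebraMap Kbar (Fj p) α) ≤ 0 :=
        mul_nonpos_of_nonneg_of_nonpos (by positivity) hneg
      omega
    · intro h3
      have he' : (0 : ℤ) < (Place.ramificationIndex (F := Fj p) w : ℤ) := by exact_mod_cast he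
      exact mul_pos he' h3
  have hvpos : 0 < v.ord (jF' p - algebraMap Kbar (Fj p) α) := (hpos_of x₀ rfl).1 hx₀
  -- the norm of `j_p - β`
  set f : FF p := jNF p - algebraMap Kbar (FF p) β with hf
  have hf0 : f ≠ 0 := jNF_sub_ne_zero p β
  obtain ⟨d, m, hmpos, hnorm⟩ := norm_jNF_sub p hp Φ hm hd h1 β
  have hN0 : Algebra.norm (Fj p) f ≠ 0 := Algebra.norm_ne_zero_iff.2 hf0
  set E : Fj p := (Φ.map (ψF p)).eval (algebraMap Kbar (Fj p) β) with hE
  have hE0 : E ≠ 0 := by
    intro h0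
    apply hN0
    rw [hnorm, h0, mul_zero, zero_pow hmpos.ne']
  -- `E = (j - α) * H`
  have hroot : (gβ Φ β).IsRoot α := by
    rw [Polynomial.IsRoot, eval_gβ]
    exact hαβ
  have hfac := Polynomial.mul_divByMonic_eq_iff_isRoot.2 hroot
  set h : Polynomial Kbar := gβ Φ β /ₘ (Polynomial.X - Polynomial.C α) with hh
  have hEfac : E = (jF' p - algebraMap Kbar (Fj p) α) * Polynomial.aeval (jF' p) h := by
    rw [hE, ← aeval_gβ, ← hfac, map_mul, map_sub, Polynomial.aeval_X, Polynomial.aeval_C]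
  set Hh : Fj p := Polynomial.aeval (jF' p) h with hHh
  have hH0 : Hh ≠ 0 := by
    intro h0
    apply hE0
    rw [hEfac, h0, mul_zero]
  have hjα0 : jF' p - algebraMap Kbar (Fj p) α ≠ 0 := by
    intro h0
    apply hE0
    rw [hEfac, h0, zero_mul]
  have hjmem : jF' p ∈ v.toValuationSubring := by
    have h2 : jF' p - algebraMap Kbar (Fj p) α ∈ v.toValuationSubring :=
      FF.mem_of_ord_nonneg v hvpos.le
    have h3 := add_mem h2 (v.algebraMap_mem' α)
    rwa [sub_add_cancel] at h3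
  have hHord : 0 ≤ v.ord Hh := FF.ord_nonneg_of_mem v (aeval_mem_place v hjmem h)
  have hEord : 0 < v.ord E := by
    rw [hEfac, v.ord_mul hjα0 hH0]
    omega
  have hsign : v.ord ((-1 : Fj p) ^ d) = 0 := by
    rw [FF.ord_pow, FF.ord_neg, Place.ord_one, mul_zero]
  have hNord : 0 < v.ord (Algebra.norm (Fj p) f) := by
    rw [hnorm, FF.ord_pow, v.ord_mul (pow_ne_zero _ (neg_ne_zero.2 one_ne_zero)) hE0, hsign,
      zero_add]
    have : (0 : ℤ) < (m : ℤ) := by exact_mod_cast hmpos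
    exact mul_pos this hEord
  -- the norm formula
  have hdeg' : ∀ w : Place Kbar (FF p), w.deg = 1 := fun w => H.deg_eq_one w
  have hon := Fermat.Agent.ES.HECKE.NormFormula15.ord_norm hdeg' v hf0
  rw [hon] at hNord
  have hex : ∃ P : IsDedekindDomain.HeightOneSpectrum
      ↥(Fermat.Agent.ES.HECKE.NormFormula15.IC (FF p) v),
      0 < (Fermat.Agent.ES.HECKE.NormFormula15.placeOf P).ord f := by
    by_contra hno
    push Not at hno
    let _ := Fintype.ofFinite (IsDedekindDomain.HeightOneSpectrum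
      ↥(Fermat.Agent.ES.HECKE.NormFormula15.IC (FF p) v))
    rw [finsum_eq_sum_of_fintype] at hNord
    have := Finset.sum_nonpos (s := Finset.univ) (fun P _ => hno P)
    omega
  obtain ⟨P, hP⟩ := hex
  refine ⟨Fermat.Agent.ES.HECKE.NormFormula15.placeOf P, ?_, hP⟩
  exact (hpos_of _ (Fermat.Agent.ES.HECKE.NormFormula15.restrict_placeOf P)).2 hvpos

/-- relations descend along a ring hom out of `ℚbar` (which is injective). -/
theorem rel_of_map {K : Type*} [Field K] (ι : Kbar →+* K) (Φ : Polynomial (Polynomial ℤ))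
    (α β : Kbar)
    (h : Φ.eval₂ (Polynomial.eval₂RingHom (Int.castRingHom K) (ι α)) (ι β) = 0) :
    Φ.eval₂ (Polynomial.eval₂RingHom (Int.castRingHom Kbar) α) β = 0 := by
  apply ι.injective
  rw [Polynomial.hom_eval₂, map_zero]
  have hcomp : ι.comp (Polynomial.eval₂RingHom (Int.castRingHom Kbar) α) =
      Polynomial.eval₂RingHom (Int.castRingHom K) (ι α) := by
    refine Polynomial.ringHom_ext (fun a => ?_) ?_
    · simp
    · simp
  rw [hcomp]
  exact h

universe u

/-- **packaged form**: ONE `Φ ∈ ℤ[Y][X]` (monic, `X`-degree `p + 1`) which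
* satisfies the evaluated modular equation on every punctured ultrametric unit disc
  (`ModEqK1.exists_modular_equation`), and
* cuts out places of `FF p`: `Φ(X := β, Y := α) = 0` in `ℚbar` gives a place `x` with
  `j(x) = α`, `j_p(x) = β`. -/
theorem exists_modular_equation_place (hp : p.Prime) :
    ∃ Φ : Polynomial (Polynomial ℤ), Φ.Monic ∧ Φ.natDegree = p + 1 ∧
      (∀ (K : Type u) [NormedField K] [IsUltrametricDist K] [CompleteSpace K] (q : K),
        q ≠ 0 → ‖q‖ < 1 →
          Φ.eval₂ (evalAtK (QFromJ5.jK q)) (QFromJ5.jK (q ^ p)) = 0 ∧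
            Φ.eval₂ (evalAtK (QFromJ5.jK (q ^ p))) (QFromJ5.jK q) = 0) ∧
      ∀ α β : Kbar, Φ.eval₂ (Polynomial.eval₂RingHom (Int.castRingHom Kbar) α) β = 0 →
        ∃ x : Place Kbar (FF p), 0 < x.ord (jF p - algebraMap Kbar (FF p) α) ∧
          0 < x.ord (jNF p - algebraMap Kbar (FF p) β) := by
  obtain ⟨Φ, hm, hd, h1, h2⟩ := Fermat.Agent.IG.AN.ModPoly3.p0 p hp
  refine ⟨Φ, hm, hd, fun K _ _ _ q hq0 hq => ⟨?_, ?_⟩, fun α β h =>
    exists_place_of_rel p hp Φ hm hd h1 α β h⟩
  · exact eval_rel_j q hq0 hq p Φ h1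
  · exact eval_rel_j' q hq0 hq p Φ h2

/-- **the Tate-parameter form**: `K` a complete ultrametric field, `ι : ℚbar → K`, `0 < ‖q‖ < 1`.
If `(ι α, ι β) = (jK q, jK (q^p))` (the `∞`-shape) or `(ι α, ι β) = (jK (q^p), jK q)` (the `0`-shape),
then `FF p` has a place `x` with `j(x) = α` and `j_p(x) = β`. -/
theorem exists_place_of_tate (hp : p.Prime) {K : Type u} [NormedField K] [IsUltrametricDist K]
    [CompleteSpace K] (ι : Kbar →+* K) (q : K) (hq0 : q ≠ 0) (hq : ‖q‖ < 1) (α β : Kbar)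
    (h : (QFromJ5.jK q = ι α ∧ QFromJ5.jK (q ^ p) = ι β) ∨
      (QFromJ5.jK (q ^ p) = ι α ∧ QFromJ5.jK q = ι β)) :
    ∃ x : Place Kbar (FF p), 0 < x.ord (jF p - algebraMap Kbar (FF p) α) ∧
      0 < x.ord (jNF p - algebraMap Kbar (FF p) β) := by
  obtain ⟨Φ, hm, hd, h1, h2⟩ := Fermat.Agent.IG.AN.ModPoly3.p0 p hp
  refine exists_place_of_rel p hp Φ hm hd h1 α β (rel_of_map ι Φ α β ?_)
  rcases h with ⟨ha, hb⟩ | ⟨ha, hb⟩
  · rw [← ha, ← hb]
    exact eval_rel_j q hq0 hq p Φ h1
  · rw [← ha, ← hb]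
    exact eval_rel_j' q hq0 hq p Φ h2

end Fermat.Agent.MZ.MOD.PlaceExists1
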