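/-
Programme MZ (S15, Mazur), chapter MOD-E (helper4): **the moduli bridge `Types2.ModuliBridge`,
unconditionally** = `BridgeAsm4.moduliBridge` fed with helper1's `PlaceExists1.exists_place_of_rel`.
-/
import Mathlib
import Fermat.Agent.MZ.MOD.BridgeAsm4
import Fermat.Agent.MZ.MOD.PlaceExists1

set_option autoImplicit false
set_option linter.unusedSectionVars false
set_option linter.unusedVariables false

namespace Fermat.Agent.MZ.MOD.BridgeFinal4

/-- existence of a place over a solution of the modular equation (helper1). -/
theorem placeExists : BridgeAsm4.PlaceExistsProp :=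
  fun {p} _ hp Φ hm hd h1 _ α β h => PlaceExists1.exists_place_of_rel p hp Φ hm hd h1 α β h

/-- **the moduli bridge MOD-E.** -/
theorem moduliBridge : Types2.ModuliBridge := BridgeAsm4.moduliBridge placeExists

end Fermat.Agent.MZ.MOD.BridgeFinal4
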