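import Mathlib

/-!
# Root-of-unity constants (T3c)

For a primitive `p`-th root of unity `ζ` in a field of characteristic zero:

* `∑_{k=1}^{p-1} ζ^k (1 + 4 ζ^k + ζ^{2k}) / (1 - ζ^k)^4 = (p^4 - 1) / 120`,
* `∑_{k=1}^{p-1} ζ^k (1 + 26 ζ^k + 66 ζ^{2k} + 26 ζ^{3k} + ζ^{4k}) / (1 - ζ^k)^6 = - (p^6 - 1) / 252`.

Route: `s_k = 1 / (1 - ζ^k)` are the roots of `(X^p - (X-1)^p) / p`, Vieta gives the elementary
symmetric functions `e_j = C(p, j+1) / p`, Newton's identities give the power sums.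
-/

namespace Fermat.Agent.MZ.MOD.RootConst0

open Polynomial Finset

section Newton

variable {K : Type*} [Field K] {σ : Type*} [Fintype σ] (s : σ → K)

/-- elementary symmetric function of the family `s`. -/
noncomputable def esym (j : ℕ) : K := ((univ : Finset σ).val.map s).esymm j

/-- power sum of the family `s`. -/
noncomputable def pws (j : ℕ) : K := ∑ i, s i ^ j

theorem aeval_psum (j : ℕ) : MvPolynomial.aeval s (MvPolynomial.psum σ K j) = pws s j := by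
  simp [MvPolynomial.psum, pws]

theorem aeval_esymm (j : ℕ) : MvPolynomial.aeval s (MvPolynomial.esymm σ K j) = esym s j := by
  rw [MvPolynomial.aeval_esymm_eq_multiset_esymm]; rfl

theorem newton (k : ℕ) (h : 0 < k) :
    pws s k = (-1) ^ (k + 1) * k * esym s k -
      ∑ a ∈ antidiagonal k with a.1 ∈ Set.Ioo 0 k, (-1) ^ a.1 * esym s a.1 * pws s a.2 := by
  have := congrArg (MvPolynomial.aeval s) (MvPolynomial.psum_eq_mul_esymm_sub_sum σ K k h)
  simpa [aeval_psum, aeval_esymm, map_sub, map_mul, map_sum, map_pow, map_neg] using this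

theorem newton1 : pws s 1 = esym s 1 := by
  have := newton s 1 (by norm_num)
  have h : (antidiagonal 1).filter (fun a : ℕ × ℕ => a.1 ∈ Set.Ioo 0 1) = ∅ := by decide
  rw [h] at this
  simpa using this

theorem newton2 : pws s 2 = esym s 1 * pws s 1 - 2 * esym s 2 := by
  have := newton s 2 (by norm_num)
  have h : (antidiagonal 2).filter (fun a : ℕ × ℕ => a.1 ∈ Set.Ioo 0 2) = {(1, 1)} := by decide
  rw [h] at this
  rw [this]; simp; ring

theorem newton3 : pws s 3 = esym s 1 * pws s 2 - esym s 2 * pws s 1 + 3 * esym s 3 := by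
  have := newton s 3 (by norm_num)
  have h : (antidiagonal 3).filter (fun a : ℕ × ℕ => a.1 ∈ Set.Ioo 0 3) = {(1, 2), (2, 1)} := by
    decide
  rw [h] at this
  rw [this]; simp; ring

theorem newton4 : pws s 4 =
    esym s 1 * pws s 3 - esym s 2 * pws s 2 + esym s 3 * pws s 1 - 4 * esym s 4 := by
  have := newton s 4 (by norm_num)
  have h : (antidiagonal 4).filter (fun a : ℕ × ℕ => a.1 ∈ Set.Ioo 0 4) =
      {(1, 3), (2, 2), (3, 1)} := by decide
  rw [h] at this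
  rw [this]; simp; ring

theorem newton5 : pws s 5 =
    esym s 1 * pws s 4 - esym s 2 * pws s 3 + esym s 3 * pws s 2 - esym s 4 * pws s 1
      + 5 * esym s 5 := by
  have := newton s 5 (by norm_num)
  have h : (antidiagonal 5).filter (fun a : ℕ × ℕ => a.1 ∈ Set.Ioo 0 5) =
      {(1, 4), (2, 3), (3, 2), (4, 1)} := by decide
  rw [h] at this
  rw [this]; simp; ring

theorem newton6 : pws s 6 =
    esym s 1 * pws s 5 - esym s 2 * pws s 4 + esym s 3 * pws s 3 - esym s 4 * pws s 2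
      + esym s 5 * pws s 1 - 6 * esym s 6 := by
  have := newton s 6 (by norm_num)
  have h : (antidiagonal 6).filter (fun a : ℕ × ℕ => a.1 ∈ Set.Ioo 0 6) =
      {(1, 5), (2, 4), (3, 3), (4, 2), (5, 1)} := by decide
  rw [h] at this
  rw [this]; simp; ring

end Newton

section Roots

variable {K : Type*} [Field K] {p : ℕ} {ζ : K}

/-- the index type `{1, …, p-1}`. -/
abbrev Idx (p : ℕ) : Type := ↥(Finset.Ico 1 p)

/-- `s_k = 1 / (1 - ζ^k)`. -/
noncomputable def sv (ζ : K) (p : ℕ) (k : Idx p) : K := (1 - ζ ^ (k : ℕ))⁻¹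

theorem one_sub_pow_ne_zero (hζ : IsPrimitiveRoot ζ p) (k : Idx p) : 1 - ζ ^ (k : ℕ) ≠ 0 := by
  have hk := Finset.mem_Ico.1 k.2
  intro h
  have h1 : ζ ^ (k : ℕ) = 1 := (sub_eq_zero.1 h).symm
  have := hζ.dvd_of_pow_eq_one _ h1
  have := Nat.le_of_dvd (by omega) this
  omega

theorem sv_injective (hζ : IsPrimitiveRoot ζ p) : Function.Injective (sv ζ p) := by
  intro k k' h
  have hk := Finset.mem_Ico.1 k.2
  have hk' := Finset.mem_Ico.1 k'.2
  have h1 := one_sub_pow_ne_zero hζ k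
  have h2 := one_sub_pow_ne_zero hζ k'
  unfold sv at h
  have h3 : ζ ^ (k : ℕ) = ζ ^ (k' : ℕ) := by
    have := inv_injective h
    linear_combination -this
  exact Subtype.ext (hζ.pow_inj hk.2 hk'.2 h3)

theorem sv_pow (hζ : IsPrimitiveRoot ζ p) (k : Idx p) : (sv ζ p k) ^ p = (sv ζ p k - 1) ^ p := by
  have h1 := one_sub_pow_ne_zero hζ k
  have h2 : sv ζ p k - 1 = ζ ^ (k : ℕ) * sv ζ p k := by
    unfold sv; field_simp; ring
  rw [h2, mul_pow, ← pow_mul, mul_comm (k : ℕ) p, pow_mul, hζ.pow_eq_one, one_pow, one_mul]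

/-- the polynomial `(X^p - (X-1)^p) / p`. -/
noncomputable def Gp (K : Type*) [Field K] (p : ℕ) : K[X] :=
  C ((p : K)⁻¹) * (X ^ p - (X - C 1) ^ p)

theorem coeff_Gp (n : ℕ) :
    (Gp K p).coeff n = (p : K)⁻¹ * ((if n = p then 1 else 0) - (-1) ^ (p - n) * (p.choose n : K)) := by
  unfold Gp
  have h : (X - C (1 : K)) = X + C (-1 : K) := by simp [sub_eq_add_neg]
  rw [coeff_C_mul, coeff_sub, coeff_X_pow, h, coeff_X_add_C_pow]

/-- the monic polynomial with roots the `s_k`. -/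
noncomputable def Fp (ζ : K) (p : ℕ) : K[X] := ∏ k : Idx p, (X - C (sv ζ p k))

theorem card_Idx (p : ℕ) : Fintype.card (Idx p) = p - 1 := by
  simp

theorem Fp_monic : (Fp ζ p).Monic := monic_prod_of_monic _ _ fun _ _ => monic_X_sub_C _

theorem Fp_natDegree : (Fp ζ p).natDegree = p - 1 := by
  unfold Fp
  rw [natDegree_prod_of_monic _ _ fun _ _ => monic_X_sub_C _]
  simp

variable [CharZero K]

theorem Fp_eq_Gp (hp : 0 < p) (hζ : IsPrimitiveRoot ζ p) : Fp ζ p = Gp K p := by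
  classical
  have hp0 : (p : K) ≠ 0 := Nat.cast_ne_zero.2 hp.ne'
  refine eq_of_degree_sub_lt_of_eval_finset_eq (Finset.univ.image (sv ζ p)) ?_ ?_
  · rw [Finset.card_image_of_injective _ (sv_injective hζ), Finset.card_univ, card_Idx p,
      degree_lt_iff_coeff_zero]
    intro m hm
    rw [coeff_sub, coeff_Gp]
    rcases Nat.lt_or_ge (p - 1) m with h | h
    · rw [coeff_eq_zero_of_natDegree_lt (by rw [Fp_natDegree]; exact h)]
      rcases Nat.lt_or_ge p m with h' | h'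
      · rw [if_neg (by omega), Nat.choose_eq_zero_of_lt h']; simp
      · have : m = p := by omega
        subst this; simp
    · have : m = p - 1 := by omega
      subst this
      have h1 : (Fp ζ p).coeff (p - 1) = 1 := by
        have := (Fp_monic (ζ := ζ) (p := p)).coeff_natDegree
        rwa [Fp_natDegree] at this
      have h2 : p.choose (p - 1) = p := by
        obtain ⟨n, rfl⟩ := Nat.exists_eq_succ_of_ne_zero hp.ne'
        simp [Nat.choose_succ_self_right]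
      rw [h1, if_neg (by omega), show p - (p - 1) = 1 by omega, h2]
      field_simp; ring
  · intro x hx
    obtain ⟨k, -, rfl⟩ := Finset.mem_image.1 hx
    have h1 : eval (sv ζ p k) (Fp ζ p) = 0 := by
      unfold Fp
      rw [eval_prod]
      exact Finset.prod_eq_zero (Finset.mem_univ k) (by simp)
    rw [h1, Gp]
    simp [sv_pow hζ k]

theorem esym_sv (hp : 0 < p) (hζ : IsPrimitiveRoot ζ p) (j : ℕ) :
    esym (sv ζ p) j = (p.choose (j + 1) : K) / p := by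
  classical
  have hp0 : (p : K) ≠ 0 := Nat.cast_ne_zero.2 hp.ne'
  set ms : Multiset K := (Finset.univ : Finset (Idx p)).val.map (sv ζ p) with hms
  have hcard : Multiset.card ms = p - 1 := by
    rw [hms, Multiset.card_map]
    exact (card_Idx p)
  rcases Nat.lt_or_ge (p - 1) j with h | h
  · have h0 : esym (sv ζ p) j = 0 := by
      unfold esym
      rw [← hms, Multiset.esymm, Multiset.powersetCard_eq_empty _ (by rw [hcard]; exact h)]
      simp
    rw [h0, Nat.choose_eq_zero_of_lt (by omega)]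
    simp
  · have hF : (ms.map fun t => X - C t).prod = Fp ζ p := by
      rw [hms, Multiset.map_map]
      rfl
    have hv := Multiset.prod_X_sub_C_coeff ms (k := p - 1 - j) (by rw [hcard]; omega)
    rw [hF, Fp_eq_Gp hp hζ, coeff_Gp, hcard, show p - 1 - (p - 1 - j) = j by omega,
      if_neg (by omega), show p - (p - 1 - j) = j + 1 by omega] at hv
    have hch : p.choose (p - 1 - j) = p.choose (j + 1) := by
      rw [show p - 1 - j = p - (j + 1) by omega]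
      exact Nat.choose_symm (by omega)
    rw [hch] at hv
    have hE : esym (sv ζ p) j = ms.esymm j := rfl
    rw [hE]
    have hs : ((-1 : K) ^ j) ≠ 0 := pow_ne_zero _ (by norm_num)
    have : (-1 : K) ^ j * ms.esymm j = (-1 : K) ^ j * ((p.choose (j + 1) : K) / p) := by
      rw [← hv]; field_simp; ring
    exact mul_left_cancel₀ hs this

omit [CharZero K] in
theorem cast_choose_succ (n k : ℕ) :
    (n.choose (k + 1) : K) * ((k : K) + 1) = (n.choose k : K) * ((n : K) - k) := by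
  rcases Nat.lt_or_ge n k with h | h
  · rw [Nat.choose_eq_zero_of_lt h, Nat.choose_eq_zero_of_lt (by omega)]; simp
  · have := Nat.choose_succ_right_eq n k
    have h2 := congrArg (Nat.cast : ℕ → K) this
    push_cast [Nat.cast_sub h] at h2
    exact h2

/-- the values of the elementary symmetric functions, as polynomials in `p`. -/
theorem esym_values (hp : 0 < p) (hζ : IsPrimitiveRoot ζ p) :
    esym (sv ζ p) 1 = ((p : K) - 1) / 2 ∧
    esym (sv ζ p) 2 = ((p : K) - 1) * (p - 2) / 6 ∧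
    esym (sv ζ p) 3 = ((p : K) - 1) * (p - 2) * (p - 3) / 24 ∧
    esym (sv ζ p) 4 = ((p : K) - 1) * (p - 2) * (p - 3) * (p - 4) / 120 ∧
    esym (sv ζ p) 5 = ((p : K) - 1) * (p - 2) * (p - 3) * (p - 4) * (p - 5) / 720 ∧
    esym (sv ζ p) 6 = ((p : K) - 1) * (p - 2) * (p - 3) * (p - 4) * (p - 5) * (p - 6) / 5040 := by
  have hp0 : (p : K) ≠ 0 := Nat.cast_ne_zero.2 hp.ne'
  have c0 : (p.choose 0 : K) = 1 := by simp
  have c1 := cast_choose_succ (K := K) p 0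
  have c2 := cast_choose_succ (K := K) p 1
  have c3 := cast_choose_succ (K := K) p 2
  have c4 := cast_choose_succ (K := K) p 3
  have c5 := cast_choose_succ (K := K) p 4
  have c6 := cast_choose_succ (K := K) p 5
  have c7 := cast_choose_succ (K := K) p 6
  norm_num at c1 c2 c3 c4 c5 c6 c7
  have d2 : (p.choose 2 : K) = p * (p - 1) / 2 := by
    rw [eq_div_iff (by norm_num)]; linear_combination c2
  have d3 : (p.choose 3 : K) = p * (p - 1) * (p - 2) / 6 := by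
    rw [eq_div_iff (by norm_num)]; linear_combination 2 * c3 + (p - 2 : K) * c2
  have d4 : (p.choose 4 : K) = p * (p - 1) * (p - 2) * (p - 3) / 24 := by
    rw [d3] at c4
    rw [eq_div_iff (by norm_num)]; linear_combination 6 * c4
  have d5 : (p.choose 5 : K) = p * (p - 1) * (p - 2) * (p - 3) * (p - 4) / 120 := by
    rw [d4] at c5
    rw [eq_div_iff (by norm_num)]; linear_combination 24 * c5
  have d6 : (p.choose 6 : K) = p * (p - 1) * (p - 2) * (p - 3) * (p - 4) * (p - 5) / 720 := by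
    rw [d5] at c6
    rw [eq_div_iff (by norm_num)]; linear_combination 120 * c6
  have d7 : (p.choose 7 : K) =
      p * (p - 1) * (p - 2) * (p - 3) * (p - 4) * (p - 5) * (p - 6) / 5040 := by
    rw [d6] at c7
    rw [eq_div_iff (by norm_num)]; linear_combination 720 * c7
  refine ⟨?_, ?_, ?_, ?_, ?_, ?_⟩
  · rw [esym_sv hp hζ, d2]; field_simp
  · rw [esym_sv hp hζ, d3]; field_simp
  · rw [esym_sv hp hζ, d4]; field_simp
  · rw [esym_sv hp hζ, d5]; field_simp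
  · rw [esym_sv hp hζ, d6]; field_simp
  · rw [esym_sv hp hζ, d7]; field_simp

omit [CharZero K] in
theorem sum_Ico_eq (f : K → K) :
    ∑ k ∈ Finset.Ico 1 p, f ((1 - ζ ^ k)⁻¹) = ∑ k : Idx p, f (sv ζ p k) := by
  rw [← Finset.sum_coe_sort (Finset.Ico 1 p) (fun k => f ((1 - ζ ^ k)⁻¹))]
  rfl

/-- the power sums `∑ s_k^j`, `j ≤ 6`, as polynomials in `p`. -/
theorem pws_values (hp : 0 < p) (hζ : IsPrimitiveRoot ζ p) :
    pws (sv ζ p) 1 = ((p : K) - 1) / 2 ∧
    pws (sv ζ p) 2 = -((p : K) - 1) * (p - 5) / 12 ∧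
    pws (sv ζ p) 3 = -((p : K) - 1) * (p - 3) / 8 ∧
    pws (sv ζ p) 4 = ((p : K) - 1) * (p ^ 3 + p ^ 2 - 109 * p + 251) / 720 ∧
    pws (sv ζ p) 5 = ((p : K) - 1) * (p - 5) * (p ^ 2 + 6 * p - 19) / 288 ∧
    pws (sv ζ p) 6 =
      -((p : K) - 1) * (2 * p ^ 5 + 2 * p ^ 4 - 355 * p ^ 3 - 355 * p ^ 2 + 11153 * p - 19087)
        / 60480 := by
  obtain ⟨e1, e2, e3, e4, e5, e6⟩ := esym_values (K := K) hp hζ
  have n1 := newton1 (sv ζ p)
  have n2 := newton2 (sv ζ p)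
  have n3 := newton3 (sv ζ p)
  have n4 := newton4 (sv ζ p)
  have n5 := newton5 (sv ζ p)
  have n6 := newton6 (sv ζ p)
  have p1 : pws (sv ζ p) 1 = ((p : K) - 1) / 2 := by rw [n1, e1]
  have p2 : pws (sv ζ p) 2 = -((p : K) - 1) * (p - 5) / 12 := by
    rw [n2, p1, e1, e2]; ring
  have p3 : pws (sv ζ p) 3 = -((p : K) - 1) * (p - 3) / 8 := by
    rw [n3, p2, p1, e1, e2, e3]; ring
  have p4 : pws (sv ζ p) 4 = ((p : K) - 1) * (p ^ 3 + p ^ 2 - 109 * p + 251) / 720 := by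
    rw [n4, p3, p2, p1, e1, e2, e3, e4]; ring
  have p5 : pws (sv ζ p) 5 = ((p : K) - 1) * (p - 5) * (p ^ 2 + 6 * p - 19) / 288 := by
    rw [n5, p4, p3, p2, p1, e1, e2, e3, e4, e5]; ring
  have p6 : pws (sv ζ p) 6 =
      -((p : K) - 1) * (2 * p ^ 5 + 2 * p ^ 4 - 355 * p ^ 3 - 355 * p ^ 2 + 11153 * p - 19087)
        / 60480 := by
    rw [n6, p5, p4, p3, p2, p1, e1, e2, e3, e4, e5, e6]; ring
  exact ⟨p1, p2, p3, p4, p5, p6⟩

/-- **(S4), `s`-form**: with `s_k = (1 - ζ^k)⁻¹`,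
`∑_{k=1}^{p-1} (6 s_k^4 - 12 s_k^3 + 7 s_k^2 - s_k) = (p^4 - 1) / 120`. -/
theorem sum_S4 (hp : 0 < p) (hζ : IsPrimitiveRoot ζ p) :
    ∑ k ∈ Finset.Ico 1 p,
        (6 * ((1 - ζ ^ k)⁻¹) ^ 4 - 12 * ((1 - ζ ^ k)⁻¹) ^ 3 + 7 * ((1 - ζ ^ k)⁻¹) ^ 2
          - (1 - ζ ^ k)⁻¹) = ((p : K) ^ 4 - 1) / 120 := by
  obtain ⟨p1, p2, p3, p4, -, -⟩ := pws_values (K := K) hp hζ
  rw [sum_Ico_eq (ζ := ζ) (p := p) (fun s => 6 * s ^ 4 - 12 * s ^ 3 + 7 * s ^ 2 - s)]
  have : ∑ k : Idx p, (6 * sv ζ p k ^ 4 - 12 * sv ζ p k ^ 3 + 7 * sv ζ p k ^ 2 - sv ζ p k) =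
      6 * pws (sv ζ p) 4 - 12 * pws (sv ζ p) 3 + 7 * pws (sv ζ p) 2 - pws (sv ζ p) 1 := by
    simp only [pws, Finset.sum_sub_distrib, Finset.sum_add_distrib, Finset.mul_sum, pow_one]
  rw [this, p1, p2, p3, p4]; ring

/-- **(S6), `s`-form**: with `s_k = (1 - ζ^k)⁻¹`,
`∑_{k=1}^{p-1} (120 s_k^6 - 360 s_k^5 + 390 s_k^4 - 180 s_k^3 + 31 s_k^2 - s_k) = -(p^6 - 1) / 252`. -/
theorem sum_S6 (hp : 0 < p) (hζ : IsPrimitiveRoot ζ p) :
    ∑ k ∈ Finset.Ico 1 p,
        (120 * ((1 - ζ ^ k)⁻¹) ^ 6 - 360 * ((1 - ζ ^ k)⁻¹) ^ 5 + 390 * ((1 - ζ ^ k)⁻¹) ^ 4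
          - 180 * ((1 - ζ ^ k)⁻¹) ^ 3 + 31 * ((1 - ζ ^ k)⁻¹) ^ 2 - (1 - ζ ^ k)⁻¹) =
      -((p : K) ^ 6 - 1) / 252 := by
  obtain ⟨p1, p2, p3, p4, p5, p6⟩ := pws_values (K := K) hp hζ
  rw [sum_Ico_eq (ζ := ζ) (p := p)
    (fun s => 120 * s ^ 6 - 360 * s ^ 5 + 390 * s ^ 4 - 180 * s ^ 3 + 31 * s ^ 2 - s)]
  have : ∑ k : Idx p, (120 * sv ζ p k ^ 6 - 360 * sv ζ p k ^ 5 + 390 * sv ζ p k ^ 4
        - 180 * sv ζ p k ^ 3 + 31 * sv ζ p k ^ 2 - sv ζ p k) =
      120 * pws (sv ζ p) 6 - 360 * pws (sv ζ p) 5 + 390 * pws (sv ζ p) 4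
        - 180 * pws (sv ζ p) 3 + 31 * pws (sv ζ p) 2 - pws (sv ζ p) 1 := by
    simp only [pws, Finset.sum_sub_distrib, Finset.sum_add_distrib, Finset.mul_sum, pow_one]
  rw [this, p1, p2, p3, p4, p5, p6]; ring

/-- **(S4), `ζ`-form**. -/
theorem sum_S4_zeta (hp : 0 < p) (hζ : IsPrimitiveRoot ζ p) :
    ∑ k ∈ Finset.Ico 1 p, ζ ^ k * (1 + 4 * ζ ^ k + ζ ^ (2 * k)) / (1 - ζ ^ k) ^ 4 =
      ((p : K) ^ 4 - 1) / 120 := by
  rw [← sum_S4 hp hζ]
  refine Finset.sum_congr rfl fun k hk => ?_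
  have h1 : 1 - ζ ^ k ≠ 0 := one_sub_pow_ne_zero hζ ⟨k, hk⟩
  rw [pow_mul']
  field_simp
  ring

/-- **(S6), `ζ`-form**. -/
theorem sum_S6_zeta (hp : 0 < p) (hζ : IsPrimitiveRoot ζ p) :
    ∑ k ∈ Finset.Ico 1 p,
        ζ ^ k * (1 + 26 * ζ ^ k + 66 * ζ ^ (2 * k) + 26 * ζ ^ (3 * k) + ζ ^ (4 * k))
          / (1 - ζ ^ k) ^ 6 = -((p : K) ^ 6 - 1) / 252 := by
  rw [← sum_S6 hp hζ]
  refine Finset.sum_congr rfl fun k hk => ?_
  have h1 : 1 - ζ ^ k ≠ 0 := one_sub_pow_ne_zero hζ ⟨k, hk⟩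
  rw [pow_mul' ζ 2 k, pow_mul' ζ 3 k, pow_mul' ζ 4 k]
  field_simp
  ring

end Roots

end Fermat.Agent.MZ.MOD.RootConst0
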