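/-
Programme MZ (S15, Mazur), chapter MOD-E (helper1): **the moduli bridge, unconditional.**

`placeExists : BridgeAsm4.PlaceExistsProp` (= `PlaceExists1.exists_place_of_rel`) and hence
`moduliBridge : Types2.ModuliBridge` (= `BridgeAsm4.moduliBridge placeExists`, helper4's assembly).
-/
import Mathlib
import Fermat.Agent.MZ.MOD.BridgeAsm4
import Fermat.Agent.MZ.MOD.PlaceExists1

set_option autoImplicit false
set_option linter.unusedSectionVars false
set_option linter.unusedVariables false
set_option linter.style.longLine false
set_option synthInstance.maxHeartbeats 400000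
set_option maxHeartbeats 1000000

namespace Fermat.Agent.MZ.MOD.ModuliBridge1

/-- existence of a place of `FF p` over a solution of the modular equation. -/
theorem placeExists : Fermat.Agent.MZ.MOD.BridgeAsm4.PlaceExistsProp :=
  fun {p} _ hp Φ hm hd h1 _ α β h =>
    Fermat.Agent.MZ.MOD.PlaceExists1.exists_place_of_rel p hp Φ hm hd h1 α β h

/-- **the moduli bridge MOD-E**, unconditional. -/
theorem moduliBridge : Fermat.Agent.MZ.MOD.Types2.ModuliBridge :=
  Fermat.Agent.MZ.MOD.BridgeAsm4.moduliBridge placeExists

end Fermat.Agent.MZ.MOD.ModuliBridge1
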