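/-
PROGRAMME MZ (S15), chapter MOD (helper2): **a point `(α, β)` of the affine model `(j, j_p)` of
`X₀(p)` lifts to a place of `FF p`.**

`exists_place_of_point`: if `α β : ℚbar` satisfy every polynomial relation over `ℚbar` satisfied by
`(j, j_p)` in `FF p`, then there is a place `x` of `FF p` with `j(x) = α` and `j_p(x) = β`.
(lying over for the integral closure of `ℚbar[j]` in `FF p`, a Dedekind domain.)
-/
import Mathlib
import Fermat.Agent.MZ.MOD.Red2

set_option autoImplicit false
set_option linter.unusedSectionVars false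
set_option linter.unusedVariables false
set_option linter.style.longLine false
set_option linter.style.haveILetI false
set_option synthInstance.maxHeartbeats 400000
set_option maxHeartbeats 1000000

open AlgebraicCurve ModularCurve IntermediateField

noncomputable section

namespace Fermat.Agent.MZ.MOD.Point2

open Fermat.Agent.X0 Fermat.Agent.X0.FF Fermat.Agent.MZ.MOD.Red2
  Fermat.Agent.MZ.CUSP.CuspPlaces1 Fermat.Agent.MZ.CUSP.CuspUnit1
  Fermat.Agent.RED.BASE.QExpMem19 IsDedekindDomain

variable (p : ℕ) [NeZero p]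

theorem jNF_mem_intRing : IsIntegral (polyRing Kbar (jF p)) (jNF p) :=
  isIntegral_polyRing_of_isNice (jNF p) (isNice_of_Rsub (⟨jNF p, jNF_mem_Rsub⟩ : Rsub p))

theorem jF_mem_intRing : IsIntegral (polyRing Kbar (jF p)) (jF p) :=
  (isIntegral_algebraMap (R := polyRing Kbar (jF p)) (A := FF p) (x := genA Kbar (jF p)))

/-- `j` as an element of the integral closure. -/
def jB : intRing Kbar (jF p) := ⟨jF p, jF_mem_intRing p⟩

/-- `j_p` as an element of the integral closure. -/
def jpB : intRing Kbar (jF p) := ⟨jNF p, jNF_mem_intRing p⟩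

/-- the evaluation `ℚbar[X, Y] → B'`, `X ↦ j`, `Y ↦ j_p`. -/
def psi : MvPolynomial (Fin 2) Kbar →ₐ[Kbar] intRing Kbar (jF p) :=
  MvPolynomial.aeval ![jB p, jpB p]

theorem coe_psi (R : MvPolynomial (Fin 2) Kbar) :
    ((psi p R : intRing Kbar (jF p)) : FF p) = MvPolynomial.aeval ![jF p, jNF p] R := by
  have h1 : ((psi p R : intRing Kbar (jF p)) : FF p) =
      ((IsScalarTower.toAlgHom Kbar (intRing Kbar (jF p)) (FF p)).comp (psi p)) R := rfl
  rw [h1]
  congr 1
  apply MvPolynomial.algHom_ext
  intro i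
  fin_cases i
  · simp [psi, jB]
  · simp [psi, jpB]

theorem transcendental_jF : Transcendental Kbar (jF p) := (isGen_jF p).transcendental

/-- a section `ℚbar[j] → ℚbar[X, Y]` of `psi`. -/
def sec : polyRing Kbar (jF p) →ₐ[Kbar] MvPolynomial (Fin 2) Kbar :=
  (Polynomial.aeval (MvPolynomial.X 0 : MvPolynomial (Fin 2) Kbar)).comp
    (Polynomial.algEquivOfTranscendental Kbar (jF p) (transcendental_jF p)).symm.toAlgHom

theorem psi_sec (a : polyRing Kbar (jF p)) :
    psi p (sec p a) = algebraMap (polyRing Kbar (jF p)) (intRing Kbar (jF p)) a := by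
  obtain ⟨P, rfl⟩ := (Polynomial.algEquivOfTranscendental Kbar (jF p)
    (transcendental_jF p)).surjective a
  have h1 : sec p (Polynomial.algEquivOfTranscendental Kbar (jF p) (transcendental_jF p) P) =
      Polynomial.aeval (MvPolynomial.X 0 : MvPolynomial (Fin 2) Kbar) P := by
    simp [sec]
  rw [h1]
  apply Subtype.ext
  rw [coe_psi]
  rw [← Polynomial.aeval_algHom_apply]
  simp

theorem isIntegral_psi (b : intRing Kbar (jF p)) :
    letI : Algebra (MvPolynomial (Fin 2) Kbar) (intRing Kbar (jF p)) :=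
      (psi p).toRingHom.toAlgebra
    IsIntegral (MvPolynomial (Fin 2) Kbar) b := by
  letI : Algebra (MvPolynomial (Fin 2) Kbar) (intRing Kbar (jF p)) :=
    (psi p).toRingHom.toAlgebra
  have hb : IsIntegral (polyRing Kbar (jF p)) b := Algebra.IsIntegral.isIntegral b
  have hcomp : (algebraMap (MvPolynomial (Fin 2) Kbar) (intRing Kbar (jF p))).comp
      (sec p).toRingHom = (RingHom.id (intRing Kbar (jF p))).comp
        (algebraMap (polyRing Kbar (jF p)) (intRing Kbar (jF p))) := by
    apply RingHom.ext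
    intro a
    exact psi_sec p a
  have := IsIntegral.map_of_comp_eq (T := MvPolynomial (Fin 2) Kbar)
    (U := intRing Kbar (jF p)) (sec p).toRingHom (RingHom.id (intRing Kbar (jF p)))
    hcomp hb
  simpa using this

/-- `psi` as a ring homomorphism. -/
def psiR : MvPolynomial (Fin 2) Kbar →+* intRing Kbar (jF p) := (psi p).toRingHom

theorem psiR_apply (R : MvPolynomial (Fin 2) Kbar) : psiR p R = psi p R := rfl

theorem isIntegral_psiR :
    @RingHom.IsIntegral (MvPolynomial (Fin 2) Kbar) (intRing Kbar (jF p)) inferInstance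
      inferInstance (psiR p) :=
  fun b => isIntegral_psi p b

theorem exists_prime_over {R S : Type*} [CommRing R] [CommRing S] (f : R →+* S)
    (hf : f.IsIntegral) (P : Ideal R) [P.IsPrime] (hle : RingHom.ker f ≤ P) :
    ∃ Q : Ideal S, Q.IsPrime ∧ Q.comap f = P := by
  letI : Algebra R S := f.toAlgebra
  haveI : Algebra.IsIntegral R S := ⟨hf⟩
  obtain ⟨Q, -, hQp, hQ⟩ := Ideal.exists_ideal_over_prime_of_isIntegral P (⊥ : Ideal S) hle
  exact ⟨Q, hQp, hQ⟩

theorem jNF_sub_const_ne_zero (β : Kbar) : jNF p - algebraMap Kbar (FF p) β ≠ 0 := by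
  intro h
  have h1 : jNF p = algebraMap Kbar (FF p) β := sub_eq_zero.mp h
  have h2 := ord_cuspInf_jNF p
  rw [h1] at h2
  rw [FF.ord_algebraMap] at h2
  have : (p : ℤ) ≠ 0 := by exact_mod_cast NeZero.ne p
  omega

theorem jF_sub_const_ne_zero (α : Kbar) : jF p - algebraMap Kbar (FF p) α ≠ 0 := by
  intro h
  have h1 : jF p = algebraMap Kbar (FF p) α := sub_eq_zero.mp h
  apply transcendental_jF p
  rw [h1]
  exact isAlgebraic_algebraMap α



theorem exists_prime_psi (P : Ideal (MvPolynomial (Fin 2) Kbar)) [P.IsPrime]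
    (hle : RingHom.ker (psiR p) ≤ P) :
    ∃ Q : Ideal (intRing Kbar (jF p)), Q.IsPrime ∧ Q.comap (psiR p) = P :=
  @exists_prime_over (MvPolynomial (Fin 2) Kbar)
    (intRing Kbar (jF p)) inferInstance inferInstance (psiR p) (isIntegral_psiR p) P
    inferInstance hle

/-- **a point of the affine model `(j, j_p)` lifts to a place.** -/
theorem exists_place_of_point (α β : Kbar)
    (hrel : ∀ R : MvPolynomial (Fin 2) Kbar, MvPolynomial.aeval ![jF p, jNF p] R = 0 →
      MvPolynomial.aeval ![α, β] R = 0) :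
    ∃ x : Place Kbar (FF p), 0 < x.ord (jF p - algebraMap Kbar (FF p) α) ∧
      0 < x.ord (jNF p - algebraMap Kbar (FF p) β) := by
  haveI hDed := isDedekindDomain_intRing (isGen_jF p)
  haveI hFrac := isFractionRing_intRing (isGen_jF p)
  let e : MvPolynomial (Fin 2) Kbar →ₐ[Kbar] Kbar := MvPolynomial.aeval ![α, β]
  let P : Ideal (MvPolynomial (Fin 2) Kbar) := RingHom.ker e.toRingHom
  haveI : P.IsPrime := RingHom.ker_isPrime _
  have hle : RingHom.ker (psiR p) ≤ P := by
    intro R hR
    have hR' : psi p R = 0 := hR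
    have h2 : MvPolynomial.aeval ![jF p, jNF p] R = 0 := by
      rw [← coe_psi, hR']
      rfl
    exact hrel R h2
  obtain ⟨Q, hQprime, hQ⟩ := exists_prime_psi p P hle
  -- the two elements of `Q`
  have hmemα : psi p (MvPolynomial.X 0 - MvPolynomial.C α) ∈ Q := by
    have : (MvPolynomial.X 0 - MvPolynomial.C α : MvPolynomial (Fin 2) Kbar) ∈ P := by
      show e.toRingHom _ = 0
      simp [e]
    rw [← hQ] at this
    exact this
  have hmemβ : psi p (MvPolynomial.X 1 - MvPolynomial.C β) ∈ Q := by
    have : (MvPolynomial.X 1 - MvPolynomial.C β : MvPolynomial (Fin 2) Kbar) ∈ P := by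
      show e.toRingHom _ = 0
      simp [e]
    rw [← hQ] at this
    exact this
  have hcα : ((psi p (MvPolynomial.X 0 - MvPolynomial.C α) : intRing Kbar (jF p)) : FF p) =
      jF p - algebraMap Kbar (FF p) α := by
    rw [coe_psi]; simp
  have hcβ : ((psi p (MvPolynomial.X 1 - MvPolynomial.C β) : intRing Kbar (jF p)) : FF p) =
      jNF p - algebraMap Kbar (FF p) β := by
    rw [coe_psi]; simp
  have hneα : psi p (MvPolynomial.X 0 - MvPolynomial.C α) ≠ 0 := by
    intro h
    apply jF_sub_const_ne_zero p α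
    rw [← hcα, h]; rfl
  have hneβ : psi p (MvPolynomial.X 1 - MvPolynomial.C β) ≠ 0 := by
    intro h
    apply jNF_sub_const_ne_zero p β
    rw [← hcβ, h]; rfl
  have hQbot : Q ≠ ⊥ := by
    intro h
    rw [h, Ideal.mem_bot] at hmemα
    exact hneα hmemα
  let w : HeightOneSpectrum (intRing Kbar (jF p)) := ⟨Q, hQprime, hQbot⟩
  refine ⟨Place.ofHeightOneSpectrum (K := Kbar) w, ?_, ?_⟩
  · have := (mem_asIdeal_iff_ord_pos (K := Kbar) (F := FF p) w _).mp hmemα
    rcases this with h | h
    · exact absurd h hneα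
    · rw [← hcα]; exact h
  · have := (mem_asIdeal_iff_ord_pos (K := Kbar) (F := FF p) w _).mp hmemβ
    rcases this with h | h
    · exact absurd h hneβ
    · rw [← hcβ]; exact h

end Fermat.Agent.MZ.MOD.Point2
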