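/-
Programme MZ (S15, Mazur), chapter MOD-E (helper4): **regrouping of Lambert-type double series**
`∑_{c ≥ 1} ∑_{d ≥ 1} a_d r^{cd} = ∑_{N ≥ 1} (∑_{d ∣ N} a_d) r^N` in a complete normed field.
-/
import Mathlib

set_option autoImplicit false
set_option linter.unusedSectionVars false

open Filter

namespace Fermat.Agent.MZ.MOD.Regroup4

variable {K : Type*} [NormedField K] [CompleteSpace K]

/-- the double family `a_d r^{cd}` on `ℕ+ × ℕ+`. -/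
def dbl (a : ℕ → K) (r : K) (p : ℕ+ × ℕ+) : K := a p.2 * r ^ ((p.1 : ℕ) * (p.2 : ℕ))

/-- the regrouped coefficient `∑_{d ∣ N} a_d`. -/
def divSum (a : ℕ → K) (N : ℕ) : K := ∑ d ∈ N.divisors, a d

theorem sum_fibre (a : ℕ → K) (r : K) (n : ℕ+) :
    ∑' x : Nat.divisorsAntidiagonal (n : ℕ), dbl a r (sigmaAntidiagonalEquivProd ⟨n, x⟩) =
      divSum a n * r ^ (n : ℕ) := by
  rw [tsum_fintype, Finset.univ_eq_attach]
  have h1 : ∀ x : Nat.divisorsAntidiagonal (n : ℕ),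
      dbl a r (sigmaAntidiagonalEquivProd ⟨n, x⟩) = a x.1.2 * r ^ (x.1.1 * x.1.2) := by
    intro x
    simp [dbl, sigmaAntidiagonalEquivProd, divisorsAntidiagonalFactors]
  simp_rw [h1]
  rw [(n : ℕ).divisorsAntidiagonal.sum_attach (fun x : ℕ × ℕ => a x.2 * r ^ (x.1 * x.2)),
    Nat.sum_divisorsAntidiagonal' (fun x y => a y * r ^ (x * y)), divSum, Finset.sum_mul]
  refine Finset.sum_congr rfl fun d hd => ?_
  rw [Nat.div_mul_cancel (Nat.dvd_of_mem_divisors hd)]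

/-- **regrouping.** -/
theorem regroup (a : ℕ → K) (r : K) (h : Summable fun p : ℕ+ × ℕ+ => ‖dbl a r p‖) :
    (Summable fun N : ℕ+ => divSum a N * r ^ (N : ℕ)) ∧
      ∑' c : ℕ+, ∑' d : ℕ+, a d * r ^ ((c : ℕ) * (d : ℕ)) =
        ∑' N : ℕ+, divSum a N * r ^ (N : ℕ) := by
  have hs : Summable (dbl a r) := h.of_norm
  have hs' : Summable fun x : (Σ n : ℕ+, Nat.divisorsAntidiagonal (n : ℕ)) =>
      dbl a r (sigmaAntidiagonalEquivProd x) :=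
    (sigmaAntidiagonalEquivProd.summable_iff (f := dbl a r)).2 hs
  have h1 : ∑' p : ℕ+ × ℕ+, dbl a r p = ∑' c : ℕ+, ∑' d : ℕ+, a d * r ^ ((c : ℕ) * (d : ℕ)) :=
    hs.tsum_prod
  have h2 : ∑' p : ℕ+ × ℕ+, dbl a r p =
      ∑' x : (Σ n : ℕ+, Nat.divisorsAntidiagonal (n : ℕ)),
        dbl a r (sigmaAntidiagonalEquivProd x) :=
    (sigmaAntidiagonalEquivProd.tsum_eq (dbl a r)).symm
  have h3 := hs'.tsum_sigma
  have h4 := hs'.sigma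
  simp_rw [sum_fibre] at h3 h4
  exact ⟨h4, by rw [← h1, h2, h3]⟩

/-- summability of the double family from a bound `‖a_d‖ ≤ C d^k ρ^d` with `ρ ‖r‖ < 1`,
`‖r‖ < 1`. -/
theorem summable_dbl (a : ℕ → K) (r : K) (C ρ : ℝ) (k : ℕ) (hC : 0 ≤ C) (hρ : 0 ≤ ρ)
    (hr1 : ‖r‖ < 1) (hρr : ρ * ‖r‖ < 1) (ha : ∀ d : ℕ, ‖a d‖ ≤ C * (d : ℝ) ^ k * ρ ^ d) :
    Summable fun p : ℕ+ × ℕ+ => ‖dbl a r p‖ := by
  have hr0 : 0 ≤ ‖r‖ := norm_nonneg r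
  -- the two one-variable series
  have h1 : Summable fun d : ℕ+ => C * ((d : ℕ) : ℝ) ^ k * (ρ * ‖r‖) ^ (d : ℕ) := by
    have h := summable_pow_mul_geometric_of_norm_lt_one (R := ℝ) k (r := ρ * ‖r‖) (by
      rw [Real.norm_eq_abs, abs_of_nonneg (mul_nonneg hρ hr0)]
      exact hρr)
    have h2 := (h.mul_left C).comp_injective PNat.coe_injective
    refine (h2.congr fun d => ?_)
    simp only [Function.comp_apply]
    ring
  have h2 : Summable fun c : ℕ+ => ‖r‖ ^ ((c : ℕ) - 1) := by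
    have h := summable_geometric_of_lt_one hr0 hr1
    refine (Equiv.pnatEquivNat.symm.summable_iff (f := fun c : ℕ+ => ‖r‖ ^ ((c : ℕ) - 1))).1 ?_
    refine h.congr fun n => ?_
    simp [Equiv.pnatEquivNat]
  have h3 := Summable.mul_of_nonneg h2 h1 (fun c => by positivity) (fun d => by positivity)
  refine Summable.of_nonneg_of_le (fun _ => norm_nonneg _) (fun p => ?_) h3
  obtain ⟨c, d⟩ := p
  show ‖a d * r ^ ((c : ℕ) * (d : ℕ))‖ ≤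
    ‖r‖ ^ ((c : ℕ) - 1) * (C * ((d : ℕ) : ℝ) ^ k * (ρ * ‖r‖) ^ (d : ℕ))
  rw [norm_mul, norm_pow]
  have hc : 1 ≤ (c : ℕ) := c.2
  have hd : 1 ≤ (d : ℕ) := d.2
  have hexp : (c : ℕ) * (d : ℕ) = ((c : ℕ) - 1) * (d : ℕ) + (d : ℕ) := by
    have : (c : ℕ) = ((c : ℕ) - 1) + 1 := by omega
    nth_rewrite 1 [this]
    ring
  have hpow : ‖r‖ ^ (((c : ℕ) - 1) * (d : ℕ)) ≤ ‖r‖ ^ ((c : ℕ) - 1) := by
    apply pow_le_pow_of_le_one hr0 hr1.le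
    exact Nat.le_mul_of_pos_right _ hd
  calc ‖a d‖ * ‖r‖ ^ ((c : ℕ) * (d : ℕ))
      = ‖a d‖ * (‖r‖ ^ (((c : ℕ) - 1) * (d : ℕ)) * ‖r‖ ^ (d : ℕ)) := by rw [hexp, pow_add]
    _ ≤ (C * ((d : ℕ) : ℝ) ^ k * ρ ^ (d : ℕ)) * (‖r‖ ^ ((c : ℕ) - 1) * ‖r‖ ^ (d : ℕ)) := by
        gcongr
        exact ha d
    _ = ‖r‖ ^ ((c : ℕ) - 1) * (C * ((d : ℕ) : ℝ) ^ k * (ρ * ‖r‖) ^ (d : ℕ)) := by
        rw [mul_pow]; ring

end Fermat.Agent.MZ.MOD.Regroup4
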