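/-
Programme MZ (S15, Mazur), chapter MOD-E (helper4): **evaluation of the formal Tate series** in a
complete normed field `K` at `(u, q)` with `u ≠ 0, 1` and `max(‖u‖, ‖u‖⁻¹) ‖q‖ < 1`.

* `mapA u F = F.map (evA u)`; convergence of `mapA u tX`, `mapA u tY`, and of integer series;
* `ev_tX` : `ev (mapA u tX) q = u/(1-u)² + ∑_{c ≥ 1} ∑_{d ≥ 1} d (u^d + u^{-d} - 2) q^{cd}`;
* `ev_tD` : `ev (mapA u (tX + 2 tY)) q = u(1+u)/(1-u)³ + ∑_{c ≥ 1} ∑_{d ≥ 1} d² (u^d - u^{-d}) q^{cd}`.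
-/
import Mathlib
import Fermat.Agent.MZ.MOD.TateFormal4
import Fermat.Agent.MZ.MOD.Regroup4

set_option autoImplicit false
set_option linter.unusedSectionVars false

open PowerSeries

namespace Fermat.Agent.MZ.MOD.TateEval4

open TateFormal4 PSEval4 Regroup4

local notation "σ" => ArithmeticFunction.sigma

variable {K : Type*} [NormedField K] [CompleteSpace K]

/-! ### general convergence criterion -/

/-- polynomial times geometric bound. -/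
theorem conv_of_bound (F : PowerSeries K) (q : K) (C ρ : ℝ) (k : ℕ) (hρ : 0 ≤ ρ)
    (hρq : ρ * ‖q‖ < 1) (h : ∀ N, ‖coeff N F‖ ≤ C * ((N : ℝ) + 1) ^ k * ρ ^ N) : Conv F q := by
  have hs0 : Summable fun N : ℕ => ((N : ℝ) + 1) ^ k * (ρ * ‖q‖) ^ N := by
    have h1 := summable_pow_mul_geometric_of_norm_lt_one (R := ℝ) k (r := ρ * ‖q‖) (by
      rw [Real.norm_eq_abs, abs_of_nonneg (mul_nonneg hρ (norm_nonneg q))]
      exact hρq)
    -- shift: (N+1)^k r^N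
    by_cases hr : ρ * ‖q‖ = 0
    · refine summable_of_ne_finset_zero (s := {0}) fun N hN => ?_
      rw [Finset.mem_singleton] at hN
      rw [hr, zero_pow hN, mul_zero]
    · have h2 := (summable_nat_add_iff 1).2 h1
      have h3 := h2.mul_left ((ρ * ‖q‖)⁻¹)
      refine h3.congr fun N => ?_
      push_cast
      rw [pow_succ, mul_comm ((ρ * ‖q‖) ^ N) (ρ * ‖q‖), ← mul_assoc, ← mul_assoc,
        mul_comm ((ρ * ‖q‖)⁻¹), mul_assoc _ ((ρ * ‖q‖)⁻¹), inv_mul_cancel₀ hr, mul_one]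
  refine conv_of_le (hs0.mul_left C) fun N => ?_
  calc ‖coeff N F‖ * ‖q‖ ^ N ≤ (C * ((N : ℝ) + 1) ^ k * ρ ^ N) * ‖q‖ ^ N := by
        gcongr
        exact h N
    _ = C * (((N : ℝ) + 1) ^ k * (ρ * ‖q‖) ^ N) := by rw [mul_pow]; ring

/-! ### the mapped series -/

section Map

variable (u : K) (h0 : u ≠ 0) (h1 : u ≠ 1)

/-- the image of a series in `A⟦q⟧` in `K⟦q⟧`. -/
noncomputable def mapA (F : PowerSeries A) : PowerSeries K := F.map (evA u h0 h1)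

theorem coeff_mapA (F : PowerSeries A) (N : ℕ) :
    coeff N (mapA u h0 h1 F) = evA u h0 h1 (coeff N F) := by
  rw [mapA, coeff_map]

theorem mapA_add (F G : PowerSeries A) : mapA u h0 h1 (F + G) = mapA u h0 h1 F + mapA u h0 h1 G :=
  map_add _ _ _

theorem mapA_mul (F G : PowerSeries A) : mapA u h0 h1 (F * G) = mapA u h0 h1 F * mapA u h0 h1 G :=
  map_mul _ _ _

theorem mapA_sub (F G : PowerSeries A) : mapA u h0 h1 (F - G) = mapA u h0 h1 F - mapA u h0 h1 G :=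
  map_sub _ _ _

theorem mapA_pow (F : PowerSeries A) (n : ℕ) : mapA u h0 h1 (F ^ n) = mapA u h0 h1 F ^ n :=
  map_pow _ _ _

/-- integer series, in `K⟦q⟧`. -/
noncomputable def mapZ (F : PowerSeries ℤ) : PowerSeries K := F.map (Int.castRingHom K)

theorem mapA_mapInt (F : PowerSeries ℤ) :
    mapA u h0 h1 (F.map (Int.castRingHom A)) = mapZ F := by
  ext N
  rw [coeff_mapA, coeff_map, mapZ, coeff_map]
  simp

/-- `ρ = max ‖u‖ ‖u‖⁻¹`. -/
noncomputable def rho : ℝ := max ‖u‖ ‖u‖⁻¹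

include h0 in
theorem one_le_rho : 1 ≤ rho u := by
  unfold rho
  have hu : 0 < ‖u‖ := norm_pos_iff.2 h0
  rcases le_total 1 ‖u‖ with h | h
  · exact h.trans (le_max_left _ _)
  · exact (one_le_inv₀ hu |>.2 h).trans (le_max_right _ _)

theorem norm_pow_le_rho (d N : ℕ) (hd : d ≤ N) (h0 : u ≠ 0) : ‖u ^ d‖ ≤ rho u ^ N := by
  rw [norm_pow]
  calc ‖u‖ ^ d ≤ rho u ^ d := by
        gcongr
        exact le_max_left _ _
    _ ≤ rho u ^ N := pow_le_pow_right₀ (one_le_rho u h0) hd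

theorem norm_inv_pow_le_rho (d N : ℕ) (hd : d ≤ N) (h0 : u ≠ 0) : ‖u⁻¹ ^ d‖ ≤ rho u ^ N := by
  rw [norm_pow, norm_inv]
  calc ‖u‖⁻¹ ^ d ≤ rho u ^ d := by
        gcongr
        exact le_max_right _ _
    _ ≤ rho u ^ N := pow_le_pow_right₀ (one_le_rho u h0) hd

theorem norm_natCast_le (n : ℕ) : ‖(n : K)‖ ≤ n := by
  have := Nat.norm_cast_le (α := K) n
  rwa [norm_one, mul_one] at this

theorem card_divisors_le (N : ℕ) : (N.divisors.card : ℝ) ≤ N := by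
  exact_mod_cast Nat.card_divisors_le_self N

end Map

/-! ### divisor-sum series -/

/-- bound for a divisor sum. -/
theorem norm_divSum_le (a : ℕ → K) (C ρ : ℝ) (k : ℕ) (hC : 0 ≤ C) (hρ : 1 ≤ ρ)
    (ha : ∀ d : ℕ, ‖a d‖ ≤ C * (d : ℝ) ^ k * ρ ^ d) (N : ℕ) :
    ‖divSum a N‖ ≤ C * ((N : ℝ) + 1) ^ (k + 1) * ρ ^ N := by
  have hρ0 : 0 ≤ ρ := zero_le_one.trans hρ
  have hB : ∀ d ∈ N.divisors, ‖a d‖ ≤ C * ((N : ℝ) + 1) ^ k * ρ ^ N := by
    intro d hd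
    have hdN : d ≤ N := Nat.divisor_le hd
    have hdN' : (d : ℝ) ≤ (N : ℝ) + 1 := by
      have : (d : ℝ) ≤ N := by exact_mod_cast hdN
      linarith
    calc ‖a d‖ ≤ C * (d : ℝ) ^ k * ρ ^ d := ha d
      _ ≤ C * ((N : ℝ) + 1) ^ k * ρ ^ N := by
          gcongr
  calc ‖divSum a N‖ ≤ ∑ d ∈ N.divisors, ‖a d‖ := norm_sum_le _ _
    _ ≤ ∑ _d ∈ N.divisors, C * ((N : ℝ) + 1) ^ k * ρ ^ N := Finset.sum_le_sum hB
    _ = N.divisors.card * (C * ((N : ℝ) + 1) ^ k * ρ ^ N) := by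
        rw [Finset.sum_const, nsmul_eq_mul]
    _ ≤ ((N : ℝ) + 1) * (C * ((N : ℝ) + 1) ^ k * ρ ^ N) := by
        have h1 : (N.divisors.card : ℝ) ≤ (N : ℝ) + 1 := (card_divisors_le N).trans (by linarith)
        have h2 : 0 ≤ C * ((N : ℝ) + 1) ^ k * ρ ^ N := by positivity
        exact mul_le_mul_of_nonneg_right h1 h2
    _ = C * ((N : ℝ) + 1) ^ (k + 1) * ρ ^ N := by ring

/-- convergence of a series whose coefficients (for `N ≥ 1`) are divisor sums. -/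
theorem conv_of_divSum (F : PowerSeries K) (a : ℕ → K) (q : K) (C ρ : ℝ) (k : ℕ) (hC : 0 ≤ C)
    (hρ : 1 ≤ ρ) (hρq : ρ * ‖q‖ < 1) (ha : ∀ d : ℕ, ‖a d‖ ≤ C * (d : ℝ) ^ k * ρ ^ d)
    (hF : ∀ N, N ≠ 0 → coeff N F = divSum a N) : Conv F q := by
  refine conv_of_bound F q (C + ‖coeff 0 F‖) ρ (k + 1) (zero_le_one.trans hρ) hρq fun N => ?_
  rcases eq_or_ne N 0 with rfl | hN
  · simp only [Nat.cast_zero, zero_add, one_pow, mul_one, pow_zero]
    linarith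
  · rw [hF N hN]
    refine (norm_divSum_le a C ρ k hC hρ ha N).trans ?_
    have h2 : 0 ≤ ((N : ℝ) + 1) ^ (k + 1) * ρ ^ N := by
      have : 0 ≤ ρ := zero_le_one.trans hρ
      positivity
    have h3 : C ≤ C + ‖coeff 0 F‖ := by linarith [norm_nonneg (coeff 0 F)]
    calc C * ((N : ℝ) + 1) ^ (k + 1) * ρ ^ N = C * (((N : ℝ) + 1) ^ (k + 1) * ρ ^ N) := by ring
      _ ≤ (C + ‖coeff 0 F‖) * (((N : ℝ) + 1) ^ (k + 1) * ρ ^ N) :=
          mul_le_mul_of_nonneg_right h3 h2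
      _ = (C + ‖coeff 0 F‖) * ((N : ℝ) + 1) ^ (k + 1) * ρ ^ N := by ring

/-- the value of such a series as a Lambert double series. -/
theorem ev_of_divSum (F : PowerSeries K) (a : ℕ → K) (q : K) (C ρ : ℝ) (k : ℕ) (hC : 0 ≤ C)
    (hρ : 1 ≤ ρ) (hq1 : ‖q‖ < 1) (hρq : ρ * ‖q‖ < 1)
    (ha : ∀ d : ℕ, ‖a d‖ ≤ C * (d : ℝ) ^ k * ρ ^ d)
    (hF : ∀ N, N ≠ 0 → coeff N F = divSum a N) :
    ev F q = coeff 0 F + ∑' c : ℕ+, ∑' d : ℕ+, a d * q ^ ((c : ℕ) * (d : ℕ)) := by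
  have hconv := conv_of_divSum F a q C ρ k hC hρ hρq ha hF
  have hs := hconv.summable
  rw [ev, hs.tsum_eq_zero_add, pow_zero, mul_one]
  congr 1
  have hreg := regroup a q (summable_dbl a q C ρ k hC (zero_le_one.trans hρ) hq1 hρq ha)
  rw [hreg.2, tsum_pnat_eq_tsum_succ (f := fun N : ℕ => divSum a N * q ^ N)]
  refine tsum_congr fun n => ?_
  rw [hF (n + 1) (Nat.succ_ne_zero n)]

/-! ### the Tate series evaluated -/

section Tate

variable (u : K) (h0 : u ≠ 0) (h1 : u ≠ 1)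

/-- the Lambert coefficients of `X`. -/
noncomputable def aX (d : ℕ) : K := (d : K) * (u ^ d + u⁻¹ ^ d - 2)

/-- the Lambert coefficients of `Y`. -/
noncomputable def aY (d : ℕ) : K :=
  (d.choose 2 : K) * u ^ d - ((d + 1).choose 2 : K) * u⁻¹ ^ d + (d : K)

/-- the Lambert coefficients of `DX = X + 2Y`. -/
noncomputable def aD (d : ℕ) : K := (d : K) ^ 2 * (u ^ d - u⁻¹ ^ d)

theorem sigma_one_cast (N : ℕ) : ((σ 1 N : ℕ) : K) = ∑ d ∈ N.divisors, (d : K) := by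
  rw [ArithmeticFunction.sigma_apply]
  push_cast
  simp

theorem evA_cX_zero : evA u h0 h1 (cX 0) = u * ((1 - u)⁻¹) ^ 2 := by
  rw [cX, if_pos rfl, map_mul, map_pow, evA_u, evA_zi]

theorem evA_cY_zero : evA u h0 h1 (cY 0) = u ^ 2 * ((1 - u)⁻¹) ^ 3 := by
  rw [cY, if_pos rfl, map_mul, map_pow, map_pow, evA_u, evA_zi]

theorem evA_cX (N : ℕ) (hN : N ≠ 0) : evA u h0 h1 (cX N) = divSum (aX u) N := by
  rw [cX, if_neg hN, map_sub, map_mul, map_sum, map_ofNat, map_natCast, sigma_one_cast, divSum,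
    Finset.mul_sum, ← Finset.sum_sub_distrib]
  refine Finset.sum_congr rfl fun d _ => ?_
  rw [map_mul, map_add, map_pow, map_pow, evA_u, evA_ui, map_natCast, aX]
  ring

theorem evA_cY (N : ℕ) (hN : N ≠ 0) : evA u h0 h1 (cY N) = divSum (aY u) N := by
  rw [cY, if_neg hN, map_add, map_sum, map_natCast, sigma_one_cast, divSum,
    ← Finset.sum_add_distrib]
  refine Finset.sum_congr rfl fun d _ => ?_
  rw [map_sub, map_mul, map_mul, map_pow, map_pow, evA_u, evA_ui, map_natCast, map_natCast, aY]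

theorem two_mul_choose_two (d : ℕ) : (2 : K) * (d.choose 2 : K) = (d : K) * ((d : K) - 1) := by
  induction d with
  | zero => simp
  | succ n ih =>
    rw [Nat.choose_succ_succ' n 1, Nat.choose_one_right]
    push_cast
    rw [mul_add, ih]
    ring

theorem aX_add_two_aY (d : ℕ) : aX u d + 2 * aY u d = aD u d := by
  have e1 := two_mul_choose_two (K := K) d
  have e2 := two_mul_choose_two (K := K) (d + 1)
  push_cast at e2
  rw [aX, aY, aD]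
  linear_combination (u ^ d) * e1 - (u⁻¹ ^ d) * e2

include h0 in
theorem norm_aX_le (d : ℕ) : ‖aX u d‖ ≤ 4 * (d : ℝ) ^ 1 * rho u ^ d := by
  have hρ := one_le_rho u h0
  have hρd : 1 ≤ rho u ^ d := one_le_pow₀ hρ
  have e1 := norm_pow_le_rho u d d le_rfl h0
  have e2 := norm_inv_pow_le_rho u d d le_rfl h0
  have e3 : ‖u ^ d + u⁻¹ ^ d - 2‖ ≤ 4 * rho u ^ d := by
    calc ‖u ^ d + u⁻¹ ^ d - 2‖ ≤ ‖u ^ d + u⁻¹ ^ d‖ + ‖(2 : K)‖ := norm_sub_le _ _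
      _ ≤ (‖u ^ d‖ + ‖u⁻¹ ^ d‖) + 2 := by
          gcongr
          · exact norm_add_le _ _
          · have := norm_natCast_le (K := K) 2
            simpa using this
      _ ≤ 4 * rho u ^ d := by linarith
  rw [aX, norm_mul, pow_one]
  calc ‖(d : K)‖ * ‖u ^ d + u⁻¹ ^ d - 2‖ ≤ (d : ℝ) * (4 * rho u ^ d) := by
        gcongr
        exact norm_natCast_le d
    _ = 4 * (d : ℝ) * rho u ^ d := by ring

include h0 in
theorem norm_aD_le (d : ℕ) : ‖aD u d‖ ≤ 2 * (d : ℝ) ^ 2 * rho u ^ d := by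
  have e1 := norm_pow_le_rho u d d le_rfl h0
  have e2 := norm_inv_pow_le_rho u d d le_rfl h0
  have e3 : ‖u ^ d - u⁻¹ ^ d‖ ≤ 2 * rho u ^ d := by
    calc ‖u ^ d - u⁻¹ ^ d‖ ≤ ‖u ^ d‖ + ‖u⁻¹ ^ d‖ := norm_sub_le _ _
      _ ≤ 2 * rho u ^ d := by linarith
  rw [aD, norm_mul, norm_pow]
  calc ‖(d : K)‖ ^ 2 * ‖u ^ d - u⁻¹ ^ d‖ ≤ (d : ℝ) ^ 2 * (2 * rho u ^ d) := by
        gcongr
        exact norm_natCast_le d
    _ = 2 * (d : ℝ) ^ 2 * rho u ^ d := by ring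

include h0 in
theorem norm_aY_le (d : ℕ) : ‖aY u d‖ ≤ 6 * (d : ℝ) ^ 2 * rho u ^ d := by
  have hρ := one_le_rho u h0
  have hρd : 1 ≤ rho u ^ d := one_le_pow₀ hρ
  have e1 := norm_pow_le_rho u d d le_rfl h0
  have e2 := norm_inv_pow_le_rho u d d le_rfl h0
  rcases Nat.eq_zero_or_pos d with rfl | hd
  · simp [aY]
  have hd1 : (1 : ℝ) ≤ d := by exact_mod_cast hd
  have c1 : ‖((d.choose 2 : ℕ) : K)‖ ≤ (d : ℝ) ^ 2 := by
    refine (norm_natCast_le _).trans ?_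
    exact_mod_cast Nat.choose_le_pow d 2
  have c2 : ‖(((d + 1).choose 2 : ℕ) : K)‖ ≤ 4 * (d : ℝ) ^ 2 := by
    refine (norm_natCast_le _).trans ?_
    have : ((d + 1).choose 2 : ℝ) ≤ ((d : ℝ) + 1) ^ 2 := by
      exact_mod_cast Nat.choose_le_pow (d + 1) 2
    nlinarith
  have c3 : ‖(d : K)‖ ≤ (d : ℝ) ^ 2 := by
    refine (norm_natCast_le _).trans ?_
    nlinarith
  rw [aY]
  calc ‖(d.choose 2 : K) * u ^ d - ((d + 1).choose 2 : K) * u⁻¹ ^ d + (d : K)‖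
      ≤ ‖(d.choose 2 : K) * u ^ d‖ + ‖((d + 1).choose 2 : K) * u⁻¹ ^ d‖ + ‖(d : K)‖ := by
        refine (norm_add_le _ _).trans ?_
        gcongr
        exact norm_sub_le _ _
    _ ≤ (d : ℝ) ^ 2 * rho u ^ d + 4 * (d : ℝ) ^ 2 * rho u ^ d + (d : ℝ) ^ 2 * rho u ^ d := by
        rw [norm_mul, norm_mul]
        have h5 : (d : ℝ) ^ 2 ≤ (d : ℝ) ^ 2 * rho u ^ d := by
          have : 0 ≤ (d : ℝ) ^ 2 := by positivity
          nlinarith
        gcongr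
        exact c3.trans h5
    _ = 6 * (d : ℝ) ^ 2 * rho u ^ d := by ring

variable (q : K)

theorem coeff_mapA_tX (N : ℕ) : coeff N (mapA u h0 h1 tX) = evA u h0 h1 (cX N) := by
  rw [coeff_mapA, tX, coeff_mk]

theorem coeff_mapA_tY (N : ℕ) : coeff N (mapA u h0 h1 tY) = evA u h0 h1 (cY N) := by
  rw [coeff_mapA, tY, coeff_mk]

theorem conv_tX (hρq : rho u * ‖q‖ < 1) : Conv (mapA u h0 h1 tX) q :=
  conv_of_divSum _ (aX u) q 4 (rho u) 1 (by norm_num) (one_le_rho u h0) hρq (norm_aX_le u h0)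
    fun N hN => by rw [coeff_mapA_tX, evA_cX u h0 h1 N hN]

theorem conv_tY (hρq : rho u * ‖q‖ < 1) : Conv (mapA u h0 h1 tY) q :=
  conv_of_divSum _ (aY u) q 6 (rho u) 2 (by norm_num) (one_le_rho u h0) hρq (norm_aY_le u h0)
    fun N hN => by rw [coeff_mapA_tY, evA_cY u h0 h1 N hN]

include h0 in
theorem norm_lt_one_of_rho (hρq : rho u * ‖q‖ < 1) : ‖q‖ < 1 := by
  have hρ := one_le_rho u h0
  nlinarith [norm_nonneg q]

/-- **`X(u, q)` as a Lambert double series.** -/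
theorem ev_tX (hρq : rho u * ‖q‖ < 1) :
    ev (mapA u h0 h1 tX) q =
      u * ((1 - u)⁻¹) ^ 2 + ∑' c : ℕ+, ∑' d : ℕ+, aX u d * q ^ ((c : ℕ) * (d : ℕ)) := by
  rw [ev_of_divSum _ (aX u) q 4 (rho u) 1 (by norm_num) (one_le_rho u h0)
    (norm_lt_one_of_rho u h0 q hρq) hρq (norm_aX_le u h0)
    fun N hN => by rw [coeff_mapA_tX, evA_cX u h0 h1 N hN], coeff_mapA_tX, evA_cX_zero]

/-- **`Y(u, q)` as a Lambert double series.** -/
theorem ev_tY (hρq : rho u * ‖q‖ < 1) :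
    ev (mapA u h0 h1 tY) q =
      u ^ 2 * ((1 - u)⁻¹) ^ 3 + ∑' c : ℕ+, ∑' d : ℕ+, aY u d * q ^ ((c : ℕ) * (d : ℕ)) := by
  rw [ev_of_divSum _ (aY u) q 6 (rho u) 2 (by norm_num) (one_le_rho u h0)
    (norm_lt_one_of_rho u h0 q hρq) hρq (norm_aY_le u h0)
    fun N hN => by rw [coeff_mapA_tY, evA_cY u h0 h1 N hN], coeff_mapA_tY, evA_cY_zero]

/-- **`DX = X + 2Y` as a Lambert double series.** -/
theorem ev_tD (hρq : rho u * ‖q‖ < 1) :
    ev (mapA u h0 h1 tX) q + 2 * ev (mapA u h0 h1 tY) q =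
      u * (1 + u) * ((1 - u)⁻¹) ^ 3 +
        ∑' c : ℕ+, ∑' d : ℕ+, aD u d * q ^ ((c : ℕ) * (d : ℕ)) := by
  have hq1 := norm_lt_one_of_rho u h0 q hρq
  have hρ0 : (0 : ℝ) ≤ rho u := zero_le_one.trans (one_le_rho u h0)
  have sX := (summable_dbl (aX u) q 4 (rho u) 1 (by norm_num) hρ0 hq1 hρq
    (norm_aX_le u h0)).of_norm
  have sY := (summable_dbl (aY u) q 6 (rho u) 2 (by norm_num) hρ0 hq1 hρq
    (norm_aY_le u h0)).of_norm
  have sD := (summable_dbl (aD u) q 2 (rho u) 2 (by norm_num) hρ0 hq1 hρq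
    (norm_aD_le u h0)).of_norm
  rw [ev_tX u h0 h1 q hρq, ev_tY u h0 h1 q hρq]
  have e1 : ∑' c : ℕ+, ∑' d : ℕ+, aX u d * q ^ ((c : ℕ) * (d : ℕ)) =
      ∑' p : ℕ+ × ℕ+, dbl (aX u) q p := (sX.tsum_prod).symm
  have e2 : ∑' c : ℕ+, ∑' d : ℕ+, aY u d * q ^ ((c : ℕ) * (d : ℕ)) =
      ∑' p : ℕ+ × ℕ+, dbl (aY u) q p := (sY.tsum_prod).symm
  have e3 : ∑' c : ℕ+, ∑' d : ℕ+, aD u d * q ^ ((c : ℕ) * (d : ℕ)) =
      ∑' p : ℕ+ × ℕ+, dbl (aD u) q p := (sD.tsum_prod).symm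
  have e4 : ∑' p : ℕ+ × ℕ+, dbl (aD u) q p =
      ∑' p : ℕ+ × ℕ+, dbl (aX u) q p + 2 * ∑' p : ℕ+ × ℕ+, dbl (aY u) q p := by
    rw [← tsum_mul_left, ← sX.tsum_add (sY.mul_left 2)]
    refine tsum_congr fun p => ?_
    rw [dbl, dbl, dbl, ← aX_add_two_aY]
    ring
  rw [e1, e2, e3, e4]
  have hz : (1 - u) ≠ 0 := sub_ne_zero.2 (Ne.symm h1)
  field_simp
  ring

end Tate

/-! ### the integer series -/

section IntSeries

variable (q : K)

theorem coeff_mapZ (F : PowerSeries ℤ) (N : ℕ) : coeff N (mapZ (K := K) F) = ((coeff N F : ℤ) : K) := by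
  rw [mapZ, coeff_map]
  rfl

/-- `s_k(q) = ∑_c ∑_d d^k q^{cd}`. -/
theorem conv_sk (k : ℕ) (hq : ‖q‖ < 1) : Conv (mapZ (K := K) (sk k)) q := by
  refine conv_of_divSum _ (fun d : ℕ => (d : K) ^ k) q 1 1 k zero_le_one le_rfl
    (by rwa [one_mul]) (fun d => ?_) fun N hN => ?_
  · rw [norm_pow, one_mul, one_pow, mul_one]
    gcongr
    exact norm_natCast_le d
  · rw [coeff_mapZ, sk, coeff_mk, if_neg hN, ArithmeticFunction.sigma_apply, divSum]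
    push_cast
    rfl

theorem ev_sk (k : ℕ) (hq : ‖q‖ < 1) :
    ev (mapZ (K := K) (sk k)) q = ∑' c : ℕ+, ∑' d : ℕ+, ((d : ℕ) : K) ^ k * q ^ ((c : ℕ) * (d : ℕ)) := by
  rw [ev_of_divSum _ (fun d : ℕ => (d : K) ^ k) q 1 1 k zero_le_one le_rfl hq
    (by rwa [one_mul]) (fun d => ?_) fun N hN => ?_]
  · rw [coeff_mapZ, sk, coeff_mk, if_pos rfl, Int.cast_zero, zero_add]
  · rw [norm_pow, one_mul, one_pow, mul_one]
    gcongr
    exact norm_natCast_le d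
  · rw [coeff_mapZ, sk, coeff_mk, if_neg hN, ArithmeticFunction.sigma_apply, divSum]
    push_cast
    rfl

theorem a4_eq : a4 = C (-5 : ℤ) * sk 3 := by
  ext N
  rw [coeff_C_mul, a4, sk, coeff_mk, coeff_mk]
  split_ifs <;> simp

theorem twelve_a6_eq : C (12 : ℤ) * a6 = -(C (5 : ℤ) * sk 3 + C (7 : ℤ) * sk 5) := by
  ext N
  rw [coeff_C_mul, map_neg, map_add, coeff_C_mul, coeff_C_mul]
  rcases eq_or_ne N 0 with rfl | hN
  · simp [a6, sk]
  · rw [twelve_mul_coeff_a6 N hN, sk, sk, coeff_mk, coeff_mk, if_neg hN, if_neg hN]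

theorem mapZ_a4 : mapZ (K := K) a4 = C (-5 : K) * mapZ (sk 3) := by
  rw [a4_eq, mapZ, map_mul, map_C]
  simp [mapZ]

theorem mapZ_a6 : C (12 : K) * mapZ (K := K) a6 = -(C (5 : K) * mapZ (sk 3) + C (7 : K) * mapZ (sk 5)) := by
  have h := congrArg (PowerSeries.map (Int.castRingHom K)) twelve_a6_eq
  rw [map_mul, map_neg, map_add, map_mul, map_mul, map_C, map_C, map_C] at h
  simpa [mapZ] using h

theorem conv_a4 (hq : ‖q‖ < 1) : Conv (mapZ (K := K) a4) q := by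
  rw [mapZ_a4]
  exact (conv_C _ _).mul (conv_sk q 3 hq)

theorem ev_a4 (hq : ‖q‖ < 1) : ev (mapZ (K := K) a4) q = -5 * ev (mapZ (K := K) (sk 3)) q := by
  rw [mapZ_a4, ev_mul (conv_C _ _) (conv_sk q 3 hq), ev_C]

variable [CharZero K]

theorem mapZ_a6' : mapZ (K := K) a6 =
    C ((12 : K)⁻¹) * -(C (5 : K) * mapZ (sk 3) + C (7 : K) * mapZ (sk 5)) := by
  rw [← mapZ_a6, ← mul_assoc, ← map_mul, inv_mul_cancel₀ (by norm_num : (12 : K) ≠ 0), map_one,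
    one_mul]

theorem conv_a6 (hq : ‖q‖ < 1) : Conv (mapZ (K := K) a6) q := by
  rw [mapZ_a6']
  exact (conv_C _ _).mul
    (((conv_C _ _).mul (conv_sk q 3 hq)).add ((conv_C _ _).mul (conv_sk q 5 hq))).neg

theorem ev_a6 (hq : ‖q‖ < 1) : ev (mapZ (K := K) a6) q =
    -(5 * ev (mapZ (K := K) (sk 3)) q + 7 * ev (mapZ (K := K) (sk 5)) q) / 12 := by
  have c3 := conv_sk q 3 hq
  have c5 := conv_sk q 5 hq
  rw [mapZ_a6', ev_mul (conv_C _ _)
    (((conv_C _ _).mul c3).add ((conv_C _ _).mul c5)).neg, ev_C, ev_neg,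
    ev_add ((conv_C _ _).mul c3) ((conv_C _ _).mul c5), ev_mul (conv_C _ _) c3,
    ev_mul (conv_C _ _) c5, ev_C, ev_C]
  field_simp

end IntSeries

/-! ### the Weierstrass defect evaluated -/

section Defect

variable [CharZero K] (u : K) (h0 : u ≠ 0) (h1 : u ≠ 1) (q : K)

theorem mapA_tW : mapA u h0 h1 tW =
    mapA u h0 h1 tY ^ 2 + mapA u h0 h1 tX * mapA u h0 h1 tY - mapA u h0 h1 tX ^ 3 -
      mapZ a4 * mapA u h0 h1 tX - mapZ a6 := by
  rw [tW, mapA_sub, mapA_sub, mapA_sub, mapA_add, mapA_pow, mapA_mul, mapA_pow, mapA_mul, a4A,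
    a6A, mapA_mapInt, mapA_mapInt]

theorem conv_tW (hρq : rho u * ‖q‖ < 1) : Conv (mapA u h0 h1 tW) q := by
  have hq1 := norm_lt_one_of_rho u h0 q hρq
  have cX := conv_tX u h0 h1 q hρq
  have cY := conv_tY u h0 h1 q hρq
  rw [mapA_tW]
  exact (((((cY.pow 2).add (cX.mul cY)).sub (cX.pow 3)).sub ((conv_a4 q hq1).mul cX)).sub
    (conv_a6 q hq1))

/-- the evaluated defect in terms of the evaluated series. -/
theorem ev_tW (hρq : rho u * ‖q‖ < 1) :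
    ev (mapA u h0 h1 tW) q =
      ev (mapA u h0 h1 tY) q ^ 2 + ev (mapA u h0 h1 tX) q * ev (mapA u h0 h1 tY) q -
        ev (mapA u h0 h1 tX) q ^ 3 - ev (mapZ a4) q * ev (mapA u h0 h1 tX) q - ev (mapZ a6) q := by
  have hq1 := norm_lt_one_of_rho u h0 q hρq
  have cX := conv_tX u h0 h1 q hρq
  have cY := conv_tY u h0 h1 q hρq
  have c4 := conv_a4 q hq1
  have c6 := conv_a6 q hq1
  rw [mapA_tW, ev_sub ((((cY.pow 2).add (cX.mul cY)).sub (cX.pow 3)).sub (c4.mul cX)) c6,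
    ev_sub (((cY.pow 2).add (cX.mul cY)).sub (cX.pow 3)) (c4.mul cX),
    ev_sub ((cY.pow 2).add (cX.mul cY)) (cX.pow 3), ev_add (cY.pow 2) (cX.mul cY),
    ev_pow cY, ev_mul cX cY, ev_pow cX, ev_mul c4 cX]

end Defect

end Fermat.Agent.MZ.MOD.TateEval4
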