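/-
Programme MZ (S15, Mazur), chapter MOD-E (helper4): **the Tate series over `ℂ`**.
For `τ ∈ ℍ`, `0 < Im z < Im τ`, `u = e(z)`, `q = e(τ)`:
`℘(z) = (2πi)² (X(u,q) + 1/12)`, `℘'(z) = (2πi)³ (X + 2Y)(u,q)`,
`g₂ = (2πi)⁴ (1 + 240 s₃(q))/12`, `g₃ = -(2πi)⁶ (1 - 504 s₅(q))/216`, hence (Mathlib's
`℘'² = 4℘³ - g₂℘ - g₃`) the evaluated Weierstrass defect `tW(u,q)` vanishes.
-/
import Mathlib
import Fermat.Agent.X0.LatticeEis
import Fermat.Agent.MZ.MOD.WPqExp4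
import Fermat.Agent.MZ.MOD.TateEval4

set_option autoImplicit false
set_option linter.unusedSectionVars false
set_option linter.unusedVariables false

open Complex PeriodPair Real
open UpperHalfPlane hiding I
open Fermat.Agent.X0.LatticeEis ModularForm EisensteinSeries

namespace Fermat.Agent.MZ.MOD.TateC4

open WPqExp4 TateEval4 TateFormal4 PSEval4 Regroup4

local notation "σ" => ArithmeticFunction.sigma

/-! ### closed forms -/

theorem G1_eq {w : ℂ} (hw : ‖w‖ < 1) : WPqExp4.G 1 w = w / (1 - w) ^ 2 := by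
  unfold WPqExp4.G
  simp only [pow_one]
  exact tsum_coe_mul_geometric_of_norm_lt_one hw

theorem summable_G (j : ℕ) {w : ℂ} (hw : ‖w‖ < 1) : Summable fun d : ℕ => (d : ℂ) ^ j * w ^ d :=
  summable_pow_mul_geometric_of_norm_lt_one j hw

theorem G2_eq {w : ℂ} (hw : ‖w‖ < 1) : WPqExp4.G 2 w = w * (1 + w) / (1 - w) ^ 3 := by
  unfold WPqExp4.G
  have h0 := tsum_geometric_of_norm_lt_one hw
  have h1 := tsum_choose_mul_geometric_of_norm_lt_one 1 hw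
  have h2 := tsum_choose_mul_geometric_of_norm_lt_one 2 hw
  have s0 := summable_geometric_of_norm_lt_one hw
  have s1 := summable_choose_mul_geometric_of_norm_lt_one 1 hw
  have s2 := summable_choose_mul_geometric_of_norm_lt_one 2 hw
  have hterm : ∀ d : ℕ, (d : ℂ) ^ 2 * w ^ d =
      2 * (((d + 2).choose 2 : ℕ) * w ^ d) - 3 * (((d + 1).choose 1 : ℕ) * w ^ d) + w ^ d := by
    intro d
    have e2 := TateEval4.two_mul_choose_two (K := ℂ) (d + 2)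
    rw [Nat.choose_one_right]
    push_cast at e2 ⊢
    linear_combination (-(w ^ d)) * e2
  simp_rw [hterm]
  rw [((s2.mul_left 2).sub (s1.mul_left 3)).tsum_add s0, (s2.mul_left 2).tsum_sub (s1.mul_left 3),
    tsum_mul_left, tsum_mul_left, h0, h1, h2]
  have hz : (1 - w) ≠ 0 := by
    intro h
    have : w = 1 := by linear_combination -h
    rw [this, norm_one] at hw
    exact lt_irrefl _ hw
  field_simp
  ring

/-! ### the inner sums -/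

section Inner

variable (u : ℂ) (h0 : u ≠ 0)

theorem inner_X (w : ℂ) (hw : ‖w‖ < 1) (hw1 : ‖w * u⁻¹‖ < 1) (hw2 : ‖w * u‖ < 1) :
    ∑' d : ℕ+, aX u d * w ^ (d : ℕ) =
      WPqExp4.G 1 (w * u⁻¹) + WPqExp4.G 1 (w * u) - 2 * WPqExp4.G 1 w := by
  have s0 := summable_G 1 hw
  have s1 := summable_G 1 hw1
  have s2 := summable_G 1 hw2
  have hs : Summable fun d : ℕ => aX u d * w ^ d := by
    refine ((s1.add s2).sub (s0.mul_left 2)).congr fun d => ?_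
    rw [aX, mul_pow, mul_pow]
    ring
  have h := tsum_zero_pnat_eq_tsum_nat hs
  rw [aX] at h
  simp only [Nat.cast_zero, zero_mul, zero_add] at h
  rw [h]
  unfold WPqExp4.G
  rw [← s1.tsum_add s2, ← tsum_mul_left, ← (s1.add s2).tsum_sub (s0.mul_left 2)]
  refine tsum_congr fun d => ?_
  rw [aX, mul_pow, mul_pow]
  ring

theorem inner_D (w : ℂ) (hw1 : ‖w * u⁻¹‖ < 1) (hw2 : ‖w * u‖ < 1) :
    ∑' d : ℕ+, aD u d * w ^ (d : ℕ) = WPqExp4.G 2 (w * u) - WPqExp4.G 2 (w * u⁻¹) := by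
  have s1 := summable_G 2 hw1
  have s2 := summable_G 2 hw2
  have hs : Summable fun d : ℕ => aD u d * w ^ d := by
    refine (s2.sub s1).congr fun d => ?_
    rw [aD, mul_pow, mul_pow]
    ring
  have h := tsum_zero_pnat_eq_tsum_nat hs
  rw [aD] at h
  simp only [Nat.cast_zero, ne_eq, OfNat.ofNat_ne_zero, not_false_eq_true, zero_pow, zero_mul,
    zero_add] at h
  rw [h]
  unfold WPqExp4.G
  rw [← s2.tsum_sub s1]
  refine tsum_congr fun d => ?_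
  rw [aD, mul_pow, mul_pow]
  ring

end Inner

/-! ### `℘` and `℘'` -/

section Main

variable (τ : ℍ) (z : ℂ) (hz0 : 0 < z.im) (hz1 : z.im < τ.im)

include hz0 in
theorem norm_u_lt_one : ‖ee z‖ < 1 := norm_ee_lt_one hz0

theorem norm_q_lt_one : ‖ee (τ : ℂ)‖ < 1 := norm_ee_lt_one τ.im_pos

include hz1 in
theorem norm_q_lt_norm_u : ‖ee (τ : ℂ)‖ < ‖ee z‖ := by
  rw [norm_ee, norm_ee, Real.exp_lt_exp]
  have := Real.pi_pos
  have h : z.im < (τ : ℂ).im := hz1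
  nlinarith

include hz0 in
theorem u_ne_one : ee z ≠ 1 := by
  intro h
  have := norm_u_lt_one z hz0
  rw [h, norm_one] at this
  exact lt_irrefl _ this

include hz0 hz1 in
theorem rho_mul_lt : rho (ee z) * ‖ee (τ : ℂ)‖ < 1 := by
  have hu := norm_u_lt_one z hz0
  have hu0 : 0 < ‖ee z‖ := norm_pos_iff.2 (ee_ne_zero z)
  have hq := norm_q_lt_norm_u τ z hz1
  have hr : rho (ee z) = ‖ee z‖⁻¹ := by
    unfold rho
    refine max_eq_right ?_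
    exact hu.le.trans (one_le_inv₀ hu0 |>.2 hu.le)
  rw [hr, inv_mul_lt_iff₀ hu0, mul_one]
  exact hq

include hz0 hz1 in
theorem norm_qk_lt (k : ℕ) (hk : 1 ≤ k) :
    ‖ee (τ : ℂ) ^ k‖ < 1 ∧ ‖ee (τ : ℂ) ^ k * (ee z)⁻¹‖ < 1 ∧ ‖ee (τ : ℂ) ^ k * ee z‖ < 1 := by
  have hu := norm_u_lt_one z hz0
  have hu0 : 0 < ‖ee z‖ := norm_pos_iff.2 (ee_ne_zero z)
  have hq := norm_q_lt_norm_u τ z hz1
  have hq1 := norm_q_lt_one τ
  have hq0 : 0 ≤ ‖ee (τ : ℂ)‖ := norm_nonneg _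
  have hk1 : ‖ee (τ : ℂ)‖ ^ k ≤ ‖ee (τ : ℂ)‖ := by
    calc ‖ee (τ : ℂ)‖ ^ k ≤ ‖ee (τ : ℂ)‖ ^ 1 := pow_le_pow_of_le_one hq0 hq1.le hk
      _ = ‖ee (τ : ℂ)‖ := pow_one _
  refine ⟨?_, ?_, ?_⟩
  · rw [norm_pow]
    exact hk1.trans_lt hq1
  · rw [norm_mul, norm_pow, norm_inv, ← div_eq_mul_inv, div_lt_one hu0]
    exact hk1.trans_lt hq
  · rw [norm_mul, norm_pow]
    calc ‖ee (τ : ℂ)‖ ^ k * ‖ee z‖ ≤ ‖ee (τ : ℂ)‖ * 1 := by gcongr
      _ < 1 := by rw [mul_one]; exact hq1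

include hz0 hz1 in
/-- **`℘(z) = (2πi)² (X(u, q) + 1/12)`.** -/
theorem wp_eq :
    ℘[pairOfUHP τ] z = (2 * π * I) ^ 2 *
      (ev (mapA (ee z) (ee_ne_zero z) (u_ne_one z hz0) tX) (ee (τ : ℂ)) + 1 / 12) := by
  have hfold := (hasSum_wp_fold τ z).tsum_eq
  have hρ := rho_mul_lt τ z hz0 hz1
  have hterm : ∀ n : ℕ, rowP τ z ((n + 1 : ℕ) : ℤ) + rowP τ z (-((n + 1 : ℕ) : ℤ)) =
      (2 * π * I) ^ 2 * ∑' d : ℕ+, aX (ee z) d * ee (τ : ℂ) ^ ((n + 1) * (d : ℕ)) := by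
    intro n
    obtain ⟨e0, e1, e2⟩ := norm_qk_lt τ z hz0 hz1 (n + 1) (Nat.succ_le_succ (Nat.zero_le n))
    rw [rowP_pos τ z hz0 hz1 (n + 1) (Nat.succ_le_succ (Nat.zero_le n)),
      rowP_neg τ z hz0 hz1 (n + 1) (Nat.succ_le_succ (Nat.zero_le n))]
    have hin := inner_X (ee z) (ee (τ : ℂ) ^ (n + 1)) e0 e1 e2
    simp_rw [← pow_mul] at hin
    rw [hin]
    ring
  simp_rw [hterm] at hfold
  rw [tsum_mul_left] at hfold
  have hpn := tsum_pnat_eq_tsum_succ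
    (f := fun c : ℕ => ∑' d : ℕ+, aX (ee z) d * ee (τ : ℂ) ^ (c * (d : ℕ)))
  rw [← hpn] at hfold
  rw [ev_tX (ee z) (ee_ne_zero z) (u_ne_one z hz0) (ee (τ : ℂ)) hρ]
  have h0 := rowP_zero τ z hz0
  rw [G1_eq (norm_u_lt_one z hz0)] at h0
  have hwp : ℘[pairOfUHP τ] z = (2 * π * I) ^ 2 *
      ∑' c : ℕ+, ∑' d : ℕ+, aX (ee z) d * ee (τ : ℂ) ^ ((c : ℕ) * (d : ℕ)) + rowP τ z 0 := by
    rw [hfold]
    ring
  rw [hwp, h0]
  have hI : (2 * (π : ℂ) * I) ^ 2 = -4 * (π : ℂ) ^ 2 := by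
    rw [mul_pow, I_sq]
    ring
  rw [hI, div_eq_mul_inv, ← inv_pow]
  ring

include hz0 hz1 in
/-- **`℘'(z) = (2πi)³ (X + 2Y)(u, q)`.** -/
theorem dwp_eq :
    ℘'[pairOfUHP τ] z = (2 * π * I) ^ 3 *
      (ev (mapA (ee z) (ee_ne_zero z) (u_ne_one z hz0) tX) (ee (τ : ℂ)) +
        2 * ev (mapA (ee z) (ee_ne_zero z) (u_ne_one z hz0) tY) (ee (τ : ℂ))) := by
  have hfold := (hasSum_dwp_fold τ z).tsum_eq
  have hρ := rho_mul_lt τ z hz0 hz1
  have hterm : ∀ n : ℕ, rowD τ z ((n + 1 : ℕ) : ℤ) + rowD τ z (-((n + 1 : ℕ) : ℤ)) =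
      (2 * π * I) ^ 3 * ∑' d : ℕ+, aD (ee z) d * ee (τ : ℂ) ^ ((n + 1) * (d : ℕ)) := by
    intro n
    obtain ⟨e0, e1, e2⟩ := norm_qk_lt τ z hz0 hz1 (n + 1) (Nat.succ_le_succ (Nat.zero_le n))
    rw [rowD_pos τ z hz0 hz1 (n + 1) (Nat.succ_le_succ (Nat.zero_le n)),
      rowD_neg τ z hz0 hz1 (n + 1)]
    have hin := inner_D (ee z) (ee (τ : ℂ) ^ (n + 1)) e1 e2
    simp_rw [← pow_mul] at hin
    rw [hin]
    ring
  simp_rw [hterm] at hfold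
  rw [tsum_mul_left] at hfold
  have hpn := tsum_pnat_eq_tsum_succ
    (f := fun c : ℕ => ∑' d : ℕ+, aD (ee z) d * ee (τ : ℂ) ^ (c * (d : ℕ)))
  rw [← hpn] at hfold
  rw [ev_tD (ee z) (ee_ne_zero z) (u_ne_one z hz0) (ee (τ : ℂ)) hρ]
  have h0 := rowD_neg τ z hz0 hz1 0
  simp only [Nat.cast_zero, neg_zero, pow_zero, one_mul] at h0
  rw [G2_eq (norm_u_lt_one z hz0)] at h0
  have hwp : ℘'[pairOfUHP τ] z = (2 * π * I) ^ 3 *
      ∑' c : ℕ+, ∑' d : ℕ+, aD (ee z) d * ee (τ : ℂ) ^ ((c : ℕ) * (d : ℕ)) + rowD τ z 0 := by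
    rw [hfold]
    ring
  rw [hwp, h0, div_eq_mul_inv, ← inv_pow]
  ring

end Main

/-! ### `g₂` and `g₃` -/

section Eis

variable (τ : ℍ)

theorem tsum_sigma_eq (k : ℕ) :
    ∑' n : ℕ+, (σ k n : ℂ) * cexp (2 * π * I * τ) ^ ((n : ℕ) : ℤ) =
      ev (mapZ (K := ℂ) (sk k)) (ee (τ : ℂ)) := by
  have hs := (conv_sk (ee (τ : ℂ)) k (norm_q_lt_one τ)).summable
  have h := tsum_zero_pnat_eq_tsum_nat hs
  have h00 : PowerSeries.coeff 0 (mapZ (K := ℂ) (sk k)) = 0 := by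
    rw [coeff_mapZ, sk, PowerSeries.coeff_mk, if_pos rfl, Int.cast_zero]
  rw [h00, zero_mul, zero_add] at h
  rw [ev, ← h]
  refine tsum_congr fun n => ?_
  rw [coeff_mapZ, sk, PowerSeries.coeff_mk, if_neg n.ne_zero, zpow_natCast, ee]
  push_cast
  rfl

theorem E4_eq : E₄ τ = 1 + 240 * ev (mapZ (K := ℂ) (sk 3)) (ee (τ : ℂ)) := by
  have h := EisensteinSeries.q_expansion_bernoulli (k := 4) (by norm_num) ⟨2, rfl⟩ τ
  have hb : bernoulli 4 = -1 / 30 := by decide +kernel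
  rw [show (4 - 1 : ℕ) = 3 from rfl, tsum_sigma_eq τ 3, hb] at h
  rw [show E₄ τ = ModularForm.E (by norm_num : 3 ≤ 4) τ from rfl, h]
  push_cast
  ring

theorem E6_eq : E₆ τ = 1 - 504 * ev (mapZ (K := ℂ) (sk 5)) (ee (τ : ℂ)) := by
  have h := EisensteinSeries.q_expansion_bernoulli (k := 6) (by norm_num) ⟨3, rfl⟩ τ
  have hb : bernoulli 6 = 1 / 42 := by decide +kernel
  rw [show (6 - 1 : ℕ) = 5 from rfl, tsum_sigma_eq τ 5, hb] at h
  rw [show E₆ τ = ModularForm.E (by norm_num : 3 ≤ 6) τ from rfl, h]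
  push_cast
  ring

theorem zeta_six : riemannZeta 6 = (π : ℂ) ^ 6 / 945 := by
  have h := riemannZeta_two_mul_nat (k := 3) (by norm_num)
  have hb : bernoulli 6 = 1 / 42 := by decide +kernel
  rw [show (2 * 3 : ℕ) = 6 from rfl, hb] at h
  have e : (2 * ((3 : ℕ) : ℂ)) = 6 := by norm_num
  rw [e] at h
  rw [h]
  norm_num [Nat.factorial]
  ring

theorem g2_eq : (pairOfUHP τ).g₂ =
    (2 * π * I) ^ 4 * (1 + 240 * ev (mapZ (K := ℂ) (sk 3)) (ee (τ : ℂ))) / 12 := by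
  rw [g₂_pairOfUHP, riemannZeta_four, E4_eq]
  have hI : (2 * (π : ℂ) * I) ^ 4 = 16 * (π : ℂ) ^ 4 := by
    rw [mul_pow, I_pow_four]
    ring
  rw [hI]
  ring

theorem g3_eq : (pairOfUHP τ).g₃ =
    -((2 * π * I) ^ 6 * (1 - 504 * ev (mapZ (K := ℂ) (sk 5)) (ee (τ : ℂ))) / 216) := by
  rw [g₃_pairOfUHP, zeta_six, E6_eq]
  have hI : (2 * (π : ℂ) * I) ^ 6 = -64 * (π : ℂ) ^ 6 := by
    rw [mul_pow, show (6 : ℕ) = 4 + 2 from rfl, pow_add I, I_pow_four, I_sq]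
    ring
  rw [hI]
  ring

end Eis

/-! ### the defect vanishes -/

section Defect

variable (τ : ℍ) (z : ℂ) (hz0 : 0 < z.im) (hz1 : z.im < τ.im)

include hz0 hz1 in
theorem not_mem_lattice : z ∉ (pairOfUHP τ).lattice := by
  intro h
  rw [PeriodPair.mem_lattice] at h
  obtain ⟨m, n, hmn⟩ := h
  have him := congrArg Complex.im hmn
  simp only [pairOfUHP_ω₁, pairOfUHP_ω₂, add_im, mul_im, intCast_re, intCast_im, zero_mul,
    add_zero, mul_one, one_im, mul_zero, one_re, coe_im] at him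
  have hτ := τ.im_pos
  rw [← him] at hz0 hz1
  have hm0 : (0 : ℝ) < m := by
    by_contra hneg
    push Not at hneg
    nlinarith
  have hm1 : (m : ℝ) < 1 := by
    by_contra hneg
    push Not at hneg
    nlinarith
  have h0 : (0 : ℤ) < m := by exact_mod_cast hm0
  have h1 : m < 1 := by exact_mod_cast hm1
  omega

include hz0 hz1 in
/-- **the evaluated defect vanishes.** -/
theorem ev_tW_eq_zero :
    ev (mapA (ee z) (ee_ne_zero z) (u_ne_one z hz0) tW) (ee (τ : ℂ)) = 0 := by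
  have hρ := rho_mul_lt τ z hz0 hz1
  have hq1 := norm_q_lt_one τ
  rw [ev_tW (ee z) (ee_ne_zero z) (u_ne_one z hz0) (ee (τ : ℂ)) hρ, ev_a4 _ hq1, ev_a6 _ hq1]
  have hW := (pairOfUHP τ).derivWeierstrassP_sq z (not_mem_lattice τ z hz0 hz1)
  rw [wp_eq τ z hz0 hz1, dwp_eq τ z hz0 hz1, g2_eq, g3_eq] at hW
  set x := ev (mapA (ee z) (ee_ne_zero z) (u_ne_one z hz0) tX) (ee (τ : ℂ))
  set y := ev (mapA (ee z) (ee_ne_zero z) (u_ne_one z hz0) tY) (ee (τ : ℂ))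
  set s3 := ev (mapZ (K := ℂ) (sk 3)) (ee (τ : ℂ))
  set s5 := ev (mapZ (K := ℂ) (sk 5)) (ee (τ : ℂ))
  set c : ℂ := 2 * π * I
  have hc : c ≠ 0 := by
    simp only [c]
    have := Real.pi_ne_zero
    simp [this]
  have hc6 : c ^ 6 ≠ 0 := pow_ne_zero 6 hc
  have key : c ^ 6 * (y ^ 2 + x * y - x ^ 3 - -5 * s3 * x - -(5 * s3 + 7 * s5) / 12) = 0 := by
    linear_combination (1 / 4 : ℂ) * hW
  rcases mul_eq_zero.1 key with h | h
  · exact absurd h hc6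
  · exact h

end Defect

end Fermat.Agent.MZ.MOD.TateC4
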