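/-
Programme MZ (S15), chapter MOD-E (helper5): **the valuation types of `(α₀, β₀)` at every multiplicative prime
`r ≠ p`**, unconditionally — `RatPoint5.local_types_fixed` instantiated at `K = ℂ_[r]` with the local Tate–Vélu
theorem `TateLTFinal4.ltStatement`.

* `norm_natCast_padicComplex` : `‖(p : ℂ_[r])‖ = 1` for primes `p ≠ r`;
* `exists_algHom_padicComplex` : a `ℚ`-algebra hom `ℚ̄ → ℂ_[r]`;
* **`types_at`** : `p > 3` prime, `W / ℤ`, `Δ ≠ 0`, `Q` a `G_ℚ`-fixed point of order `p`, `β₀ : ℚ` the Vélu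
  `j`-invariant: for every prime `r ≠ p` with `r ∣ Δ`, `r ∤ c₄` and every `A` over `r`:
  `α₀ ∉ A`, `InZeroComponentAt A Q → v_A(β₀) = v_A(α₀) ^ p`, `¬ InZeroComponentAt A Q → v_A(β₀) ^ p = v_A(α₀)`.
-/
import Mathlib
import Fermat.Agent.MZ.MOD.RatPoint5
import Fermat.Agent.MZ.MOD.TateLTFinal4

set_option autoImplicit false
set_option linter.unusedSectionVars false
set_option linter.style.longLine false

namespace Fermat.Agent.MZ.MOD.TypesAt5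

open WeierstrassCurve WeierstrassCurve.Affine
open Fermat.Agent.MZ.MOD.VeluDef4 Fermat.Agent.MZ.MOD.LTTransport5
open Fermat.Agent.MZ.MOD.ZeroComp5 Fermat.Agent.MZ.MOD.LocalGlobal5 Fermat.Agent.MZ.MOD.RatPoint5

local notation "Qb" => AlgebraicClosure ℚ

noncomputable section

/-- `‖(p : ℂ_[r])‖ = 1` for a prime `p ≠ r`. -/
theorem norm_natCast_padicComplex (r : ℕ) [Fact r.Prime] {p : ℕ} (hp : p.Prime) (hpr : r ≠ p) :
    ‖(p : ℂ_[r])‖ = 1 := by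
  have h1 : ‖((p : ℤ) : ℂ_[r])‖ ≤ 1 := IsUltrametricDist.norm_intCast_le_one ℂ_[r] _
  have h2 : ¬ ‖((p : ℤ) : ℂ_[r])‖ < 1 := by
    rw [norm_intCast_padicComplex_lt_one_iff r]
    intro hdvd
    have hdvd' : r ∣ p := Int.natCast_dvd_natCast.mp hdvd
    exact hpr ((Nat.prime_dvd_prime_iff_eq (Fact.out : r.Prime) hp).mp hdvd')
  have h3 : ‖((p : ℤ) : ℂ_[r])‖ = 1 := le_antisymm h1 (not_lt.mp h2)
  rwa [Int.cast_natCast] at h3

/-- a `ℚ`-algebra hom `ℚ̄ → ℂ_[r]`. -/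
theorem exists_algHom_padicComplex (r : ℕ) [Fact r.Prime] : Nonempty (Qb →ₐ[ℚ] ℂ_[r]) :=
  ⟨IsAlgClosed.lift⟩

/-- **the valuation types of `(α₀, β₀)` at every multiplicative prime `r ≠ p`.** -/
theorem types_at {p : ℕ} (hp : p.Prime) (hp3 : 3 < p)
    (W : WeierstrassCurve ℤ) (hΔ0 : W.Δ ≠ 0)
    (Q : ((W.map (Int.castRingHom ℚ))⁄Qb).Point) (hfix : ∀ σ : Qb ≃ₐ[ℚ] Qb, σ • Q = Q)
    (hord : addOrderOf Q = p) (β₀ : ℚ)
    (hβ : veluJ ((W.map (Int.castRingHom ℚ))⁄Qb) (xsOf Q p) = (β₀ : Qb))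
    {r : ℕ} (hr : r.Prime) (hrp : r ≠ p) (hΔ : (r : ℤ) ∣ W.Δ) (hc4 : ¬ (r : ℤ) ∣ W.c₄)
    {A : ValuationSubring Qb} (hA : A.LiesOverPrime r) :
    (((W.c₄ : ℚ) ^ 3 / (W.Δ : ℚ) : ℚ) : Qb) ∉ A ∧
      (W.InZeroComponentAt A Q →
        A.valuation (β₀ : Qb) = A.valuation (((W.c₄ : ℚ) ^ 3 / (W.Δ : ℚ) : ℚ) : Qb) ^ p) ∧
      (¬ W.InZeroComponentAt A Q →
        A.valuation (β₀ : Qb) ^ p = A.valuation (((W.c₄ : ℚ) ^ 3 / (W.Δ : ℚ) : ℚ) : Qb)) := by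
  have hrF : Fact r.Prime := ⟨hr⟩
  have hpF : Fact p.Prime := ⟨hp⟩
  classical
  obtain ⟨f⟩ := exists_algHom_padicComplex r
  exact local_types_fixed (K := ℂ_[r]) hr hp.two_le (norm_intCast_padicComplex_lt_one_iff r) f
    (TateLTFinal4.ltStatement hp3 (norm_natCast_padicComplex r hp hrp))
    (fun q hq0 hq1 => TateLTFinal4.norm_jK q hq0 hq1) W hΔ0 hΔ hc4 Q hfix hord β₀ hβ hA

end

end Fermat.Agent.MZ.MOD.TypesAt5
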