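/-
Programme MZ (S15, Mazur), chapter MOD-E (helper4): **`q`-expansions of the Weierstrass functions**
`℘`, `℘'` of the lattice `ℤ τ + ℤ` at a point `z` with `0 < Im z < Im τ`, as Lambert-type double
series in `u = e^{2πiz}`, `q = e^{2πiτ}`.
-/
import Mathlib
import Fermat.Agent.X0.LatticeEis

set_option autoImplicit false
set_option linter.unusedSectionVars false
set_option linter.unusedVariables false

open Complex PeriodPair Real
open UpperHalfPlane hiding I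
open Fermat.Agent.X0.LatticeEis

namespace Fermat.Agent.MZ.MOD.WPqExp4

/-! ### the one-variable sums `∑_n 1/(w+n)^k` -/

/-- `e(w) = exp(2πi w)`. -/
noncomputable def ee (w : ℂ) : ℂ := cexp (2 * π * I * w)

theorem ee_add (w w' : ℂ) : ee (w + w') = ee w * ee w' := by
  rw [ee, ee, ee, mul_add, Complex.exp_add]

theorem ee_neg (w : ℂ) : ee (-w) = (ee w)⁻¹ := by
  rw [ee, ee, mul_neg, Complex.exp_neg]

theorem ee_ne_zero (w : ℂ) : ee w ≠ 0 := Complex.exp_ne_zero _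

theorem ee_nat_mul (m : ℕ) (w : ℂ) : ee (m * w) = ee w ^ m := by
  rw [ee, ee, ← Complex.exp_nat_mul]
  congr 1
  ring

theorem norm_ee (w : ℂ) : ‖ee w‖ = Real.exp (-2 * π * w.im) := by
  rw [ee, Complex.norm_exp]
  congr 1
  have h1 : (2 * (π : ℂ) * I * w) = ((2 * π : ℝ) : ℂ) * (I * w) := by push_cast; ring
  rw [h1, Complex.re_ofReal_mul, Complex.I_mul_re]
  ring

theorem norm_ee_lt_one {w : ℂ} (hw : 0 < w.im) : ‖ee w‖ < 1 := by
  rw [norm_ee, Real.exp_lt_one_iff]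
  have := Real.pi_pos
  nlinarith

/-- `∑_{n ∈ ℤ} 1/(w+n)^2 = (2πi)^2 ∑_{d ≥ 0} d e(w)^d` for `Im w > 0`. -/
theorem tsum_inv_sq {w : ℂ} (hw : 0 < w.im) :
    ∑' n : ℤ, 1 / (w + n) ^ 2 = (2 * π * I) ^ 2 * ∑' d : ℕ, (d : ℂ) * ee w ^ d := by
  have h := EisensteinSeries.qExpansion_identity (k := 1) le_rfl ⟨w, hw⟩
  simp only [UpperHalfPlane.coe_mk, Nat.reduceAdd, Nat.factorial_one, Nat.cast_one, div_one,
    pow_one] at h
  rw [h, ee]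
  congr 1
  ring

/-- `∑_{n ∈ ℤ} 1/(w+n)^3 = -(2πi)^3/2 ∑_{d ≥ 0} d^2 e(w)^d` for `Im w > 0`. -/
theorem tsum_inv_cube {w : ℂ} (hw : 0 < w.im) :
    ∑' n : ℤ, 1 / (w + n) ^ 3 = -((2 * π * I) ^ 3 / 2) * ∑' d : ℕ, (d : ℂ) ^ 2 * ee w ^ d := by
  have h := EisensteinSeries.qExpansion_identity (k := 2) (by norm_num) ⟨w, hw⟩
  simp only [UpperHalfPlane.coe_mk, Nat.reduceAdd, Nat.factorial_two, Nat.cast_ofNat] at h
  rw [h, ee]
  congr 1
  ring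


/-- the sums `T_k(w) = ∑_{n ∈ ℤ} 1/(w+n)^k`. -/
noncomputable def T (k : ℕ) (w : ℂ) : ℂ := ∑' n : ℤ, 1 / (w + n) ^ k

theorem summable_T (k : ℕ) (hk : 2 ≤ k) (w : ℂ) : Summable fun n : ℤ => 1 / (w + n) ^ k := by
  have h := EisensteinSeries.linear_right_summable w 1 (k := (k : ℤ)) (by exact_mod_cast hk)
  refine h.congr fun n => ?_
  simp

theorem hasSum_T (k : ℕ) (hk : 2 ≤ k) (w : ℂ) : HasSum (fun n : ℤ => 1 / (w + n) ^ k) (T k w) :=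
  (summable_T k hk w).hasSum

theorem T_neg_even (k : ℕ) (hk : Even k) (w : ℂ) : T k (-w) = T k w := by
  unfold T
  rw [← (Equiv.neg ℤ).tsum_eq]
  refine tsum_congr fun n => ?_
  simp only [Equiv.neg_apply, Int.cast_neg]
  rw [← neg_add, hk.neg_pow]

theorem T_neg_odd (k : ℕ) (hk : Odd k) (w : ℂ) : T k (-w) = -T k w := by
  unfold T
  rw [← (Equiv.neg ℤ).tsum_eq, ← tsum_neg]
  refine tsum_congr fun n => ?_
  simp only [Equiv.neg_apply, Int.cast_neg]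
  rw [← neg_add, hk.neg_pow, one_div, one_div, inv_neg]

/-! ### `℘` as a double sum -/

section WP

variable (τ : ℍ) (z : ℂ)

/-- the lattice point `m τ + n`. -/
noncomputable def lat (x : ℤ × ℤ) : ℂ := (x.1 : ℂ) * (τ : ℂ) + (x.2 : ℂ)

theorem hasSum_wp_prod :
    HasSum (fun x : ℤ × ℤ => 1 / (z - lat τ x) ^ 2 - 1 / (lat τ x) ^ 2) (℘[pairOfUHP τ] z) := by
  have h := (pairOfUHP τ).hasSum_weierstrassP z
  rw [← (pairOfUHP τ).latticeEquivProd.symm.toEquiv.hasSum_iff] at h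
  refine h.congr_fun fun x => ?_
  have h1 : (((pairOfUHP τ).latticeEquivProd.symm x : (pairOfUHP τ).lattice) : ℂ) = lat τ x := by
    rw [(pairOfUHP τ).latticeEquiv_symm_apply x, lat]
    simp [pairOfUHP]
  simp only [Function.comp_apply, LinearEquiv.coe_toEquiv, h1]

theorem hasSum_dwp_prod :
    HasSum (fun x : ℤ × ℤ => -2 / (z - lat τ x) ^ 3) (℘'[pairOfUHP τ] z) := by
  have h := (pairOfUHP τ).hasSum_derivWeierstrassP z
  rw [← (pairOfUHP τ).latticeEquivProd.symm.toEquiv.hasSum_iff] at h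
  refine h.congr_fun fun x => ?_
  have h1 : (((pairOfUHP τ).latticeEquivProd.symm x : (pairOfUHP τ).lattice) : ℂ) = lat τ x := by
    rw [(pairOfUHP τ).latticeEquiv_symm_apply x, lat]
    simp [pairOfUHP]
  simp only [Function.comp_apply, LinearEquiv.coe_toEquiv, h1]

/-- the rows of `℘`. -/
noncomputable def rowP (m : ℤ) : ℂ :=
  T 2 ((m : ℂ) * τ - z) - ∑' n : ℤ, 1 / ((m : ℂ) * (τ : ℂ) + n) ^ 2

theorem hasSum_rowP (m : ℤ) :
    HasSum (fun n : ℤ => 1 / (z - lat τ (m, n)) ^ 2 - 1 / (lat τ (m, n)) ^ 2) (rowP τ z m) := by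
  unfold rowP
  refine HasSum.sub ?_ ?_
  · refine (hasSum_T 2 le_rfl ((m : ℂ) * τ - z)).congr_fun fun n => ?_
    simp only [lat]
    congr 1
    ring
  · exact (summable_T 2 le_rfl ((m : ℂ) * τ)).hasSum

/-- the rows of `℘'`. -/
noncomputable def rowD (m : ℤ) : ℂ := 2 * T 3 ((m : ℂ) * τ - z)

theorem hasSum_rowD (m : ℤ) :
    HasSum (fun n : ℤ => -2 / (z - lat τ (m, n)) ^ 3) (rowD τ z m) := by
  unfold rowD
  refine ((hasSum_T 3 (by norm_num) ((m : ℂ) * τ - z)).mul_left 2).congr_fun fun n => ?_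
  simp only [lat]
  have h1 : z - ((m : ℂ) * τ + n) = -((m : ℂ) * τ - z + n) := by ring
  rw [h1, Odd.neg_pow (by decide), neg_div_neg_eq, mul_one_div]

theorem hasSum_rows_wp : HasSum (rowP τ z) (℘[pairOfUHP τ] z) :=
  (hasSum_wp_prod τ z).prod_fiberwise fun m => hasSum_rowP τ z m

theorem hasSum_rows_dwp : HasSum (rowD τ z) (℘'[pairOfUHP τ] z) :=
  (hasSum_dwp_prod τ z).prod_fiberwise fun m => hasSum_rowD τ z m

end WP

/-! ### the rows as `q`-series -/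

/-- `G_j(w) = ∑_{d ≥ 0} d^j w^d`. -/
noncomputable def G (j : ℕ) (w : ℂ) : ℂ := ∑' d : ℕ, (d : ℂ) ^ j * w ^ d

theorem T2_eq {w : ℂ} (hw : 0 < w.im) : T 2 w = (2 * π * I) ^ 2 * G 1 (ee w) := by
  unfold T G
  rw [tsum_inv_sq hw]
  simp only [pow_one]

theorem T3_eq {w : ℂ} (hw : 0 < w.im) : T 3 w = -((2 * π * I) ^ 3 / 2) * G 2 (ee w) := by
  unfold T G
  rw [tsum_inv_cube hw]

section Rows

variable (τ : ℍ) (z : ℂ) (hz0 : 0 < z.im) (hz1 : z.im < τ.im)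

include hz0 hz1

theorem im_pos_sub (k : ℕ) (hk : 1 ≤ k) : 0 < ((k : ℂ) * (τ : ℂ) - z).im := by
  have hτ : 0 < τ.im := τ.2
  have h1 : ((k : ℂ) * (τ : ℂ) - z).im = k * τ.im - z.im := by
    simp [Complex.sub_im, Complex.mul_im]
  rw [h1]
  have : (1 : ℝ) ≤ k := by exact_mod_cast hk
  nlinarith

omit hz1 in
theorem im_pos_add (k : ℕ) : 0 < ((k : ℂ) * (τ : ℂ) + z).im := by
  have hτ : 0 < τ.im := τ.2
  have h1 : ((k : ℂ) * (τ : ℂ) + z).im = k * τ.im + z.im := by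
    simp [Complex.add_im, Complex.mul_im]
  rw [h1]
  have : (0 : ℝ) ≤ k := Nat.cast_nonneg k
  nlinarith

omit hz0 hz1 in
theorem im_pos_mul (k : ℕ) (hk : 1 ≤ k) : 0 < ((k : ℂ) * (τ : ℂ)).im := by
  have hτ : 0 < τ.im := τ.2
  have h1 : ((k : ℂ) * (τ : ℂ)).im = k * τ.im := by
    simp [Complex.mul_im]
  rw [h1]
  have : (1 : ℝ) ≤ k := by exact_mod_cast hk
  nlinarith

omit hz0 hz1 in
theorem ee_sub' (k : ℕ) : ee ((k : ℂ) * (τ : ℂ) - z) = ee τ ^ k * (ee z)⁻¹ := by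
  rw [sub_eq_add_neg, ee_add, ee_neg, ee_nat_mul]

omit hz0 hz1 in
theorem ee_add' (k : ℕ) : ee ((k : ℂ) * (τ : ℂ) + z) = ee τ ^ k * ee z := by
  rw [ee_add, ee_nat_mul]

theorem rowP_pos (k : ℕ) (hk : 1 ≤ k) :
    rowP τ z (k : ℤ) =
      (2 * π * I) ^ 2 * (G 1 (ee τ ^ k * (ee z)⁻¹) - G 1 (ee τ ^ k)) := by
  unfold rowP
  have h1 : T 2 (((k : ℤ) : ℂ) * (τ : ℂ) - z) = (2 * π * I) ^ 2 * G 1 (ee τ ^ k * (ee z)⁻¹) := by
    rw [Int.cast_natCast, T2_eq (im_pos_sub τ z hz0 hz1 k hk), ee_sub']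
  have h2 : ∑' n : ℤ, 1 / (((k : ℤ) : ℂ) * (τ : ℂ) + n) ^ 2 = (2 * π * I) ^ 2 * G 1 (ee τ ^ k) := by
    rw [Int.cast_natCast]
    have := T2_eq (im_pos_mul τ k hk)
    unfold T at this
    rw [this, ee_nat_mul]
  rw [h1, h2, mul_sub]

theorem rowP_neg (k : ℕ) (hk : 1 ≤ k) :
    rowP τ z (-(k : ℤ)) =
      (2 * π * I) ^ 2 * (G 1 (ee τ ^ k * ee z) - G 1 (ee τ ^ k)) := by
  unfold rowP
  have h1 : T 2 (((-(k : ℤ) : ℤ) : ℂ) * (τ : ℂ) - z) = (2 * π * I) ^ 2 * G 1 (ee τ ^ k * ee z) := by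
    have : ((-(k : ℤ) : ℤ) : ℂ) * (τ : ℂ) - z = -((k : ℂ) * (τ : ℂ) + z) := by
      push_cast; ring
    rw [this, T_neg_even 2 (by decide), T2_eq (im_pos_add τ z hz0 k), ee_add']
  have h2 : ∑' n : ℤ, 1 / (((-(k : ℤ) : ℤ) : ℂ) * (τ : ℂ) + n) ^ 2 =
      (2 * π * I) ^ 2 * G 1 (ee τ ^ k) := by
    have h3 : ((-(k : ℤ) : ℤ) : ℂ) * (τ : ℂ) = -((k : ℂ) * (τ : ℂ)) := by push_cast; ring
    rw [h3]
    have h4 := T_neg_even 2 (by decide) ((k : ℂ) * (τ : ℂ))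
    unfold T at h4
    rw [h4]
    have := T2_eq (im_pos_mul τ k hk)
    unfold T at this
    rw [this, ee_nat_mul]
  rw [h1, h2, mul_sub]

omit hz1 in
theorem rowP_zero :
    rowP τ z 0 = (2 * π * I) ^ 2 * G 1 (ee z) - (π : ℂ) ^ 2 / 3 := by
  unfold rowP
  have h1 : T 2 (((0 : ℤ) : ℂ) * (τ : ℂ) - z) = (2 * π * I) ^ 2 * G 1 (ee z) := by
    rw [Int.cast_zero, zero_mul, zero_sub, T_neg_even 2 (by decide), T2_eq hz0]
  have h2 : ∑' n : ℤ, 1 / (((0 : ℤ) : ℂ) * (τ : ℂ) + n) ^ 2 = (π : ℂ) ^ 2 / 3 := by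
    have h3 := two_mul_riemannZeta_eq_tsum_int_inv_pow_of_even (k := 2) le_rfl (by decide)
    rw [Nat.cast_ofNat, riemannZeta_two] at h3
    have h4 : ∑' n : ℤ, 1 / (((0 : ℤ) : ℂ) * (τ : ℂ) + n) ^ 2 = ∑' n : ℤ, ((n : ℂ) ^ 2)⁻¹ := by
      refine tsum_congr fun n => ?_
      rw [Int.cast_zero, zero_mul, zero_add, one_div]
    rw [h4, ← h3]
    ring
  rw [h1, h2]

theorem rowD_pos (k : ℕ) (hk : 1 ≤ k) :
    rowD τ z (k : ℤ) = -(2 * π * I) ^ 3 * G 2 (ee τ ^ k * (ee z)⁻¹) := by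
  unfold rowD
  rw [Int.cast_natCast, T3_eq (im_pos_sub τ z hz0 hz1 k hk), ee_sub']
  ring

theorem rowD_neg (k : ℕ) :
    rowD τ z (-(k : ℤ)) = (2 * π * I) ^ 3 * G 2 (ee τ ^ k * ee z) := by
  unfold rowD
  have : ((-(k : ℤ) : ℤ) : ℂ) * (τ : ℂ) - z = -((k : ℂ) * (τ : ℂ) + z) := by
    push_cast; ring
  rw [this, T_neg_odd 3 (by decide), T3_eq (im_pos_add τ z hz0 k), ee_add']
  ring

end Rows

/-! ### folding the sum over `m ∈ ℤ` -/

theorem hasSum_fold {f : ℤ → ℂ} {a : ℂ} (h : HasSum f a) :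
    HasSum (fun n : ℕ => f ((n + 1 : ℕ) : ℤ) + f (-((n + 1 : ℕ) : ℤ))) (a - f 0) := by
  have h1 := h.nat_add_neg
  have h2 := (hasSum_nat_add_iff' 1).2 h1
  simp only [Finset.range_one, Finset.sum_singleton, Nat.cast_zero, neg_zero] at h2
  have h3 : a + f 0 - (f 0 + f 0) = a - f 0 := by ring
  rw [h3] at h2
  exact h2

theorem hasSum_wp_fold (τ : ℍ) (z : ℂ) :
    HasSum (fun n : ℕ => rowP τ z ((n + 1 : ℕ) : ℤ) + rowP τ z (-((n + 1 : ℕ) : ℤ)))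
      (℘[pairOfUHP τ] z - rowP τ z 0) :=
  hasSum_fold (hasSum_rows_wp τ z)

theorem hasSum_dwp_fold (τ : ℍ) (z : ℂ) :
    HasSum (fun n : ℕ => rowD τ z ((n + 1 : ℕ) : ℤ) + rowD τ z (-((n + 1 : ℕ) : ℤ)))
      (℘'[pairOfUHP τ] z - rowD τ z 0) :=
  hasSum_fold (hasSum_rows_dwp τ z)

end Fermat.Agent.MZ.MOD.WPqExp4
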