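/-
Programme MZ (S15), chapter MOD-E (helper5), item (T5)(v): **bridge between the Prelude's
`WeierstrassCurve.InZeroComponentAt W A Q` and the norm-theoretic `RedType5.RedSing`**, for points with RATIONAL
coordinates.

`W : WeierstrassCurve ℤ`, `r` prime, `A` a valuation subring of `ℚ̄` over `r`, `K` any ultrametric normed field of
characteristic `0` whose norm is `r`-adic on the integers (`hK : ∀ n : ℤ, ‖(n : K)‖ < 1 ↔ (r : ℤ) ∣ n`; e.g.
`ℚ_[r]`, `ℂ_[r]`).  Since only the `r`-adic valuation of rational numbers matters, no embedding `ℚ̄ → K` adapted to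
`A` is needed:

* `mem_A_iff`, `mem_nonunits_A_iff`, `norm_le_one_iff`, `norm_lt_one_iff` : both valuations of a rational `a` are read off
  from `r ∣ a.den`, `r ∣ a.num`;  `ratCast_mem_A_iff_norm`, `ratCast_mem_nonunits_iff_norm`, `valuation_eq_one_iff_norm`;
* **`inZeroComponentAt_iff`** : `W.InZeroComponentAt A (some x₀ y₀ h) ↔ ¬ RedSing (W over K) x₀ y₀`.
-/
import Mathlib
import Fermat.Prelude.Def_EllipticCurve_ZeroComponentAt
import Fermat.Prelude.Def_FLTPrelim_Ramification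
import Fermat.Agent.S05.Inertia
import Fermat.Agent.MZ.MOD.RedType5

set_option autoImplicit false
set_option linter.unusedSectionVars false
set_option linter.style.longLine false
set_option linter.style.haveILetI false

namespace Fermat.Agent.MZ.MOD.ZeroComp5

open WeierstrassCurve Fermat.Agent.MZ.MOD.RedType5 Fermat.Agent.S05.Inertia

local notation "Qb" => AlgebraicClosure ℚ

/-! ### the `r`-adic valuation of a rational number, abstractly -/

section AbstractVal

variable {Γ : Type*} [LinearOrderedCommGroupWithZero Γ] {r : ℕ}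

/-- a valuation on `ℚ` which is `≤ 1` on `ℤ` and `< 1` exactly on `r ℤ`. -/
structure IsRadic (v : Valuation ℚ Γ) (r : ℕ) : Prop where
  le_one : ∀ n : ℤ, v n ≤ 1
  lt_one_iff : ∀ n : ℤ, v n < 1 ↔ (r : ℤ) ∣ n

variable {v : Valuation ℚ Γ}

theorem IsRadic.eq_one (hv : IsRadic v r) {n : ℤ} (hn : ¬ (r : ℤ) ∣ n) : v n = 1 :=
  le_antisymm (hv.le_one n) (not_lt.mp fun h => hn ((hv.lt_one_iff n).mp h))

theorem not_dvd_num_of_dvd_den (a : ℚ) (h : r ∣ a.den) (hr : r.Prime) : ¬ (r : ℤ) ∣ a.num := by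
  intro hnum
  have h1 : r ∣ a.num.natAbs := Int.natCast_dvd.mp hnum
  have h2 : r ∣ Nat.gcd a.num.natAbs a.den := Nat.dvd_gcd h1 h
  rw [a.reduced] at h2
  exact hr.one_lt.ne' (Nat.dvd_one.mp h2)

theorem IsRadic.le_one_iff (hv : IsRadic v r) (hr : r.Prime) (a : ℚ) : v a ≤ 1 ↔ ¬ r ∣ a.den := by
  have hden0 : (a.den : ℚ) ≠ 0 := Nat.cast_ne_zero.mpr a.den_ne_zero
  have ha : a = (a.num : ℚ) / (a.den : ℚ) := (Rat.num_div_den a).symm
  have hvden : v (a.den : ℚ) = v ((a.den : ℤ) : ℚ) := by norm_cast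
  constructor
  · intro h hdvd
    have hnum := not_dvd_num_of_dvd_den a hdvd hr
    have h1 : v (a.num : ℚ) = 1 := hv.eq_one hnum
    have h2 : v (a.den : ℚ) < 1 := by
      rw [hvden]
      exact (hv.lt_one_iff _).mpr (Int.natCast_dvd_natCast.mpr hdvd)
    rw [ha, map_div₀, h1] at h
    have h3 : v (a.den : ℚ) ≠ 0 := (Valuation.ne_zero_iff v).mpr hden0
    have h4 : 1 ≤ v (a.den : ℚ) := by
      have := (div_le_iff₀ (zero_lt_iff.mpr h3)).mp h
      simpa using this
    exact absurd h2 (not_lt.mpr h4)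
  · intro hdvd
    have h2 : v (a.den : ℚ) = 1 := by
      rw [hvden]
      exact hv.eq_one (fun h => hdvd (Int.natCast_dvd_natCast.mp h))
    rw [ha, map_div₀, h2, div_one]
    exact hv.le_one _

theorem IsRadic.lt_one_iff' (hv : IsRadic v r) (hr : r.Prime) (a : ℚ) :
    v a < 1 ↔ ¬ r ∣ a.den ∧ (r : ℤ) ∣ a.num := by
  have ha : a = (a.num : ℚ) / (a.den : ℚ) := (Rat.num_div_den a).symm
  have hvden : v (a.den : ℚ) = v ((a.den : ℤ) : ℚ) := by norm_cast
  constructor
  · intro h
    have hden : ¬ r ∣ a.den := (hv.le_one_iff hr a).mp h.le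
    refine ⟨hden, ?_⟩
    have h2 : v (a.den : ℚ) = 1 := by
      rw [hvden]
      exact hv.eq_one (fun h => hden (Int.natCast_dvd_natCast.mp h))
    rw [ha, map_div₀, h2, div_one] at h
    exact (hv.lt_one_iff _).mp h
  · rintro ⟨hden, hnum⟩
    have h2 : v (a.den : ℚ) = 1 := by
      rw [hvden]
      exact hv.eq_one (fun h => hden (Int.natCast_dvd_natCast.mp h))
    rw [ha, map_div₀, h2, div_one]
    exact (hv.lt_one_iff _).mpr hnum

end AbstractVal

/-! ### the two instances -/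

section Instances

variable {r : ℕ} (hr : r.Prime)

/-- the valuation of `A` restricted to `ℚ`. -/
noncomputable def valA (A : ValuationSubring Qb) : Valuation ℚ A.ValueGroup :=
  A.valuation.comap (algebraMap ℚ Qb)

theorem valA_apply (A : ValuationSubring Qb) (a : ℚ) : valA A a = A.valuation (a : Qb) := by
  rw [valA, Valuation.comap_apply, eq_ratCast]

include hr in
theorem isRadic_valA {A : ValuationSubring Qb} (hA : A.LiesOverPrime r) : IsRadic (valA A) r where
  le_one n := by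
    rw [valA_apply, Rat.cast_intCast]
    exact valuation_intCast_le_one n
  lt_one_iff n := by
    rw [valA_apply, Rat.cast_intCast]
    exact valuation_intCast_lt_one_iff hr hA n

variable {K : Type*} [NormedField K] [IsUltrametricDist K] [CharZero K]

/-- the norm of `K` restricted to `ℚ`, as a valuation. -/
noncomputable def valK (K : Type*) [NormedField K] [IsUltrametricDist K] [CharZero K] :
    Valuation ℚ NNReal :=
  (NormedField.valuation (K := K)).comap (Rat.castHom K)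

theorem valK_apply (a : ℚ) : ((valK K a : NNReal) : ℝ) = ‖(a : K)‖ := by
  rw [valK, Valuation.comap_apply, Rat.coe_castHom]
  rfl

theorem isRadic_valK (hK : ∀ n : ℤ, ‖(n : K)‖ < 1 ↔ (r : ℤ) ∣ n) : IsRadic (valK K) r where
  le_one n := by
    rw [← NNReal.coe_le_coe, valK_apply, Rat.cast_intCast, NNReal.coe_one]
    exact IsUltrametricDist.norm_intCast_le_one K n
  lt_one_iff n := by
    rw [← NNReal.coe_lt_coe, valK_apply, Rat.cast_intCast, NNReal.coe_one]
    exact hK n

include hr in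
/-- **a rational number is in `A` iff its image in `K` is in the unit ball.** -/
theorem ratCast_mem_A_iff_norm {A : ValuationSubring Qb} (hA : A.LiesOverPrime r)
    (hK : ∀ n : ℤ, ‖(n : K)‖ < 1 ↔ (r : ℤ) ∣ n) (a : ℚ) : (a : Qb) ∈ A ↔ (a : K) ∈ O K := by
  rw [← ValuationSubring.valuation_le_one_iff, ← valA_apply, (isRadic_valA hr hA).le_one_iff hr,
    mem_O, ← valK_apply, ← NNReal.coe_one, NNReal.coe_le_coe, (isRadic_valK hK).le_one_iff hr]

include hr in
/-- **a rational number is in `𝔪_A` iff its image in `K` is in the open unit ball.** -/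
theorem ratCast_mem_nonunits_iff_norm {A : ValuationSubring Qb} (hA : A.LiesOverPrime r)
    (hK : ∀ n : ℤ, ‖(n : K)‖ < 1 ↔ (r : ℤ) ∣ n) (a : ℚ) : (a : Qb) ∈ A.nonunits ↔ M (a : K) := by
  rw [ValuationSubring.mem_nonunits_iff, ← valA_apply, (isRadic_valA hr hA).lt_one_iff' hr,
    M, ← valK_apply, ← NNReal.coe_one, NNReal.coe_lt_coe, (isRadic_valK hK).lt_one_iff' hr]

include hr in
/-- a rational number is a unit of `A` iff its image in `K` has norm one. -/
theorem valuation_eq_one_iff_norm {A : ValuationSubring Qb} (hA : A.LiesOverPrime r)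
    (hK : ∀ n : ℤ, ‖(n : K)‖ < 1 ↔ (r : ℤ) ∣ n) (a : ℚ) :
    A.valuation (a : Qb) = 1 ↔ ‖(a : K)‖ = 1 := by
  have h1 := ratCast_mem_A_iff_norm hr hA hK a
  have h2 := ratCast_mem_nonunits_iff_norm hr hA hK a
  rw [← ValuationSubring.valuation_le_one_iff] at h1
  rw [ValuationSubring.mem_nonunits_iff] at h2
  rw [mem_O] at h1
  rw [M] at h2
  constructor
  · intro h
    exact le_antisymm (h1.mp h.le) (not_lt.mp fun hlt => absurd (h2.mpr hlt) (by rw [h]; exact lt_irrefl _))
  · intro h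
    exact le_antisymm (h1.mpr h.le) (not_lt.mp fun hlt => absurd (h2.mp hlt) (by rw [h]; exact lt_irrefl _))

end Instances

/-! ### the bridge -/

section Bridge

variable {K : Type*} [NormedField K] [IsUltrametricDist K]

/-- on an integral Weierstrass curve, `y` is integral as soon as `x` is. -/
theorem y_mem_O_of_equation {W : WeierstrassCurve K} (hW : IsIntegralW W) {x y : K} (hx : x ∈ O K)
    (hE : W.toAffine.Equation x y) : y ∈ O K := by
  by_contra hy
  rw [not_mem_O_iff] at hy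
  have hy0 : y ≠ 0 := fun h => by rw [h, norm_zero] at hy; linarith
  have ht : M y⁻¹ := M_inv hy
  rw [WeierstrassCurve.Affine.equation_iff] at hE
  obtain ⟨h1, h2, h3, h4, h6⟩ := hW
  have e1 : (1 : K) = y⁻¹ ^ 2 * (x ^ 3 + W.a₂ * x ^ 2 + W.a₄ * x + W.a₆) -
      y⁻¹ * (W.a₁ * x + W.a₃) := by
    rw [← hE]
    field_simp
    ring
  have m1 : M (1 : K) := by
    rw [e1]
    refine M.sub ?_ ?_
    · exact (ht.pow (by norm_num)).mul_right (add_mem (add_mem (add_mem (pow_mem hx 3)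
        (mul_mem h2 (pow_mem hx 2))) (mul_mem h4 hx)) h6)
    · exact ht.mul_right (add_mem (mul_mem h1 hx) h3)
  exact not_M_one m1

variable [CharZero K] {r : ℕ} (hr : r.Prime)

theorem isIntegralW_map_int (W : WeierstrassCurve ℤ) : IsIntegralW (W.map (Int.castRingHom K)) := by
  refine ⟨?_, ?_, ?_, ?_, ?_⟩ <;>
  · simp only [WeierstrassCurve.map_a₁, WeierstrassCurve.map_a₂, WeierstrassCurve.map_a₃,
      WeierstrassCurve.map_a₄, WeierstrassCurve.map_a₆, eq_intCast]
    exact intCast_mem _ _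

include hr in
/-- **the bridge**: for a point with rational coordinates, lying in the zero component at `A` means NOT reducing to
the singular point (`r`-adically). -/
theorem inZeroComponentAt_iff (hK : ∀ n : ℤ, ‖(n : K)‖ < 1 ↔ (r : ℤ) ∣ n) (W : WeierstrassCurve ℤ)
    {A : ValuationSubring Qb} (hA : A.LiesOverPrime r) (x₀ y₀ : ℚ)
    (h : ((W.map (Int.castRingHom ℚ))⁄Qb).toAffine.Nonsingular (x₀ : Qb) (y₀ : Qb)) :
    W.InZeroComponentAt A (.some _ _ h) ↔
      ¬ RedSing (W.map (Int.castRingHom K)) (x₀ : K) (y₀ : K) := by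
  -- the equation over `ℚ`
  have hEq : y₀ ^ 2 + (W.a₁ : ℚ) * x₀ * y₀ + (W.a₃ : ℚ) * y₀ =
      x₀ ^ 3 + (W.a₂ : ℚ) * x₀ ^ 2 + (W.a₄ : ℚ) * x₀ + (W.a₆ : ℚ) := by
    have h1 := h.1
    rw [WeierstrassCurve.Affine.equation_iff] at h1
    simp only [WeierstrassCurve.baseChange, WeierstrassCurve.map_a₁, WeierstrassCurve.map_a₂,
      WeierstrassCurve.map_a₃, WeierstrassCurve.map_a₄, WeierstrassCurve.map_a₆, eq_intCast,
      eq_ratCast, Rat.cast_intCast] at h1
    exact_mod_cast h1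
  -- the equation over `K`
  have hEK : (W.map (Int.castRingHom K)).toAffine.Equation (x₀ : K) (y₀ : K) := by
    rw [WeierstrassCurve.Affine.equation_iff]
    simp only [WeierstrassCurve.map_a₁, WeierstrassCurve.map_a₂, WeierstrassCurve.map_a₃,
      WeierstrassCurve.map_a₄, WeierstrassCurve.map_a₆, eq_intCast]
    exact_mod_cast congrArg (fun t : ℚ => (t : K)) hEq
  -- the partial derivatives, as rational numbers
  set wX : ℚ := (W.a₁ : ℚ) * y₀ - (3 * x₀ ^ 2 + 2 * (W.a₂ : ℚ) * x₀ + (W.a₄ : ℚ)) with hwX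
  set wY : ℚ := 2 * y₀ + (W.a₁ : ℚ) * x₀ + (W.a₃ : ℚ) with hwY
  have hWX : WX (W.map (Int.castRingHom K)) (x₀ : K) (y₀ : K) = (wX : K) := by
    rw [WX, hwX]
    simp only [WeierstrassCurve.map_a₁, WeierstrassCurve.map_a₂, WeierstrassCurve.map_a₄, eq_intCast]
    push_cast
    ring
  have hWY : WY (W.map (Int.castRingHom K)) (x₀ : K) (y₀ : K) = (wY : K) := by
    rw [WY, hwY]
    simp only [WeierstrassCurve.map_a₁, WeierstrassCurve.map_a₃, eq_intCast]
    push_cast
    ring
  -- the residue computations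
  have key : ∀ (hx : (x₀ : Qb) ∈ A) (hy : (y₀ : Qb) ∈ A),
      (W.map (Int.castRingHom (IsLocalRing.ResidueField A))).toAffine.Nonsingular
        (IsLocalRing.residue A ⟨x₀, hx⟩) (IsLocalRing.residue A ⟨y₀, hy⟩) ↔
      ¬ (M (wX : K) ∧ M (wY : K)) := by
    intro hx hy
    set ρ := IsLocalRing.residue (↥A) with hρ
    have hwXA : (wX : Qb) ∈ A := by
      rw [hwX]
      push_cast
      exact sub_mem (mul_mem (intCast_mem _ _) hy) (add_mem (add_mem (mul_mem (ofNat_mem _ 3)
        (pow_mem hx 2)) (mul_mem (mul_mem (ofNat_mem _ 2) (intCast_mem _ _)) hx)) (intCast_mem _ _))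
    have hwYA : (wY : Qb) ∈ A := by
      rw [hwY]
      push_cast
      exact add_mem (add_mem (mul_mem (ofNat_mem _ 2) hy) (mul_mem (intCast_mem _ _) hx))
        (intCast_mem _ _)
    have eX : (W.map (Int.castRingHom (IsLocalRing.ResidueField A))).a₁ * ρ ⟨y₀, hy⟩ -
        (3 * ρ ⟨x₀, hx⟩ ^ 2 + 2 * (W.map (Int.castRingHom (IsLocalRing.ResidueField A))).a₂ *
          ρ ⟨x₀, hx⟩ + (W.map (Int.castRingHom (IsLocalRing.ResidueField A))).a₄) =
        ρ ⟨wX, hwXA⟩ := by
      have : (⟨wX, hwXA⟩ : A) = (W.a₁ : A) * ⟨y₀, hy⟩ -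
          (3 * (⟨x₀, hx⟩ : A) ^ 2 + 2 * (W.a₂ : A) * ⟨x₀, hx⟩ + (W.a₄ : A)) := by
        apply Subtype.ext
        change (wX : Qb) = _
        rw [hwX]
        push_cast
        rfl
      rw [this]
      simp only [WeierstrassCurve.map_a₁, WeierstrassCurve.map_a₂, WeierstrassCurve.map_a₄,
        eq_intCast, map_sub, map_add, map_mul, map_pow, map_intCast, map_ofNat]
    have eY : 2 * ρ ⟨y₀, hy⟩ + (W.map (Int.castRingHom (IsLocalRing.ResidueField A))).a₁ *
        ρ ⟨x₀, hx⟩ + (W.map (Int.castRingHom (IsLocalRing.ResidueField A))).a₃ =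
        ρ ⟨wY, hwYA⟩ := by
      have : (⟨wY, hwYA⟩ : A) = 2 * (⟨y₀, hy⟩ : A) + (W.a₁ : A) * ⟨x₀, hx⟩ + (W.a₃ : A) := by
        apply Subtype.ext
        change (wY : Qb) = _
        rw [hwY]
        push_cast
        rfl
      rw [this]
      simp only [WeierstrassCurve.map_a₁, WeierstrassCurve.map_a₃,
        eq_intCast, map_add, map_mul, map_intCast, map_ofNat]
    have hzero : ∀ (a : ℚ) (ha : (a : Qb) ∈ A), ρ ⟨a, ha⟩ = 0 ↔ M (a : K) := by
      intro a ha
      rw [hρ, IsLocalRing.residue_eq_zero_iff, ← ValuationSubring.coe_mem_nonunits_iff]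
      exact ratCast_mem_nonunits_iff_norm hr hA hK a
    -- the reduced equation
    have hEred : (W.map (Int.castRingHom (IsLocalRing.ResidueField A))).toAffine.Equation
        (ρ ⟨x₀, hx⟩) (ρ ⟨y₀, hy⟩) := by
      rw [WeierstrassCurve.Affine.equation_iff]
      have hA' : (⟨y₀, hy⟩ : A) ^ 2 + (W.a₁ : A) * ⟨x₀, hx⟩ * ⟨y₀, hy⟩ + (W.a₃ : A) * ⟨y₀, hy⟩ =
          (⟨x₀, hx⟩ : A) ^ 3 + (W.a₂ : A) * (⟨x₀, hx⟩ : A) ^ 2 + (W.a₄ : A) * ⟨x₀, hx⟩ + (W.a₆ : A) := by
        apply Subtype.ext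
        have := congrArg (fun t : ℚ => (t : Qb)) hEq
        push_cast at this ⊢
        exact this
      have := congrArg ρ hA'
      simpa only [WeierstrassCurve.map_a₁, WeierstrassCurve.map_a₂, WeierstrassCurve.map_a₃,
        WeierstrassCurve.map_a₄, WeierstrassCurve.map_a₆,
        eq_intCast, map_add, map_mul, map_pow, map_intCast] using this
    rw [WeierstrassCurve.Affine.nonsingular_iff', eX, eY]
    constructor
    · rintro ⟨-, hne⟩ ⟨hmX, hmY⟩
      rcases hne with hne | hne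
      · exact hne ((hzero wX hwXA).mpr hmX)
      · exact hne ((hzero wY hwYA).mpr hmY)
    · intro hnot
      refine ⟨hEred, ?_⟩
      by_contra hcon
      push Not at hcon
      exact hnot ⟨(hzero wX hwXA).mp hcon.1, (hzero wY hwYA).mp hcon.2⟩
  -- assemble
  unfold WeierstrassCurve.InZeroComponentAt RedSing
  rw [hWX, hWY]
  constructor
  · rintro (h0 | ⟨x, y, h', heq, hcase⟩)
    · exact absurd h0 (by simp)
    · injection heq with h1 h2
      subst h1 h2
      rintro ⟨hxO, hyO, hmX, hmY⟩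
      rcases hcase with hxA | ⟨hx, hy, hns⟩
      · exact hxA ((ratCast_mem_A_iff_norm hr hA hK x₀).mpr hxO)
      · exact ((key hx hy).mp hns) ⟨hmX, hmY⟩
  · intro hnot
    refine Or.inr ⟨_, _, h, rfl, ?_⟩
    by_cases hx : (x₀ : Qb) ∈ A
    · right
      have hxO : (x₀ : K) ∈ O K := (ratCast_mem_A_iff_norm hr hA hK x₀).mp hx
      have hyO : (y₀ : K) ∈ O K := y_mem_O_of_equation (isIntegralW_map_int W) hxO hEK
      have hy : (y₀ : Qb) ∈ A := (ratCast_mem_A_iff_norm hr hA hK y₀).mpr hyO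
      refine ⟨hx, hy, (key hx hy).mpr fun hm => hnot ⟨hxO, hyO, hm.1, hm.2⟩⟩
    · exact Or.inl hx

end Bridge

/-! ### the instance `K = ℂ_[r]` -/

section PadicComplexInst

variable (r : ℕ) [hr : Fact r.Prime]

theorem intCast_padicComplex (n : ℤ) : ((n : ℚ_[r]) : ℂ_[r]) = (n : ℂ_[r]) := by
  have : ((n : ℚ_[r]) : ℂ_[r]) = algebraMap ℚ_[r] ℂ_[r] (n : ℚ_[r]) := rfl
  rw [this, map_intCast]

/-- the norm of `ℂ_[r]` is `r`-adic on the integers. -/
theorem norm_intCast_padicComplex_lt_one_iff (n : ℤ) : ‖(n : ℂ_[r])‖ < 1 ↔ (r : ℤ) ∣ n := by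
  rw [← intCast_padicComplex, PadicComplex.norm_extends']
  exact Padic.norm_intCast_lt_one_iff

/-- **the bridge for `K = ℂ_[r]`.** -/
theorem inZeroComponentAt_iff_padicComplex (W : WeierstrassCurve ℤ) {A : ValuationSubring Qb}
    (hA : A.LiesOverPrime r) (x₀ y₀ : ℚ)
    (h : ((W.map (Int.castRingHom ℚ))⁄Qb).toAffine.Nonsingular (x₀ : Qb) (y₀ : Qb)) :
    W.InZeroComponentAt A (.some _ _ h) ↔
      ¬ RedSing (W.map (Int.castRingHom ℂ_[r])) (x₀ : ℂ_[r]) (y₀ : ℂ_[r]) :=
  inZeroComponentAt_iff hr.out (norm_intCast_padicComplex_lt_one_iff r) W hA x₀ y₀ h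

end PadicComplexInst

end Fermat.Agent.MZ.MOD.ZeroComp5
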